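import Fermat.Agent.DS.AssemblyBound
import Fermat.Prelude.Def_Deformations_MatrixRepresentation

/-!
Area DS, parcel DS10: the complex representation.
-/

set_option autoImplicit false
set_option linter.style.haveILetI false

noncomputable section

open Filter Topology Polynomial Matrix
open FLTAgent.Chebotarev (QBar GalQBar frobRes frobAt placeAt)
open IsLocalRing (ResidueField residue)

namespace FLTAgent.DS

variable {N : ℕ} [NeZero N] (D : EigenInput N)

/-- a bound for the orders gives a common exponent -/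
theorem pow_factorial_eq_one {G : Type*} [Group G] [Finite G] {B : ℕ} (h : Nat.card G ≤ B) (g : G) :
    g ^ B.factorial = 1 := by
  obtain ⟨k, hk⟩ := (orderOf_dvd_natCard g).trans (Nat.dvd_factorial Nat.card_pos h)
  rw [hk, pow_mul, pow_orderOf_eq_one, one_pow]

theorem mat_range_pow {k : Type*} [Field k] (ρ : GalQBar →* GL (Fin 2) k) [Finite ρ.range] {B : ℕ}
    (h : Nat.card ρ.range ≤ B) (σ : GalQBar) : mat ρ σ ^ B.factorial = 1 := by
  have := congrArg (fun x : ρ.range => ((x : GL (Fin 2) k) : Matrix (Fin 2) (Fin 2) k))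
    (pow_factorial_eq_one h (ρ.rangeRestrict σ))
  simpa [mat] using this

/-- the coefficients are sums of two roots of unity of bounded order -/
theorem exists_pairs (hD : DensityThm) (hres : ResidualInput D) :
    ∃ m : ℕ, 0 < m ∧ (∀ p : ℕ, p.Prime → ¬ p ∣ N → (D.a p, D.e p) ∈ pairsOf m) ∧
      ∃ ℓ₁ : ℕ, ∀ ℓ : ℕ, ℓ.Prime → ℓ₁ < ℓ → ∀ A : ValuationSubring QBar, A.LiesOverPrime ℓ →
        ∃ ρ : GalQBar →* GL (Fin 2) (ResidueField A),
          GaloisFactorsThroughFiniteLevel ρ ∧ 2 * Nat.card ρ.range < ℓ ∧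
          (∀ σ, mat ρ σ ^ m = 1) ∧ (∀ x : ρ.range, x ^ m = 1) ∧
          ∀ p : ℕ, p.Prime → ¬ p ∣ N → p ≠ ℓ → ∀ B : ValuationSubring QBar, B.LiesOverPrime p →
            (∀ σ ∈ B.inertiaSubgroupIn ℚ, ρ σ = 1) ∧
            ∀ σ : GalQBar, B.IsFrobeniusAt σ p →
              (mat ρ σ).trace = redQ A (D.a p) ∧ (mat ρ σ).det = redQ A (D.e p) := by
  classical
  obtain ⟨ℓ₁, B, -, hB⟩ := exists_bound D hD hres
  refine ⟨B.factorial, B.factorial_pos, fun p hp hpN => ?_, ℓ₁, fun ℓ hℓ hlt A hA => ?_⟩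
  · have hex : ∀ ℓ : {ℓ : ℕ // ℓ.Prime ∧ max ℓ₁ p < ℓ}, ∃ z ∈ pairsOf B.factorial,
        ∃ A : ValuationSubring QBar, A.LiesOverPrime ℓ.1 ∧
          redQ A (D.a p - z.1) = 0 ∧ redQ A (D.e p - z.2) = 0 := by
      rintro ⟨ℓ, hℓ, hlt⟩
      obtain ⟨A, -, hA, -⟩ := FLTAgent.Alg.exists_place_frobenius ℓ hℓ
      obtain ⟨ρ, hfin, -, hcard, hρ⟩ :=
        hB ℓ hℓ ((le_max_left _ _).trans_lt hlt) A hA
      haveI := finite_range ρ hfin
      obtain ⟨z, hz, ht, hd⟩ := exists_pair_res A B.factorial_pos _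
        (mat_range_pow ρ hcard (frobAt ⟨p, hp⟩))
      obtain ⟨h1, h2⟩ := (hρ p hp hpN ((le_max_right _ _).trans_lt hlt).ne (placeAt ⟨p, hp⟩)
        (FLTAgent.Chebotarev.placeAt_liesOver _)).2 _
        (FLTAgent.Chebotarev.isFrobeniusAt_frobAt ⟨p, hp⟩)
      refine ⟨z, hz, A, hA, ?_, ?_⟩
      · rw [redQ, map_sub]
        exact sub_eq_zero.2 (h1.symm.trans ht)
      · rw [redQ, map_sub]
        exact sub_eq_zero.2 (h2.symm.trans hd)
    choose z hz A hA h1 h2 using hex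
    haveI : Infinite {ℓ : ℕ // ℓ.Prime ∧ max ℓ₁ p < ℓ} := by
      refine Set.infinite_coe_iff.2 (Set.infinite_of_forall_exists_gt fun n => ?_)
      obtain ⟨ℓ, hle, hℓ⟩ := Nat.exists_infinite_primes (max n (max ℓ₁ p) + 1)
      exact ⟨ℓ, ⟨hℓ, by omega⟩, by omega⟩
    obtain ⟨⟨z₀, hz₀⟩, hinf⟩ := Finite.exists_infinite_fiber
      (fun ℓ => (⟨z ℓ, hz ℓ⟩ : pairsOf B.factorial))
    haveI := hinf
    have key : ∀ x : integralClosure ℤ QBar,
        (∀ ℓ, z ℓ = z₀ → redQ (A ℓ) x = 0) → x = 0 := by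
      intro x hx
      by_contra hx0
      refine (Set.infinite_coe_iff.1 hinf) ?_
      refine Set.Finite.of_finite_image (f := fun ℓ => ℓ.1)
        ((finite_primes_redQ_eq_zero hx0).subset ?_) Subtype.val_injective.injOn
      rintro _ ⟨ℓ, hℓ, rfl⟩
      exact ⟨ℓ.2.1, A ℓ, hA ℓ, hx ℓ (congrArg Subtype.val hℓ)⟩
    have e1 : D.a p - z₀.1 = 0 := key _ fun ℓ h => h ▸ h1 ℓ
    have e2 : D.e p - z₀.2 = 0 := key _ fun ℓ h => h ▸ h2 ℓ
    rw [sub_eq_zero] at e1 e2
    rw [e1, e2]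
    exact hz₀
  · obtain ⟨ρ, hfin, h2, hcard, hρ⟩ := hB ℓ hℓ hlt A hA
    haveI := finite_range ρ hfin
    exact ⟨ρ, hfin, h2, mat_range_pow ρ hcard, pow_factorial_eq_one hcard, hρ⟩

theorem mat_map {F F' : Type*} [CommRing F] [Field F'] {G : Type*} [Group G] (f : F →+* F')
    (σ : G →* GL (Fin 2) F) (g : G) :
    mat ((Matrix.GeneralLinearGroup.map f).comp σ) g =
      (σ g : Matrix (Fin 2) (Fin 2) F).map f := rfl

/-- from one large prime: a complex representation, right away from that prime -/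
theorem exists_lift_rep {m : ℕ} (hm : 0 < m)
    (hp : ∀ p : ℕ, p.Prime → ¬ p ∣ N → (D.a p, D.e p) ∈ pairsOf m) {ℓ : ℕ} (hℓ : ℓ.Prime)
    (A : ValuationSubring QBar) (hA : A.LiesOverPrime ℓ)
    (hinj : ∀ z ∈ pairsOf m, ∀ w ∈ pairsOf m,
      (redQ A z.1 = redQ A w.1 → z.1 = w.1) ∧ (redQ A z.2 = redQ A w.2 → z.2 = w.2))
    (ρ : GalQBar →* GL (Fin 2) (ResidueField A)) (hfin : GaloisFactorsThroughFiniteLevel ρ)
    (hcard : 2 * Nat.card ρ.range < ℓ) (hρm : ∀ x : ρ.range, x ^ m = 1)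
    (hρ : ∀ p : ℕ, p.Prime → ¬ p ∣ N → p ≠ ℓ → ∀ B : ValuationSubring QBar, B.LiesOverPrime p →
      (∀ σ ∈ B.inertiaSubgroupIn ℚ, ρ σ = 1) ∧
      ∀ σ : GalQBar, B.IsFrobeniusAt σ p →
        (mat ρ σ).trace = redQ A (D.a p) ∧ (mat ρ σ).det = redQ A (D.e p)) :
    ∃ τ : GalQBar →* GL (Fin 2) ℂ, GaloisFactorsThroughFiniteLevel τ ∧
      (∀ σ, mat τ σ ^ m = 1) ∧
      ∀ p : ℕ, p.Prime → ¬ p ∣ N → p ≠ ℓ → ∀ B : ValuationSubring QBar, B.LiesOverPrime p →
        (∀ σ ∈ B.inertiaSubgroupIn ℚ, τ σ = 1) ∧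
        ∀ σ : GalQBar, B.IsFrobeniusAt σ p →
          (mat τ σ).trace = Genus.embC (D.a p : QBar) ∧
            (mat τ σ).det = Genus.embC (D.e p : QBar) := by
  classical
  haveI := FLTAgent.Chebotarev.charP_residue hℓ hA
  haveI := finite_range ρ hfin
  haveI := Fintype.ofFinite ρ.range
  have hsplit : ∀ f : A[X], f.Monic → ∃ s : Multiset A, f = (s.map fun a => X - C a).prod := by
    intro f hf
    have hs : (f.map A.subtype).Splits := IsAlgClosed.splits _
    have hint : ∀ r ∈ (f.map A.subtype).roots, r ∈ A := by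
      intro r hr
      rw [mem_roots (hf.map _).ne_zero, IsRoot.def, eval_map] at hr
      obtain ⟨y, hy⟩ := IsIntegrallyClosed.algebraMap_eq_of_integral (R := A) (K := QBar) (x := r)
        ⟨f, hf, hr⟩
      exact hy ▸ y.2
    refine ⟨(f.map A.subtype).roots.pmap (fun r hr => ⟨r, hr⟩) hint,
      Polynomial.map_injective A.subtype A.subtype_injective ?_⟩
    rw [Polynomial.map_multiset_prod, Multiset.map_map, Multiset.map_pmap]
    refine (hs.eq_prod_roots_of_monic (hf.map _)).trans ?_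
    congr 1
    simp [Multiset.pmap_eq_map]
  obtain ⟨lft, hlft⟩ := exists_lift (residue A) IsLocalRing.residue_surjective hsplit hℓ
    (by rwa [← Nat.card_eq_fintype_card]) ρ.range.subtype
  let g : A →+* ℂ := Genus.embC.comp A.subtype
  refine ⟨((Matrix.GeneralLinearGroup.map g).comp lft).comp ρ.rangeRestrict, ?_, fun σ => ?_,
    fun p hpp hpN hpℓ B hB => ⟨fun σ hσ => ?_, fun σ hσ => ?_⟩⟩
  · obtain ⟨L, hL, h⟩ := hfin
    refine ⟨L, hL, fun σ hσ => ?_⟩
    rw [MonoidHom.comp_apply, show ρ.rangeRestrict σ = 1 from Subtype.ext (h σ hσ), map_one]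
  · rw [← mat_pow, mat, MonoidHom.comp_apply, map_pow, hρm, map_one]
    rfl
  · rw [MonoidHom.comp_apply,
      show ρ.rangeRestrict σ = 1 from Subtype.ext ((hρ p hpp hpN hpℓ B hB).1 σ hσ), map_one]
  · set x := ρ.rangeRestrict σ
    have hpow : ((lft x : Matrix (Fin 2) (Fin 2) A).map A.subtype) ^ m = 1 := by
      rw [← RingHom.mapMatrix_apply, ← map_pow, ← Units.val_pow_eq_pow_val, ← map_pow, hρm,
        map_one, Units.val_one, map_one]
    obtain ⟨z, hz, ht, hd⟩ := exists_pair_exact hm _ hpow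
    have ht' : A.subtype (Matrix.trace ((lft x : GL (Fin 2) A) : Matrix (Fin 2) (Fin 2) A)) = (z.1 : QBar) := by
      rw [← ht]; exact AddMonoidHom.map_trace A.subtype.toAddMonoidHom ((lft x : GL (Fin 2) A) : Matrix (Fin 2) (Fin 2) A)
    have hd' : A.subtype (lft x : Matrix (Fin 2) (Fin 2) A).det = (z.2 : QBar) := by
      rw [← hd]; exact RingHom.map_det _ _
    obtain ⟨e1, e2⟩ := hlft x
    obtain ⟨f1, f2⟩ := (hρ p hpp hpN hpℓ B hB).2 σ hσ
    obtain ⟨i1, i2⟩ := hinj z hz _ (hp p hpp hpN)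
    have g1 : z.1 = D.a p := i1 (Eq.trans (congrArg (residue A) (Subtype.ext ht'.symm))
      (e1.trans f1))
    have g2 : z.2 = D.e p := i2 (Eq.trans (congrArg (residue A) (Subtype.ext hd'.symm))
      (e2.trans f2))
    have hmat : mat (((Matrix.GeneralLinearGroup.map g).comp lft).comp ρ.rangeRestrict) σ =
        g.mapMatrix (lft x : Matrix (Fin 2) (Fin 2) A) := rfl
    rw [hmat]
    refine ⟨?_, ?_⟩
    · rw [← g1, ← ht']
      exact (AddMonoidHom.map_trace g.toAddMonoidHom _).symm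
    · rw [← g2, ← hd']
      exact (RingHom.map_det g _).symm

/-- trace and determinant of powers are determined by trace and determinant -/
theorem trace_pow_congr {F : Type*} [CommRing F] {M M' : Matrix (Fin 2) (Fin 2) F}
    (ht : M.trace = M'.trace) (hd : M.det = M'.det) (n : ℕ) :
    (M ^ n).trace = (M' ^ n).trace ∧ (M ^ n).det = (M' ^ n).det := by
  refine ⟨?_, by rw [Matrix.det_pow, Matrix.det_pow, hd]⟩
  induction n using Nat.strong_induction_on with
  | _ n IH =>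
  have hrec : ∀ (A : Matrix (Fin 2) (Fin 2) F) (j : ℕ),
      (A ^ (j + 2)).trace = A.trace * (A ^ (j + 1)).trace - A.det * (A ^ j).trace := by
    intro A j
    have hCH : A * A = A.trace • A - A.det • (1 : Matrix (Fin 2) (Fin 2) F) := by
      ext a b
      fin_cases a <;> fin_cases b <;>
        simp [Matrix.mul_apply, Fin.sum_univ_two, Matrix.trace_fin_two, Matrix.det_fin_two] <;> ring
    rw [pow_add, pow_two, hCH, mul_sub, mul_smul_comm, mul_smul_comm, ← pow_succ, mul_one,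
      Matrix.trace_sub, Matrix.trace_smul, Matrix.trace_smul, smul_eq_mul, smul_eq_mul]
  match n with
  | 0 => simp
  | 1 => simpa using ht
  | j + 2 => rw [hrec, hrec, ht, hd, IH (j + 1) (by omega), IH j (by omega)]

/-- an element of finite order with trace `2` and determinant `1` is trivial -/
theorem eq_one_of_trace_two {M : Matrix (Fin 2) (Fin 2) ℂ} {m : ℕ} (hm : 0 < m) (h : M ^ m = 1)
    (ht : M.trace = 2) (hd : M.det = 1) : M = 1 := by
  rw [Matrix.trace_fin_two] at ht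
  rw [Matrix.det_fin_two] at hd
  have hX : (M - 1) * (M - 1) = 0 := by
    ext a b
    fin_cases a <;> fin_cases b <;> simp [Matrix.mul_apply, Fin.sum_univ_two]
    · linear_combination (M 0 0) * ht - hd
    · linear_combination (M 0 1) * ht
    · linear_combination (M 1 0) * ht
    · linear_combination (M 1 1) * ht - hd
  have hpow : ∀ n : ℕ, M ^ n = 1 + (n : ℂ) • (M - 1) := by
    intro n
    induction n with
    | zero => simp
    | succ n ih =>
      have hM : M = 1 + (M - 1) := by abel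
      rw [pow_succ, ih]
      nth_rewrite 2 [hM]
      rw [mul_add, mul_one, add_mul, one_mul, smul_mul_assoc, hX, smul_zero, add_zero, Nat.cast_succ,
        add_smul, one_smul]
      abel
  have h0 := hpow m
  rw [h, left_eq_add] at h0
  exact sub_eq_zero.1 ((smul_eq_zero.1 h0).resolve_left (Nat.cast_ne_zero.2 hm.ne'))

/-- the mean of the squared trace of a reducible representation is at least two -/
theorem two_le_mean {G : Type*} [Group G] [Fintype G] (χ₁ χ₂ : G →* ℂ) :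
    2 ≤ (∑ g, ‖χ₁ g + χ₂ g‖ ^ 2) / (Fintype.card G : ℝ) := by
  have hnorm : ∀ (χ : G →* ℂ) (g : G), ‖χ g‖ = 1 := fun χ g =>
    Complex.norm_eq_one_of_pow_eq_one (n := orderOf g) (by rw [← map_pow, pow_orderOf_eq_one, map_one])
      (orderOf_pos g).ne'
  let ψ : G →* ℂ := χ₁ * ((starRingEnd ℂ).toMonoidHom.comp χ₂)
  have hψ : ∀ g, ψ g = χ₁ g * (starRingEnd ℂ) (χ₂ g) := fun g => rfl
  have hψsum : 0 ≤ (∑ g, ψ g).re := by
    by_cases h : ∀ g, ψ g = 1
    · simp [Finset.sum_congr rfl fun g _ => h g]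
    · push Not at h
      obtain ⟨g₀, hg₀⟩ := h
      have h1 : ψ g₀ * ∑ g, ψ g = ∑ g, ψ g := by
        rw [Finset.mul_sum]
        exact Fintype.sum_equiv (Equiv.mulLeft g₀) _ _ fun g => (map_mul ψ g₀ g).symm
      have h2 : (ψ g₀ - 1) * ∑ g, ψ g = 0 := by rw [sub_mul, h1, one_mul, sub_self]
      rw [(mul_eq_zero.1 h2).resolve_left (sub_ne_zero.2 hg₀)]
      simp
  have hterm : ∀ g, ‖χ₁ g + χ₂ g‖ ^ 2 = 2 + 2 * (ψ g).re := fun g => by
    rw [Complex.sq_norm, Complex.normSq_add, ← Complex.sq_norm, ← Complex.sq_norm, hnorm, hnorm, hψ]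
    ring
  have hpos : (0 : ℝ) < Fintype.card G := by exact_mod_cast Fintype.card_pos
  rw [le_div_iff₀ hpos, Finset.sum_congr rfl fun g _ => hterm g, Finset.sum_add_distrib,
    ← Finset.mul_sum, ← Complex.re_sum, Finset.sum_const, Finset.card_univ, nsmul_eq_mul]
  nlinarith

/-- conjugation is inversion on traces of elements of finite order -/
theorem norm_trace_inv {M M' : Matrix (Fin 2) (Fin 2) ℂ} (h : M * M' = 1) {m : ℕ} (hm : 0 < m)
    (hM : M ^ m = 1) : ‖M'.trace‖ = ‖M.trace‖ := by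
  obtain ⟨x, y, hx, hy, ht, hd⟩ := exists_eigen_pair M hM
  have hx1 : ‖x‖ = 1 := Complex.norm_eq_one_of_pow_eq_one hx hm.ne'
  have hy1 : ‖y‖ = 1 := Complex.norm_eq_one_of_pow_eq_one hy hm.ne'
  have hM' : M' = M⁻¹ := (Matrix.inv_eq_right_inv h).symm
  have e : M'.trace = M.trace / M.det := by
    rw [hM', Matrix.inv_def, Matrix.trace_smul, Matrix.adjugate_fin_two, Matrix.trace_fin_two,
      Matrix.trace_fin_two, smul_eq_mul, Ring.inverse_eq_inv']
    simp [div_eq_mul_inv, mul_comm, add_comm]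
  rw [e, norm_div, hd, norm_mul, hx1, hy1, one_mul, div_one]

/-- a representation with these Frobenius data cannot have a stable line -/
theorem no_stable_line (hD : DensityThm) {m : ℕ} (hm : 0 < m) (τ : GalQBar →* GL (Fin 2) ℂ)
    (hfin : GaloisFactorsThroughFiniteLevel τ) (hpow : ∀ σ, mat τ σ ^ m = 1)
    (hτ : ∀ p : Nat.Primes, ¬ (p : ℕ) ∣ N →
      (mat τ (frobAt p)).trace = Genus.embC (D.a p : QBar))
    (v : Fin 2 → ℂ) (hv : v ≠ 0) : ¬ ∀ σ, IsEig τ σ v := by
  classical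
  intro hst
  haveI := finite_range τ hfin
  haveI := Fintype.ofFinite τ.range
  choose χ hχ using hst
  obtain ⟨i, hi⟩ := Function.ne_iff.1 hv
  have huniq : ∀ {a b : ℂ}, a • v = b • v → a = b := fun h =>
    mul_right_cancel₀ hi (congrFun h i)
  let τ' : τ.range →* GL (Fin 2) ℂ := τ.range.subtype
  have hst' : ∀ g : τ.range, ∃ c : ℂ, mat τ' g *ᵥ v = c • v := fun g => by
    obtain ⟨σ, rfl⟩ := τ.rangeRestrict_surjective g
    exact ⟨χ σ, hχ σ⟩
  choose c hc using hst'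
  let χ₁ : τ.range →* ℂ :=
    { toFun := c
      map_one' := huniq (by rw [← hc, mat_one, Matrix.one_mulVec, one_smul])
      map_mul' := fun g h => huniq (by
        rw [← hc, mat_mul, ← Matrix.mulVec_mulVec, hc, Matrix.mulVec_smul, hc, smul_smul,
          mul_comm (c g) (c h)]) }
  have hc0 : ∀ g, χ₁ g ≠ 0 := fun g h0 => by
    have h1 : χ₁ g * χ₁ g⁻¹ = 1 := by rw [← map_mul, mul_inv_cancel, map_one]
    rw [h0, zero_mul] at h1
    exact zero_ne_one h1
  let χ₂ : τ.range →* ℂ :=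
    { toFun := fun g => (mat τ' g).det / χ₁ g
      map_one' := by rw [mat_one, Matrix.det_one, map_one, div_one]
      map_mul' := fun g h => by rw [mat_mul, Matrix.det_mul, map_mul, mul_div_mul_comm] }
  have htr : ∀ g, (mat τ' g).trace = χ₁ g + χ₂ g := by
    intro g
    have h1 : (Matrix.scalar (Fin 2) (χ₁ g) - mat τ' g) *ᵥ v = 0 := by
      rw [Matrix.sub_mulVec, hc g, sub_eq_zero]
      ext j
      simp [Matrix.scalar_apply, Matrix.mulVec_diagonal, χ₁]
    have h2 : (Matrix.scalar (Fin 2) (χ₁ g) - mat τ' g).det = 0 :=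
      Matrix.exists_mulVec_eq_zero_iff.1 ⟨v, hv, h1⟩
    rw [← Matrix.eval_charpoly, Matrix.charpoly_fin_two] at h2
    simp only [eval_add, eval_sub, eval_pow, eval_X, eval_mul, eval_C] at h2
    show _ = χ₁ g + (mat τ' g).det / χ₁ g
    field_simp [hc0 g]
    linear_combination -h2
  let F : τ.range → ℝ := fun g => ‖(mat τ' g).trace‖ ^ 2
  have hlim := hD.tendsto_image τ.rangeRestrict
    (by obtain ⟨L, hL, h⟩ := hfin; exact ⟨L, hL, fun σ hσ => Subtype.ext (h σ hσ)⟩)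
    τ.rangeRestrict_surjective F
    (fun x g => by
      simp only [F]
      rw [show (mat τ' (x * g * x⁻¹)).trace = (mat τ' g).trace from
        congrArg Prod.fst (trDet_conj τ' x g)])
    (fun g => by
      obtain ⟨σ, rfl⟩ := τ.rangeRestrict_surjective g
      simp only [F]
      congr 1
      refine norm_trace_inv (M := mat τ' (τ.rangeRestrict σ)) ?_ hm (hpow σ)
      rw [← mat_mul, mul_inv_cancel, mat_one])
  have h2 : 2 ≤ (∑ g, F g) / (Fintype.card τ.range : ℝ) := by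
    rw [Finset.sum_congr rfl fun g _ => show F g = ‖χ₁ g + χ₂ g‖ ^ 2 by simp only [F, htr]]
    exact two_le_mean χ₁ χ₂
  have hle : (∑ g, F g) / (Fintype.card τ.range : ℝ) ≤ 3 / 2 := by
    have hsq : ∀ σ, ‖(mat τ σ).trace‖ ^ 2 ≤ 2 ^ 2 := fun σ => by
      obtain ⟨x, y, hx, hy, ht, -⟩ := exists_eigen_pair (mat τ σ) (hpow σ)
      refine pow_le_pow_left₀ (norm_nonneg _) ?_ 2
      rw [ht]
      refine (norm_add_le _ _).trans (le_of_eq ?_)
      rw [Complex.norm_eq_one_of_pow_eq_one hx hm.ne', Complex.norm_eq_one_of_pow_eq_one hy hm.ne']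
      norm_num
    refine density_le (B := 2 ^ 2) ((Finset.range (N + 1)).subtype Nat.Prime) (fun p => ?_)
      (fun p => ?_) (fun p hp => ?_) hlim (b := 3 / 2)
      (g := fun p => if (p : ℕ) ∣ N then (0 : ℝ)
        else min (‖Genus.embC ((1 : GalQBar) (D.a p : QBar))‖ ^ 2) ((2 : ℝ) ^ 2)) ?_
    · rw [abs_of_nonneg (sq_nonneg _)]
      exact hsq _
    · show |ite _ _ _| ≤ _
      split
      · norm_num
      · rw [abs_of_nonneg (le_min (sq_nonneg _) (sq_nonneg _))]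
        exact min_le_right _ _
    · have hpN : ¬ (p : ℕ) ∣ N := fun h => hp (Finset.mem_subtype.2 (Finset.mem_range.2
        (Nat.lt_succ_of_le (Nat.le_of_dvd (Nat.pos_of_ne_zero (NeZero.ne N)) h))))
      rw [if_neg hpN]
      show ‖(mat τ (frobAt p)).trace‖ ^ 2 ≤ _
      refine le_min (le_of_eq ?_) (hsq _)
      rw [hτ p hpN]
      rfl
    · refine (D.bound 1 2 (1 / 2) (by norm_num)).mono fun s h => h.trans (le_of_eq ?_)
      norm_num
  linarith

/-- a complex representation with the given Frobenius data at all primes not dividing the level -/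
theorem exists_artin (hD : DensityThm) (hres : ResidualInput D) :
    ∃ τ : GalQBar →* GL (Fin 2) ℂ, GaloisFactorsThroughFiniteLevel τ ∧
      (Deformation.matrixRepresentation τ).IsIrreducible ∧
      ∀ p : ℕ, p.Prime → ¬ p ∣ N → ∀ B : ValuationSubring QBar, B.LiesOverPrime p →
        (∀ σ ∈ B.inertiaSubgroupIn ℚ, τ σ = 1) ∧
        ∀ σ : GalQBar, B.IsFrobeniusAt σ p →
          (mat τ σ).trace = Genus.embC (D.a p : QBar) ∧
            (mat τ σ).det = Genus.embC (D.e p : QBar) := by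
  classical
  obtain ⟨m, hm, hpairs, ℓ₁, hℓ₁⟩ := exists_pairs D hD hres
  let Bad : Set ℕ := ⋃ z ∈ pairsOf m, ⋃ w ∈ pairsOf m,
    {ℓ | (z.1 ≠ w.1 ∧ ℓ.Prime ∧ ∃ A : ValuationSubring QBar,
          A.LiesOverPrime ℓ ∧ redQ A (z.1 - w.1) = 0) ∨
        (z.2 ≠ w.2 ∧ ℓ.Prime ∧ ∃ A : ValuationSubring QBar,
          A.LiesOverPrime ℓ ∧ redQ A (z.2 - w.2) = 0)}
  have hBad : Bad.Finite := by
    refine (pairsOf m).finite_toSet.biUnion fun z _ => (pairsOf m).finite_toSet.biUnion fun w _ => ?_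
    refine Set.Finite.union ?_ ?_
    · by_cases h : z.1 = w.1
      · exact Set.finite_empty.subset fun ℓ hℓ => (hℓ.1 h).elim
      · exact (finite_primes_redQ_eq_zero (sub_ne_zero.2 h)).subset fun ℓ hℓ => hℓ.2
    · by_cases h : z.2 = w.2
      · exact Set.finite_empty.subset fun ℓ hℓ => (hℓ.1 h).elim
      · exact (finite_primes_redQ_eq_zero (sub_ne_zero.2 h)).subset fun ℓ hℓ => hℓ.2
  obtain ⟨n, hn⟩ := hBad.bddAbove
  have mk : ∀ b : ℕ, ∃ ℓ, b < ℓ ∧ ℓ.Prime ∧ ∃ τ : GalQBar →* GL (Fin 2) ℂ,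
      GaloisFactorsThroughFiniteLevel τ ∧ (∀ σ, mat τ σ ^ m = 1) ∧
      ∀ p : ℕ, p.Prime → ¬ p ∣ N → p ≠ ℓ → ∀ B : ValuationSubring QBar, B.LiesOverPrime p →
        (∀ σ ∈ B.inertiaSubgroupIn ℚ, τ σ = 1) ∧
        ∀ σ : GalQBar, B.IsFrobeniusAt σ p →
          (mat τ σ).trace = Genus.embC (D.a p : QBar) ∧
            (mat τ σ).det = Genus.embC (D.e p : QBar) := by
    intro b
    obtain ⟨ℓ, hle, hℓ⟩ := Nat.exists_infinite_primes (max (max b ℓ₁) n + 1)
    obtain ⟨A, -, hA, -⟩ := FLTAgent.Alg.exists_place_frobenius ℓ hℓ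
    obtain ⟨ρ, hfin, hcard, -, hρm, hρ⟩ := hℓ₁ ℓ hℓ (by omega) A hA
    refine ⟨ℓ, by omega, hℓ, exists_lift_rep D hm hpairs hℓ A hA (fun z hz w hw => ?_) ρ hfin
      hcard hρm hρ⟩
    refine ⟨fun h => by_contra fun hne => ?_, fun h => by_contra fun hne => ?_⟩
    · have : ℓ ∈ Bad := Set.mem_iUnion₂.2 ⟨z, hz, Set.mem_iUnion₂.2 ⟨w, hw, Or.inl
        ⟨hne, hℓ, A, hA, by rw [redQ, map_sub]; exact sub_eq_zero.2 h⟩⟩⟩
      have := hn this
      omega
    · have : ℓ ∈ Bad := Set.mem_iUnion₂.2 ⟨z, hz, Set.mem_iUnion₂.2 ⟨w, hw, Or.inr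
        ⟨hne, hℓ, A, hA, by rw [redQ, map_sub]; exact sub_eq_zero.2 h⟩⟩⟩
      have := hn this
      omega
  obtain ⟨ℓ, -, hℓ, τ, hfin, hpow, hτ⟩ := mk N
  obtain ⟨ℓ', hlt, hℓ', τ', hfin', hpow', hτ'⟩ := mk ℓ
  -- the two representations have the same trace and determinant
  have hkey : (fun σ => ((mat τ σ).trace, (mat τ σ).det)) =
      fun σ => ((mat τ' σ).trace, (mat τ' σ).det) := by
    obtain ⟨L, hL, h⟩ := hfin
    obtain ⟨L', hL', h'⟩ := hfin'
    haveI := hL
    haveI := hL'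
    have hfac : ∀ (θ : GalQBar →* GL (Fin 2) ℂ) (K : IntermediateField ℚ QBar),
        (∀ σ : GalQBar, (∀ x ∈ K, σ x = x) → θ σ = 1) → ∀ σ ρ : GalQBar,
          (∀ x ∈ K, σ x = ρ x) → θ σ = θ ρ := by
      intro θ K hK σ ρ hσρ
      have h1 := hK (ρ⁻¹ * σ) fun x hx => by
        show ρ⁻¹ (σ x) = x
        rw [hσρ x hx]
        exact ρ.symm_apply_apply x
      rw [map_mul, map_inv, inv_mul_eq_one] at h1
      exact h1.symm
    refine FLTAgent.Chebotarev.eq_of_forall_frobenius_pow _ _ (L ⊔ L')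
      (fun σ ρ hσρ => ?_) (fun σ ρ hσρ => ?_) (Finset.range (max (ℓ' + 1) (N + 1)))
      fun p B σ k hp hS hB hσ => ?_
    · rw [mat, mat, hfac τ L h σ ρ fun x hx => hσρ x (le_sup_left (a := L) (b := L') hx)]
    · rw [mat, mat, hfac τ' L' h' σ ρ fun x hx => hσρ x (le_sup_right (a := L) (b := L') hx)]
    · rw [Finset.mem_range, not_lt, max_le_iff] at hS
      have hpN : ¬ p ∣ N := fun hd => by
        have := Nat.le_of_dvd (Nat.pos_of_ne_zero (NeZero.ne N)) hd
        omega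
      obtain ⟨a1, a2⟩ := (hτ p hp hpN (by omega) B hB).2 σ hσ
      obtain ⟨b1, b2⟩ := (hτ' p hp hpN (by omega) B hB).2 σ hσ
      obtain ⟨c1, c2⟩ := trace_pow_congr (a1.trans b1.symm) (a2.trans b2.symm) k
      rw [mat_pow, mat_pow, c1, c2]
  have hkey' : ∀ σ, (mat τ σ).trace = (mat τ' σ).trace ∧ (mat τ σ).det = (mat τ' σ).det := fun σ =>
    Prod.ext_iff.1 (congrFun hkey σ)
  have hall : ∀ p : ℕ, p.Prime → ¬ p ∣ N → ∀ B : ValuationSubring QBar, B.LiesOverPrime p →
      (∀ σ ∈ B.inertiaSubgroupIn ℚ, τ σ = 1) ∧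
      ∀ σ : GalQBar, B.IsFrobeniusAt σ p →
        (mat τ σ).trace = Genus.embC (D.a p : QBar) ∧
          (mat τ σ).det = Genus.embC (D.e p : QBar) := by
    intro p hp hpN B hB
    by_cases hpℓ : p = ℓ
    · obtain ⟨hi, hF⟩ := hτ' p hp hpN (by omega) B hB
      refine ⟨fun σ hσ => Units.ext ?_, fun σ hσ =>
        ⟨(hkey' σ).1.trans (hF σ hσ).1, (hkey' σ).2.trans (hF σ hσ).2⟩⟩
      refine eq_one_of_trace_two hm (hpow σ) ((hkey' σ).1.trans ?_) ((hkey' σ).2.trans ?_)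
      · rw [mat, hi σ hσ, Units.val_one, Matrix.trace_one, Fintype.card_fin]
        norm_num
      · rw [mat, hi σ hσ, Units.val_one, Matrix.det_one]
    · exact hτ p hp hpN hpℓ B hB
  refine ⟨τ, hfin, ?_, hall⟩
  have hns := no_stable_line D hD hm τ hfin hpow fun p hpN =>
    ((hall p p.2 hpN (placeAt p) (FLTAgent.Chebotarev.placeAt_liesOver p)).2 _
      (FLTAgent.Chebotarev.isFrobeniusAt_frobAt p)).1
  haveI : Nontrivial (Subrepresentation (Deformation.matrixRepresentation τ)) :=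
    ⟨⊥, ⊤, fun h => by
      have h1 : (⊥ : Submodule ℂ (Fin 2 → ℂ)) = ⊤ := congrArg Subrepresentation.toSubmodule h
      exact bot_ne_top h1⟩
  refine ⟨fun W => ?_⟩
  by_contra hne
  push Not at hne
  have h1 : Module.finrank ℂ W.toSubmodule = 1 := by
    have hb : W.toSubmodule ≠ ⊥ := fun h => hne.1 (Subrepresentation.toSubmodule_injective h)
    have ht : W.toSubmodule ≠ ⊤ := fun h => hne.2 (Subrepresentation.toSubmodule_injective h)
    have l1 : 0 < Module.finrank ℂ W.toSubmodule := by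
      rw [Nat.pos_iff_ne_zero]
      exact fun h => hb (Submodule.finrank_eq_zero.1 h)
    have l2 := Submodule.finrank_lt ht
    rw [Module.finrank_fin_fun] at l2
    omega
  obtain ⟨v, hv, hspan⟩ := finrank_eq_one_iff'.1 h1
  refine hns (v : Fin 2 → ℂ) (fun h => hv (Subtype.ext h)) fun σ => ?_
  obtain ⟨c, hc⟩ := hspan ⟨_, W.apply_mem_toSubmodule σ v.2⟩
  refine ⟨c, ?_⟩
  have h2 := congrArg Subtype.val hc
  simp only [Submodule.coe_smul, Deformation.matrixRepresentation_apply] at h2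
  exact h2.symm

end FLTAgent.DS
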