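import Fermat.Agent.DS.AssemblyLemmas

/-!
Area DS, parcel DS10: the residual images are bounded, and the coefficients are sums of two roots
of unity of bounded order.
-/

set_option autoImplicit false
set_option linter.style.haveILetI false

noncomputable section

open Filter Topology Polynomial
open FLTAgent.Chebotarev (QBar GalQBar frobRes frobAt placeAt)
open IsLocalRing (ResidueField residue)

namespace FLTAgent.DS

theorem trDet_conj {k : Type*} [Field k] {G : Type*} [Group G] (ρ : G →* GL (Fin 2) k) (x g : G) :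
    trDet ρ (x * g * x⁻¹) = trDet ρ g := by
  have h : mat ρ x⁻¹ * mat ρ x = 1 := by rw [← mat_mul, inv_mul_cancel, mat_one]
  have h' : (mat ρ x⁻¹).det * (mat ρ x).det = 1 := by rw [← Matrix.det_mul, h, Matrix.det_one]
  refine Prod.ext ?_ ?_
  · show (mat ρ (x * g * x⁻¹)).trace = _
    rw [mat_mul, mat_mul, Matrix.trace_mul_comm, ← Matrix.mul_assoc, h, Matrix.one_mul]
    rfl
  · show (mat ρ (x * g * x⁻¹)).det = (mat ρ g).det
    rw [mat_mul, mat_mul, Matrix.det_mul, Matrix.det_mul]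
    linear_combination (mat ρ g).det * h'

theorem trDet_inv {k : Type*} [Field k] {G : Type*} [Group G] (ρ : G →* GL (Fin 2) k) (g : G) :
    trDet ρ g⁻¹ = ((trDet ρ g).1 / (trDet ρ g).2, (trDet ρ g).2⁻¹) := by
  have h : mat ρ g⁻¹ = (mat ρ g)⁻¹ := by
    rw [mat, map_inv, Matrix.coe_units_inv]; rfl
  refine Prod.ext ?_ ?_
  · show (mat ρ g⁻¹).trace = (mat ρ g).trace / (mat ρ g).det
    rw [h, Matrix.inv_def, Matrix.trace_smul, Matrix.adjugate_fin_two, Matrix.trace_fin_two,
      Matrix.trace_fin_two, smul_eq_mul, Ring.inverse_eq_inv']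
    simp [div_eq_mul_inv, mul_comm, add_comm]
  · show (mat ρ g⁻¹).det = _
    rw [h, Matrix.det_nonsing_inv, Ring.inverse_eq_inv']
    rfl

variable {N : ℕ} (D : EigenInput N)

/-- the algebraic integers of the coefficient field with all conjugates small -/
theorem finite_small (c : ℝ) :
    {x : integralClosure ℤ QBar | (x : QBar) ∈ D.K ∧
      ∀ σ : GalQBar, ‖Genus.embC (σ (x : QBar))‖ ≤ c}.Finite := by
  haveI := D.finK
  haveI : NumberField D.K := { }
  have h := NumberField.Embeddings.finite_of_norm_le D.K ℂ c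
  refine Set.Finite.of_finite_image (f := fun x : integralClosure ℤ QBar => (x : QBar)) ?_
    (fun a _ b _ h => Subtype.ext h)
  refine (h.image (fun y : D.K => (y : QBar))).subset ?_
  rintro _ ⟨x, ⟨hxK, hx⟩, rfl⟩
  refine ⟨⟨x, hxK⟩, ⟨?_, fun φ => ?_⟩, rfl⟩
  · exact (isIntegral_algebraMap_iff (B := QBar) (algebraMap D.K QBar).injective).1 x.2
  · haveI : IsGalois ℚ QBar := FLTAgent.Alg.qb_isGalois
    have hi : IsIntegral ℚ (x : QBar) := x.2.tower_top
    have hroot : aeval (φ ⟨x, hxK⟩) (minpoly ℚ (x : QBar)) = 0 := by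
      have h0 : aeval (⟨x, hxK⟩ : D.K) (minpoly ℚ (x : QBar)) = 0 := by
        refine Subtype.ext ?_
        rw [← IntermediateField.coe_val, ← aeval_algHom_apply, map_zero]
        exact minpoly.aeval ℚ (x : QBar)
      rw [aeval_def, ← hom_eval₂_algebraMap φ, ← aeval_def, h0, map_zero]
    have hspl : ((minpoly ℚ (x : QBar)).map (algebraMap ℚ QBar)).Splits := IsAlgClosed.splits _
    obtain ⟨y, hy, hφy⟩ : ∃ y : QBar, aeval y (minpoly ℚ (x : QBar)) = 0 ∧
        Genus.embC y = φ ⟨x, hxK⟩ := by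
      have hp := hspl.eq_prod_roots_of_monic ((minpoly.monic hi).map _)
      have h1 := congrArg (Polynomial.map Genus.embC) hp
      rw [Polynomial.map_map, RingHom.ext_rat (Genus.embC.comp (algebraMap ℚ QBar)) (algebraMap ℚ ℂ),
        Polynomial.map_multiset_prod, Multiset.map_map] at h1
      have h2 := congrArg (Polynomial.eval (φ ⟨x, hxK⟩)) h1
      rw [← aeval_def', hroot, eval_multiset_prod, Multiset.map_map, eq_comm,
        Multiset.prod_eq_zero_iff, Multiset.mem_map] at h2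
      obtain ⟨y, hy, hy'⟩ := h2
      refine ⟨y, ?_, ?_⟩
      · rw [aeval_def', ← IsRoot.def, ← mem_roots ((minpoly.monic hi).map _).ne_zero]
        exact hy
      · simp only [Function.comp_apply, Polynomial.map_sub, map_X, map_C, eval_sub, eval_X, eval_C] at hy'
        exact (sub_eq_zero.1 hy').symm
    obtain ⟨σ, hσ⟩ := minpoly.exists_algEquiv_of_root' (Algebra.IsAlgebraic.isAlgebraic (x : QBar)) hy
    rw [← hφy, ← hσ]
    exact hx σ
where
  hom_eval₂_algebraMap {K : IntermediateField ℚ QBar} (φ : K →+* ℂ) {f : ℚ[X]} {y : K} :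
      φ (eval₂ (algebraMap ℚ K) y f) = eval₂ (algebraMap ℚ ℂ) (φ y) f := by
    rw [hom_eval₂, RingHom.ext_rat (φ.comp (algebraMap ℚ K)) (algebraMap ℚ ℂ)]
  aeval_def' {R : Type} [CommRing R] [Algebra ℚ R] {f : ℚ[X]} {y : R} :
      aeval y f = (f.map (algebraMap ℚ R)).eval y := by
    rw [aeval_def, eval_map]

/-- automorphisms inducing every embedding of the coefficient field -/
theorem exists_reps : ∃ R : Finset GalQBar, ∀ σ : GalQBar, ∃ τ ∈ R, ∀ x ∈ D.K, σ x = τ x := by
  classical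
  haveI := D.finK
  let f : GalQBar → (D.K →ₐ[ℚ] QBar) := fun σ => σ.toAlgHom.comp D.K.val
  choose g hg using fun y : Set.range f => y.2
  refine ⟨Finset.univ.image g, fun σ => ⟨g ⟨f σ, σ, rfl⟩, Finset.mem_image_of_mem _ (Finset.mem_univ _),
    fun x hx => (DFunLike.congr_fun (hg ⟨f σ, σ, rfl⟩) ⟨x, hx⟩).symm⟩⟩

/-- the primes with a large conjugate are rare -/
theorem exists_small (η : ℝ) (hη : 0 < η) :
    ∃ (R : Finset GalQBar) (c : ℝ),
      (∀ σ : GalQBar, ∃ τ ∈ R, ∀ x ∈ D.K, σ x = τ x) ∧ 0 < c ∧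
      ∀ᶠ s in 𝓝[>] (1 : ℝ),
        primeW (fun p => c ^ (-2 : ℤ) * ∑ τ ∈ R, (if (p : ℕ) ∣ N then 0
          else min (‖Genus.embC (τ (D.a p : QBar))‖ ^ 2) (c ^ 2))) s ≤
          η * (-Real.log (s - 1)) := by
  obtain ⟨R, hR⟩ := exists_reps D
  set d : ℝ := (R.card : ℝ) + 1
  set c : ℝ := Real.sqrt (2 * d / η)
  have hd : 0 < d := by positivity
  have hc : 0 < c := Real.sqrt_pos.2 (by positivity)
  have hc2 : c ^ 2 = 2 * d / η := Real.sq_sqrt (by positivity)
  refine ⟨R, c, hR, hc, ?_⟩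
  have hall : ∀ᶠ s in 𝓝[>] (1 : ℝ), ∀ τ ∈ R, primeW (fun p => if (p : ℕ) ∣ N then 0
      else min (‖Genus.embC (τ (D.a p : QBar))‖ ^ 2) (c ^ 2)) s ≤ (1 + 1) * (-Real.log (s - 1)) :=
    (Filter.eventually_all_finset R).2 fun τ _ => D.bound τ c 1 one_pos
  filter_upwards [hall, self_mem_nhdsWithin, tendsto_negLog.eventually_gt_atTop 0] with s h hs hl
  have hb : ∀ (τ : GalQBar) (p : Nat.Primes), |if (p : ℕ) ∣ N then (0 : ℝ)
      else min (‖Genus.embC (τ (D.a p : QBar))‖ ^ 2) (c ^ 2)| ≤ c ^ 2 := by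
    intro τ p
    split
    · simp [sq_nonneg]
    · rw [abs_of_nonneg (le_min (sq_nonneg _) (sq_nonneg _))]
      exact min_le_right _ _
  have heq : primeW (fun p => c ^ (-2 : ℤ) * ∑ τ ∈ R, (if (p : ℕ) ∣ N then 0
      else min (‖Genus.embC (τ (D.a p : QBar))‖ ^ 2) (c ^ 2))) s =
      c ^ (-2 : ℤ) * ∑ τ ∈ R, primeW (fun p => if (p : ℕ) ∣ N then 0
        else min (‖Genus.embC (τ (D.a p : QBar))‖ ^ 2) (c ^ 2)) s := by
    simp only [primeW]
    rw [← Summable.tsum_finsetSum (fun τ _ => summable_bounded (hb τ) hs), ← tsum_mul_left]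
    refine tsum_congr fun p => ?_
    rw [mul_assoc, Finset.sum_mul]
  rw [heq]
  have hle := mul_le_mul_of_nonneg_left (Finset.sum_le_sum h) (by positivity : 0 ≤ c ^ (-2 : ℤ))
  refine hle.trans ?_
  rw [Finset.sum_const, nsmul_eq_mul, zpow_neg, zpow_two, ← pow_two, hc2, inv_div,
    ← mul_assoc, ← mul_assoc]
  refine mul_le_mul_of_nonneg_right ?_ hl.le
  rw [div_mul_eq_mul_div, div_mul_eq_mul_div, div_le_iff₀ (by positivity)]
  have h0 : (R.card : ℝ) ≤ d := by simp [d]
  nlinarith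

variable [NeZero N]

theorem isUnit_redQ_e {p : ℕ} (hp : p.Prime) (hpN : ¬ p ∣ N) (A : ValuationSubring QBar) :
    redQ A (D.e p) ≠ 0 := by
  intro h
  have := congrArg (fun z => redQ A z) (D.e_pow p hp hpN)
  simp only [redQ, map_pow, map_one] at this
  rw [show FLTAgent.Chebotarev.redAt A (D.e p) = 0 from h,
    zero_pow (Nat.totient_pos.2 (Nat.pos_of_ne_zero (NeZero.ne N))).ne'] at this
  exact zero_ne_one this

/-- the residual images are bounded independently of the prime -/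
theorem exists_bound (hD : DensityThm) (hres : ResidualInput D) :
    ∃ ℓ₁ B : ℕ, B < ℓ₁ ∧ ∀ ℓ : ℕ, ℓ.Prime → ℓ₁ < ℓ → ∀ A : ValuationSubring QBar,
      A.LiesOverPrime ℓ → ∃ ρ : GalQBar →* GL (Fin 2) (ResidueField A),
        GaloisFactorsThroughFiniteLevel ρ ∧ 2 * Nat.card ρ.range < ℓ ∧ Nat.card ρ.range ≤ B ∧
        ∀ p : ℕ, p.Prime → ¬ p ∣ N → p ≠ ℓ → ∀ B : ValuationSubring QBar, B.LiesOverPrime p →
          (∀ σ ∈ B.inertiaSubgroupIn ℚ, ρ σ = 1) ∧
          ∀ σ : GalQBar, B.IsFrobeniusAt σ p →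
            (mat ρ σ).trace = redQ A (D.a p) ∧ (mat ρ σ).det = redQ A (D.e p) := by
  classical
  obtain ⟨ℓ₀, hℓ₀⟩ := hres
  obtain ⟨R, c, hR, hc, hev⟩ := exists_small D (1 / 200) (by norm_num)
  have hY := finite_small D c
  set TN := hY.toFinset.card * (nthRootsFinset N.totient (1 : integralClosure ℤ QBar)).card with hTN
  refine ⟨ℓ₀ + 4 * TN + 3 + 2 * (360 * TN), 360 * TN, by omega, fun ℓ hℓ hlt A hA => ?_⟩
  haveI := FLTAgent.Chebotarev.charP_residue hℓ hA
  haveI := FLTAgent.Good.residueField_isAlgClosed A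
  haveI : Fact ℓ.Prime := ⟨hℓ⟩
  obtain ⟨ρ, hfin, hss, hρ⟩ := hℓ₀ ℓ hℓ (by omega) A hA
  haveI := finite_range ρ hfin
  haveI := Fintype.ofFinite ρ.range
  set T₀ := (hY.toFinset ×ˢ nthRootsFinset N.totient (1 : integralClosure ℤ QBar)).image
    fun z => (redQ A z.1, redQ A z.2) with hT₀
  set T := T₀ ∪ T₀.image fun z => (z.1 / z.2, z.2⁻¹) with hTdef
  have hTcard : T.card ≤ 2 * TN := by
    have h0 : T₀.card ≤ TN := Finset.card_image_le.trans (Finset.card_product _ _).le
    have h1 : T.card ≤ T₀.card + T₀.card :=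
      (Finset.card_union_le _ _).trans (Nat.add_le_add_left Finset.card_image_le _)
    omega
  set ρ' : ρ.range →* GL (Fin 2) (ResidueField A) := ρ.range.subtype
  have hTinv : ∀ g : ρ.range, trDet ρ' g ∈ T → trDet ρ' g⁻¹ ∈ T := by
    intro g hg
    rw [trDet_inv]
    rcases Finset.mem_union.1 hg with h | h
    · exact Finset.mem_union_right _ (Finset.mem_image.2 ⟨_, h, rfl⟩)
    · obtain ⟨z, hz, hzg⟩ := Finset.mem_image.1 h
      refine Finset.mem_union_left _ ?_
      have hz2 : z.2 ≠ 0 := by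
        obtain ⟨y, hy, rfl⟩ := Finset.mem_image.1 hz
        intro h0
        have hn : 0 < N.totient := Nat.totient_pos.2 (Nat.pos_of_ne_zero (NeZero.ne N))
        have := congrArg (redQ A) ((mem_nthRootsFinset hn 1).1 (Finset.mem_product.1 hy).2)
        simp only [redQ, map_pow, map_one] at this
        rw [show FLTAgent.Chebotarev.redAt A y.2 = 0 from h0, zero_pow hn.ne'] at this
        exact zero_ne_one this
      rw [← hzg]
      convert hz using 2
      · field_simp
      · rw [inv_inv]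
  let F : ρ.range → ℝ := fun g => if trDet ρ' g ∈ T then 0 else 1
  have hlim := hD.tendsto_image ρ.rangeRestrict
    (by obtain ⟨L, hL, h⟩ := hfin; exact ⟨L, hL, fun σ hσ => Subtype.ext (h σ hσ)⟩)
    ρ.rangeRestrict_surjective F
    (fun x g => by simp only [F, trDet_conj])
    (fun g => by
      simp only [F]
      refine if_congr ⟨fun h => by simpa using hTinv _ h, fun h => hTinv _ h⟩ rfl rfl)
  have hmean : (∑ g, F g) / (Fintype.card ρ.range : ℝ) ≤ 1 / 200 := by
    refine density_le (B := max 1 (c ^ (-2 : ℤ) * (R.card * c ^ 2)))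
      (((Finset.range (N + 1)).subtype Nat.Prime) ∪ {⟨ℓ, hℓ⟩}) (fun p => ?_) (fun p => ?_)
      (fun p (hp : p ∉ _) => ?_) hlim hev
    · simp only [F]; split_ifs <;> simp
    · refine (le_of_eq ?_).trans ((mul_le_mul_of_nonneg_left (?_ : (∑ τ ∈ R, (if (p : ℕ) ∣ N then (0 : ℝ)
          else min (‖Genus.embC (τ (D.a p : QBar))‖ ^ 2) (c ^ 2))) ≤ R.card * c ^ 2)
          (by positivity : 0 ≤ c ^ (-2 : ℤ))).trans (le_max_right _ _))
      · refine abs_of_nonneg (mul_nonneg (by positivity) (Finset.sum_nonneg fun τ _ => ?_))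
        split <;> positivity
      · rw [← nsmul_eq_mul]
        refine Finset.sum_le_card_nsmul _ _ _ fun τ _ => ?_
        split
        · positivity
        · exact min_le_right _ _
    · replace hp : ¬ ((p : ℕ) < N + 1) ∧ ¬ p = ⟨ℓ, hℓ⟩ := ⟨fun h => hp (Finset.mem_union_left _
        (Finset.mem_subtype.2 (Finset.mem_range.2 h))), fun h => hp (Finset.mem_union_right _
        (Finset.mem_singleton.2 h))⟩
      have hpN : ¬ (p : ℕ) ∣ N := fun h => hp.1
        (Nat.lt_succ_of_le (Nat.le_of_dvd (Nat.pos_of_ne_zero (NeZero.ne N)) h))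
      have hnn : 0 ≤ c ^ (-2 : ℤ) * ∑ τ ∈ R, (if (p : ℕ) ∣ N then 0
          else min (‖Genus.embC (τ (D.a p : QBar))‖ ^ 2) (c ^ 2)) :=
        mul_nonneg (by positivity) (Finset.sum_nonneg fun τ _ => by split <;> positivity)
      by_cases hsm : ∀ τ ∈ R, ‖Genus.embC (τ (D.a p : QBar))‖ ≤ c
      · refine le_of_eq_of_le ?_ hnn
        refine if_pos (Finset.mem_union_left _ (Finset.mem_image.2 ⟨(D.a p, D.e p),
          Finset.mem_product.2 ⟨hY.mem_toFinset.2 ⟨D.a_mem p p.2 hpN, fun σ => ?_⟩,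
            (mem_nthRootsFinset (Nat.totient_pos.2 (Nat.pos_of_ne_zero (NeZero.ne N))) 1).2
              (D.e_pow p p.2 hpN)⟩, ?_⟩))
        · obtain ⟨τ, hτ, hσ⟩ := hR σ
          rw [hσ _ (D.a_mem p p.2 hpN)]
          exact hsm τ hτ
        · obtain ⟨h1, h2⟩ := (hρ p p.2 hpN (fun h => hp.2 (Subtype.ext h)) (placeAt p)
            (FLTAgent.Chebotarev.placeAt_liesOver p)).2 (frobAt p)
            (FLTAgent.Chebotarev.isFrobeniusAt_frobAt p)
          exact Prod.ext h1.symm h2.symm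
      · push Not at hsm
        obtain ⟨τ, hτ, hlt⟩ := hsm
        have h1 : c ^ 2 ≤ ∑ τ ∈ R, (if (p : ℕ) ∣ N then 0
            else min (‖Genus.embC (τ (D.a p : QBar))‖ ^ 2) (c ^ 2)) := by
          refine le_trans (le_of_eq ?_) (Finset.single_le_sum (fun τ _ => ?_) hτ)
          · rw [if_neg hpN, min_eq_right (pow_le_pow_left₀ hc.le hlt.le 2)]
          · split <;> positivity
        have h2 : (1 : ℝ) ≤ c ^ (-2 : ℤ) * ∑ τ ∈ R, (if (p : ℕ) ∣ N then 0
            else min (‖Genus.embC (τ (D.a p : QBar))‖ ^ 2) (c ^ 2)) := by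
          refine le_trans (le_of_eq ?_) (mul_le_mul_of_nonneg_left h1 (by positivity))
          rw [zpow_neg, zpow_two, ← pow_two, inv_mul_cancel₀ (by positivity)]
        refine le_trans ?_ h2
        simp only [F]
        split <;> norm_num
  set Hs : Finset ρ.range := Finset.univ.filter fun g => trDet ρ' g ∈ T
  have hsum : (∑ g, F g) = (Fintype.card ρ.range : ℝ) - Hs.card := by
    have e1 : ∀ g, F g = 1 - (if trDet ρ' g ∈ T then (1 : ℝ) else 0) := fun g => by
      simp only [F]; split <;> simp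
    rw [Finset.sum_congr rfl fun g _ => e1 g, Finset.sum_sub_distrib, Finset.sum_boole]
    simp [Hs]
  have hHs : 199 * Fintype.card ρ.range ≤ 200 * Hs.card := by
    have hpos : (0 : ℝ) < Fintype.card ρ.range := by exact_mod_cast Fintype.card_pos
    rw [hsum, div_le_iff₀ hpos] at hmean
    have : (199 * Fintype.card ρ.range : ℕ) ≤ ((200 * Hs.card : ℕ) : ℝ) := by
      push_cast
      linarith
    exact_mod_cast this
  have hcard := card_le_of_few_trDet ρ' ρ.range.subtype_injective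
    (fun v hv hst => by
      obtain ⟨w, hw, hli⟩ := hss v hv fun σ => hst (ρ.rangeRestrict σ)
      exact ⟨w, fun g => by obtain ⟨σ, rfl⟩ := ρ.rangeRestrict_surjective g; exact hw σ, hli⟩)
    Hs T (fun g hg => (Finset.mem_filter.1 hg).2) hHs (by omega)
  rw [← Nat.card_eq_fintype_card] at hcard
  exact ⟨ρ, hfin, by omega, by omega, hρ⟩

end FLTAgent.DS
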