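import Mathlib

/-!
Area DS, parcel DS9: elements and stabilisers in finite linear groups in two variables.
-/

set_option autoImplicit false

noncomputable section

open Matrix Module

namespace FLTAgent.DS

variable {k : Type*} [Field k] {G : Type*} [Group G] (ρ : G →* GL (Fin 2) k)

/-- the matrix of `g` -/
def mat (g : G) : Matrix (Fin 2) (Fin 2) k := (ρ g : Matrix (Fin 2) (Fin 2) k)

@[simp] theorem mat_one : mat ρ 1 = 1 := by simp [mat]

theorem mat_mul (g h : G) : mat ρ (g * h) = mat ρ g * mat ρ h := by simp [mat]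

theorem mat_pow (g : G) (n : ℕ) : mat ρ (g ^ n) = mat ρ g ^ n := by simp [mat]

/-- trace and determinant of `g` -/
def trDet (g : G) : k × k := ((mat ρ g).trace, (mat ρ g).det)

/-- `g` acts as a scalar -/
def IsScal (g : G) : Prop := ∃ c : k, mat ρ g = c • 1

/-- `v` is an eigenvector of `g` -/
def IsEig (g : G) (v : Fin 2 → k) : Prop := ∃ c : k, mat ρ g *ᵥ v = c • v

/-- every stable line has a stable complement -/
def IsSS : Prop :=
  ∀ v : Fin 2 → k, v ≠ 0 → (∀ g, IsEig ρ g v) →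
    ∃ w : Fin 2 → k, (∀ g, IsEig ρ g w) ∧ LinearIndependent k ![v, w]

theorem isEig_iff_smul_mem {g : G} {v : Fin 2 → k} :
    IsEig ρ g v ↔ mat ρ g *ᵥ v ∈ Submodule.span k {v} := by
  simp [IsEig, Submodule.mem_span_singleton, eq_comm]

/-- the elements having `v` as an eigenvector form a subgroup -/
def eigStab (v : Fin 2 → k) : Subgroup G where
  carrier := {g | IsEig ρ g v}
  one_mem' := ⟨1, by simp⟩
  mul_mem' := by
    rintro g h ⟨c, hc⟩ ⟨d, hd⟩
    exact ⟨d * c, by rw [mat_mul, ← mulVec_mulVec, hd, mulVec_smul, hc, smul_smul]⟩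
  inv_mem' := by
    rintro g ⟨c, hc⟩
    have h1 : mat ρ g⁻¹ *ᵥ (mat ρ g *ᵥ v) = v := by
      rw [mulVec_mulVec, ← mat_mul, inv_mul_cancel, mat_one, one_mulVec]
    rw [hc, mulVec_smul] at h1
    by_cases hv : v = 0
    · exact ⟨0, by simp [hv]⟩
    · have hc0 : c ≠ 0 := fun h => hv (by rw [← h1, h, zero_smul])
      exact ⟨c⁻¹, by conv_rhs => rw [← h1, smul_smul, inv_mul_cancel₀ hc0, one_smul]⟩

@[simp] theorem mem_eigStab {v : Fin 2 → k} {g : G} : g ∈ eigStab ρ v ↔ IsEig ρ g v := Iff.rfl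

/-- two matrices agreeing on a basis are equal -/
theorem mat_ext_pair {v w : Fin 2 → k} (hvw : LinearIndependent k ![v, w])
    {A B : Matrix (Fin 2) (Fin 2) k} (hv : A *ᵥ v = B *ᵥ v) (hw : A *ᵥ w = B *ᵥ w) : A = B := by
  let b := basisOfLinearIndependentOfCardEqFinrank hvw (by simp)
  apply Matrix.toLin'.injective
  refine b.ext fun i => ?_
  fin_cases i <;> simp [b, hv, hw]

theorem exists_coords {v w : Fin 2 → k} (hvw : LinearIndependent k ![v, w]) (x : Fin 2 → k) :
    ∃ a b : k, x = a • v + b • w := by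
  let B := basisOfLinearIndependentOfCardEqFinrank hvw (by simp)
  refine ⟨B.repr x 0, B.repr x 1, ?_⟩
  conv_lhs => rw [← B.sum_repr x]
  simp [B, Fin.sum_univ_two]

/-- an element with two independent eigenvectors, by its two eigenvalues -/
theorem trDet_of_eig {v w : Fin 2 → k} (hvw : LinearIndependent k ![v, w]) {g : G} {a b : k}
    (hv : mat ρ g *ᵥ v = a • v) (hw : mat ρ g *ᵥ w = b • w) : trDet ρ g = (a + b, a * b) := by
  let B := basisOfLinearIndependentOfCardEqFinrank hvw (by simp)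
  have h : LinearMap.toMatrix B B (Matrix.toLin' (mat ρ g)) = !![a, 0; 0, b] := by
    ext i j
    have hb0 : B 0 = v := by simp [B]
    have hb1 : B 1 = w := by simp [B]
    fin_cases j
    · simp only [Fin.zero_eta, LinearMap.toMatrix_apply, Matrix.toLin'_apply, hb0, hv]
      rw [← hb0, map_smul, B.repr_self]
      fin_cases i <;> simp
    · simp only [Fin.mk_one, LinearMap.toMatrix_apply, Matrix.toLin'_apply, hb1, hw]
      rw [← hb1, map_smul, B.repr_self]
      fin_cases i <;> simp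
  refine Prod.ext ?_ ?_
  · have := LinearMap.trace_eq_matrix_trace k B (Matrix.toLin' (mat ρ g))
    rw [h, Matrix.trace_toLin'_eq, trace_fin_two_of] at this
    exact this
  · have := LinearMap.det_toMatrix B (Matrix.toLin' (mat ρ g))
    rw [h, LinearMap.det_toLin', det_fin_two_of] at this
    simpa [trDet] using this.symm

/-- two independent common eigenvectors: at most two elements for each trace and determinant -/
theorem card_trDet_fibre_le (hinj : Function.Injective ρ) {v w : Fin 2 → k}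
    (hvw : LinearIndependent k ![v, w]) (S : Finset G) (hv : ∀ g ∈ S, IsEig ρ g v)
    (hw : ∀ g ∈ S, IsEig ρ g w) (t : k × k) [DecidableEq (k × k)] :
    (S.filter fun g => trDet ρ g = t).card ≤ 2 := by
  classical
  by_contra hlt
  obtain ⟨x, y, z, hx, hy, hz, hxy, hxz, hyz⟩ := Finset.two_lt_card_iff.mp (not_le.mp hlt)
  simp only [Finset.mem_filter] at hx hy hz
  have key : ∀ g h, g ∈ S → h ∈ S → trDet ρ g = trDet ρ h → ∀ a b c d : k,
      mat ρ g *ᵥ v = a • v → mat ρ g *ᵥ w = b • w → mat ρ h *ᵥ v = c • v →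
      mat ρ h *ᵥ w = d • w → (c = a ∧ d = b) ∨ (c = b ∧ d = a) := by
    intro g h _ _ he a b c d h1 h2 h3 h4
    rw [trDet_of_eig ρ hvw h1 h2, trDet_of_eig ρ hvw h3 h4] at he
    obtain ⟨e1, e2⟩ := Prod.mk.injEq _ _ _ _ ▸ he
    have : (c - a) * (c - b) = 0 := by linear_combination (-c) * e1 + e2
    rcases mul_eq_zero.mp this with h5 | h5
    · exact Or.inl ⟨sub_eq_zero.mp h5, by linear_combination -e1 - h5⟩
    · exact Or.inr ⟨sub_eq_zero.mp h5, by linear_combination -e1 - h5⟩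
  have same : ∀ g h (a b : k), mat ρ g *ᵥ v = a • v → mat ρ g *ᵥ w = b • w →
      mat ρ h *ᵥ v = a • v → mat ρ h *ᵥ w = b • w → g = h := fun g h a b h1 h2 h3 h4 =>
    hinj (Units.ext (mat_ext_pair hvw (h1.trans h3.symm) (h2.trans h4.symm)))
  obtain ⟨⟨a, hxv⟩, ⟨b, hxw⟩⟩ := hv x hx.1, hw x hx.1
  obtain ⟨⟨c, hyv⟩, ⟨d, hyw⟩⟩ := hv y hy.1, hw y hy.1
  obtain ⟨⟨e, hzv⟩, ⟨f, hzw⟩⟩ := hv z hz.1, hw z hz.1
  rcases key x y hx.1 hy.1 (hx.2.trans hy.2.symm) a b c d hxv hxw hyv hyw with ⟨rfl, rfl⟩ | ⟨rfl, rfl⟩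
  · exact hxy (same x y c d hxv hxw hyv hyw)
  · rcases key x z hx.1 hz.1 (hx.2.trans hz.2.symm) d c e f hxv hxw hzv hzw with
      ⟨rfl, rfl⟩ | ⟨rfl, rfl⟩
    · exact hxz (same x z _ _ hxv hxw hzv hzw)
    · exact hyz (same y z _ _ hyv hyw hzv hzw)

theorem card_eig_trDet_le (hinj : Function.Injective ρ) {v w : Fin 2 → k}
    (hvw : LinearIndependent k ![v, w]) (S : Finset G) (hv : ∀ g ∈ S, IsEig ρ g v)
    (hw : ∀ g ∈ S, IsEig ρ g w) (T : Finset (k × k)) (hT : ∀ g ∈ S, trDet ρ g ∈ T) :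
    S.card ≤ 2 * T.card := by
  classical
  exact Finset.card_le_mul_card_image_of_maps_to hT 2
    fun t _ => card_trDet_fibre_le ρ hinj hvw S hv hw t

/-- scalars: at most one element... two for each trace and determinant -/
theorem card_scal_trDet_le (hinj : Function.Injective ρ) (S : Finset G) (hS : ∀ g ∈ S, IsScal ρ g)
    (T : Finset (k × k)) (hT : ∀ g ∈ S, trDet ρ g ∈ T) : S.card ≤ 2 * T.card := by
  have h : LinearIndependent k
      ![(Pi.single 0 1 : Fin 2 → k), (Pi.single 1 1 : Fin 2 → k)] := by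
    have := (Pi.basisFun k (Fin 2)).linearIndependent
    convert this using 1
    ext i : 1
    fin_cases i <;> simp
  refine card_eig_trDet_le ρ hinj h S ?_ ?_ T hT <;>
  · intro g hg
    obtain ⟨c, hc⟩ := hS g hg
    exact ⟨c, by rw [hc, smul_mulVec, one_mulVec]⟩

end FLTAgent.DS

end
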