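import Mathlib
import Fermat.Prelude.Def_GaloisRep_Residual
import Fermat.Prelude.Def_FLTPrelim_Ramification
import Fermat.Agent.Chebotarev.Density
import Fermat.Agent.DS.GroupsBasic
import Fermat.Agent.Genus.Embed

/-!
Area DS, parcel DS10: the inputs of the final assembly of S48.
-/

set_option autoImplicit false

noncomputable section

open Filter Topology
open FLTAgent.Chebotarev (QBar GalQBar frobRes)
open IsLocalRing (ResidueField residue)

namespace FLTAgent.DS

/-- the weighted prime sum -/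
def primeW (f : Nat.Primes → ℝ) (s : ℝ) : ℝ := ∑' p : Nat.Primes, f p * (p : ℝ) ^ (-s)

/-- mean distribution of Frobenius elements, symmetrised by inversion -/
def DensityThm : Prop :=
  ∀ (L : IntermediateField ℚ QBar) [FiniteDimensional ℚ L] [Normal ℚ L]
    (φ : (L ≃ₐ[ℚ] L) → ℝ), (∀ x g, φ (x * g * x⁻¹) = φ g) → (∀ g, φ g⁻¹ = φ g) →
      Tendsto (fun s : ℝ => primeW (fun p => φ (frobRes L p)) s / (-Real.log (s - 1))) (𝓝[>] 1)
        (𝓝 ((∑ g : L ≃ₐ[ℚ] L, φ g) / (Fintype.card (L ≃ₐ[ℚ] L) : ℝ)))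

/-- an algebraic integer modulo a place -/
def redQ (A : ValuationSubring QBar) (x : integralClosure ℤ QBar) : ResidueField A :=
  FLTAgent.Chebotarev.redAt A x

/-- the coefficients of a weight one eigensystem and what is known about them -/
structure EigenInput (N : ℕ) where
  a : ℕ → integralClosure ℤ QBar
  e : ℕ → integralClosure ℤ QBar
  K : IntermediateField ℚ QBar
  finK : FiniteDimensional ℚ K
  a_mem : ∀ p : ℕ, p.Prime → ¬ p ∣ N → (a p : QBar) ∈ K
  e_pow : ∀ p : ℕ, p.Prime → ¬ p ∣ N → e p ^ N.totient = 1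
  /-- the Rankin bound for every conjugate system -/
  bound : ∀ (σ : GalQBar) (c ε : ℝ), 0 < ε → ∀ᶠ s in 𝓝[>] (1 : ℝ),
    primeW (fun p => if (p : ℕ) ∣ N then 0
        else min (‖Genus.embC (σ (a p : QBar))‖ ^ 2) (c ^ 2)) s ≤
      (1 + ε) * (-Real.log (s - 1))

/-- for almost every prime a semisimple residual representation with the right Frobenius data -/
def ResidualInput {N : ℕ} (D : EigenInput N) : Prop :=
  ∃ ℓ₀ : ℕ, ∀ ℓ : ℕ, ℓ.Prime → ℓ₀ < ℓ → ∀ A : ValuationSubring QBar, A.LiesOverPrime ℓ →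
    ∃ ρ : GalQBar →* GL (Fin 2) (ResidueField A),
      GaloisFactorsThroughFiniteLevel ρ ∧ IsSS ρ ∧
      ∀ p : ℕ, p.Prime → ¬ p ∣ N → p ≠ ℓ → ∀ B : ValuationSubring QBar, B.LiesOverPrime p →
        (∀ σ ∈ B.inertiaSubgroupIn ℚ, ρ σ = 1) ∧
        ∀ σ : GalQBar, B.IsFrobeniusAt σ p →
          (mat ρ σ).trace = redQ A (D.a p) ∧ (mat ρ σ).det = redQ A (D.e p)

end FLTAgent.DS
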