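import Fermat.Agent.DS.GroupsOrder
import Mathlib.LinearAlgebra.Projectivization.Action

/-!
Area DS, parcel DS9: a finite semisimple linear group in two variables with few values of trace and
determinant on most elements is small.
-/

set_option autoImplicit false

noncomputable section

open Matrix Module

namespace FLTAgent.DS

variable {k : Type*} [Field k] {G : Type*} [Group G] (ρ : G →* GL (Fin 2) k)

/-- a non scalar element of order prime to the characteristic has exactly two eigenlines -/
theorem exists_eig_pair [IsAlgClosed k] {g : G} {n : ℕ} (hn : g ^ n = 1) (hnk : (n : k) ≠ 0)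
    (hns : ¬ IsScal ρ g) :
    ∃ v w : Fin 2 → k, LinearIndependent k ![v, w] ∧ IsEig ρ g v ∧ IsEig ρ g w ∧
      ∀ x : Fin 2 → k, x ≠ 0 → IsEig ρ g x → x ∈ Submodule.span k {v} ∨ x ∈ Submodule.span k {w} := by
  set A := mat ρ g
  obtain ⟨a, ha⟩ := IsAlgClosed.exists_root A.charpoly (by
    rw [Matrix.charpoly_degree_eq_dim]; simp)
  set b := A.trace - a
  have hab : a * b = A.det := by
    have h0 : A.charpoly.eval a = 0 := ha
    rw [charpoly_fin_two] at h0
    simp at h0
    simp only [b]
    linear_combination -h0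
  -- both roots give eigenvectors
  have hroot : ∀ c, (c = a ∨ c = b) → ∃ v : Fin 2 → k, v ≠ 0 ∧ A *ᵥ v = c • v := by
    intro c hc
    obtain ⟨v, hv0, hv⟩ := (Matrix.exists_mulVec_eq_zero_iff (M := A - c • 1)).mpr (by
      rw [det_fin_two]
      simp only [det_fin_two] at hab
      rcases hc with rfl | rfl <;> simp [b, trace_fin_two] at hab ⊢ <;> linear_combination -hab)
    exact ⟨v, hv0, by rwa [sub_mulVec, smul_mulVec, one_mulVec, sub_eq_zero] at hv⟩
  have hne : a ≠ b := by
    intro heq
    set Y := A - a • (1 : Matrix (Fin 2) (Fin 2) k)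
    have hY : Y * Y = 0 := by
      rw [det_fin_two] at hab
      have htr : A.trace = a + a := by linear_combination (norm := (simp only [b]; ring)) (-1 : k) * heq
      rw [trace_fin_two] at htr
      rw [← heq] at hab
      ext i j
      fin_cases i <;> fin_cases j <;> simp [Y, Matrix.mul_apply, Fin.sum_univ_two]
      · linear_combination (A 0 0) * htr + hab
      · linear_combination (A 0 1) * htr
      · linear_combination (A 1 0) * htr
      · linear_combination (A 1 1) * htr + hab
    have hpow : ∀ m, A ^ (m + 1) = a ^ (m + 1) • (1 : Matrix (Fin 2) (Fin 2) k) + (((m + 1 : ℕ) : k) * a ^ m) • Y := by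
      intro m
      induction m with
      | zero => simp [Y]
      | succ m ih =>
        have hA : A = a • (1 : Matrix (Fin 2) (Fin 2) k) + Y := by simp [Y]
        conv_lhs => rw [pow_succ, ih, hA]
        simp only [add_mul, mul_add, smul_mul_assoc, mul_smul_comm, one_mul, mul_one, hY, smul_zero,
          add_zero]
        push_cast
        module
    obtain ⟨m, rfl⟩ : ∃ m, n = m + 1 := Nat.exists_eq_succ_of_ne_zero (by rintro rfl; simp at hnk)
    have h1 : A ^ (m + 1) = 1 := by rw [← mat_pow, hn, mat_one]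
    rw [hpow] at h1
    have ha0 : a ≠ 0 := by
      intro h0
      have hd : (ρ g : Matrix (Fin 2) (Fin 2) k).det ≠ 0 :=
        ((Matrix.isUnit_iff_isUnit_det _).mp (ρ g).isUnit).ne_zero
      apply hd
      show A.det = 0
      rw [← hab, h0, zero_mul]
    have hY' : Y = (((m + 1 : ℕ) : k) * a ^ m)⁻¹ • ((1 - a ^ (m + 1)) • (1 : Matrix (Fin 2) (Fin 2) k)) := by
      rw [eq_inv_smul_iff₀ (mul_ne_zero hnk (pow_ne_zero _ ha0)), sub_smul, one_smul]
      exact eq_sub_of_add_eq' h1
    exact hns ⟨a + (((m + 1 : ℕ) : k) * a ^ m)⁻¹ * (1 - a ^ (m + 1)), by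
      rw [add_smul, ← smul_smul, ← hY']; simp [Y, A]⟩
  obtain ⟨v, hv0, hv⟩ := hroot a (Or.inl rfl)
  obtain ⟨w, hw0, hw⟩ := hroot b (Or.inr rfl)
  have hvw : LinearIndependent k ![v, w] := by
    refine LinearIndependent.pair_iff.mpr fun c d hcd => ?_
    have h1 := congrArg (A *ᵥ ·) hcd
    simp only [mulVec_add, mulVec_smul, hv, hw, mulVec_zero] at h1
    have h2 : (c * (a - b)) • v = 0 := by
      calc (c * (a - b)) • v = c • a • v + d • b • w - b • (c • v + d • w) := by module
        _ = 0 := by rw [h1, hcd, smul_zero, sub_zero]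
    have hc : c = 0 := by
      rcases mul_eq_zero.mp ((smul_eq_zero.mp h2).resolve_right hv0) with h | h
      · exact h
      · exact absurd (sub_eq_zero.mp h) hne
    rw [hc, zero_smul, zero_add] at hcd
    exact ⟨hc, (smul_eq_zero.mp hcd).resolve_right hw0⟩
  refine ⟨v, w, hvw, ⟨a, hv⟩, ⟨b, hw⟩, fun x hx0 hx => ?_⟩
  obtain ⟨c, hc⟩ := hx
  obtain ⟨p, q, rfl⟩ := exists_coords hvw x
  change A *ᵥ (p • v + q • w) = c • (p • v + q • w) at hc
  rw [mulVec_add, mulVec_smul, mulVec_smul, hv, hw, smul_smul, smul_smul, smul_add, smul_smul,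
    smul_smul] at hc
  have h0 : (p * a - c * p) • v + (q * b - c * q) • w = 0 := by
    rw [sub_smul, sub_smul, sub_add_sub_comm, hc, sub_self]
  obtain ⟨e1, e2⟩ := LinearIndependent.pair_iff.mp hvw _ _ h0
  by_cases hp : p = 0
  · exact Or.inr (by simp [hp, Submodule.smul_mem, Submodule.mem_span_singleton_self])
  · by_cases hq : q = 0
    · exact Or.inl (by simp [hq, Submodule.smul_mem, Submodule.mem_span_singleton_self])
    · exfalso
      have ea : a = c := mul_left_cancel₀ hp (by linear_combination e1)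
      have eb : b = c := mul_left_cancel₀ hq (by linear_combination e2)
      exact hne (ea.trans eb.symm)

/-- the action on column vectors -/
abbrev vecAction : DistribMulAction G (Fin 2 → k) where
  smul g v := mat ρ g *ᵥ v
  one_smul v := by show mat ρ 1 *ᵥ v = v; simp
  mul_smul g h v := by
    show mat ρ (g * h) *ᵥ v = mat ρ g *ᵥ (mat ρ h *ᵥ v)
    rw [mat_mul, mulVec_mulVec]
  smul_zero g := mulVec_zero _
  smul_add g := mulVec_add _

/-- the class equation for the fixed points of a finite group acting on the projective line -/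
theorem class_equation {O : Type*} [DecidableEq O] (s : Finset O) (n : O → ℕ) {N : ℕ}
    (hn : ∀ o ∈ s, 1 ≤ n o ∧ ∃ m, 2 ≤ m ∧ n o * m = N) (hN : 2 ≤ N)
    (h : ∑ o ∈ s, (N - n o) = 2 * N - 2) :
    N ≤ 60 ∨ (∃ o ∈ s, n o = 2) ∨ (∃ o ∈ s, ∃ o' ∈ s, o ≠ o' ∧ n o = 1 ∧ n o' = 1) := by
  have hhalf : ∀ o ∈ s, N ≤ 2 * (N - n o) ∧ n o ≤ N := fun o ho => by
    obtain ⟨-, m, hm, he⟩ := hn o ho
    constructor <;> [skip; nlinarith]
    have : 2 * n o ≤ N := by nlinarith
    omega
  have hlo : s.card * N ≤ 2 * (2 * N - 2) := by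
    rw [← h, Finset.mul_sum, ← smul_eq_mul, ← Finset.sum_const]
    exact Finset.sum_le_sum fun o ho => (hhalf o ho).1
  have hc : s.card ≤ 3 := by
    by_contra hh
    have : 4 * N ≤ s.card * N := Nat.mul_le_mul_right N (by omega)
    omega
  interval_cases hs : s.card
  · rw [Finset.card_eq_zero.mp hs, Finset.sum_empty] at h
    omega
  · obtain ⟨o, rfl⟩ := Finset.card_eq_one.mp hs
    rw [Finset.sum_singleton] at h
    have := (hn o (Finset.mem_singleton_self o)).1
    omega
  · obtain ⟨o, o', hne, rfl⟩ := Finset.card_eq_two.mp hs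
    rw [Finset.sum_pair hne] at h
    have h1 := (hn o (by simp)).1
    have h2 := (hn o' (by simp)).1
    have := (hhalf o (by simp)).2
    have := (hhalf o' (by simp)).2
    exact Or.inr (Or.inr ⟨o, by simp, o', by simp, hne, by omega, by omega⟩)
  · obtain ⟨x, y, z, hxy, hxz, hyz, rfl⟩ := Finset.card_eq_three.mp hs
    rw [Finset.sum_insert (by simp [hxy, hxz]), Finset.sum_pair hyz] at h
    have := (hhalf x (by simp)).2
    have := (hhalf y (by simp)).2
    have := (hhalf z (by simp)).2
    have hsum : n x + n y + n z = N + 2 := by omega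
    obtain ⟨-, a, ha, hax⟩ := hn x (by simp)
    obtain ⟨-, b, hb, hby⟩ := hn y (by simp)
    obtain ⟨-, c, hc', hcz⟩ := hn z (by simp)
    by_cases h2 : n x = 2 ∨ n y = 2 ∨ n z = 2
    · rcases h2 with h2 | h2 | h2
      · exact Or.inr (Or.inl ⟨x, by simp, h2⟩)
      · exact Or.inr (Or.inl ⟨y, by simp, h2⟩)
      · exact Or.inr (Or.inl ⟨z, by simp, h2⟩)
    · left
      push Not at h2
      -- reciprocal form: bc + ac + ab = abc (1 + 2/N)
      have key : ∀ p q r a b c : ℕ, p * a = N → q * b = N → r * c = N → p + q + r = N + 2 →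
          2 ≤ a → a ≤ b → b ≤ c → r ≠ 2 → N ≤ 60 := by
        intro p q r a b c e1 e2 e3 es h2a hab hbc hr2
        have ha2 : a = 2 := by
          by_contra hne
          have h3 : 3 ≤ a := by omega
          nlinarith [Nat.mul_le_mul_left p h3, Nat.mul_le_mul_left q (h3.trans hab),
            Nat.mul_le_mul_left r (h3.trans (hab.trans hbc))]
        subst ha2
        have hb3 : b ≤ 3 := by
          by_contra hne
          have h4 : 4 ≤ b := by omega
          nlinarith [Nat.mul_le_mul_left q h4, Nat.mul_le_mul_left r (h4.trans hbc)]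
        interval_cases b
        · omega
        · have hc5 : c ≤ 5 := by
            by_contra hne
            nlinarith [Nat.mul_le_mul_left r (show 6 ≤ c by omega)]
          interval_cases c <;> omega
      rcases le_total a b with hab | hab <;> rcases le_total b c with hbc | hbc <;>
        rcases le_total a c with hac | hac
      all_goals first
        | exact key _ _ _ a b c hax hby hcz (by omega) ha hab hbc h2.2.2
        | exact key _ _ _ a c b hax hcz hby (by omega) ha hac hbc h2.2.1
        | exact key _ _ _ b a c hby hax hcz (by omega) hb hab hac h2.2.2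
        | exact key _ _ _ b c a hby hcz hax (by omega) hb hbc hac h2.1
        | exact key _ _ _ c a b hcz hax hby (by omega) hc' hac hab h2.2.1
        | exact key _ _ _ c b a hcz hby hax (by omega) hc' hbc hab h2.1

/-- **Bounded subgroups of `GL₂`**: a finite semisimple group with at most `M` values of trace and
determinant on a subset of relative size at least `199/200` has at most `180 M` elements. -/
theorem card_le_of_few_trDet [IsAlgClosed k] [Fintype G] {ℓ : ℕ} [Fact ℓ.Prime] [CharP k ℓ]
    (hinj : Function.Injective ρ) (hss : IsSS ρ) (Hs : Finset G) (T : Finset (k × k))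
    (hT : ∀ g ∈ Hs, trDet ρ g ∈ T) (hHs : 199 * Fintype.card G ≤ 200 * Hs.card)
    (hbig : 2 * T.card + 2 < ℓ) : Fintype.card G ≤ 180 * T.card := by
  classical
  have hG := Fintype.card_pos (α := G)
  have hnd := not_dvd_card_of_few ρ hinj hss Hs T hT (by omega) hbig
  have hk : ((Fintype.card G : ℕ) : k) ≠ 0 := by rwa [Ne, CharP.cast_eq_zero_iff k ℓ]
  have pair : ∀ g, ¬ IsScal ρ g → ∃ v w : Fin 2 → k, LinearIndependent k ![v, w] ∧ IsEig ρ g v ∧
      IsEig ρ g w ∧ ∀ x : Fin 2 → k, x ≠ 0 → IsEig ρ g x →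
        x ∈ Submodule.span k {v} ∨ x ∈ Submodule.span k {w} := fun g hg =>
    exists_eig_pair ρ (pow_card_eq_one) hk hg
  -- the set outside `Hs` is small
  have hout : ∀ S : Finset G, 200 * S.card ≤ 200 * (S ∩ Hs).card + Fintype.card G := fun S => by
    have h1 : S.card ≤ (S ∩ Hs).card + Hsᶜ.card := by
      refine (Finset.card_le_card fun g hg => ?_).trans (Finset.card_union_le _ _)
      by_cases h : g ∈ Hs
      · exact Finset.mem_union_left _ (Finset.mem_inter.mpr ⟨hg, h⟩)
      · exact Finset.mem_union_right _ (Finset.mem_compl.mpr h)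
    rw [Finset.card_compl] at h1
    have := Finset.card_le_univ Hs
    omega
  letI := vecAction ρ
  haveI : SMulCommClass G k (Fin 2 → k) := ⟨fun g c v => mulVec_smul (mat ρ g) c v⟩
  have hfix : ∀ (g : G) (v : Fin 2 → k) (hv : v ≠ 0),
      g • Projectivization.mk k v hv = Projectivization.mk k v hv ↔ IsEig ρ g v := by
    intro g v hv
    rw [Projectivization.smul_mk, Projectivization.mk_eq_mk_iff']
    exact ⟨fun ⟨c, hc⟩ => ⟨c, hc.symm⟩, fun ⟨c, hc⟩ => ⟨c, hc.symm⟩⟩
  let Z : Subgroup G :=
    { carrier := {g | IsScal ρ g}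
      one_mem' := ⟨1, by simp⟩
      mul_mem' := by
        rintro g h ⟨c, hc⟩ ⟨d, hd⟩
        exact ⟨c * d, by rw [mat_mul, hc, hd, smul_mul_assoc, one_mul, smul_smul]⟩
      inv_mem' := by
        rintro g ⟨c, hc⟩
        have h := mat_mul ρ g⁻¹ g
        rw [inv_mul_cancel, mat_one, hc, mul_smul_comm, mul_one] at h
        have hc0 : c ≠ 0 := by rintro rfl; simp at h
        exact ⟨c⁻¹, by rw [h, smul_smul, inv_mul_cancel₀ hc0, one_smul]⟩ }
  set ZS := Finset.univ.filter fun g => IsScal ρ g
  have hZc : ZS.card = Nat.card Z := by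
    rw [Nat.card_eq_fintype_card, Fintype.card_subtype]
    rfl
  have hZ : 200 * ZS.card ≤ 400 * T.card + Fintype.card G := by
    have h1 := card_scal_trDet_le ρ hinj (ZS ∩ Hs)
      (fun g hg => (Finset.mem_filter.mp (Finset.mem_inter.mp hg).1).2) T
      (fun g hg => hT g (Finset.mem_inter.mp hg).2)
    have := hout ZS
    omega
  -- two common eigenlines for half of the group
  have hdiag : ∀ (v w : Fin 2 → k) (hv : v ≠ 0) (hw : w ≠ 0),
      Projectivization.mk k v hv ≠ Projectivization.mk k w hw →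
      Fintype.card G ≤ 2 * (Finset.univ.filter fun g => IsEig ρ g v ∧ IsEig ρ g w).card →
      Fintype.card G ≤ 180 * T.card := by
    intro v w hv hw hne hle
    set D := Finset.univ.filter fun g => IsEig ρ g v ∧ IsEig ρ g w
    have hli : LinearIndependent k ![v, w] := by
      rw [LinearIndependent.pair_iff' hv]
      intro c hc
      exact hne ((Projectivization.mk_eq_mk_iff' k w v hw hv).mpr ⟨c, hc⟩).symm
    have h1 := card_eig_trDet_le ρ hinj hli (D ∩ Hs)
      (fun g hg => (Finset.mem_filter.mp (Finset.mem_inter.mp hg).1).2.1)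
      (fun g hg => (Finset.mem_filter.mp (Finset.mem_inter.mp hg).1).2.2) T
      (fun g hg => hT g (Finset.mem_inter.mp hg).2)
    have := hout D
    omega
  by_cases hall : ∀ g, IsScal ρ g
  · have : ZS = Finset.univ := Finset.filter_true_of_mem fun g _ => hall g
    rw [this, Finset.card_univ] at hZ
    omega
  push Not at hall
  obtain ⟨g₁, hg₁⟩ := hall
  -- fixed points
  have hFix : ∀ g, ¬ IsScal ρ g → ∃ F : Finset (Projectivization k (Fin 2 → k)), F.card = 2 ∧
      ∀ x, x ∈ F ↔ g • x = x := by
    intro g hg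
    obtain ⟨v, w, hvw, hv, hw, honly⟩ := pair g hg
    have hv0 : v ≠ 0 := hvw.ne_zero 0
    have hw0 : w ≠ 0 := hvw.ne_zero 1
    refine ⟨{Projectivization.mk k v hv0, Projectivization.mk k w hw0}, Finset.card_pair ?_, ?_⟩
    · intro h
      obtain ⟨c, hc⟩ := (Projectivization.mk_eq_mk_iff' k v w hv0 hw0).mp h
      have := LinearIndependent.pair_iff.mp hvw 1 (-c) (by rw [← hc]; module)
      exact one_ne_zero this.1
    · intro x
      induction x using Projectivization.ind with
      | h x hx =>
        rw [hfix, Finset.mem_insert, Finset.mem_singleton, Projectivization.mk_eq_mk_iff',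
          Projectivization.mk_eq_mk_iff', ← Submodule.mem_span_singleton,
          ← Submodule.mem_span_singleton]
        refine ⟨fun h => ?_, honly x hx⟩
        rcases h with h | h <;> obtain ⟨c, rfl⟩ := Submodule.mem_span_singleton.mp h
        · obtain ⟨d, hd⟩ := hv
          exact ⟨d, by rw [mulVec_smul, hd, smul_comm]⟩
        · obtain ⟨d, hd⟩ := hw
          exact ⟨d, by rw [mulVec_smul, hd, smul_comm]⟩
  choose! F hF2 hFmem using hFix
  set NS := Finset.univ.filter fun g => ¬ IsScal ρ g
  set X := NS.biUnion F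
  have hXfix : ∀ x, x ∈ X ↔ ∃ g, ¬ IsScal ρ g ∧ g • x = x := fun x => by
    simp only [X, NS, Finset.mem_biUnion, Finset.mem_filter, Finset.mem_univ, true_and]
    exact ⟨fun ⟨g, hg, hx⟩ => ⟨g, hg, (hFmem g hg x).mp hx⟩,
      fun ⟨g, hg, hx⟩ => ⟨g, hg, (hFmem g hg x).mpr hx⟩⟩
  have hscal : ∀ g, IsScal ρ g → ∀ x : Projectivization k (Fin 2 → k), g • x = x := by
    intro g hg x
    obtain ⟨c, hc⟩ := hg
    induction x using Projectivization.ind with
    | h x hx => exact (hfix g x hx).mpr ⟨c, by rw [hc, smul_mulVec, one_mulVec]⟩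
  have hXst : ∀ x ∈ X, ∀ h : G, h • x ∈ X := by
    intro x hx h
    obtain ⟨g, hg, hgx⟩ := (hXfix x).mp hx
    refine (hXfix _).mpr ⟨h * g * h⁻¹, fun hs => hg ?_, by rw [mul_smul, mul_smul, inv_smul_smul, hgx]⟩
    obtain ⟨c, hc⟩ := hs
    refine ⟨c, ?_⟩
    have e : g = h⁻¹ * (h * g * h⁻¹) * h := by group
    rw [e, mat_mul, mat_mul, hc, mul_smul_comm, mul_one, smul_mul_assoc, ← mat_mul, inv_mul_cancel,
      mat_one]
  -- the incidence count
  set St : Projectivization k (Fin 2 → k) → Finset G := fun x => Finset.univ.filter fun g => g • x = x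
  have hinc : ∑ x ∈ X, ((St x).card - ZS.card) = 2 * (Fintype.card G - ZS.card) := by
    have hNS : Fintype.card G - ZS.card = NS.card := by
      have h1 : ZS.card + NS.card = Fintype.card G :=
        Finset.card_filter_add_card_filter_not (s := Finset.univ) (fun g => IsScal ρ g)
      omega
    rw [hNS, mul_comm, ← smul_eq_mul, ← Finset.sum_const]
    rw [← Finset.sum_congr rfl fun g hg => hF2 g (Finset.mem_filter.mp hg).2]
    have : ∀ x ∈ X, (St x).card - ZS.card = (NS.filter fun g => x ∈ F g).card := fun x _ => by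
      rw [← Finset.card_sdiff_of_subset (fun g hg => by
        simp only [St, Finset.mem_filter, Finset.mem_univ, true_and]
        exact hscal g (Finset.mem_filter.mp hg).2 x)]
      congr 1
      ext g
      simp only [St, ZS, NS, Finset.mem_sdiff, Finset.mem_filter, Finset.mem_univ, true_and]
      exact ⟨fun ⟨h1, h2⟩ => ⟨h2, (hFmem g h2 x).mpr h1⟩, fun ⟨h1, h2⟩ => ⟨(hFmem g h1 x).mp h2, h1⟩⟩
    rw [Finset.sum_congr rfl this]
    refine (Finset.sum_card_bipartiteAbove_eq_sum_card_bipartiteBelow
      (r := fun (x : Projectivization k (Fin 2 → k)) (g : G) => x ∈ F g)).trans ?_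
    refine Finset.sum_congr rfl fun g hg => congrArg Finset.card ?_
    ext x
    simp only [Finset.mem_bipartiteBelow]
    exact ⟨fun h => h.2, fun h => ⟨Finset.mem_biUnion.mpr ⟨g, hg, h⟩, h⟩⟩
  -- orbits
  set orb : Projectivization k (Fin 2 → k) → Finset (Projectivization k (Fin 2 → k)) :=
    fun x => Finset.univ.image fun g : G => g • x
  set O := X.image orb
  have horb : ∀ x, ∀ y ∈ orb x, orb y = orb x := by
    intro x y hy
    obtain ⟨h, -, rfl⟩ := Finset.mem_image.mp hy
    ext z
    simp only [orb, Finset.mem_image, Finset.mem_univ, true_and]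
    exact ⟨fun ⟨g, hg⟩ => ⟨g * h, by rw [mul_smul, hg]⟩,
      fun ⟨g, hg⟩ => ⟨g * h⁻¹, by rw [mul_smul, inv_smul_smul, hg]⟩⟩
  have hos : ∀ x, (orb x).card * (St x).card = Fintype.card G := fun x => by
    haveI : Fintype (MulAction.orbit G x) := Set.fintypeRange _
    have e : orb x = (MulAction.orbit G x).toFinset := by
      ext y; simp [orb, MulAction.orbit]
    rw [e, Set.toFinset_card, ← MulAction.card_orbit_mul_card_stabilizer_eq_card_group G x]
    congr 1
    rw [Fintype.card_subtype]
    rfl
  obtain ⟨N, hN⟩ : ZS.card ∣ Fintype.card G := by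
    rw [hZc, ← Nat.card_eq_fintype_card]
    exact Subgroup.card_subgroup_dvd_card Z
  have hZpos : 0 < ZS.card := Finset.card_pos.mpr ⟨1, by simp [ZS, IsScal]; exact ⟨1, by simp⟩⟩
  have hN2 : 2 ≤ N := by
    have : ZS.card < Fintype.card G := by
      rw [← Finset.card_univ]
      exact Finset.card_lt_card ((Finset.filter_ssubset).mpr ⟨g₁, Finset.mem_univ _, hg₁⟩)
    rw [hN] at this
    have := (lt_mul_iff_one_lt_right hZpos).mp this
    omega
  have hOprop : ∀ o ∈ O, 1 ≤ o.card ∧ ∃ m, 2 ≤ m ∧ o.card * m = N := by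
    intro o ho
    obtain ⟨x, hx, rfl⟩ := Finset.mem_image.mp ho
    refine ⟨Finset.card_pos.mpr ⟨x, Finset.mem_image.mpr ⟨1, Finset.mem_univ _, one_smul _ _⟩⟩, ?_⟩
    obtain ⟨m, hm⟩ : ZS.card ∣ (St x).card := by
      have hst : (St x).card = Nat.card (MulAction.stabilizer G x) := by
        rw [Nat.card_eq_fintype_card, Fintype.card_subtype]
        rfl
      rw [hst, hZc]
      exact Subgroup.card_dvd_of_le fun g hg => hscal g hg x
    refine ⟨m, ?_, ?_⟩
    · have : ZS.card < (St x).card := by
        refine Finset.card_lt_card (Finset.ssubset_iff_subset_ne.mpr ⟨fun g hg => ?_, ?_⟩)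
        · simp only [St, Finset.mem_filter, Finset.mem_univ, true_and]
          exact hscal g (Finset.mem_filter.mp hg).2 x
        · intro heq
          obtain ⟨g, hg, hgx⟩ := (hXfix x).mp hx
          have : g ∈ St x := by simp [St, hgx]
          rw [← heq] at this
          exact hg (Finset.mem_filter.mp this).2
      rw [hm] at this
      have := (lt_mul_iff_one_lt_right hZpos).mp this
      omega
    · have h1 := hos x
      rw [hm, hN] at h1
      exact mul_left_cancel₀ hZpos.ne' (by linear_combination h1)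
  have heq : ∑ o ∈ O, (N - o.card) = 2 * N - 2 := by
    have h1 : ∑ x ∈ X, ((St x).card - ZS.card) = ∑ o ∈ O, ZS.card * (N - o.card) := by
      rw [← Finset.sum_fiberwise_of_maps_to (g := orb) (fun x hx => Finset.mem_image_of_mem _ hx)]
      refine Finset.sum_congr rfl fun o ho => ?_
      obtain ⟨x, hx, rfl⟩ := Finset.mem_image.mp ho
      have hfib : X.filter (fun y => orb y = orb x) = orb x := by
        ext y
        simp only [Finset.mem_filter]
        constructor
        · rintro ⟨-, hy⟩
          rw [← hy]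
          exact Finset.mem_image.mpr ⟨1, Finset.mem_univ _, one_smul _ _⟩
        · intro hy
          refine ⟨?_, horb x y hy⟩
          obtain ⟨h, -, rfl⟩ := Finset.mem_image.mp hy
          exact hXst x hx h
      rw [hfib, Finset.sum_congr rfl (fun y hy => show (St y).card - ZS.card = (St x).card - ZS.card by
        have h1 := hos y
        rw [horb x y hy, ← hos x] at h1
        rw [mul_left_cancel₀ (Finset.card_pos.mpr ⟨y, hy⟩).ne' h1]), Finset.sum_const, smul_eq_mul,
        Nat.mul_sub, hos x, hN, Nat.mul_sub, mul_comm (orb x).card]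
    rw [hinc, ← Finset.mul_sum] at h1
    refine Nat.eq_of_mul_eq_mul_left hZpos ?_
    rw [← h1, hN, Nat.mul_sub, Nat.mul_sub]
    congr 1 <;> ring
  rcases class_equation O Finset.card hOprop hN2 heq with h60 | ⟨o, ho, ho2⟩ | ⟨o, ho, o', ho', hne, h1, h1'⟩
  · have h1 : Fintype.card G ≤ 60 * ZS.card := by
      rw [hN, mul_comm 60]
      exact Nat.mul_le_mul_left _ h60
    omega
  · obtain ⟨x, hx, rfl⟩ := Finset.mem_image.mp ho
    obtain ⟨y, z, hyz, hoe⟩ := Finset.card_eq_two.mp ho2
    obtain ⟨v, hv, rfl⟩ : ∃ v hv, Projectivization.mk k v hv = y := ⟨y.rep, y.rep_nonzero, y.mk_rep⟩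
    obtain ⟨w, hw, rfl⟩ : ∃ w hw, Projectivization.mk k w hw = z := ⟨z.rep, z.rep_nonzero, z.mk_rep⟩
    refine hdiag v w hv hw hyz (le_of_eq ?_)
    have hy : Projectivization.mk k v hv ∈ orb x := by rw [hoe]; simp
    have h := hos (Projectivization.mk k v hv)
    rw [horb x _ hy, ho2] at h
    rw [← h]
    congr 2
    ext g
    simp only [St, Finset.mem_filter, Finset.mem_univ, true_and, ← hfix g v hv, ← hfix g w hw]
    refine ⟨fun h => ⟨h, ?_⟩, fun h => h.1⟩
    have hz : g • Projectivization.mk k w hw ∈ orb x := by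
      have hz0 : Projectivization.mk k w hw ∈ orb x := by rw [hoe]; simp
      obtain ⟨h', -, e'⟩ := Finset.mem_image.mp hz0
      exact Finset.mem_image.mpr ⟨g * h', Finset.mem_univ _, by rw [mul_smul, e']⟩
    rw [hoe, Finset.mem_insert, Finset.mem_singleton] at hz
    rcases hz with hz | hz
    · exact absurd (smul_left_cancel g (hz.trans h.symm)).symm hyz
    · exact hz
  · obtain ⟨x, hx, rfl⟩ := Finset.mem_image.mp ho
    obtain ⟨y, hy, rfl⟩ := Finset.mem_image.mp ho'
    obtain ⟨v, hv, rfl⟩ : ∃ v hv, Projectivization.mk k v hv = x := ⟨x.rep, x.rep_nonzero, x.mk_rep⟩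
    obtain ⟨w, hw, rfl⟩ : ∃ w hw, Projectivization.mk k w hw = y := ⟨y.rep, y.rep_nonzero, y.mk_rep⟩
    refine hdiag v w hv hw (fun h => hne (by rw [h])) ?_
    have hfixall : ∀ (z : Projectivization k (Fin 2 → k)), (orb z).card = 1 → ∀ g : G, g • z = z :=
      fun z hz g => Finset.card_le_one.mp hz.le _ (Finset.mem_image_of_mem _ (Finset.mem_univ g)) _
        (Finset.mem_image.mpr ⟨1, Finset.mem_univ _, one_smul _ _⟩)
    rw [Finset.filter_true_of_mem fun g _ => ⟨(hfix g v hv).mp (hfixall _ h1 g),
      (hfix g w hw).mp (hfixall _ h1' g)⟩, Finset.card_univ]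
    omega

end FLTAgent.DS

end
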