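import Mathlib

/-!
Area DS, parcel DS9 (b): lifting a representation in two variables of a group of small order to
characteristic zero.
-/

set_option autoImplicit false
set_option linter.style.haveILetI false

noncomputable section

open Matrix Polynomial

namespace FLTAgent.DS

variable {G : Type*} [Group G] [Fintype G] [DecidableEq G]

/-- translations of functions `G → R²` -/
def permMat (R : Type*) [CommRing R] (h : G) : Matrix (G × Fin 2) (G × Fin 2) R :=
  fun x y => if y.1 = h⁻¹ * x.1 ∧ y.2 = x.2 then 1 else 0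

variable {R : Type*} [CommRing R]

theorem permMat_mul_apply {m : Type*} (h : G) (B : Matrix (G × Fin 2) m R) (x : G × Fin 2) (y : m) :
    (permMat R h * B) x y = B (h⁻¹ * x.1, x.2) y := by
  classical
  rw [Matrix.mul_apply, Finset.sum_eq_single (h⁻¹ * x.1, x.2)]
  · simp [permMat]
  · intro z _ hz
    have : ¬ (z.1 = h⁻¹ * x.1 ∧ z.2 = x.2) := fun hh => hz (Prod.ext hh.1 hh.2)
    simp [permMat, this]
  · simp

theorem mul_permMat_apply {m : Type*} (h : G) (B : Matrix m (G × Fin 2) R) (x : m) (y : G × Fin 2) :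
    (B * permMat R h) x y = B x (h * y.1, y.2) := by
  classical
  rw [Matrix.mul_apply, Finset.sum_eq_single (h * y.1, y.2)]
  · simp [permMat]
  · intro z _ hz
    have : ¬ (y.1 = h⁻¹ * z.1 ∧ y.2 = z.2) := fun hh =>
      hz (Prod.ext (by rw [hh.1, mul_inv_cancel_left]) hh.2.symm)
    simp [permMat, this]
  · simp

theorem permMat_one : permMat R (1 : G) = 1 := by
  ext x y
  by_cases h : x = y
  · subst h; simp [permMat]
  · have : ¬ (y.1 = (1 : G)⁻¹ * x.1 ∧ y.2 = x.2) := fun hh =>
      h (Prod.ext (by simpa using hh.1.symm) hh.2.symm)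
    rw [Matrix.one_apply_ne h]
    simp only [permMat, if_neg this]

theorem permMat_mul (g h : G) : permMat R (g * h) = permMat R g * permMat R h := by
  ext x y
  rw [permMat_mul_apply]
  simp [permMat, mul_assoc]

theorem map_permMat {S : Type*} [CommRing S] (f : R →+* S) (h : G) :
    (permMat R h).map f = permMat S h := by
  ext x y
  simp [permMat, apply_ite f]

theorem aeval_of_idem {k : Type*} [CommRing k] {n : Type*} [Fintype n] [DecidableEq n]
    {P : Matrix n n k} (hP : P * P = P) (f : k[X]) :
    aeval P f = f.eval 0 • (1 - P) + f.eval 1 • P := by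
  induction f using Polynomial.induction_on' with
  | add a b ha hb => simp only [map_add, ha, hb, eval_add, add_smul]; abel
  | monomial m c =>
    rw [aeval_monomial, Algebra.algebraMap_eq_smul_one, smul_mul_assoc, one_mul]
    rcases Nat.eq_zero_or_pos m with rfl | hm
    · simp [smul_sub]
    · have hp : P ^ m = P := by
        obtain ⟨j, rfl⟩ := Nat.exists_eq_add_of_le' hm
        clear hm
        induction j with
        | zero => rw [zero_add, pow_one]
        | succ j ih => rw [pow_succ, ih, hP]
      simp [hp, zero_pow hm.ne']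

theorem isCoprime_prod_of_isUnit_sub {O : Type*} [CommRing O] (s t : Multiset O)
    (h : ∀ a ∈ s, ∀ b ∈ t, IsUnit (a - b)) :
    IsCoprime (s.map fun a => X - C a).prod (t.map fun b => X - C b).prod := by
  induction s using Multiset.induction_on with
  | empty => simp [isCoprime_one_left]
  | cons a s ih =>
    rw [Multiset.map_cons, Multiset.prod_cons]
    refine IsCoprime.mul_left ?_ (ih fun a' ha' => h a' (Multiset.mem_cons_of_mem ha'))
    clear ih
    induction t using Multiset.induction_on with
    | empty => simp [isCoprime_one_right]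
    | cons b t iht =>
      rw [Multiset.map_cons, Multiset.prod_cons]
      exact IsCoprime.mul_right
        (Polynomial.isCoprime_X_sub_C_of_isUnit_sub
          (h a (Multiset.mem_cons_self _ _) b (Multiset.mem_cons_self _ _)))
        (iht fun a' ha' b' hb' => h a' ha' b' (Multiset.mem_cons_of_mem hb'))

theorem two_mul_det {S : Type*} [CommRing S] (A : Matrix (Fin 2) (Fin 2) S) :
    2 * A.det = A.trace * A.trace - (A * A).trace := by
  simp [Matrix.det_fin_two, Matrix.trace_fin_two, Matrix.mul_apply, Fin.sum_univ_two]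
  ring

variable {O : Type*} [CommRing O] [IsDomain O] [IsLocalRing O] {k : Type*} [Field k]

/-- a representation in two variables of a group of order `< ℓ / 2` lifts to a local domain over which
monic polynomials split -/
theorem exists_lift (π : O →+* k) (hπ : Function.Surjective π)
    (hsplit : ∀ f : O[X], f.Monic → ∃ s : Multiset O, f = (s.map fun a => X - C a).prod)
    {ℓ : ℕ} [CharP k ℓ] (hℓ : ℓ.Prime) (hG : 2 * Fintype.card G < ℓ)
    (ρ : G →* GL (Fin 2) k) :
    ∃ σ : G →* GL (Fin 2) O, ∀ g,
      π (σ g : Matrix (Fin 2) (Fin 2) O).trace = (ρ g : Matrix (Fin 2) (Fin 2) k).trace ∧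
        π (σ g : Matrix (Fin 2) (Fin 2) O).det = (ρ g : Matrix (Fin 2) (Fin 2) k).det := by
  classical
  have hker : ∀ x : O, π x ≠ 0 → IsUnit x := by
    intro x hx
    by_contra hu
    have hm : RingHom.ker π = IsLocalRing.maximalIdeal O :=
      IsLocalRing.eq_maximalIdeal (RingHom.ker_isMaximal_of_surjective π hπ)
    exact hx (RingHom.mem_ker.1 (hm ▸ (IsLocalRing.mem_maximalIdeal x).2 hu))
  have hG1 : 0 < Fintype.card G := Fintype.card_pos
  have hnk : ((Fintype.card G : ℕ) : k) ≠ 0 := fun h0 => by
    have := Nat.le_of_dvd hG1 ((CharP.cast_eq_zero_iff k ℓ _).1 h0)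
    omega
  obtain ⟨u, hu⟩ := (hker (Fintype.card G : O) (by rwa [map_natCast])).exists_left_inv
  have hu' : π u = ((Fintype.card G : ℕ) : k)⁻¹ :=
    eq_inv_of_mul_eq_one_left (by rw [← map_natCast π, ← map_mul, hu, map_one])
  let E : Matrix (G × Fin 2) (Fin 2) k := fun x j => (ρ x.1⁻¹ : Matrix (Fin 2) (Fin 2) k) x.2 j
  let F : Matrix (Fin 2) (G × Fin 2) k := fun i x => π u * (ρ x.1 : Matrix (Fin 2) (Fin 2) k) i x.2
  have hFE : F * E = 1 := by
    ext i j
    rw [Matrix.mul_apply, Fintype.sum_prod_type]
    have hg : ∀ g : G, ∑ a, F i (g, a) * E (g, a) j = π u * (1 : Matrix (Fin 2) (Fin 2) k) i j := by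
      intro g
      simp only [F, E, mul_assoc, ← Finset.mul_sum, ← Matrix.mul_apply, ← Units.val_mul, ← map_mul,
        mul_inv_cancel, map_one, Units.val_one]
    rw [Finset.sum_congr rfl fun g _ => hg g, Finset.sum_const, Finset.card_univ, nsmul_eq_mul, hu',
      ← mul_assoc, mul_inv_cancel₀ hnk, one_mul]
  have hRE : ∀ h, permMat k h * E = E * (ρ h : Matrix (Fin 2) (Fin 2) k) := by
    intro h
    ext x j
    rw [permMat_mul_apply]
    have h1 : (ρ (h⁻¹ * x.1)⁻¹ : Matrix (Fin 2) (Fin 2) k) =
        (ρ x.1⁻¹ : Matrix (Fin 2) (Fin 2) k) * (ρ h : Matrix (Fin 2) (Fin 2) k) := by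
      rw [_root_.mul_inv_rev, inv_inv, map_mul, Units.val_mul]
    exact (congrFun (congrFun h1 x.2) j).trans Matrix.mul_apply
  have hFR : ∀ h, F * permMat k h = (ρ h : Matrix (Fin 2) (Fin 2) k) * F := by
    intro h
    ext i y
    rw [mul_permMat_apply]
    have h1 : (ρ (h * y.1) : Matrix (Fin 2) (Fin 2) k) i y.2 =
        ∑ a, (ρ h : Matrix (Fin 2) (Fin 2) k) i a * (ρ y.1 : Matrix (Fin 2) (Fin 2) k) a y.2 := by
      rw [map_mul, Units.val_mul]
      exact Matrix.mul_apply
    rw [Matrix.mul_apply]
    show π u * _ = ∑ a, (ρ h : Matrix (Fin 2) (Fin 2) k) i a * (π u * _)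
    rw [h1, Finset.mul_sum]
    exact Finset.sum_congr rfl fun a _ => mul_left_comm _ _ _
  set P := E * F with hP
  have hPP : P * P = P := by
    rw [hP, Matrix.mul_assoc E F, ← Matrix.mul_assoc F E, hFE, Matrix.one_mul]
  have hPcomm : ∀ h, permMat k h * P = P * permMat k h := by
    intro h
    rw [hP, ← Matrix.mul_assoc, hRE, Matrix.mul_assoc, ← hFR, ← Matrix.mul_assoc]
  -- an invariant lift
  choose lft hlft using hπ
  let P₀ : Matrix (G × Fin 2) (G × Fin 2) O := P.map lft
  let P₁ : Matrix (G × Fin 2) (G × Fin 2) O := u • ∑ g, permMat O g * P₀ * permMat O g⁻¹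
  have hP₁ : π.mapMatrix P₁ = P := by
    have h0 : π.mapMatrix P₀ = P := by ext x y; simp [P₀, hlft]
    have hp : ∀ g : G, π.mapMatrix (permMat O g) = permMat k g := fun g => map_permMat π g
    have hterm : ∀ g : G, π.mapMatrix (permMat O g * P₀ * permMat O g⁻¹) = P := fun g => by
      rw [map_mul, map_mul, hp, hp, h0, hPcomm, Matrix.mul_assoc, ← permMat_mul, mul_inv_cancel,
        permMat_one, Matrix.mul_one]
    rw [show P₁ = u • ∑ g, permMat O g * P₀ * permMat O g⁻¹ from rfl, RingHom.mapMatrix_apply]
    ext x y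
    rw [Matrix.map_apply, Matrix.smul_apply, smul_eq_mul, map_mul, Matrix.sum_apply, map_sum]
    have hxy : ∀ g : G, π ((permMat O g * P₀ * permMat O g⁻¹) x y) = P x y := fun g => by
      conv_rhs => rw [← hterm g]
      rfl
    rw [Finset.sum_congr rfl fun g _ => hxy g, Finset.sum_const, Finset.card_univ, nsmul_eq_mul, hu',
      ← mul_assoc, inv_mul_cancel₀ hnk, one_mul]
  have hP₁comm : ∀ h, permMat O h * P₁ = P₁ * permMat O h := by
    intro h
    simp only [P₁, Matrix.mul_smul, Matrix.smul_mul, Matrix.mul_sum, Matrix.sum_mul]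
    congr 1
    refine Fintype.sum_equiv (Equiv.mulLeft h) _ _ fun g => ?_
    simp only [Equiv.coe_mulLeft, _root_.mul_inv_rev, permMat_mul, ← Matrix.mul_assoc]
    rw [Matrix.mul_assoc _ (permMat O h⁻¹) (permMat O h), ← permMat_mul h⁻¹ h, inv_mul_cancel,
      permMat_one, Matrix.mul_one]
  -- its roots reduce to `0` or `1`
  obtain ⟨s, hs⟩ := hsplit _ P₁.charpoly_monic
  have hmap : P.charpoly = (s.map fun a => X - C (π a)).prod := by
    rw [← hP₁, RingHom.mapMatrix_apply, Matrix.charpoly_map, hs, Polynomial.map_multiset_prod,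
      Multiset.map_map]
    simp
  have hroot : ∀ c : k, P.charpoly.eval c = 0 ↔ ∃ a ∈ s, π a = c := by
    intro c
    rw [hmap, eval_multiset_prod, Multiset.prod_eq_zero_iff, Multiset.map_map, Multiset.mem_map]
    refine exists_congr fun a => and_congr_right fun _ => ?_
    simp only [Function.comp_apply, eval_sub, eval_X, eval_C]
    exact sub_eq_zero.trans eq_comm
  have h01 : ∀ a ∈ s, π a ≠ 0 → π a = 1 := by
    intro a ha h0
    have hev := (hroot (π a)).2 ⟨a, ha, rfl⟩
    rw [Matrix.eval_charpoly] at hev
    obtain ⟨v, hv0, hv⟩ := Matrix.exists_mulVec_eq_zero_iff.2 hev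
    rw [Matrix.sub_mulVec, sub_eq_zero, ← Matrix.diagonal_one] at *
    have hv' : P *ᵥ v = π a • v := by
      rw [← hv]; ext x; simp [Matrix.scalar_apply, Matrix.mulVec_diagonal]
    have h2 : (π a * π a) • v = π a • v := by
      rw [mul_smul, ← hv', ← Matrix.mulVec_smul, ← hv', Matrix.mulVec_mulVec, hPP]
    obtain ⟨x, hx⟩ := Function.ne_iff.1 hv0
    have h3 := mul_right_cancel₀ (by simpa using hx) (congrFun h2 x)
    exact mul_left_cancel₀ h0 (h3.trans (mul_one _).symm)
  set s1 := s.filter fun a => π a = 1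
  set s0 := s.filter fun a => ¬ π a = 1
  have hf : P₁.charpoly = (s1.map fun a => X - C a).prod * (s0.map fun a => X - C a).prod := by
    rw [hs, ← Multiset.prod_add, ← Multiset.map_add, Multiset.filter_add_not]
  obtain ⟨a', b', hab⟩ := isCoprime_prod_of_isUnit_sub s1 s0 fun a ha b hb => hker _ (by
    obtain ⟨-, ha⟩ := Multiset.mem_filter.1 ha
    obtain ⟨hbs, hb⟩ := Multiset.mem_filter.1 hb
    have hb0 : π b = 0 := by_contra fun h => hb (h01 b hbs h)
    simp [ha, hb0])
  set f1 := (s1.map fun a => X - C a).prod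
  set f0 := (s0.map fun a => X - C a).prod
  set e : Matrix (G × Fin 2) (G × Fin 2) O := aeval P₁ (b' * f0) with he
  have hee : e * e = e := by
    have h : e * aeval P₁ (a' * f1) = 0 := by
      rw [he, ← map_mul, show b' * f0 * (a' * f1) = a' * b' * (f1 * f0) by ring, map_mul, ← hf,
        Matrix.aeval_self_charpoly, mul_zero]
    have h1 : aeval P₁ (a' * f1) + e = 1 := by rw [he, ← map_add, hab, map_one]
    rw [← eq_sub_iff_add_eq] at h1
    rw [h1, Matrix.mul_sub, Matrix.mul_one, sub_eq_zero] at h
    exact h.symm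
  have hecomm : ∀ h, permMat O h * e = e * permMat O h := by
    intro h
    have hc : ∀ f : O[X], Commute (permMat O h) (aeval P₁ f) := by
      intro f
      induction f using Polynomial.induction_on' with
      | add f g hf hg => simpa using hf.add_right hg
      | monomial m c =>
        rw [aeval_monomial]
        exact (Algebra.commute_algebraMap_right c _).mul_right ((show Commute _ _ from hP₁comm h).pow_right m)
    exact hc _
  have heP : π.mapMatrix e = P := by
    have e1 : π.mapMatrix e = aeval P ((b' * f0).map π) := by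
      rw [he, ← hP₁, aeval_def, aeval_def, Polynomial.hom_eval₂, Polynomial.eval₂_map]
      congr 1
      ext c x y
      by_cases h : x = y <;> simp [h, Matrix.algebraMap_matrix_apply]
    rw [e1, aeval_of_idem hPP]
    have hv : ∀ (t : Multiset O) (c : k), (∃ a ∈ t, π a = c) →
        (((t.map fun a => X - C a).prod).map π).eval c = 0 := by
      rintro t c ⟨a, ha, rfl⟩
      rw [Polynomial.map_multiset_prod, eval_multiset_prod, Multiset.prod_eq_zero_iff]
      simp only [Multiset.map_map, Multiset.mem_map]
      exact ⟨a, ha, by simp⟩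
    have h1 : P ≠ 0 → ((b' * f0).map π).eval 1 = 1 := by
      intro hP0
      have : ∃ a ∈ s1, π a = 1 := by
        by_contra hno
        refine hP0 ?_
        have hz : ∀ a ∈ s, π a = 0 := fun a ha => by_contra fun h => hno
          ⟨a, Multiset.mem_filter.2 ⟨ha, h01 a ha h⟩, h01 a ha h⟩
        have hX : P.charpoly = X ^ Fintype.card (G × Fin 2) := by
          have hc : Multiset.card s = Fintype.card (G × Fin 2) := by
            rw [← Matrix.charpoly_natDegree_eq_dim P₁, hs, natDegree_multiset_prod_X_sub_C_eq_card]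
          rw [hmap, Multiset.map_congr rfl (fun a ha => by rw [hz a ha, map_zero, sub_zero]),
            Multiset.map_const', Multiset.prod_replicate, hc]
        have h := Matrix.aeval_self_charpoly P
        rw [hX] at h
        rw [aeval_of_idem hPP] at h
        simpa [zero_pow Fintype.card_ne_zero] using h
      have h := congrArg (fun f => (f.map π).eval 1) hab
      simp only [Polynomial.map_add, Polynomial.map_mul, eval_add, eval_mul, Polynomial.map_one,
        eval_one] at h
      rw [hv s1 1 this, mul_zero, zero_add] at h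
      simpa [Polynomial.map_mul] using h
    have h0 : 1 - P ≠ 0 → ((b' * f0).map π).eval 0 = 0 := by
      intro hP1
      rw [Polynomial.map_mul, eval_mul, hv s0 0 ?_, mul_zero]
      obtain ⟨a, ha, ha0⟩ := (hroot 0).1 (by
        rw [Matrix.eval_charpoly, map_zero, zero_sub, Matrix.det_neg]
        refine mul_eq_zero_of_right _ (by_contra fun hd => hP1 ?_)
        obtain ⟨Pi, hPi⟩ : ∃ Pi, Pi * P = 1 :=
          ⟨_, Matrix.nonsing_inv_mul P (Ne.isUnit hd)⟩
        rw [sub_eq_zero]
        calc (1 : Matrix (G × Fin 2) (G × Fin 2) k) = Pi * P := hPi.symm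
          _ = Pi * (P * P) := by rw [hPP]
          _ = P := by rw [← Matrix.mul_assoc, hPi, Matrix.one_mul])
      exact ⟨a, Multiset.mem_filter.2 ⟨ha, by simp [ha0]⟩, ha0⟩
    by_cases hP0 : P = 0
    · rw [h0 (by simp [hP0]), hP0]; simp
    · rw [h1 hP0]
      by_cases hP1 : 1 - P = 0
      · simp [hP1]
      · rw [h0 hP1]; simp
  -- the image of the idempotent
  let L : Module.End O (G × Fin 2 → O) := Matrix.mulVecLin e
  haveI : Module.Projective O (LinearMap.range L) :=
    Module.Projective.of_split (LinearMap.range L).subtype L.rangeRestrict (by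
      refine LinearMap.ext fun x => Subtype.ext ?_
      obtain ⟨y, hy⟩ := x.2
      simp only [LinearMap.comp_apply, Submodule.subtype_apply, LinearMap.id_apply]
      show e *ᵥ (x : G × Fin 2 → O) = x
      rw [← hy]
      show e *ᵥ (e *ᵥ y) = e *ᵥ y
      rw [Matrix.mulVec_mulVec, hee])
  haveI : Module.Finite O (LinearMap.range L) :=
    Module.Finite.of_surjective L.rangeRestrict L.surjective_rangeRestrict
  haveI : Module.Free O (LinearMap.range L) := Module.free_of_flat_of_isLocalRing
  let B := Module.Free.chooseBasis O (LinearMap.range L)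
  let ι := Module.Free.ChooseBasisIndex O (LinearMap.range L)
  let W : Matrix (G × Fin 2) ι O := fun x j => (B j : G × Fin 2 → O) x
  let U : Matrix ι (G × Fin 2) O := fun j x => B.repr (L.rangeRestrict (Pi.single x 1)) j
  have hUv : ∀ v, U *ᵥ v = fun j => B.repr (L.rangeRestrict v) j := by
    intro v
    funext j
    conv_rhs => rw [show v = ∑ x, v x • Pi.single x (1 : O) from pi_eq_sum_univ' v]
    rw [map_sum, map_sum, Finsupp.coe_finsetSum, Finset.sum_apply]
    refine Finset.sum_congr rfl fun x _ => ?_
    rw [map_smul, map_smul, Finsupp.smul_apply, smul_eq_mul]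
    exact mul_comm _ _
  have hWv : ∀ c : ι → O, W *ᵥ c = ((∑ j, c j • B j : LinearMap.range L) : G × Fin 2 → O) := by
    intro c
    funext x
    rw [Submodule.coe_sum, Finset.sum_apply]
    refine Finset.sum_congr rfl fun j _ => ?_
    rw [Submodule.coe_smul, Pi.smul_apply, smul_eq_mul]
    exact mul_comm _ _
  have hWU : W * U = e := by
    refine Matrix.ext_of_mulVec_single fun x => ?_
    rw [← Matrix.mulVec_mulVec, hUv, hWv, B.sum_repr]
    rfl
  have hUW : U * W = 1 := by
    refine Matrix.ext_of_mulVec_single fun j => ?_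
    rw [← Matrix.mulVec_mulVec, hUv, Matrix.one_mulVec]
    have : L.rangeRestrict (W *ᵥ Pi.single j 1) = B j := by
      refine Subtype.ext ?_
      show e *ᵥ (W *ᵥ Pi.single j 1) = _
      obtain ⟨y, hy⟩ := (B j).2
      have hWj : W *ᵥ Pi.single j 1 = (B j : G × Fin 2 → O) := by
        rw [Matrix.mulVec_single_one]; rfl
      rw [hWj, ← hy]
      show e *ᵥ (e *ᵥ y) = e *ᵥ y
      rw [Matrix.mulVec_mulVec, hee]
    rw [this, B.repr_self]
    exact Finsupp.single_eq_pi_single j 1
  have hcard : Fintype.card ι = 2 := by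
    have h1 : π e.trace = 2 := by
      rw [show π e.trace = (π.mapMatrix e).trace from AddMonoidHom.map_trace π.toAddMonoidHom e,
        heP, hP, Matrix.trace_mul_comm, hFE, Matrix.trace_one, Fintype.card_fin]
      norm_num
    rw [← hWU, Matrix.trace_mul_comm, hUW, Matrix.trace_one, map_natCast] at h1
    have hle : Fintype.card ι ≤ Fintype.card (G × Fin 2) := by
      have h := LinearMap.finrank_le_finrank_of_injective
        (f := (LinearMap.range L).subtype) Subtype.val_injective
      rwa [Module.finrank_eq_card_chooseBasisIndex, Module.finrank_pi] at h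
    rw [Fintype.card_prod, Fintype.card_fin] at hle
    exact ((CharP.natCast_eq_natCast k ℓ).1 (by simpa using h1)).eq_of_lt_of_lt (by omega)
      (by omega)
  let σ₀ : G →* Matrix ι ι O :=
    { toFun := fun h => U * permMat O h * W
      map_one' := by rw [permMat_one, Matrix.mul_one, hUW]
      map_mul' := fun g h => by
        rw [show U * permMat O g * W * (U * permMat O h * W) =
          U * (permMat O g * (W * U)) * permMat O h * W by simp only [Matrix.mul_assoc],
          hWU, hecomm, ← hWU, permMat_mul]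
        simp only [← Matrix.mul_assoc, hUW, Matrix.one_mul] }
  let q : ι ≃ Fin 2 := Fintype.equivFinOfCardEq hcard
  let σ : G →* GL (Fin 2) O :=
    ((Matrix.reindexAlgEquiv O O q).toAlgHom.toRingHom.toMonoidHom.comp σ₀).toHomUnits
  have htr : ∀ g, π (σ g : Matrix (Fin 2) (Fin 2) O).trace =
      (ρ g : Matrix (Fin 2) (Fin 2) k).trace := by
    intro g
    have e1 : (σ g : Matrix (Fin 2) (Fin 2) O).trace = (permMat O g * e).trace := by
      rw [← hWU, ← Matrix.mul_assoc, Matrix.trace_mul_comm _ U, ← Matrix.mul_assoc]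
      show (Matrix.reindex q q (σ₀ g)).trace = _
      rw [Matrix.trace, Matrix.trace]
      exact Fintype.sum_equiv q.symm _ _ fun i => rfl
    rw [e1, show π (permMat O g * e).trace = (π.mapMatrix (permMat O g * e)).trace from
      AddMonoidHom.map_trace π.toAddMonoidHom _, map_mul, heP,
      show π.mapMatrix (permMat O g) = permMat k g from map_permMat π g, hP, ← Matrix.mul_assoc, hRE,
      Matrix.trace_mul_comm, ← Matrix.mul_assoc, hFE, Matrix.one_mul]
  refine ⟨σ, fun g => ⟨htr g, ?_⟩⟩
  have h2 : (2 : k) ≠ 0 := by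
    intro h0
    have h0' : ((2 : ℕ) : k) = 0 := by exact_mod_cast h0
    have := Nat.le_of_dvd two_pos ((CharP.cast_eq_zero_iff k ℓ 2).1 h0')
    omega
  refine mul_left_cancel₀ h2 ?_
  have e := congrArg π (two_mul_det (σ g : Matrix (Fin 2) (Fin 2) O))
  rw [map_mul, map_sub, map_mul π (σ g : Matrix (Fin 2) (Fin 2) O).trace, map_ofNat, ← Units.val_mul,
    ← map_mul σ, htr, htr, map_mul, Units.val_mul] at e
  exact e.trans (two_mul_det _).symm

end FLTAgent.DS
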