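import Fermat.Agent.DS.DensityUse
import Fermat.Agent.DS.GroupsBound
import Fermat.Agent.DS.GroupsLift
import Fermat.Agent.Good.Main

/-!
Area DS, parcel DS10: lemmas for the assembly.
-/

set_option autoImplicit false
set_option linter.style.haveILetI false

noncomputable section

open Filter Topology Polynomial
open FLTAgent.Chebotarev (QBar GalQBar frobRes frobAt)
open IsLocalRing (ResidueField residue)

namespace FLTAgent.DS

theorem finite_range {H : Type} [Group H] (π : GalQBar →* H)
    (hπ : GaloisFactorsThroughFiniteLevel π) : Finite π.range := by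
  obtain ⟨L, hL, hN, hker⟩ := exists_normal_factor π hπ
  haveI := hL
  haveI := hN
  haveI : IsGalois ℚ QBar := FLTAgent.Alg.qb_isGalois
  have hrs := AlgEquiv.restrictNormalHom_surjective (F := ℚ) (K₁ := L) QBar
  choose g hg using hrs
  refine Finite.of_surjective (fun x : L ≃ₐ[ℚ] L => (⟨π (g x), ⟨_, rfl⟩⟩ : π.range)) ?_
  rintro ⟨_, σ, rfl⟩
  refine ⟨AlgEquiv.restrictNormalHom L σ, Subtype.ext ?_⟩
  have h : π ((g (AlgEquiv.restrictNormalHom L σ))⁻¹ * σ) = 1 :=
    hker _ (by rw [map_mul, map_inv, hg, inv_mul_cancel])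
  rw [map_mul, map_inv, inv_mul_eq_one] at h
  exact h

/-- trace and determinant through eigenvalues, which are roots of unity for elements of finite
order -/
theorem exists_eigen_pair {F : Type*} [Field F] [IsAlgClosed F] (M : Matrix (Fin 2) (Fin 2) F)
    {m : ℕ} (hM : M ^ m = 1) :
    ∃ x y : F, x ^ m = 1 ∧ y ^ m = 1 ∧ M.trace = x + y ∧ M.det = x * y := by
  obtain ⟨x, hx⟩ := IsAlgClosed.exists_root M.charpoly (by
    rw [Matrix.charpoly_degree_eq_dim]; simp)
  have hev : x * x - M.trace * x + M.det = 0 := by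
    have h : M.charpoly.eval x = 0 := hx
    rw [Matrix.charpoly_fin_two] at h
    simpa [pow_two] using h
  have hroot : ∀ z : F, z * z - M.trace * z + M.det = 0 → z ^ m = 1 := by
    intro z hz
    have h : M.charpoly.eval z = 0 := by
      rw [Matrix.charpoly_fin_two]
      simpa [pow_two] using hz
    rw [Matrix.eval_charpoly] at h
    obtain ⟨v, hv0, hv⟩ := Matrix.exists_mulVec_eq_zero_iff.2 h
    rw [Matrix.sub_mulVec, sub_eq_zero] at hv
    have hv' : M.mulVec v = z • v := by
      rw [← hv]; ext i; simp [Matrix.scalar_apply, Matrix.mulVec_diagonal]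
    have hpow : ∀ n : ℕ, (M ^ n).mulVec v = z ^ n • v := by
      intro n
      induction n with
      | zero => simp
      | succ n ih => rw [pow_succ, ← Matrix.mulVec_mulVec, hv', Matrix.mulVec_smul, ih, smul_smul,
          pow_succ', ]
    have h1 := hpow m
    rw [hM, Matrix.one_mulVec] at h1
    obtain ⟨i, hi⟩ := Function.ne_iff.1 hv0
    have := congrFun h1 i
    simp only [Pi.smul_apply, smul_eq_mul] at this
    exact mul_right_cancel₀ hi (this.symm.trans (one_mul _).symm)
  refine ⟨x, M.trace - x, hroot x hev, hroot _ (by linear_combination hev), by ring, ?_⟩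
  linear_combination hev

/-- roots of unity lift from the residue field -/
theorem exists_root_of_unity (A : ValuationSubring QBar) {m : ℕ} (hm : 0 < m) {x : ResidueField A}
    (hx : x ^ m = 1) :
    ∃ ζ : integralClosure ℤ QBar, ζ ^ m = 1 ∧ redQ A ζ = x := by
  classical
  have hspl : ((X : QBar[X]) ^ m - C 1).Splits := IsAlgClosed.splits _
  have hint : ∀ r ∈ ((X : QBar[X]) ^ m - C 1).roots, IsIntegral ℤ r ∧ r ^ m = 1 := by
    intro r hr
    rw [mem_roots (X_pow_sub_C_ne_zero hm 1), IsRoot.def, eval_sub, eval_pow, eval_X, eval_C,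
      sub_eq_zero] at hr
    exact ⟨⟨X ^ m - C 1, monic_X_pow_sub_C 1 hm.ne', by simp [hr]⟩, hr⟩
  let s : Multiset (integralClosure ℤ QBar) :=
    ((X : QBar[X]) ^ m - C 1).roots.pmap (fun r hr => ⟨r, hr⟩) fun r hr => (hint r hr).1
  have hs : s.map (fun r : integralClosure ℤ QBar => (r : QBar)) = ((X : QBar[X]) ^ m - C 1).roots := by
    simp [s, Multiset.map_pmap, Multiset.pmap_eq_map]
  obtain ⟨b, rfl⟩ := IsLocalRing.residue_surjective x
  let ι : integralClosure ℤ QBar →+* A :=
    { toFun := fun r => ⟨(r : QBar), FLTAgent.Chebotarev.coe_mem_valuationSubring r.2⟩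
      map_one' := rfl
      map_mul' := fun _ _ => rfl
      map_zero' := rfl
      map_add' := fun _ _ => rfl }
  have hprod : (s.map fun r => b - ι r).prod = b ^ m - 1 := by
    refine A.subtype_injective ?_
    rw [map_multiset_prod, Multiset.map_map]
    have h := hspl.eq_prod_roots_of_monic (monic_X_pow_sub_C 1 hm.ne')
    have h' := congrArg (Polynomial.eval (b : QBar)) h
    rw [eval_multiset_prod, ← hs, Multiset.map_map, Multiset.map_map] at h'
    simp only [eval_sub, eval_pow, eval_X, eval_C, Function.comp_def] at h'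
    simpa [Function.comp_def, ι] using h'.symm
  have h0 := congrArg (residue A) hprod
  rw [map_multiset_prod, map_sub, map_pow, map_one, hx, sub_self, Multiset.prod_eq_zero_iff,
    Multiset.map_map, Multiset.mem_map] at h0
  obtain ⟨r, hr, hr0⟩ := h0
  refine ⟨r, Subtype.ext ?_, (sub_eq_zero.1 ((map_sub (residue A) b (ι r)).symm.trans hr0)).symm⟩
  have : (r : QBar) ∈ ((X : QBar[X]) ^ m - C 1).roots := by
    rw [← hs]; exact Multiset.mem_map_of_mem (fun r : integralClosure ℤ QBar => (r : QBar)) hr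
  rw [SubmonoidClass.coe_pow, OneMemClass.coe_one]
  exact (hint _ this).2

/-- the possible pairs (trace, determinant) of elements of order dividing `m` -/
def pairsOf (m : ℕ) : Finset (integralClosure ℤ QBar × integralClosure ℤ QBar) :=
  ((nthRootsFinset m (1 : integralClosure ℤ QBar)) ×ˢ
    (nthRootsFinset m (1 : integralClosure ℤ QBar))).image fun z => (z.1 + z.2, z.1 * z.2)

theorem mem_pairsOf {m : ℕ} (hm : 0 < m) {x y : integralClosure ℤ QBar} (hx : x ^ m = 1)
    (hy : y ^ m = 1) : (x + y, x * y) ∈ pairsOf m := by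
  exact Finset.mem_image.2 ⟨(x, y), Finset.mem_product.2
    ⟨(mem_nthRootsFinset hm 1).2 hx, (mem_nthRootsFinset hm 1).2 hy⟩, rfl⟩

/-- residually, every element of finite order has such a pair -/
theorem exists_pair_res (A : ValuationSubring QBar) {m : ℕ} (hm : 0 < m)
    (M : Matrix (Fin 2) (Fin 2) (ResidueField A)) (hM : M ^ m = 1) :
    ∃ z ∈ pairsOf m, M.trace = redQ A z.1 ∧ M.det = redQ A z.2 := by
  haveI := FLTAgent.Good.residueField_isAlgClosed A
  obtain ⟨x, y, hx, hy, ht, hd⟩ := exists_eigen_pair M hM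
  obtain ⟨u, hu, rfl⟩ := exists_root_of_unity A hm hx
  obtain ⟨v, hv, rfl⟩ := exists_root_of_unity A hm hy
  exact ⟨_, mem_pairsOf hm hu hv, by rw [ht]; exact (map_add _ _ _).symm,
    by rw [hd]; exact (map_mul _ _ _).symm⟩

/-- in characteristic zero the pair is exact -/
theorem exists_pair_exact {m : ℕ} (hm : 0 < m) (M : Matrix (Fin 2) (Fin 2) QBar) (hM : M ^ m = 1) :
    ∃ z ∈ pairsOf m, M.trace = z.1 ∧ M.det = z.2 := by
  obtain ⟨x, y, hx, hy, ht, hd⟩ := exists_eigen_pair M hM
  have hint : ∀ z : QBar, z ^ m = 1 → IsIntegral ℤ z := fun z hz =>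
    ⟨X ^ m - C 1, monic_X_pow_sub_C 1 hm.ne', by simp [hz]⟩
  exact ⟨_, mem_pairsOf hm (x := ⟨x, hint x hx⟩) (y := ⟨y, hint y hy⟩) (Subtype.ext hx)
    (Subtype.ext hy), ht, hd⟩

/-- a nonzero algebraic integer is a unit at all but finitely many primes -/
theorem finite_primes_redQ_eq_zero {x : integralClosure ℤ QBar} (hx : x ≠ 0) :
    {ℓ : ℕ | ℓ.Prime ∧ ∃ A : ValuationSubring QBar, A.LiesOverPrime ℓ ∧ redQ A x = 0}.Finite := by
  have hc : ((minpoly ℤ (x : QBar)).coeff 0).natAbs ≠ 0 := by
    intro h0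
    refine minpoly.coeff_zero_ne_zero (A := ℚ) x.2.tower_top (fun h => hx (Subtype.ext h)) ?_
    rw [minpoly.isIntegrallyClosed_eq_field_fractions' ℚ x.2, Polynomial.coeff_map,
      Int.natAbs_eq_zero.1 h0, map_zero]
  refine ((Set.finite_le_nat ((minpoly ℤ (x : QBar)).coeff 0).natAbs)).subset ?_
  rintro ℓ ⟨hℓ, A, hA, h⟩
  exact Nat.le_of_dvd (Nat.pos_of_ne_zero hc)
    (Int.natCast_dvd.1 (FLTAgent.Chebotarev.dvd_coeff_minpoly hℓ hA x h))

end FLTAgent.DS
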