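import Fermat.Agent.DS.CurveFib
import Fermat.Agent.Reduction.Subfield

/-!
The curve `X_H` and its good model at primes not dividing the level: interface.

Hypotheses everywhere: `-1 ∈ Δ`; for statements on the special fibre, `A` is a place above `ℓ ∤ M`.
-/

set_option autoImplicit false
set_option synthInstance.maxHeartbeats 100000

noncomputable section

open UpperHalfPlane CongruenceSubgroup ModularCurve IntermediateField IsLocalRing
open scoped MatrixGroups ModularForm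

namespace FLTAgent.DS

open Genus (embC)

/-- the algebraic closure of `ℚ` -/
local notation "Qb" => AlgebraicClosure ℚ

variable {M M' : ℕ} [NeZero M] [NeZero M'] {Δ : Subgroup (ZMod M)ˣ} {Δ' : Subgroup (ZMod M')ˣ}

/-! ### generic fibre -/

theorem exists_isQuotH {x : LaurentSeries Qb} (hx : x ∈ FBH M Δ) :
    ∃ w F G, IsQuotH M Δ x w F G := by
  exact exists_isQuotH' hx

theorem mem_FBH_of_isQuotH (hΔ : (-1 : (ZMod M)ˣ) ∈ Δ) {x : LaurentSeries Qb} {w : ℤ}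
    {F G : ℍ → ℂ} (h : IsQuotH M Δ x w F G) : x ∈ FBH M Δ := by
  exact mem_FBH_of_isQuotH' hΔ h

theorem transcendental_jBarH : Transcendental Qb (jBarH M Δ) := by
  exact transcendental_jBarH'

theorem finrank_FBH (hΔ : (-1 : (ZMod M)ˣ) ∈ Δ) :
    Module.finrank
        (IntermediateField.adjoin Qb ({Good.jBarSeries} : Set (LaurentSeries Qb)))
        (IntermediateField.extendScalars
          (F := IntermediateField.adjoin Qb ({Good.jBarSeries} : Set (LaurentSeries Qb)))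
          (E := FBH M Δ)
          (IntermediateField.adjoin_le_iff.mpr (Set.singleton_subset_iff.mpr jBar_mem_FBH))) =
      (grpH M Δ).index := by
  rw [← ndeg_jBarH' hΔ]
  exact (Reduction.ndeg_eq_finrank (FBH M Δ) (jBarH M Δ) _).symm

theorem ndeg_jBarH (hΔ : (-1 : (ZMod M)ˣ) ∈ Δ) :
    RR.ndeg Qb (jBarH M Δ) = (grpH M Δ).index := by
  exact ndeg_jBarH' hΔ

theorem index_grpH_pos : 0 < (grpH M Δ).index := by
  exact index_grpH_pos'

/-! ### change of level -/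

theorem F0H_mono (hle : grpH M' Δ' ≤ grpH M Δ) : F0H M Δ ≤ F0H M' Δ' := by
  exact F0H_le_of_le hle

theorem FBH_mono (hle : grpH M' Δ' ≤ grpH M Δ) : FBH M Δ ≤ FBH M' Δ' := by
  exact FBH_le_of_le hle

theorem qExpand_mem_F0H (d : ℕ) [NeZero d] (hd : d * M ∣ M')
    (hΔ' : ∀ u ∈ Δ', ZMod.unitsMap (dvd_of_mul_left_dvd hd) u ∈ Δ) {x : LaurentSeries ℚ}
    (hx : x ∈ F0H M Δ) : qExpand ℚ d x ∈ F0H M' Δ' := by
  exact qExpand_mem_F0H' d hd hΔ' hx

theorem qExpand_mem_FBH (d : ℕ) [NeZero d] (hd : d * M ∣ M')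
    (hΔ' : ∀ u ∈ Δ', ZMod.unitsMap (dvd_of_mul_left_dvd hd) u ∈ Δ) {x : LaurentSeries Qb}
    (hx : x ∈ FBH M Δ) : qExpand Qb d x ∈ FBH M' Δ' := by
  exact qExpand_mem_FBH' d hd hΔ' hx

theorem modularFunctionFieldBar_le_FBH : modularFunctionFieldBar M ≤ FBH M Δ := by
  exact modularFunctionFieldBar_le_FBH'

/-! ### diamonds -/

theorem exists_diamond (hΔ : (-1 : (ZMod M)ˣ) ∈ Δ) :
    ∃ e : (ZMod M)ˣ →* (↥(FBH M Δ) ≃ₐ[Qb] ↥(FBH M Δ)),
      (∀ d ∈ Δ, e d = 1) ∧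
      ∀ (γ : Gamma0 M) (x : ↥(FBH M Δ)) (w : ℤ) (F G : ℍ → ℂ),
        IsQuotH M Δ (x : LaurentSeries Qb) w F G →
          IsQuotH M Δ (e (dHom M γ) x : LaurentSeries Qb) w
            (F ∣[w] (γ : SL(2, ℤ))) (G ∣[w] (γ : SL(2, ℤ))) := by
  exact exists_diamond' hΔ

/-- the diamond operators: `<d>(F/G) = (F|γ)/(G|γ)`, `γ ≡ (* *; 0 d)` -/
def diamond (hΔ : (-1 : (ZMod M)ˣ) ∈ Δ) :
    (ZMod M)ˣ →* (↥(FBH M Δ) ≃ₐ[Qb] ↥(FBH M Δ)) :=
  (exists_diamond hΔ).choose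

theorem diamond_of_mem (hΔ : (-1 : (ZMod M)ˣ) ∈ Δ) {d : (ZMod M)ˣ} (hd : d ∈ Δ) :
    diamond hΔ d = 1 :=
  (exists_diamond hΔ).choose_spec.1 d hd

theorem isQuotH_diamond (hΔ : (-1 : (ZMod M)ˣ) ∈ Δ) (γ : Gamma0 M) (x : ↥(FBH M Δ)) (w : ℤ)
    (F G : ℍ → ℂ) (h : IsQuotH M Δ (x : LaurentSeries Qb) w F G) :
    IsQuotH M Δ (diamond hΔ (dHom M γ) x : LaurentSeries Qb) w
      (F ∣[w] (γ : SL(2, ℤ))) (G ∣[w] (γ : SL(2, ℤ))) :=
  (exists_diamond hΔ).choose_spec.2 γ x w F G h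

theorem dHom_surjective : Function.Surjective (dHom M) := by
  exact dHom_surjective'

theorem diamond_jBarH (hΔ : (-1 : (ZMod M)ˣ) ∈ Δ) (d : (ZMod M)ˣ) :
    diamond hΔ d (jBarH M Δ) = jBarH M Δ := by
  obtain ⟨γ, rfl⟩ := dHom_surjective' d
  obtain ⟨w, F, G, h⟩ := exists_isQuotH' (jBarH M Δ).2
  have h1 := isQuotH_diamond hΔ γ _ w F G h
  have h2 := (diaRel_diaFun hΔ γ (jBarH M Δ)).eq_of_quot h
  rw [diaFun_jBarH] at h2
  exact Subtype.ext (coeffMap_embC_inj (h1.unique h2))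

/-- diamonds commute with the Galois action -/
theorem diamond_galois (hΔ : (-1 : (ZMod M)ˣ) ∈ Δ) (d : (ZMod M)ˣ) (σ : Qb ≃ₐ[ℚ] Qb)
    (x : ↥(FBH M Δ)) :
    diamond hΔ d (arithmeticGalois (F0H M Δ) σ • x) =
      arithmeticGalois (F0H M Δ) σ • diamond hΔ d x := by
  obtain ⟨γ, rfl⟩ := dHom_surjective' d
  have key : ∀ y, diamond hΔ (dHom M γ) y = diaFun hΔ γ y := fun y => by
    obtain ⟨w, F, G, h⟩ := exists_isQuotH' y.2
    exact Subtype.ext (coeffMap_embC_inj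
      ((isQuotH_diamond hΔ γ _ w F G h).unique ((diaRel_diaFun hΔ γ y).eq_of_quot h)))
  rw [key, key, diaFun_galois]

theorem inFinH_diamond (hΔ : (-1 : (ZMod M)ˣ) ∈ Δ) (A : ValuationSubring Qb) (d : (ZMod M)ˣ)
    (x : ↥(FBH M Δ)) (hx : InFinH M Δ A (x : LaurentSeries Qb)) :
    InFinH M Δ A (diamond hΔ d x : LaurentSeries Qb) := by
  exact inFinH_map A _ (diamond_jBarH hΔ d) x hx

/-! ### special fibre -/

section Special

variable (A : ValuationSubring Qb) {ℓ : ℕ}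

theorem exists_series_of_inFinH (hℓ : ℓ.Prime) (hℓM : ¬ ℓ ∣ M) (hA : A.LiesOverPrime ℓ)
    (hΔ : (-1 : (ZMod M)ˣ) ∈ Δ) {f : LaurentSeries Qb} (hf : InFinH M Δ A f) :
    ∃ b : LaurentSeries A, Good.toBar A b = f ∧ InFinResH M Δ A (Good.toRes A b) := by
  obtain ⟨S, rfl, hι, hM⟩ := exists_lev_embC A M hℓ hℓM hA
  exact exists_series_inFinH hM hι hΔ hf

theorem exists_series_of_inInfH (hℓ : ℓ.Prime) (hℓM : ¬ ℓ ∣ M) (hA : A.LiesOverPrime ℓ)
    (hΔ : (-1 : (ZMod M)ˣ) ∈ Δ) {f : LaurentSeries Qb} (hf : InInfH M Δ A f) :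
    ∃ b : LaurentSeries A, Good.toBar A b = f ∧ InInfResH M Δ A (Good.toRes A b) := by
  obtain ⟨S, rfl, hι, hM⟩ := exists_lev_embC A M hℓ hℓM hA
  exact exists_series_infH hM hι hΔ hf

theorem exists_lift_inFinResH (hℓ : ℓ.Prime) (hℓM : ¬ ℓ ∣ M) (hA : A.LiesOverPrime ℓ)
    (hΔ : (-1 : (ZMod M)ˣ) ∈ Δ) {x : LaurentSeries (ResidueField A)} (hx : InFinResH M Δ A x) :
    ∃ b : LaurentSeries A, InFinH M Δ A (Good.toBar A b) ∧ Good.toRes A b = x := by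
  obtain ⟨S, rfl, hι, hM⟩ := exists_lev_embC A M hℓ hℓM hA
  exact exists_lift_finResH hM hι hΔ hx

theorem exists_lift_inInfResH (hℓ : ℓ.Prime) (hℓM : ¬ ℓ ∣ M) (hA : A.LiesOverPrime ℓ)
    (hΔ : (-1 : (ZMod M)ˣ) ∈ Δ) {x : LaurentSeries (ResidueField A)} (hx : InInfResH M Δ A x) :
    ∃ b : LaurentSeries A, InInfH M Δ A (Good.toBar A b) ∧ Good.toRes A b = x := by
  obtain ⟨S, rfl, hι, hM⟩ := exists_lev_embC A M hℓ hℓM hA
  exact exists_lift_infResH hM hι hΔ hx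

theorem transcendental_jSH : Transcendental (ResidueField A) (jSH M Δ A) := by
  exact transcendental_jSH' A

theorem finrank_FSH (hℓ : ℓ.Prime) (hℓM : ¬ ℓ ∣ M) (hA : A.LiesOverPrime ℓ)
    (hΔ : (-1 : (ZMod M)ˣ) ∈ Δ) :
    Module.finrank
        (IntermediateField.adjoin (ResidueField A) ({jqModC (ResidueField A)} : Set _))
        (IntermediateField.extendScalars
          (F := IntermediateField.adjoin (ResidueField A) ({jqModC (ResidueField A)} : Set _))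
          (E := FSH M Δ A)
          (IntermediateField.adjoin_le_iff.mpr
            (Set.singleton_subset_iff.mpr (jqModC_mem_FSH M Δ A)))) =
      (grpH M Δ).index := by
  obtain ⟨S, rfl, hι, hM⟩ := exists_lev_embC A M hℓ hℓM hA
  exact finrank_FSH_lev hM hι hΔ

theorem isSeparable_FSH (hℓ : ℓ.Prime) (hℓM : ¬ ℓ ∣ M) (hA : A.LiesOverPrime ℓ)
    (hΔ : (-1 : (ZMod M)ˣ) ∈ Δ) {x : LaurentSeries (ResidueField A)} (hx : x ∈ FSH M Δ A) :
    IsSeparable (IntermediateField.adjoin (ResidueField A) ({jqModC (ResidueField A)} : Set _))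
      x := by
  obtain ⟨S, rfl, hι, hM⟩ := exists_lev_embC A M hℓ hℓM hA
  exact isSeparable_FSH_lev hM hι hΔ hx

/-- the special fibre is stable under automorphisms of the residue field induced from `Qb` -/
theorem coeffMap_mem_FSH (σ : Qb ≃ₐ[ℚ] Qb) (τ : ResidueField A ≃+* ResidueField A)
    (hσ : ∀ a : A, ∃ h : σ (a : Qb) ∈ A, residue A ⟨σ a, h⟩ = τ (residue A a))
    {x : LaurentSeries (ResidueField A)} (hx : x ∈ FSH M Δ A) :
    coeffMap (τ : ResidueField A →+* ResidueField A) x ∈ FSH M Δ A := by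
  exact coeffMap_mem_FSH' A σ τ hσ hx

theorem exists_diamondRes (hℓ : ℓ.Prime) (hℓM : ¬ ℓ ∣ M) (hA : A.LiesOverPrime ℓ)
    (hΔ : (-1 : (ZMod M)ˣ) ∈ Δ) :
    ∃ e : (ZMod M)ˣ →* (↥(FSH M Δ A) ≃ₐ[ResidueField A] ↥(FSH M Δ A)),
      ∀ (d : (ZMod M)ˣ) (x : ↥(FBH M Δ)) (b b' : LaurentSeries A) (z : ↥(FSH M Δ A)),
        InFinH M Δ A (x : LaurentSeries Qb) → Good.toBar A b = (x : LaurentSeries Qb) →
        Good.toBar A b' = (diamond hΔ d x : LaurentSeries Qb) →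
        Good.toRes A b = (z : LaurentSeries (ResidueField A)) →
          (e d z : LaurentSeries (ResidueField A)) = Good.toRes A b' := by
  obtain ⟨S, rfl, hι, hM⟩ := exists_lev_embC A M hℓ hℓM hA
  obtain ⟨e, he⟩ := exists_diamondRes_lev hM hι hΔ
  refine ⟨e, fun d x b b' z hx hb hb' hz => ?_⟩
  obtain ⟨γ, rfl⟩ := dHom_surjective' d
  exact he γ x _ b b' z hx hb hb' (fun w F G h => isQuotH_diamond hΔ γ x w F G h) hz

end Special

end FLTAgent.DS
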