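import Fermat.Agent.DS.CurveDefs
import Fermat.Agent.Good.Orbit

/-!
The curve `X_H`: elementary properties (quotients, change of level, transcendence of `j`).
-/

set_option autoImplicit false
set_option synthInstance.maxHeartbeats 100000

noncomputable section

open UpperHalfPlane CongruenceSubgroup ModularCurve ModularForm IntermediateField IsLocalRing
open scoped MatrixGroups Manifold

namespace FLTAgent.DS

open Genus (embC)
open ModFun (qx lx dil aff scale)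

local notation "Qb" => AlgebraicClosure ℚ

variable {M M' : ℕ} {Δ : Subgroup (ZMod M)ˣ} {Δ' : Subgroup (ZMod M')ˣ}

theorem coeffMap_embC_algebraMap (a : Qb) :
    coeffMap embC (algebraMap Qb (LaurentSeries Qb) a) =
      algebraMap ℂ (LaurentSeries ℂ) (embC a) := by
  rw [algebraMap_laurentSeries_eq_single, algebraMap_laurentSeries_eq_single, coeffMap_single]

theorem exists_isQuotH' {x : LaurentSeries Qb} (hx : x ∈ FBH M Δ) :
    ∃ w F G, IsQuotH M Δ x w F G := by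
  rw [FBH, laurentBaseChange] at hx
  induction hx using IntermediateField.adjoin_induction with
  | mem y hy =>
    obtain ⟨z, hz, rfl⟩ := hy
    obtain ⟨w, F, G, h⟩ := mem_F0H.mp hz
    refine ⟨w, F, G, ?_⟩
    show IsQuotC M Δ (coeffMap embC (coeffEmb Qb z)) w F G
    rw [ModFun.coeffMap_coeffEmb_comp]
    exact h
  | algebraMap a =>
    refine ⟨0, embC a • 1, 1, ?_⟩
    show IsQuotC M Δ (coeffMap embC (algebraMap Qb (LaurentSeries Qb) a)) _ _ _
    rw [coeffMap_embC_algebraMap]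
    exact IsQuotC.const _
  | add x y _ _ hx hy =>
    obtain ⟨_, _, _, h⟩ := hx
    obtain ⟨_, _, _, h'⟩ := hy
    exact ⟨_, _, _, (map_add (coeffMap embC) _ _) ▸ h.add h'⟩
  | inv x _ hx =>
    obtain ⟨w, F, G, h⟩ := hx
    rcases eq_or_ne x 0 with rfl | h0
    · rw [inv_zero]; exact ⟨w, F, G, h⟩
    · exact ⟨_, _, _, (map_inv₀ (coeffMap embC) x) ▸
        h.inv (fun e => h0 ((map_eq_zero (coeffMap embC)).mp e))⟩
  | mul x y _ _ hx hy =>
    obtain ⟨_, _, _, h⟩ := hx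
    obtain ⟨_, _, _, h'⟩ := hy
    exact ⟨_, _, _, (map_mul (coeffMap embC) _ _) ▸ h.mul h'⟩

theorem IsQuotC.unique {X Y : LaurentSeries ℂ} {w : ℤ} {F G : ℍ → ℂ} (h : IsQuotC M Δ X w F G)
    (h' : IsQuotC M Δ Y w F G) : X = Y :=
  mul_right_cancel₀ (h.den.qx_ne_zero h.den_ne) (h.eq.trans h'.eq.symm)

theorem F0H_le_of_le (hle : grpH M' Δ' ≤ grpH M Δ) : F0H M Δ ≤ F0H M' Δ' := fun X hX => by
  obtain ⟨w, F, G, h⟩ := mem_F0H.mp hX
  exact mem_F0H.mpr ⟨w, F, G, h.mono hle⟩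

theorem FBH_le_of_le (hle : grpH M' Δ' ≤ grpH M Δ) : FBH M Δ ≤ FBH M' Δ' :=
  IntermediateField.adjoin.mono Qb _ _ (Set.image_mono (F0H_le_of_le hle))

/-! ### dilation -/

/-- slashing a dilated function -/
theorem dil_slash (F : ℍ → ℂ) (w : ℤ) (N : ℕ) [NeZero N] (γ γ' : SL(2, ℤ)) (A : ℕ) (B : ℤ) (D : ℕ)
    [NeZero A] [NeZero D] (h00 : (N : ℤ) * γ 0 0 = γ' 0 0 * A)
    (h01 : (N : ℤ) * γ 0 1 = γ' 0 0 * B + γ' 0 1 * D) (h10 : γ 1 0 = γ' 1 0 * A)
    (h11 : γ 1 1 = γ' 1 0 * B + γ' 1 1 * D) (τ : ℍ) :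
    (dil N F ∣[w] γ) τ = (D : ℂ) ^ (-w) * (F ∣[w] γ') (aff A B D τ) := by
  obtain ⟨e1, e2⟩ := ModFun.scale_smul_eq N γ γ' A B D h00 h01 h10 h11 τ
  rw [SL_slash_apply, SL_slash_apply, dil, e1, e2, mul_zpow]
  ring

theorem exists_lift_dil [NeZero M] {d : ℕ} [NeZero d] (hd : d * M ∣ M') {γ : SL(2, ℤ)}
    (hγ : γ ∈ Gamma0 M') :
    ∃ γ' : Gamma0 M, (d : ℤ) * γ 0 0 = (γ' : SL(2, ℤ)) 0 0 * d ∧
      (d : ℤ) * γ 0 1 = (γ' : SL(2, ℤ)) 0 0 * 0 + (γ' : SL(2, ℤ)) 0 1 * (1 : ℕ) ∧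
      γ 1 0 = (γ' : SL(2, ℤ)) 1 0 * d ∧
      γ 1 1 = (γ' : SL(2, ℤ)) 1 0 * 0 + (γ' : SL(2, ℤ)) 1 1 * (1 : ℕ) ∧
      (γ' : SL(2, ℤ)) 1 1 = γ 1 1 := by
  rw [Gamma0_mem, ZMod.intCast_zmod_eq_zero_iff_dvd] at hγ
  obtain ⟨c', hc'⟩ := ((Int.natCast_dvd_natCast.mpr hd).trans hγ)
  have hdet : γ 0 0 * γ 1 1 - γ 0 1 * γ 1 0 = 1 := by
    have := γ.prop; rwa [Matrix.det_fin_two] at this
  push_cast at hc'
  let g : SL(2, ℤ) := ⟨!![γ 0 0, (d : ℤ) * γ 0 1; (M : ℤ) * c', γ 1 1], by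
    simp [Matrix.det_fin_two]; rw [hc'] at hdet; linear_combination hdet⟩
  refine ⟨⟨g, by rw [Gamma0_mem]; simp [g]⟩, ?_, ?_, ?_, ?_, ?_⟩
  · simp [g, mul_comm]
  · simp [g]
  · simp [g, hc']; ring
  · simp [g]
  · simp [g]

theorem IsMFH.dilate [NeZero M] {w : ℤ} {F : ℍ → ℂ} (hF : IsMFH M Δ w F) (d : ℕ) [NeZero d]
    (hd : d * M ∣ M') (hΔ' : ∀ u ∈ Δ', ZMod.unitsMap (dvd_of_mul_left_dvd hd) u ∈ Δ) :
    IsMFH M' Δ' w (dil d F) where
  holo := ModFun.mdiff_dil hF.holo d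
  inv γ hγ := by
    obtain ⟨h0, hdl⟩ := mem_grpH.mp hγ
    obtain ⟨γ', h00, h01, h10, h11, he⟩ := exists_lift_dil (M := M) hd h0
    have hγ' : (γ' : SL(2, ℤ)) ∈ grpH M Δ := by
      refine mem_grpH.mpr ⟨γ'.2, ?_⟩
      convert hΔ' _ hdl
      refine Units.ext ?_
      rw [ZMod.unitsMap_def, Units.coe_map, MonoidHom.coe_coe, coe_dHom, coe_dHom, map_intCast, he]
    funext τ
    rw [dil_slash F w d γ γ' d 0 1 h00 h01 h10 h11 τ, hF.inv _ hγ']
    simp [dil, scale]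
  bdd γ := by
    obtain ⟨γ', A, B, D, hA, hD, -, -, h00, h01, h10, h11⟩ := ModFun.exists_hermite d γ
    rw [funext fun τ => dil_slash F w d γ γ' A B D h00 h01 h10 h11 τ]
    exact Asymptotics.IsBigO.const_mul_left
      ((hF.bdd γ').comp_tendsto (ModFun.tendsto_aff A B D)) _

theorem qx_dil_series {f : ℍ → ℂ} (hf : ModFun.Good f) (d : ℕ) [NeZero d] :
    HahnSeries.ofPowerSeries ℤ ℂ (qx (dil d f)) =
      qExpand ℂ d (HahnSeries.ofPowerSeries ℤ ℂ (qx f)) := by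
  rw [← ModFun.lx_good (ModFun.good_dil hf d), ← ModFun.lx_good hf,
    ← ModFun.lx_dil ⟨f, hf.mod1⟩ d]

theorem IsQuotC.dilate [NeZero M] {X : LaurentSeries ℂ} {w : ℤ} {F G : ℍ → ℂ}
    (h : IsQuotC M Δ X w F G) (d : ℕ) [NeZero d] (hd : d * M ∣ M')
    (hΔ' : ∀ u ∈ Δ', ZMod.unitsMap (dvd_of_mul_left_dvd hd) u ∈ Δ) :
    IsQuotC M' Δ' (qExpand ℂ d X) w (dil d F) (dil d G) := by
  refine ⟨h.num.dilate d hd hΔ', h.den.dilate d hd hΔ', fun e => ?_, ?_⟩
  · have h1 := congrArg (fun f => HahnSeries.ofPowerSeries ℤ ℂ (qx f)) e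
    simp only [qx_dil_series h.den.good, show qx (0 : ℍ → ℂ) = 0 from qExpansion_zero 1,
      map_zero] at h1
    exact h.den.qx_ne_zero h.den_ne (qExpand_injective (R := ℂ) d (h1.trans (map_zero _).symm))
  · rw [qx_dil_series h.den.good, qx_dil_series h.num.good, ← map_mul, h.eq]

theorem qExpand_mem_F0H' [NeZero M] (d : ℕ) [NeZero d] (hd : d * M ∣ M')
    (hΔ' : ∀ u ∈ Δ', ZMod.unitsMap (dvd_of_mul_left_dvd hd) u ∈ Δ) {x : LaurentSeries ℚ}
    (hx : x ∈ F0H M Δ) : qExpand ℚ d x ∈ F0H M' Δ' := by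
  obtain ⟨w, F, G, h⟩ := mem_F0H.mp hx
  refine mem_F0H.mpr ⟨w, dil d F, dil d G, ?_⟩
  rw [coeffEmb, ModFun.coeffMap_qExpand]
  exact h.dilate d hd hΔ'

theorem qExpand_algebraMap {R : Type*} [Field R] (d : ℕ) [NeZero d] (r : R) :
    qExpand R d (algebraMap R (LaurentSeries R) r) = algebraMap R (LaurentSeries R) r := by
  rw [algebraMap_laurentSeries_eq_single, qExpand_single, mul_zero]

theorem qExpand_mem_FBH' [NeZero M] (d : ℕ) [NeZero d] (hd : d * M ∣ M')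
    (hΔ' : ∀ u ∈ Δ', ZMod.unitsMap (dvd_of_mul_left_dvd hd) u ∈ Δ) {x : LaurentSeries Qb}
    (hx : x ∈ FBH M Δ) : qExpand Qb d x ∈ FBH M' Δ' := by
  rw [FBH, laurentBaseChange] at hx
  induction hx using IntermediateField.adjoin_induction with
  | mem y hy =>
    obtain ⟨z, hz, rfl⟩ := hy
    rw [show qExpand Qb d (coeffEmb Qb z) = coeffEmb Qb (qExpand ℚ d z) from
      (ModFun.coeffMap_qExpand _ d z).symm]
    exact coeffEmb_mem_laurentBaseChange _ (qExpand_mem_F0H' d hd hΔ' hz)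
  | algebraMap a => rw [qExpand_algebraMap]; exact IntermediateField.algebraMap_mem _ a
  | add x y _ _ hx hy => rw [map_add]; exact add_mem hx hy
  | inv x _ hx => rw [map_inv₀]; exact inv_mem hx
  | mul x y _ _ hx hy => rw [map_mul]; exact mul_mem hx hy

theorem modularFunctionFieldBar_le_FBH' [NeZero M] : modularFunctionFieldBar M ≤ FBH M Δ := by
  refine IntermediateField.adjoin.mono Qb _ _ (Set.image_mono ?_)
  rw [SetLike.coe_subset_coe, modularFunctionFieldFull, IntermediateField.adjoin_le_iff]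
  rintro x ⟨d, hd, hdM, rfl⟩
  exact qExpand_mem_F0H' (M := 1) (Δ := ⊤) d (by rwa [mul_one]) (fun _ _ => Subgroup.mem_top _)
    jq_mem_F0H

/-! ### the index -/

instance finiteIndex_grpH [NeZero M] : (grpH M Δ).FiniteIndex :=
  Subgroup.finiteIndex_of_le (H := Gamma M) fun γ hγ => by
    rw [CongruenceSubgroup.Gamma_mem] at hγ
    refine Gamma1_le_grpH ?_
    rw [Gamma1_mem]
    exact ⟨hγ.1, hγ.2.2.2, hγ.2.2.1⟩

theorem index_grpH_pos' [NeZero M] : 0 < (grpH M Δ).index :=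
  Nat.pos_of_ne_zero Subgroup.FiniteIndex.index_ne_zero

theorem dHom_surjective' [NeZero M] : Function.Surjective (dHom M) := by
  intro u
  set d0 : ℕ := (u : ZMod M).val
  have hcop : IsCoprime (d0 : ℤ) (M : ℤ) := Nat.isCoprime_iff_coprime.mpr
    (ZMod.val_coe_unit_coprime u)
  obtain ⟨a, b, hab⟩ := hcop
  let g : SL(2, ℤ) :=
    ⟨!![a, -b; (M : ℤ), (d0 : ℤ)], by simp [Matrix.det_fin_two]; linear_combination hab⟩
  have hg : g ∈ Gamma0 M := by rw [Gamma0_mem]; simp [g]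
  refine ⟨⟨g, hg⟩, Units.ext ?_⟩
  rw [coe_dHom]
  simp [g, d0]

/-! ### transcendence -/

theorem transcendental_jBarH' : Transcendental Qb (jBarH M Δ) := by
  rw [transcendental_iff]
  intro P hP
  by_contra h0
  have h1 : Polynomial.aeval (Good.jBarSeries : LaurentSeries Qb) P = 0 :=
    (Polynomial.aeval_algHom_apply (FBH M Δ).val (jBarH M Δ) P).trans (by rw [hP, map_zero])
  rw [Good.jBarSeries, coeffEmb, ← jqModC_rat, ModularCurve.coeffMap_jqModC] at h1
  exact Good.aeval_jq_ne_zero Qb h0 h1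

variable (A : ValuationSubring Qb)

theorem transcendental_jSH' : Transcendental (ResidueField A) (jSH M Δ A) := by
  rw [transcendental_iff]
  intro P hP
  by_contra h0
  exact Good.aeval_jq_ne_zero (ResidueField A) h0
    ((Polynomial.aeval_algHom_apply (FSH M Δ A).val (jSH M Δ A) P).trans (by rw [hP, map_zero]))

/-! ### Galois on the special fibre -/

theorem algebraMap_A_Qb (r : A) :
    algebraMap A (LaurentSeries Qb) r = HahnSeries.single 0 (r : Qb) := by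
  rw [HahnSeries.algebraMap_apply', PowerSeries.algebraMap_apply, HahnSeries.ofPowerSeries_C,
    HahnSeries.C_apply]
  rfl

theorem inFinH_coeffMap (σ : Qb ≃ₐ[ℚ] Qb) (hσ : ∀ a : A, σ (a : Qb) ∈ A) {f : LaurentSeries Qb}
    (hf : InFinH M Δ A f) : InFinH M Δ A (coeffMap (σ : Qb →+* Qb) f) := by
  refine ⟨coeffMap_mem_laurentBaseChange σ hf.1, ?_⟩
  set S := Algebra.adjoin A ({Good.jBarSeries} : Set (LaurentSeries Qb))
  have hmem : ∀ x ∈ S, coeffMap (σ : Qb →+* Qb) x ∈ S := by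
    intro x hx
    induction hx using Algebra.adjoin_induction with
    | mem y hy =>
      rw [Set.mem_singleton_iff] at hy
      rw [hy, Good.jBarSeries, coeffMap_coeffEmb]
      exact Algebra.self_mem_adjoin_singleton _ _
    | algebraMap a =>
      rw [algebraMap_A_Qb, coeffMap_single]
      have h1 := S.algebraMap_mem ⟨σ (a : Qb), hσ a⟩
      rw [algebraMap_A_Qb] at h1
      exact h1
    | add a b _ _ ha hb => rw [map_add]; exact add_mem ha hb
    | mul a b _ _ ha hb => rw [map_mul]; exact mul_mem ha hb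
  exact IsIntegral.map_of_comp_eq
    ({ toFun := fun x => ⟨coeffMap (σ : Qb →+* Qb) x.1, hmem x.1 x.2⟩
       map_one' := Subtype.ext (map_one _)
       map_mul' := fun a b => Subtype.ext (map_mul _ a.1 b.1)
       map_zero' := Subtype.ext (map_zero _)
       map_add' := fun a b => Subtype.ext (map_add _ a.1 b.1) } : ↥S →+* ↥S)
    (coeffMap (σ : Qb →+* Qb)) (RingHom.ext fun _ => rfl) hf.2

theorem coeffMap_mem_FSH' (σ : Qb ≃ₐ[ℚ] Qb) (τ : ResidueField A ≃+* ResidueField A)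
    (hσ : ∀ a : A, ∃ h : σ (a : Qb) ∈ A, residue A ⟨σ a, h⟩ = τ (residue A a))
    {x : LaurentSeries (ResidueField A)} (hx : x ∈ FSH M Δ A) :
    coeffMap (τ : ResidueField A →+* ResidueField A) x ∈ FSH M Δ A := by
  rw [FSH] at hx ⊢
  induction hx using IntermediateField.adjoin_induction with
  | mem y hy =>
    obtain ⟨b, hb, rfl⟩ := hy
    let σA : A →+* A :=
      { toFun := fun a => ⟨σ (a : Qb), (hσ a).1⟩
        map_one' := Subtype.ext (map_one σ)
        map_mul' := fun a b => Subtype.ext (map_mul σ _ _)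
        map_zero' := Subtype.ext (map_zero σ)
        map_add' := fun a b => Subtype.ext (map_add σ _ _) }
    refine IntermediateField.subset_adjoin _ _ ⟨coeffMap σA b, ?_, ?_⟩
    · have h1 : Good.toBar A (coeffMap σA b) = coeffMap (σ : Qb →+* Qb) (Good.toBar A b) := by
        simp only [Good.toBar, coeffMap_coeffMap]
        exact coeffMap_congr (RingHom.ext fun _ => rfl) b
      rw [h1]
      exact inFinH_coeffMap A σ (fun a => (hσ a).1) hb
    · simp only [Good.toRes, coeffMap_coeffMap]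
      exact coeffMap_congr (RingHom.ext fun a => (hσ a).2) b
  | algebraMap a =>
    rw [coeffMap_algebraMap]
    exact IntermediateField.algebraMap_mem _ _
  | add x y _ _ hx hy => rw [map_add]; exact add_mem hx hy
  | inv x _ hx => rw [map_inv₀]; exact inv_mem hx
  | mul x y _ _ hx hy => rw [map_mul]; exact mul_mem hx hy

end FLTAgent.DS
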