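import Fermat.Agent.ModFun.FunctionField
import Fermat.Agent.Good.ChartDefs
import Fermat.Agent.Genus.Embed

/-!
The curve `X_H`, `H = {γ ∈ Γ₀(M) : d mod M ∈ Δ}`: function fields and charts.

`F0H M Δ ⊆ ℚ((q))` is the field of rational expansions of quotients of modular forms of equal
weight for `H`; `FBH M Δ` is its base change to `ℚ̄`, and `FSH A M Δ` is generated over the residue
field of `A` by the reductions of the elements of the finite chart.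
-/

set_option autoImplicit false

noncomputable section

open UpperHalfPlane CongruenceSubgroup ModularCurve ModularForm IntermediateField
open scoped MatrixGroups Manifold

namespace FLTAgent.DS

open ModFun (qx IsMF)
open Genus (embC)

/-- the lower right entry of an element of `Γ₀(M)`, as a unit mod `M` -/
def dHom (M : ℕ) : Gamma0 M →* (ZMod M)ˣ := (Gamma0Map M).toHomUnits

theorem coe_dHom (M : ℕ) (γ : Gamma0 M) :
    ((dHom M γ : (ZMod M)ˣ) : ZMod M) = ((γ.1.1 1 1 : ℤ) : ZMod M) := rfl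

/-- the group `H` -/
def grpH (M : ℕ) (Δ : Subgroup (ZMod M)ˣ) : Subgroup SL(2, ℤ) :=
  (Δ.comap (dHom M)).map (Gamma0 M).subtype

variable {M M' : ℕ} {Δ : Subgroup (ZMod M)ˣ} {Δ' : Subgroup (ZMod M')ˣ}

theorem mem_grpH {γ : SL(2, ℤ)} :
    γ ∈ grpH M Δ ↔ ∃ h : γ ∈ Gamma0 M, dHom M ⟨γ, h⟩ ∈ Δ := by
  constructor
  · rintro ⟨x, hx, rfl⟩
    exact ⟨x.2, hx⟩
  · rintro ⟨h, hd⟩
    exact ⟨⟨γ, h⟩, hd, rfl⟩

theorem grpH_le_Gamma0 : grpH M Δ ≤ Gamma0 M := fun _ hγ => (mem_grpH.mp hγ).1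

theorem Gamma1_le_grpH : Gamma1 M ≤ grpH M Δ := fun γ hγ => by
  rw [Gamma1_mem] at hγ
  refine mem_grpH.mpr ⟨Gamma0_mem.mpr hγ.2.2, ?_⟩
  convert one_mem Δ
  exact Units.ext (by rw [coe_dHom]; exact hγ.2.1)

theorem neg_one_mem_grpH (hΔ : (-1 : (ZMod M)ˣ) ∈ Δ) : (-1 : SL(2, ℤ)) ∈ grpH M Δ := by
  refine mem_grpH.mpr ⟨by rw [Gamma0_mem]; simp, ?_⟩
  convert hΔ
  refine Units.ext ?_
  rw [coe_dHom]
  simp

theorem T_mem_grpH : ModularGroup.T ∈ grpH M Δ :=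
  Gamma1_le_grpH (by rw [Gamma1_mem]; simp [ModularGroup.T])

theorem grpH_le_of_dvd (hM : M ∣ M') (hΔ : ∀ u ∈ Δ', ZMod.unitsMap hM u ∈ Δ) :
    grpH M' Δ' ≤ grpH M Δ := fun γ hγ => by
  obtain ⟨h, hd⟩ := mem_grpH.mp hγ
  have h0 : γ ∈ Gamma0 M := by
    rw [Gamma0_mem, ZMod.intCast_zmod_eq_zero_iff_dvd] at h ⊢
    exact (Int.natCast_dvd_natCast.mpr hM).trans h
  refine mem_grpH.mpr ⟨h0, ?_⟩
  convert hΔ _ hd
  refine Units.ext ?_
  simp [ZMod.unitsMap_def, coe_dHom]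

/-- the group without the condition on `Δ` is `Γ₀(M)` -/
theorem grpH_top : grpH M ⊤ = Gamma0 M :=
  le_antisymm grpH_le_Gamma0 fun _ hγ => mem_grpH.mpr ⟨hγ, Subgroup.mem_top _⟩

theorem T_zpow_mem_grpH (n : ℤ) : ModularGroup.T ^ n ∈ grpH M Δ := zpow_mem T_mem_grpH n

/-! ### forms -/

/-- `f` is a modular form of weight `w` for `H` -/
structure IsMFH (M : ℕ) (Δ : Subgroup (ZMod M)ˣ) (w : ℤ) (f : ℍ → ℂ) : Prop where
  holo : MDiff f
  inv : ∀ γ : SL(2, ℤ), γ ∈ grpH M Δ → f ∣[w] γ = f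
  bdd : ∀ γ : SL(2, ℤ), IsBoundedAtImInfty (f ∣[w] γ)

namespace IsMFH

variable {w w' : ℤ} {f g : ℍ → ℂ}

theorem good (hf : IsMFH M Δ w f) : ModFun.Good f where
  per := ModFun.periodic_ofComplex_of fun z hz hz' => by
    have e : (⟨z + 1, hz'⟩ : ℍ) = ModularGroup.T • (⟨z, hz⟩ : ℍ) := by
      ext
      rw [UpperHalfPlane.modular_T_smul]
      simp [add_comm]
    have h := congrFun (hf.inv _ T_mem_grpH) ⟨z, hz⟩
    rw [SL_slash_apply, ← e] at h
    have hd : denom (ModularGroup.T : GL (Fin 2) ℝ) ((⟨z, hz⟩ : ℍ) : ℂ) = 1 := by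
      rw [ModularGroup.denom_apply]; simp [ModularGroup.T]
    rw [hd, one_zpow, mul_one] at h
    exact h
  holo := hf.holo
  bdd := by simpa using hf.bdd 1

theorem mono (hle : grpH M' Δ' ≤ grpH M Δ) (hf : IsMFH M Δ w f) : IsMFH M' Δ' w f :=
  ⟨hf.holo, fun γ hγ => hf.inv γ (hle hγ), hf.bdd⟩

theorem of_isMF (hf : IsMF M w f) : IsMFH M Δ w f :=
  ⟨hf.holo, fun γ hγ => hf.inv γ (grpH_le_Gamma0 hγ), hf.bdd⟩

theorem mul (hf : IsMFH M Δ w f) (hg : IsMFH M Δ w' g) : IsMFH M Δ (w + w') (f * g) where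
  holo := hf.holo.mul hg.holo
  inv γ hγ := by rw [ModularForm.mul_slash_SL2, hf.inv γ hγ, hg.inv γ hγ]
  bdd γ := by rw [ModularForm.mul_slash_SL2]; exact (hf.bdd γ).mul (hg.bdd γ)

theorem cast (h : w = w') (hf : IsMFH M Δ w f) : IsMFH M Δ w' f := h ▸ hf

theorem one : IsMFH M Δ 0 (1 : ℍ → ℂ) := of_isMF IsMF.one

theorem add (hf : IsMFH M Δ w f) (hg : IsMFH M Δ w g) : IsMFH M Δ w (f + g) where
  holo := hf.holo.add hg.holo
  inv γ hγ := by rw [SlashAction.add_slash, hf.inv γ hγ, hg.inv γ hγ]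
  bdd γ := by rw [SlashAction.add_slash]; exact (hf.bdd γ).add (hg.bdd γ)

theorem neg (hf : IsMFH M Δ w f) : IsMFH M Δ w (-f) where
  holo := hf.holo.neg
  inv γ hγ := by rw [SlashAction.neg_slash, hf.inv γ hγ]
  bdd γ := by rw [SlashAction.neg_slash]; exact (hf.bdd γ).neg_left

theorem smul (c : ℂ) (hf : IsMFH M Δ w f) : IsMFH M Δ w (c • f) where
  holo := hf.holo.const_smul c
  inv γ hγ := by rw [ModularForm.SL_smul_slash, hf.inv γ hγ]
  bdd γ := by rw [ModularForm.SL_smul_slash]; exact (hf.bdd γ).smul c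

theorem zero : IsMFH M Δ w (0 : ℍ → ℂ) where
  holo := mdifferentiable_const
  inv γ _ := SlashAction.zero_slash w γ
  bdd γ := by rw [SlashAction.zero_slash]; exact Filter.zero_zeroAtFilter _ |>.boundedAtFilter

theorem slash (hf : IsMFH M Δ w f) (γ : Gamma0 M) : IsMFH M Δ w (f ∣[w] (γ : SL(2, ℤ))) where
  holo := ModFun.mdiff_slash hf.holo _ _
  inv δ hδ := by
    obtain ⟨h0, hd⟩ := mem_grpH.mp hδ
    have hconj : (γ : SL(2, ℤ)) * δ * (γ : SL(2, ℤ))⁻¹ ∈ grpH M Δ := by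
      refine mem_grpH.mpr ⟨mul_mem (mul_mem γ.2 h0) (inv_mem γ.2), ?_⟩
      have e : (⟨(γ : SL(2, ℤ)) * δ * (γ : SL(2, ℤ))⁻¹, mul_mem (mul_mem γ.2 h0) (inv_mem γ.2)⟩ :
          Gamma0 M) = γ * ⟨δ, h0⟩ * γ⁻¹ := rfl
      rw [e, map_mul, map_mul, map_inv, mul_right_comm, mul_inv_cancel, one_mul]
      exact hd
    rw [← SlashAction.slash_mul,
      show (γ : SL(2, ℤ)) * δ = ((γ : SL(2, ℤ)) * δ * (γ : SL(2, ℤ))⁻¹) * γ by group,
      SlashAction.slash_mul, hf.inv _ hconj]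
  bdd δ := by rw [← SlashAction.slash_mul]; exact hf.bdd _

theorem qx_ne_zero (hf : IsMFH M Δ w f) (h0 : f ≠ 0) :
    HahnSeries.ofPowerSeries ℤ ℂ (qx f) ≠ 0 := fun h => h0 (by
  rw [map_eq_zero_iff _ HahnSeries.ofPowerSeries_injective] at h
  exact ModFun.Good.qx_inj hf.good ModFun.Good.zero (h.trans (qExpansion_zero 1).symm))

theorem mul_ne_zero' (hf : IsMFH M Δ w f) (hg : IsMFH M Δ w' g) (h0 : f ≠ 0) (h0' : g ≠ 0) :
    f * g ≠ 0 := fun h => by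
  refine mul_ne_zero (hf.qx_ne_zero h0) (hg.qx_ne_zero h0') ?_
  rw [← map_mul, ← ModFun.Good.qx_mul hf.good hg.good, h,
    show qx (0 : ℍ → ℂ) = 0 from qExpansion_zero 1, map_zero]

end IsMFH

/-- `X ∈ ℂ((q))` is the expansion of the quotient `F / G` of forms of weight `w` -/
structure IsQuotC (M : ℕ) (Δ : Subgroup (ZMod M)ˣ) (X : LaurentSeries ℂ) (w : ℤ) (F G : ℍ → ℂ) :
    Prop where
  num : IsMFH M Δ w F
  den : IsMFH M Δ w G
  den_ne : G ≠ 0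
  eq : X * HahnSeries.ofPowerSeries ℤ ℂ (qx G) = HahnSeries.ofPowerSeries ℤ ℂ (qx F)

namespace IsQuotC

variable {X Y : LaurentSeries ℂ} {w w' : ℤ} {F G F' G' : ℍ → ℂ}

theorem const (c : ℂ) :
    IsQuotC M Δ (algebraMap ℂ (LaurentSeries ℂ) c) 0 (c • 1) 1 := by
  refine ⟨IsMFH.one.smul c, IsMFH.one,
    fun h => one_ne_zero (congrFun h UpperHalfPlane.I : (1 : ℂ) = 0), ?_⟩
  rw [ModFun.Good.qx_smul c ModFun.Good.one, show qx (1 : ℍ → ℂ) = 1 from qExpansion_one 1, map_one,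
    mul_one, algebraMap_laurentSeries_eq_single, PowerSeries.smul_eq_C_mul, mul_one,
    HahnSeries.ofPowerSeries_C]
  rfl

theorem mul (h : IsQuotC M Δ X w F G) (h' : IsQuotC M Δ Y w' F' G') :
    IsQuotC M Δ (X * Y) (w + w') (F * F') (G * G') := by
  refine ⟨h.num.mul h'.num, h.den.mul h'.den, h.den.mul_ne_zero' h'.den h.den_ne h'.den_ne, ?_⟩
  rw [ModFun.Good.qx_mul h.den.good h'.den.good, ModFun.Good.qx_mul h.num.good h'.num.good,
    map_mul, map_mul, ← h.eq, ← h'.eq]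
  ring

theorem add (h : IsQuotC M Δ X w F G) (h' : IsQuotC M Δ Y w' F' G') :
    IsQuotC M Δ (X + Y) (w + w') (F * G' + G * F') (G * G') := by
  refine ⟨(h.num.mul h'.den).add (h.den.mul h'.num), h.den.mul h'.den,
    h.den.mul_ne_zero' h'.den h.den_ne h'.den_ne, ?_⟩
  rw [ModFun.Good.qx_mul h.den.good h'.den.good,
    ModFun.Good.qx_add (h.num.good.mul h'.den.good) (h.den.good.mul h'.num.good),
    ModFun.Good.qx_mul h.num.good h'.den.good, ModFun.Good.qx_mul h.den.good h'.num.good,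
    map_add, map_mul, map_mul, map_mul, ← h.eq, ← h'.eq]
  ring

theorem inv (h : IsQuotC M Δ X w F G) (hX : X ≠ 0) : IsQuotC M Δ X⁻¹ w G F := by
  have hF : F ≠ 0 := fun h0 => mul_ne_zero hX (h.den.qx_ne_zero h.den_ne)
    (by rw [h.eq, h0, show qx (0 : ℍ → ℂ) = 0 from qExpansion_zero 1, map_zero])
  refine ⟨h.den, h.num, hF, ?_⟩
  rw [← h.eq, inv_mul_cancel_left₀ hX]

theorem mono (hle : grpH M' Δ' ≤ grpH M Δ) (h : IsQuotC M Δ X w F G) :
    IsQuotC M' Δ' X w F G :=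
  ⟨h.num.mono hle, h.den.mono hle, h.den_ne, h.eq⟩

end IsQuotC

/-- `X ∈ ℚ̄((q))` is the expansion of the quotient `F / G` -/
abbrev IsQuotH (M : ℕ) (Δ : Subgroup (ZMod M)ˣ) (X : LaurentSeries (AlgebraicClosure ℚ)) (w : ℤ)
    (F G : ℍ → ℂ) : Prop :=
  IsQuotC M Δ (coeffMap embC X) w F G

/-! ### the function fields -/

/-- `ℚ(X_H)` in `ℚ((q))` -/
def F0H (M : ℕ) (Δ : Subgroup (ZMod M)ˣ) : IntermediateField ℚ (LaurentSeries ℚ) where
  carrier := {X | ∃ w F G, IsQuotC M Δ (coeffEmb ℂ X) w F G}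
  mul_mem' := fun ⟨_, _, _, h⟩ ⟨_, _, _, h'⟩ => ⟨_, _, _, (map_mul (coeffEmb ℂ) _ _) ▸ h.mul h'⟩
  one_mem' := ⟨_, _, _, by
    rw [map_one, ← map_one (algebraMap ℂ (LaurentSeries ℂ))]; exact IsQuotC.const 1⟩
  add_mem' := fun ⟨_, _, _, h⟩ ⟨_, _, _, h'⟩ => ⟨_, _, _, (map_add (coeffEmb ℂ) _ _) ▸ h.add h'⟩
  zero_mem' := ⟨_, _, _, by
    rw [map_zero, ← map_zero (algebraMap ℂ (LaurentSeries ℂ))]; exact IsQuotC.const 0⟩
  algebraMap_mem' r := ⟨_, _, _, by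
    rw [algebraMap_laurentSeries_eq_single, coeffEmb, coeffMap_single,
      ← algebraMap_laurentSeries_eq_single]
    exact IsQuotC.const _⟩
  inv_mem' X := fun ⟨w, F, G, h⟩ => by
    rcases eq_or_ne X 0 with rfl | hX
    · rw [inv_zero]; exact ⟨w, F, G, h⟩
    · exact ⟨_, _, _, (map_inv₀ (coeffEmb ℂ) X) ▸
        h.inv (fun h0 => hX ((map_eq_zero (coeffEmb ℂ)).mp h0))⟩

theorem mem_F0H {X : LaurentSeries ℚ} :
    X ∈ F0H M Δ ↔ ∃ w F G, IsQuotC M Δ (coeffEmb ℂ X) w F G := Iff.rfl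

/-- `ℚ̄(X_H)` -/
abbrev FBH (M : ℕ) (Δ : Subgroup (ZMod M)ˣ) :
    IntermediateField (AlgebraicClosure ℚ) (LaurentSeries (AlgebraicClosure ℚ)) :=
  laurentBaseChange (AlgebraicClosure ℚ) (F0H M Δ)

theorem jq_mem_F0H : jq ∈ F0H M Δ := by
  refine mem_F0H.mpr ⟨12, (ModularForm.E₄ : ℍ → ℂ) ^ 3, ModularForm.discriminant,
    ((ModFun.isMF_E4.pow 3).cast (by norm_num)).levelOne |> IsMFH.of_isMF,
    IsMFH.of_isMF ModFun.isMF_delta.levelOne,
    fun h => ModularForm.discriminant_ne_zero UpperHalfPlane.I (congrFun h _), ?_⟩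
  rw [← ModFun.lx_good ModFun.isMF_delta.good, ← ModFun.lx_jM, ← map_mul,
    ← ModFun.lx_good (ModFun.isMF_E4.good.pow 3)]
  exact congrArg ModFun.lx (Subtype.ext ModFun.jFun_mul_delta)

theorem jBar_mem_FBH : Good.jBarSeries ∈ FBH M Δ := coeffEmb_mem_laurentBaseChange _ jq_mem_F0H

/-- `j` -/
def jBarH (M : ℕ) (Δ : Subgroup (ZMod M)ˣ) : ↥(FBH M Δ) := ⟨Good.jBarSeries, jBar_mem_FBH⟩

/-- the Jacobian of `X_H` -/
abbrev JH (M : ℕ) (Δ : Subgroup (ZMod M)ˣ) : Type _ :=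
  AlgebraicCurve.Pic0 (AlgebraicClosure ℚ) ↥(FBH M Δ)

/-! ### charts -/

variable (A : ValuationSubring (AlgebraicClosure ℚ)) (M Δ)

/-- the finite chart -/
def InFinH (f : LaurentSeries (AlgebraicClosure ℚ)) : Prop :=
  f ∈ FBH M Δ ∧ IsIntegral (Algebra.adjoin A ({Good.jBarSeries} : Set _)) f

/-- the chart at infinity -/
def InInfH (f : LaurentSeries (AlgebraicClosure ℚ)) : Prop :=
  f ∈ FBH M Δ ∧ IsIntegral (Algebra.adjoin A ({Good.jBarSeries⁻¹} : Set _)) f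

/-- the function field of the special fibre -/
def FSH : IntermediateField (IsLocalRing.ResidueField A)
    (LaurentSeries (IsLocalRing.ResidueField A)) :=
  IntermediateField.adjoin (IsLocalRing.ResidueField A)
    {x | ∃ b : LaurentSeries A, InFinH M Δ A (Good.toBar A b) ∧ Good.toRes A b = x}

/-- the finite chart of the special fibre -/
def InFinResH (x : LaurentSeries (IsLocalRing.ResidueField A)) : Prop :=
  x ∈ FSH M Δ A ∧
    IsIntegral (Algebra.adjoin (IsLocalRing.ResidueField A)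
      ({jqModC (IsLocalRing.ResidueField A)} : Set _)) x

/-- the chart at infinity of the special fibre -/
def InInfResH (x : LaurentSeries (IsLocalRing.ResidueField A)) : Prop :=
  x ∈ FSH M Δ A ∧
    IsIntegral (Algebra.adjoin (IsLocalRing.ResidueField A)
      ({(jqModC (IsLocalRing.ResidueField A))⁻¹} : Set _)) x

theorem toBar_jqModC : Good.toBar A (jqModC A) = Good.jBarSeries := by
  rw [ModularCurve.coeffMap_jqModC, Good.jBarSeries, coeffEmb, ← jqModC_rat,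
    ModularCurve.coeffMap_jqModC]

theorem jqModC_mem_FSH : jqModC (IsLocalRing.ResidueField A) ∈ FSH M Δ A := by
  refine IntermediateField.subset_adjoin _ _ ⟨jqModC A, ?_, ModularCurve.coeffMap_jqModC _⟩
  rw [toBar_jqModC]
  exact ⟨jBar_mem_FBH, isIntegral_algebraMap
    (x := (⟨Good.jBarSeries, Algebra.self_mem_adjoin_singleton _ _⟩ :
      ↥(Algebra.adjoin A ({Good.jBarSeries} : Set (LaurentSeries (AlgebraicClosure ℚ))))))⟩

/-- `j` on the special fibre -/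
def jSH : ↥(FSH M Δ A) := ⟨jqModC _, jqModC_mem_FSH M Δ A⟩

end FLTAgent.DS
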