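import Fermat.Agent.DS.CurveInterp

/-!
Diamond operators on `ℚ̄(X_H)`: the action of `Γ₀(M)/H` on quotients of forms; it commutes with
the coefficientwise Galois action.
-/

set_option autoImplicit false
set_option synthInstance.maxHeartbeats 100000
set_option linter.unusedSectionVars false

noncomputable section

open UpperHalfPlane CongruenceSubgroup ModularCurve ModularForm IntermediateField
open scoped MatrixGroups Manifold

namespace FLTAgent.DS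

open Genus (embC)
open ModFun (qx lx)

local notation "Qb" => AlgebraicClosure ℚ

variable {M : ℕ} [NeZero M] {Δ : Subgroup (ZMod M)ˣ}

/-- `Y` is the image of `X` under the pull back by `γ ∈ Γ₀(M)` -/
def DiaRel (Δ : Subgroup (ZMod M)ˣ) (γ : Gamma0 M) (X Y : LaurentSeries ℂ) : Prop :=
  ∃ w F G, IsQuotC M Δ X w F G ∧
    IsQuotC M Δ Y w (F ∣[w] (γ : SL(2, ℤ))) (G ∣[w] (γ : SL(2, ℤ)))

variable {γ : Gamma0 M} {X X' Y Y' : LaurentSeries ℂ}

theorem DiaRel.eq_of_quot (h : DiaRel Δ γ X Y) {w' : ℤ} {F' G' : ℍ → ℂ}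
    (h' : IsQuotC M Δ X w' F' G') :
    IsQuotC M Δ Y w' (F' ∣[w'] (γ : SL(2, ℤ))) (G' ∣[w'] (γ : SL(2, ℤ))) := by
  obtain ⟨w, F, G, h1, h2⟩ := h
  have hG' : G' ∣[w'] (γ : SL(2, ℤ)) ≠ 0 := fun e => h'.den_ne (by
    have := congrArg (fun f => f ∣[w'] ((γ : SL(2, ℤ)))⁻¹) e
    simpa [← SlashAction.slash_mul] using this)
  refine ⟨h'.num.slash γ, h'.den.slash γ, hG', ?_⟩
  have e0 : HahnSeries.ofPowerSeries ℤ ℂ (qx (F * G')) =
      HahnSeries.ofPowerSeries ℤ ℂ (qx (F' * G)) := by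
    rw [ModFun.Good.qx_mul h1.num.good h'.den.good, ModFun.Good.qx_mul h'.num.good h1.den.good,
      map_mul, map_mul, ← h1.eq, ← h'.eq]
    ring
  have e1 : F * G' = F' * G := ModFun.Good.qx_inj (h1.num.good.mul h'.den.good)
    (h'.num.good.mul h1.den.good) (HahnSeries.ofPowerSeries_injective e0)
  have e2 : (F ∣[w] (γ : SL(2, ℤ))) * (G' ∣[w'] (γ : SL(2, ℤ))) =
      (F' ∣[w'] (γ : SL(2, ℤ))) * (G ∣[w] (γ : SL(2, ℤ))) := by
    rw [← ModularForm.mul_slash_SL2, ← ModularForm.mul_slash_SL2, e1, add_comm]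
  have e3 := congrArg (fun f => HahnSeries.ofPowerSeries ℤ ℂ (qx f)) e2
  simp only [ModFun.Good.qx_mul (h1.num.slash γ).good (h'.den.slash γ).good,
    ModFun.Good.qx_mul (h'.num.slash γ).good (h1.den.slash γ).good, map_mul, ← h2.eq] at e3
  refine mul_right_cancel₀ (h2.den.qx_ne_zero h2.den_ne) (Eq.trans ?_ e3)
  ring

theorem DiaRel.functional (h : DiaRel Δ γ X Y) (h' : DiaRel Δ γ X Y') : Y = Y' := by
  obtain ⟨w, F, G, h1, h2⟩ := h
  exact h2.unique (h'.eq_of_quot h1)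

theorem DiaRel.mul (h : DiaRel Δ γ X Y) (h' : DiaRel Δ γ X' Y') :
    DiaRel Δ γ (X * X') (Y * Y') := by
  obtain ⟨w, F, G, h1, h2⟩ := h
  obtain ⟨w', F', G', h1', h2'⟩ := h'
  refine ⟨w + w', F * F', G * G', h1.mul h1', ?_⟩
  rw [ModularForm.mul_slash_SL2, ModularForm.mul_slash_SL2]
  exact h2.mul h2'

theorem DiaRel.add (h : DiaRel Δ γ X Y) (h' : DiaRel Δ γ X' Y') :
    DiaRel Δ γ (X + X') (Y + Y') := by
  obtain ⟨w, F, G, h1, h2⟩ := h
  obtain ⟨w', F', G', h1', h2'⟩ := h'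
  refine ⟨w + w', F * G' + G * F', G * G', h1.add h1', ?_⟩
  rw [SlashAction.add_slash, ModularForm.mul_slash_SL2, ModularForm.mul_slash_SL2,
    ModularForm.mul_slash_SL2]
  exact h2.add h2'

theorem DiaRel.const (c : ℂ) : DiaRel Δ γ (algebraMap ℂ (LaurentSeries ℂ) c)
    (algebraMap ℂ (LaurentSeries ℂ) c) := by
  refine ⟨0, c • 1, 1, IsQuotC.const c, ?_⟩
  rw [ModularForm.SL_smul_slash, ModularForm.is_invariant_one]
  exact IsQuotC.const c

theorem DiaRel.inv (h : DiaRel Δ γ X Y) (hX : X ≠ 0) : DiaRel Δ γ X⁻¹ Y⁻¹ := by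
  obtain ⟨w, F, G, h1, h2⟩ := h
  refine ⟨w, G, F, h1.inv hX, h2.inv fun hY => ?_⟩
  subst hY
  have h3 := h2.eq
  rw [zero_mul, eq_comm, map_eq_zero_iff _ HahnSeries.ofPowerSeries_injective] at h3
  have h4 : F ∣[w] (γ : SL(2, ℤ)) = 0 := ModFun.Good.qx_inj h2.num.good ModFun.Good.zero
    (h3.trans (qExpansion_zero 1).symm)
  have h5 : F = 0 := by
    have := congrArg (fun f => f ∣[w] ((γ : SL(2, ℤ)))⁻¹) h4
    simpa [← SlashAction.slash_mul] using this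
  refine mul_ne_zero hX (h1.den.qx_ne_zero h1.den_ne) ?_
  rw [h1.eq, h5, show qx (0 : ℍ → ℂ) = 0 from qExpansion_zero 1, map_zero]

theorem DiaRel.comp {δ : Gamma0 M} {Z : LaurentSeries ℂ} (h : DiaRel Δ γ X Y)
    (h' : DiaRel Δ δ Y Z) : DiaRel Δ (γ * δ) X Z := by
  obtain ⟨w, F, G, h1, h2⟩ := h
  refine ⟨w, F, G, h1, ?_⟩
  rw [Subgroup.coe_mul, SlashAction.slash_mul, SlashAction.slash_mul]
  exact h'.eq_of_quot h2

theorem DiaRel.of_mem (hγ : dHom M γ ∈ Δ) {w : ℤ} {F G : ℍ → ℂ} (h : IsQuotC M Δ X w F G) :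
    DiaRel Δ γ X X := by
  have hm : (γ : SL(2, ℤ)) ∈ grpH M Δ := mem_grpH.mpr ⟨γ.2, hγ⟩
  refine ⟨w, F, G, h, ?_⟩
  rw [h.num.inv _ hm, h.den.inv _ hm]
  exact h

variable (hΔ : (-1 : (ZMod M)ˣ) ∈ Δ)

theorem diaRel_j : DiaRel Δ γ (coeffEmb ℂ jq) (coeffEmb ℂ jq) := by
  have h4 : ModFun.IsMF 1 12 ((ModularForm.E₄ : ℍ → ℂ) ^ 3) :=
    (ModFun.isMF_E4.pow 3).cast (by norm_num)
  have hq : IsQuotC M Δ (coeffEmb ℂ jq) 12 ((ModularForm.E₄ : ℍ → ℂ) ^ 3)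
      ModularForm.discriminant := by
    refine ⟨IsMFH.of_isMF h4.levelOne, IsMFH.of_isMF ModFun.isMF_delta.levelOne,
      fun h => ModularForm.discriminant_ne_zero UpperHalfPlane.I (congrFun h _), ?_⟩
    rw [← ModFun.lx_good ModFun.isMF_delta.good, ← ModFun.lx_jM, ← map_mul,
      ← ModFun.lx_good h4.good]
    exact congrArg ModFun.lx (Subtype.ext ModFun.jFun_mul_delta)
  refine ⟨_, _, _, hq, ?_⟩
  rw [h4.inv _ (ModFun.mem_Gamma0_one _), ModFun.isMF_delta.inv _ (ModFun.mem_Gamma0_one _)]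
  exact hq

theorem diaRel_wSer (u : (ZMod M)ˣ) :
    DiaRel Δ γ (coeffEmb ℂ (wSer hΔ u)) (coeffEmb ℂ (wSer hΔ (u * (dHom M γ)⁻¹))) := by
  refine ⟨_, _, _, isQuotC_wSer hΔ u, ?_⟩
  rw [numW, genW_slash_Gamma0,
    show ((discriminant : ℍ → ℂ) ^ expN Δ) ∣[genWt Δ] (γ : SL(2, ℤ)) = discriminant ^ expN Δ from
      (ModFun.isMF_delta.pow (expN Δ)).inv _ (ModFun.mem_Gamma0_one _)]
  exact isQuotC_wSer hΔ _

include hΔ in
theorem exists_dia (γ : Gamma0 M) (x : ↥(FBH M Δ)) :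
    ∃ y : ↥(FBH M Δ), DiaRel Δ γ (coeffMap embC (x : LaurentSeries Qb))
      (coeffMap embC (y : LaurentSeries Qb)) := by
  obtain ⟨x, hx⟩ := x
  show ∃ y : ↥(FBH M Δ), DiaRel Δ γ (coeffMap embC x) (coeffMap embC (y : LaurentSeries Qb))
  rw [FBH_eq_genB hΔ, genB] at hx
  induction hx using IntermediateField.adjoin_induction with
  | mem y hy =>
    rcases hy with rfl | rfl
    · refine ⟨jBarH M Δ, ?_⟩
      show DiaRel Δ γ (coeffMap embC (coeffEmb Qb jq)) (coeffMap embC (coeffEmb Qb jq))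
      rw [ModFun.coeffMap_coeffEmb_comp]
      exact diaRel_j
    · refine ⟨⟨coeffEmb Qb (wSer hΔ (1 * (dHom M γ)⁻¹)),
        coeffEmb_mem_laurentBaseChange _ (wSer_mem_F0H hΔ _)⟩, ?_⟩
      rw [ModFun.coeffMap_coeffEmb_comp, ModFun.coeffMap_coeffEmb_comp]
      exact diaRel_wSer hΔ 1
  | algebraMap a =>
    refine ⟨algebraMap Qb _ a, ?_⟩
    show DiaRel Δ γ (coeffMap embC (algebraMap Qb (LaurentSeries Qb) a))
      (coeffMap embC (algebraMap Qb (LaurentSeries Qb) a))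
    rw [coeffMap_embC_algebraMap]
    exact DiaRel.const _
  | add x y _ _ hx hy =>
    obtain ⟨a, ha⟩ := hx
    obtain ⟨b, hb⟩ := hy
    exact ⟨a + b, by
      simpa only [AddMemClass.coe_add, map_add] using ha.add hb⟩
  | inv x _ hx =>
    obtain ⟨a, ha⟩ := hx
    rcases eq_or_ne x 0 with rfl | h0
    · rw [inv_zero]; exact ⟨a, ha⟩
    · exact ⟨a⁻¹, by
        simpa only [IntermediateField.coe_inv, map_inv₀] using
          ha.inv (fun e => h0 ((map_eq_zero (coeffMap embC)).mp e))⟩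
  | mul x y _ _ hx hy =>
    obtain ⟨a, ha⟩ := hx
    obtain ⟨b, hb⟩ := hy
    exact ⟨a * b, by
      simpa only [MulMemClass.coe_mul, map_mul] using ha.mul hb⟩

/-- pull back by `γ` -/
def diaFun (γ : Gamma0 M) (x : ↥(FBH M Δ)) : ↥(FBH M Δ) := (exists_dia hΔ γ x).choose

theorem diaRel_diaFun (γ : Gamma0 M) (x : ↥(FBH M Δ)) :
    DiaRel Δ γ (coeffMap embC (x : LaurentSeries Qb))
      (coeffMap embC (diaFun hΔ γ x : LaurentSeries Qb)) :=
  (exists_dia hΔ γ x).choose_spec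

theorem diaFun_eq {γ : Gamma0 M} {x y : ↥(FBH M Δ)}
    (h : DiaRel Δ γ (coeffMap embC (x : LaurentSeries Qb)) (coeffMap embC (y : LaurentSeries Qb))) :
    diaFun hΔ γ x = y :=
  Subtype.ext (coeffMap_embC_inj ((diaRel_diaFun hΔ γ x).functional h))

theorem diaFun_comp (γ δ : Gamma0 M) (x : ↥(FBH M Δ)) :
    diaFun hΔ δ (diaFun hΔ γ x) = diaFun hΔ (γ * δ) x :=
  (diaFun_eq hΔ ((diaRel_diaFun hΔ γ x).comp (diaRel_diaFun hΔ δ _))).symm

theorem diaFun_of_mem {γ : Gamma0 M} (hγ : dHom M γ ∈ Δ) (x : ↥(FBH M Δ)) :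
    diaFun hΔ γ x = x := by
  obtain ⟨w, F, G, h⟩ := exists_isQuotH' x.2
  exact diaFun_eq hΔ (DiaRel.of_mem hγ h)

theorem diaFun_congr {γ δ : Gamma0 M} (h : dHom M γ = dHom M δ) (x : ↥(FBH M Δ)) :
    diaFun hΔ γ x = diaFun hΔ δ x := by
  have hm : dHom M (γ * δ⁻¹) ∈ Δ := by rw [map_mul, map_inv, h, mul_inv_cancel]; exact one_mem _
  conv_lhs => rw [show γ = (γ * δ⁻¹) * δ by group]
  rw [← diaFun_comp, diaFun_of_mem hΔ hm]

/-- pull back by `γ`, as an algebra map -/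
def diaHomAlg (γ : Gamma0 M) : ↥(FBH M Δ) →ₐ[Qb] ↥(FBH M Δ) where
  toFun := diaFun hΔ γ
  map_one' := diaFun_eq hΔ (by
    simp only [OneMemClass.coe_one, map_one]
    rw [← map_one (algebraMap ℂ (LaurentSeries ℂ))]
    exact DiaRel.const 1)
  map_mul' x y := diaFun_eq hΔ (by
    simpa only [MulMemClass.coe_mul, map_mul] using
      (diaRel_diaFun hΔ γ x).mul (diaRel_diaFun hΔ γ y))
  map_zero' := diaFun_eq hΔ (by
    simp only [ZeroMemClass.coe_zero, map_zero]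
    rw [← map_zero (algebraMap ℂ (LaurentSeries ℂ))]
    exact DiaRel.const 0)
  map_add' x y := diaFun_eq hΔ (by
    simpa only [AddMemClass.coe_add, map_add] using
      (diaRel_diaFun hΔ γ x).add (diaRel_diaFun hΔ γ y))
  commutes' a := diaFun_eq hΔ (by
    show DiaRel Δ γ (coeffMap embC (algebraMap Qb (LaurentSeries Qb) a))
      (coeffMap embC (algebraMap Qb (LaurentSeries Qb) a))
    rw [coeffMap_embC_algebraMap]
    exact DiaRel.const _)

theorem diaHomAlg_apply (γ : Gamma0 M) (x : ↥(FBH M Δ)) : diaHomAlg hΔ γ x = diaFun hΔ γ x := rfl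

/-- pull back by `γ`, as an automorphism -/
def diaEquiv (γ : Gamma0 M) : ↥(FBH M Δ) ≃ₐ[Qb] ↥(FBH M Δ) :=
  AlgEquiv.ofAlgHom (diaHomAlg hΔ γ) (diaHomAlg hΔ γ⁻¹)
    (AlgHom.ext fun x => by
      simp only [AlgHom.comp_apply, diaHomAlg_apply, AlgHom.id_apply, diaFun_comp, inv_mul_cancel]
      exact diaFun_of_mem hΔ (by rw [map_one]; exact one_mem _) x)
    (AlgHom.ext fun x => by
      simp only [AlgHom.comp_apply, diaHomAlg_apply, AlgHom.id_apply, diaFun_comp, mul_inv_cancel]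
      exact diaFun_of_mem hΔ (by rw [map_one]; exact one_mem _) x)

/-- a matrix with given lower right entry -/
def diaRep (d : (ZMod M)ˣ) : Gamma0 M := (dHom_surjective' d).choose

theorem dHom_diaRep (d : (ZMod M)ˣ) : dHom M (diaRep d) = d := (dHom_surjective' d).choose_spec

/-- the diamond homomorphism -/
def diaHom : (ZMod M)ˣ →* (↥(FBH M Δ) ≃ₐ[Qb] ↥(FBH M Δ)) where
  toFun d := diaEquiv hΔ (diaRep d)
  map_one' := AlgEquiv.ext fun x => by
    show diaFun hΔ (diaRep 1) x = x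
    exact diaFun_of_mem hΔ (by rw [dHom_diaRep]; exact one_mem _) x
  map_mul' d d' := AlgEquiv.ext fun x => by
    show diaFun hΔ (diaRep (d * d')) x = diaFun hΔ (diaRep d) (diaFun hΔ (diaRep d') x)
    rw [diaFun_comp]
    exact diaFun_congr hΔ (by rw [map_mul, dHom_diaRep, dHom_diaRep, dHom_diaRep, mul_comm]) x

theorem diaHom_apply (γ : Gamma0 M) (x : ↥(FBH M Δ)) :
    diaHom hΔ (dHom M γ) x = diaFun hΔ γ x :=
  diaFun_congr hΔ (dHom_diaRep _) x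

include hΔ in
theorem exists_diamond' :
    ∃ e : (ZMod M)ˣ →* (↥(FBH M Δ) ≃ₐ[Qb] ↥(FBH M Δ)),
      (∀ d ∈ Δ, e d = 1) ∧
      ∀ (γ : Gamma0 M) (x : ↥(FBH M Δ)) (w : ℤ) (F G : ℍ → ℂ),
        IsQuotH M Δ (x : LaurentSeries Qb) w F G →
          IsQuotH M Δ (e (dHom M γ) x : LaurentSeries Qb) w
            (F ∣[w] (γ : SL(2, ℤ))) (G ∣[w] (γ : SL(2, ℤ))) := by
  refine ⟨diaHom hΔ, fun d hd => AlgEquiv.ext fun x => ?_, fun γ x w F G h => ?_⟩
  · show diaFun hΔ (diaRep d) x = x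
    exact diaFun_of_mem hΔ (by rw [dHom_diaRep]; exact hd) x
  · rw [diaHom_apply]
    exact (diaRel_diaFun hΔ γ x).eq_of_quot h

theorem diaFun_jBarH (γ : Gamma0 M) : diaFun hΔ γ (jBarH M Δ) = jBarH M Δ := diaFun_eq hΔ (by
  show DiaRel Δ γ (coeffMap embC (coeffEmb Qb jq)) (coeffMap embC (coeffEmb Qb jq))
  rw [ModFun.coeffMap_coeffEmb_comp]
  exact diaRel_j)

theorem diaHomAlg_comm (γ : Gamma0 M) (σ : Qb ≃ₐ[ℚ] Qb) (g : ↥(FBH M Δ) ≃+* ↥(FBH M Δ))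
    (hg : ∀ y, (g y : LaurentSeries Qb) = coeffMap (σ : Qb →+* Qb) (y : LaurentSeries Qb))
    (x : ↥(FBH M Δ)) : diaHomAlg hΔ γ (g x) = g (diaHomAlg hΔ γ x) := by
  have hfix : ∀ (z : LaurentSeries ℚ) (hz : z ∈ F0H M Δ),
      g ⟨coeffEmb Qb z, coeffEmb_mem_laurentBaseChange _ hz⟩ =
        ⟨coeffEmb Qb z, coeffEmb_mem_laurentBaseChange _ hz⟩ := fun z _ =>
    Subtype.ext ((hg _).trans (coeffMap_coeffEmb σ z))
  have hwd : diaHomAlg hΔ γ (wBar hΔ) = ⟨coeffEmb Qb (wSer hΔ (1 * (dHom M γ)⁻¹)),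
      coeffEmb_mem_laurentBaseChange _ (wSer_mem_F0H hΔ _)⟩ := diaFun_eq hΔ (by
    show DiaRel Δ γ (coeffMap embC (coeffEmb Qb (wSer hΔ 1)))
      (coeffMap embC (coeffEmb Qb (wSer hΔ (1 * (dHom M γ)⁻¹))))
    rw [ModFun.coeffMap_coeffEmb_comp, ModFun.coeffMap_coeffEmb_comp]
    exact diaRel_wSer hΔ 1)
  have hj : diaHomAlg hΔ γ (jBarH M Δ) = jBarH M Δ := diaFun_jBarH hΔ γ
  have hj' : g (jBarH M Δ) = jBarH M Δ := hfix jq jq_mem_F0H
  have hw' : g (wBar hΔ) = wBar hΔ := hfix _ (wSer_mem_F0H hΔ 1)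
  have hc : ∀ a, g (algebraMap Qb ↥(FBH M Δ) a) = algebraMap Qb ↥(FBH M Δ) (σ a) := fun a =>
    Subtype.ext ((hg _).trans (coeffMap_algebraMap (σ : Qb →+* Qb) a))
  have hx : x ∈ IntermediateField.adjoin Qb ({jBarH M Δ, wBar hΔ} : Set ↥(FBH M Δ)) :=
    (generated_FBH hΔ).symm ▸ IntermediateField.mem_top
  induction hx using IntermediateField.adjoin_induction with
  | mem y hy =>
    rcases hy with rfl | rfl
    · rw [hj', hj, hj']
    · rw [hw', hwd]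
      exact (hfix _ (wSer_mem_F0H hΔ _)).symm
  | algebraMap a => rw [hc, AlgHom.commutes, AlgHom.commutes, hc]
  | add x y _ _ hx hy => rw [map_add, map_add, map_add, map_add, hx, hy]
  | inv x _ hx => rw [map_inv₀, map_inv₀, map_inv₀, map_inv₀, hx]
  | mul x y _ _ hx hy => rw [map_mul, map_mul, map_mul, map_mul, hx, hy]

/-- pull back commutes with the Galois action -/
theorem diaFun_galois (γ : Gamma0 M) (σ : Qb ≃ₐ[ℚ] Qb) (x : ↥(FBH M Δ)) :
    diaFun hΔ γ (arithmeticGalois (F0H M Δ) σ • x) =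
      arithmeticGalois (F0H M Δ) σ • diaFun hΔ γ x :=
  diaHomAlg_comm hΔ γ σ (arithmeticRingAut (F0H M Δ) σ) (fun _ => rfl) x

theorem inFinH_map (A : ValuationSubring Qb) (e : ↥(FBH M Δ) ≃ₐ[Qb] ↥(FBH M Δ))
    (he : e (jBarH M Δ) = jBarH M Δ) (x : ↥(FBH M Δ))
    (hx : InFinH M Δ A (x : LaurentSeries Qb)) :
    InFinH M Δ A (e x : LaurentSeries Qb) := by
  refine ⟨(e x).2, ?_⟩
  obtain ⟨p, hp, hev⟩ := hx.2
  set S := Algebra.adjoin A ({Good.jBarSeries} : Set (LaurentSeries Qb))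
  have hS : ∀ s ∈ S, ∃ y : ↥(FBH M Δ), (y : LaurentSeries Qb) = s ∧ e y = y := by
    intro s hs
    induction hs using Algebra.adjoin_induction with
    | mem y hy =>
      rw [Set.mem_singleton_iff] at hy
      exact ⟨jBarH M Δ, hy.symm, he⟩
    | algebraMap a =>
      refine ⟨algebraMap Qb _ (a : Qb), ?_, e.commutes _⟩
      show algebraMap Qb (LaurentSeries Qb) (a : Qb) = _
      rw [algebraMap_A_Qb, algebraMap_laurentSeries_eq_single]
    | add a b _ _ ha hb =>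
      obtain ⟨u, rfl, hu⟩ := ha
      obtain ⟨v, rfl, hv⟩ := hb
      exact ⟨u + v, rfl, by rw [map_add, hu, hv]⟩
    | mul a b _ _ ha hb =>
      obtain ⟨u, rfl, hu⟩ := ha
      obtain ⟨v, rfl, hv⟩ := hb
      exact ⟨u * v, rfl, by rw [map_mul, hu, hv]⟩
  choose f hf hfe using fun i => hS _ (p.coeff i).2
  refine ⟨p, hp, ?_⟩
  have h0 : (∑ i ∈ Finset.range (p.natDegree + 1), f i * x ^ i : ↥(FBH M Δ)) = 0 := by
    refine Subtype.ext ?_
    rw [ZeroMemClass.coe_zero, ← hev, Polynomial.eval₂_eq_sum_range, AddSubmonoidClass.coe_finsetSum]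
    refine Finset.sum_congr rfl fun i _ => ?_
    rw [MulMemClass.coe_mul, SubmonoidClass.coe_pow, hf]
    rfl
  have h1 := congrArg (fun z : ↥(FBH M Δ) => ((e z : ↥(FBH M Δ)) : LaurentSeries Qb)) h0
  simp only [map_sum, map_mul, map_pow, hfe, map_zero, ZeroMemClass.coe_zero,
    AddSubmonoidClass.coe_finsetSum, MulMemClass.coe_mul, SubmonoidClass.coe_pow, hf] at h1
  rw [Polynomial.eval₂_eq_sum_range]
  exact h1

end FLTAgent.DS
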