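import Fermat.Agent.DS.CurveLevel

/-!
The special fibre of `X_H` inside an auxiliary level: reductions of chart elements, lifts, diamond
operators.
-/

set_option autoImplicit false
set_option synthInstance.maxHeartbeats 400000
set_option maxHeartbeats 1000000
set_option linter.style.haveILetI false
set_option linter.unusedSectionVars false

noncomputable section

open UpperHalfPlane CongruenceSubgroup ModularCurve ModularForm IntermediateField
open scoped MatrixGroups Manifold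

namespace FLTAgent.DS

open Genus (embC)
open Good (Lev toBar toRes jBarSeries)

local notation "Qb" => AlgebraicClosure ℚ

variable {M : ℕ} [NeZero M] {Δ : Subgroup (ZMod M)ˣ} {S : Lev} (hM : M ∣ S.M) (hι : S.ι = embC)
  (hΔ : (-1 : (ZMod M)ˣ) ∈ Δ)

theorem toBar_injective (A : ValuationSubring Qb) : Function.Injective (toBar A) := fun x y h => by
  ext n
  simpa using congrArg (fun z : LaurentSeries Qb => z.coeff n) h

include hM hι hΔ in
theorem exists_fixed_of_inFinH {f : LaurentSeries Qb} (hf : InFinH M Δ S.A f) :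
    ∃ x : S.LF, (∀ g ∈ lvlGrp M Δ S, g • x = x) ∧ S.expQ x = qExpand Qb S.M f := by
  obtain ⟨hfF, p, hp, hev⟩ := hf
  rw [FBH_eq_fixLvl hM hι hΔ] at hfF
  let z : ↥S.fibQ.K := ⟨_, S.fibQ.qExpand_mem_K hfF⟩
  have hint : IsIntegral ↥S.fibQ.Aj (z : LaurentSeries Qb) := by
    have hmem : ∀ w ∈ Algebra.adjoin S.A ({jBarSeries} : Set (LaurentSeries Qb)),
        qExpand Qb S.M w ∈ S.fibQ.Aj := by
      intro w hw
      induction hw using Algebra.adjoin_induction with
      | mem y hy =>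
        rw [Set.mem_singleton_iff] at hy
        subst hy
        refine (Good.Lev.Fib.mem_Aj S.fibQ).mpr ⟨Polynomial.X, ?_⟩
        rw [Polynomial.aeval_X, Good.Lev.Fib.φ_jL, jBarSeries_eq]
      | algebraMap a =>
        refine (Good.Lev.Fib.mem_Aj S.fibQ).mpr ⟨Polynomial.C a, ?_⟩
        rw [Polynomial.aeval_C, Good.Lev.Fib.φ_algebraMap, ← qExpandAlgHomC_apply Qb S.M,
          algebraMap_A_Qb, qExpandAlgHomC_apply, qExpand_single, mul_zero,
          algebraMap_laurentSeries_eq_single]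
        rfl
      | add a b _ _ ha hb => rw [map_add]; exact add_mem ha hb
      | mul a b _ _ ha hb => rw [map_mul]; exact mul_mem ha hb
    exact IsIntegral.map_of_comp_eq
      ({ toFun := fun w => ⟨qExpand Qb S.M w.1, hmem w.1 w.2⟩
         map_one' := Subtype.ext (map_one _)
         map_mul' := fun a b => Subtype.ext (map_mul _ a.1 b.1)
         map_zero' := Subtype.ext (map_zero _)
         map_add' := fun a b => Subtype.ext (map_add _ a.1 b.1) } :
        ↥(Algebra.adjoin S.A ({jBarSeries} : Set (LaurentSeries Qb))) →+* ↥S.fibQ.Aj)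
      (qExpand Qb S.M) (RingHom.ext fun _ => rfl) ⟨p, hp, hev⟩
  obtain ⟨x, hx⟩ := S.exists_of_isIntegral_fibQ hint
  refine ⟨x, fun g hg => S.expQ_injective ?_, hx⟩
  have h1 := S.fibQ.fixed_of_mem hfF (z := S.fibQ.toK x) hx g hg
  rw [Good.Lev.Fib.smul_toK] at h1
  exact congrArg Subtype.val h1

include hι hΔ in
theorem exists_inFinH_of_fixed {x : S.LF} (hx : ∀ g ∈ lvlGrp M Δ S, g • x = x) :
    ∃ b : LaurentSeries S.A, qExpand S.A S.M b = S.expA x ∧ InFinH M Δ S.A (toBar S.A b) ∧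
      qExpand S.k S.M (toRes S.A b) = S.resA x := by
  obtain ⟨b, hb, hF⟩ := exists_mem_FBH_of_fixed hι hΔ hx
  refine ⟨b, hb, ⟨hF, S.isIntegral_expQ x (expQ_eq_qExpand hb)⟩, ?_⟩
  rw [Good.Lev.resA, RingHom.comp_apply, ← hb, ModularCurve.coeffMap_qExpand]

include hι hΔ in
theorem mem_FSH_of_fixed {x : S.LF} (hx : ∀ g ∈ lvlGrp M Δ S, g • x = x)
    {f : LaurentSeries S.k} (hf : qExpand S.k S.M f = S.resA x) : f ∈ FSH M Δ S.A := by
  obtain ⟨b, -, hbF, hb⟩ := exists_inFinH_of_fixed hι hΔ hx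
  rw [qExpand_injective (R := S.k) S.M (hf.trans hb.symm)]
  exact IntermediateField.subset_adjoin _ _ ⟨b, hbF, rfl⟩

include hM hι hΔ in
theorem qExpand_toRes_of_inFinH {b : LaurentSeries S.A} (hb : InFinH M Δ S.A (toBar S.A b)) :
    ∃ y : S.LF, (∀ g ∈ lvlGrp M Δ S, g • y = y) ∧ S.expA y = qExpand S.A S.M b ∧
      qExpand S.k S.M (toRes S.A b) = S.resA y := by
  obtain ⟨y, hy, hyb⟩ := exists_fixed_of_inFinH hM hι hΔ hb
  have hyA : S.expA y = qExpand S.A S.M b := toBar_injective S.A (by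
    show S.expQ y = _
    rw [hyb, ModularCurve.coeffMap_qExpand])
  refine ⟨y, hy, hyA, ?_⟩
  rw [Good.Lev.resA, RingHom.comp_apply, hyA, ModularCurve.coeffMap_qExpand]

include hM hι hΔ in
/-- the function field of the special fibre is the fixed field of `H` -/
theorem FSH_eq_fixLvl : FSH M Δ S.A = S.fibK.fixLvl (lvlGrp M Δ S) := by
  refine le_antisymm (IntermediateField.adjoin_le_iff.mpr ?_) ?_
  · rintro _ ⟨b, hb, rfl⟩
    obtain ⟨y, hy, -, hy'⟩ := qExpand_toRes_of_inFinH hM hι hΔ hb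
    exact ⟨S.fibK.toK y, fun g hg => by rw [Good.Lev.Fib.smul_toK, hy g hg], hy'.symm⟩
  · rintro f ⟨z, hz, e⟩
    haveI := S.faithfulSMul_fibK
    obtain ⟨x, y, hy, hfix, hxy⟩ := S.fibK.exists_invariant_den ⊤ z
    have hfix' : ∀ g ∈ lvlGrp M Δ S, g • y = y := fun g _ => hfix g trivial
    have hwfix : ∀ g ∈ lvlGrp M Δ S, g • S.fibK.toK x = S.fibK.toK x := fun g hg => by
      rw [← hxy, smul_mul', hz g hg, Good.Lev.Fib.smul_toK, hfix' g hg]
    have hwint : IsIntegral (Algebra.adjoin S.k ({S.jF} : Set ↥S.fibK.K)) (S.fibK.toK x) :=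
      Good.isIntegral_adjoin_map (IsLocalRing.residue S.A) S.fibK.toK (fun r =>
        Subtype.ext (S.fibK.φ_algebraMap r)) (S.isIntegral_adjoin_jL x)
    obtain ⟨x', hx', hxx'⟩ := S.exists_lift_invariant (lvlGrp M Δ S) hwint hwfix
    obtain ⟨u, -, huF, hu⟩ := exists_inFinH_of_fixed hι hΔ hx'
    obtain ⟨v, -, hvF, hv⟩ := exists_inFinH_of_fixed hι hΔ hfix'
    have hf : f = toRes S.A u / toRes S.A v := by
      refine qExpand_injective (R := S.k) S.M ?_
      rw [map_div₀, hu, hv, ← e,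
        show S.resA x' = S.fibK.φ x from congrArg Subtype.val hxx']
      exact (eq_div_iff (show S.resA y ≠ 0 from hy)).mpr (congrArg Subtype.val hxy)
    rw [hf]
    exact div_mem (IntermediateField.subset_adjoin _ _ ⟨u, huF, rfl⟩)
      (IntermediateField.subset_adjoin _ _ ⟨v, hvF, rfl⟩)

/-! ### charts -/

include hM hι hΔ in
theorem exists_series_inFinH {f : LaurentSeries Qb} (hf : InFinH M Δ S.A f) :
    ∃ b : LaurentSeries S.A, toBar S.A b = f ∧ InFinResH M Δ S.A (toRes S.A b) := by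
  obtain ⟨y, hy, hyf⟩ := exists_fixed_of_inFinH hM hι hΔ hf
  obtain ⟨b, hb, -⟩ := S.exists_series y hyf
  exact ⟨b, hb, IntermediateField.subset_adjoin _ _ ⟨b, hb.symm ▸ hf, rfl⟩,
    S.isIntegral_res b (hb.symm ▸ hf.2)⟩

include hM hι hΔ in
theorem exists_lift_finResH {x : LaurentSeries S.k} (hx : InFinResH M Δ S.A x) :
    ∃ b : LaurentSeries S.A, InFinH M Δ S.A (toBar S.A b) ∧ toRes S.A b = x := by
  obtain ⟨hxF, hxi⟩ := hx
  rw [FSH_eq_fixLvl hM hι hΔ] at hxF
  set z : ↥S.fibK.K := ⟨qExpand S.k S.M x, S.fibK.qExpand_mem_K hxF⟩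
  have hz : IsIntegral (Algebra.adjoin S.k ({S.jF} : Set ↥S.fibK.K)) z := by
    refine Good.isIntegral_val S.fibK.K ?_
    have h := Good.isIntegral_adjoin_map (RingHom.id S.k) (qExpand S.k S.M)
      S.algebraMap_k_qExpand hxi
    rw [← Good.Lev.resA_jL] at h
    exact h
  obtain ⟨y, hy, hyz⟩ := S.exists_lift_invariant (lvlGrp M Δ S) hz (S.fibK.fixed_of_mem hxF rfl)
  obtain ⟨b, -, hbF, hb⟩ := exists_inFinH_of_fixed hι hΔ hy
  exact ⟨b, hbF, qExpand_injective (R := S.k) S.M (hb.trans (congrArg Subtype.val hyz))⟩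

include hM hι hΔ in
theorem exists_series_infH {f : LaurentSeries Qb} (hf : InInfH M Δ S.A f) :
    ∃ b : LaurentSeries S.A, toBar S.A b = f ∧ InInfResH M Δ S.A (toRes S.A b) := by
  obtain ⟨n, hn⟩ := Good.exists_pow_mul_isIntegral Good.Lev.jBar_ne_zero hf.2
  obtain ⟨b, hb, hbF, -⟩ := exists_series_inFinH hM hι hΔ
    (f := jBarSeries ^ n * f) ⟨mul_mem (pow_mem jBar_mem_FBH n) hf.1, hn n le_rfl⟩
  obtain ⟨t, ht, -⟩ := (Good.Lev.hasLead_jqModC S.A).exists_inv
  have htb : toBar S.A t = (jBarSeries : LaurentSeries Qb)⁻¹ := by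
    refine eq_inv_of_mul_eq_one_right ?_
    rw [← S.toBar_jqModC, ← map_mul, ht, map_one]
  have htr : toRes S.A t = (jqModC S.k)⁻¹ := by
    refine eq_inv_of_mul_eq_one_right ?_
    rw [← ModularCurve.coeffMap_jqModC (IsLocalRing.residue S.A), ← map_mul, ht, map_one]
  have hbar : toBar S.A (t ^ n * b) = f := by
    rw [map_mul, map_pow, htb, hb, ← mul_assoc, ← mul_pow,
      inv_mul_cancel₀ Good.Lev.jBar_ne_zero, one_pow, one_mul]
  refine ⟨t ^ n * b, hbar, ?_, ?_⟩
  · rw [map_mul, map_pow, htr]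
    exact mul_mem (pow_mem (inv_mem (jqModC_mem_FSH M Δ S.A)) n) hbF
  · rw [← htr]
    refine Good.isIntegral_adjoin_map (IsLocalRing.residue S.A) (toRes S.A) S.algebraMap_A_series ?_
    refine Good.isIntegral_adjoin_of_map (toBar S.A) S.toBar_algebraMap (toBar_injective S.A) ?_
    rw [htb, hbar]
    exact hf.2

theorem smul_prod_subgroup (x : S.LF) (H : Subgroup S.G) [Fintype H] :
    ∀ g ∈ H, g • ∏ h : H, (h : S.G) • x = ∏ h : H, (h : S.G) • x := by
  intro g hg
  rw [Finset.smul_prod']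
  refine Fintype.prod_equiv (Equiv.mulLeft (⟨g, hg⟩ : H)) _ _ fun h => ?_
  rw [Equiv.coe_mulLeft, Subgroup.coe_mul, mul_smul]

/-- invariant elements integral over `k[1/j]` lift with bounded poles -/
theorem exists_invariant_pole_lift (H : Subgroup S.G) {z : ↥S.fibK.K}
    (hz : IsIntegral (Algebra.adjoin S.k ({S.jF⁻¹} : Set ↥S.fibK.K)) z)
    (hinv : ∀ g ∈ H, g • z = z) :
    ∃ (y : S.LF) (n : ℕ), (∀ g ∈ H, g • y = y) ∧ S.Pole y ((n * S.M : ℕ) : ℤ) ∧
      S.fibK.toK y = S.jF ^ n * z := by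
  classical
  obtain ⟨R0, hdom⟩ := S.exists_dominant
  have := Fintype.ofFinite H
  haveI : FaithfulSMul ↥H ↥S.fibK.K :=
    ⟨fun {g h} e => Subtype.ext (FaithfulSMul.eq_of_smul_eq_smul (α := ↥S.fibK.K) e)⟩
  haveI : SMulCommClass ↥H S.k ↥S.fibK.K := ⟨fun g r w => smul_comm (g : S.G) r w⟩
  have hadj : S.k⟮S.jF⁻¹⟯ = S.k⟮S.jF⟯ := by
    refine le_antisymm ?_ ?_ <;> rw [IntermediateField.adjoin_simple_le_iff]
    · exact inv_mem (IntermediateField.mem_adjoin_simple_self _ _)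
    · simpa using inv_mem (IntermediateField.mem_adjoin_simple_self S.k S.jF⁻¹)
  haveI : FiniteDimensional (S.k⟮S.jF⁻¹⟯) ↥S.fibK.K := by rw [hadj]; exact S.finiteDimensional_fibK
  haveI : Algebra.IsSeparable (S.k⟮S.jF⁻¹⟯) ↥S.fibK.K := by rw [hadj]; exact S.isSeparable_fibK
  have hj0 : S.jF ≠ 0 := fun h => S.transcendental_jF (h ▸ isAlgebraic_zero)
  have htr : Transcendental S.k S.jF⁻¹ := fun h => S.transcendental_jF (inv_inv S.jF ▸ h.inv)
  let B : Subalgebra S.k ↥S.fibK.K :=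
    { carrier := {w | ∃ (y : S.LF) (n : ℕ), (∀ g ∈ H, g • y = y) ∧
        S.Pole y ((n * S.M : ℕ) : ℤ) ∧ S.fibK.toK y = S.jF ^ n * w}
      mul_mem' := fun ⟨y, n, hy, hp, e⟩ ⟨y', n', hy', hp', e'⟩ =>
        ⟨y * y', n + n', fun g hg => by rw [smul_mul', hy g hg, hy' g hg],
          by rw [add_mul, Nat.cast_add]; exact hp.mul hp',
          by rw [map_mul, e, e', pow_add]; ring⟩
      add_mem' := fun {w w'} ⟨y, n, hy, hp, e⟩ ⟨y', n', hy', hp', e'⟩ =>
        ⟨S.jL ^ n' * y + S.jL ^ n * y', n + n',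
          fun g hg => by
            rw [smul_add, smul_mul', smul_mul', smul_pow', smul_pow', S.smul_jL, hy g hg, hy' g hg],
          by
            have h1 := (Good.Lev.Pole.prod (T := Finset.range n') (x := fun _ => S.jL)
              fun _ _ => S.pole_jL).mul hp
            have h2 := (Good.Lev.Pole.prod (T := Finset.range n) (x := fun _ => S.jL)
              fun _ _ => S.pole_jL).mul hp'
            simp only [Finset.prod_const, Finset.card_range] at h1 h2
            exact (h1.mono (by push_cast; linarith)).add (h2.mono (by push_cast; linarith)),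
          by
            rw [map_add, map_mul, map_mul, map_pow, map_pow, e, e',
              show S.fibK.toK S.jL = S.jF from rfl]
            ring⟩
      algebraMap_mem' := fun c => by
        obtain ⟨a, rfl⟩ := IsLocalRing.residue_surjective c
        refine ⟨algebraMap S.A S.LF a, 0, fun g _ => smul_algebraMap g a, ?_, ?_⟩
        · simpa using Good.Lev.pole_algebraMap (S := S) a le_rfl
        · rw [pow_zero, one_mul]; exact Subtype.ext (S.fibK.φ_algebraMap a) }
  have hjB : S.jF⁻¹ ∈ B := ⟨1, 1, fun g _ => smul_one g,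
    (Good.Lev.pole_one (S := S)).mono (Int.natCast_nonneg _), by
    rw [map_one, pow_one, mul_inv_cancel₀ hj0]⟩
  refine Good.mem_of_norm_mem S.jF⁻¹ htr (G := ↥H) (fun g => ?_) B hjB (fun w hw => ?_) hz
    fun g => hinv g g.2
  · show (g : S.G) • S.jF⁻¹ = _
    rw [smul_inv'', S.smul_jF]
  · obtain ⟨c, n, hp, hc⟩ := S.exists_pole_lift R0 hdom (z := w) hw
    refine ⟨∏ g : ↥H, (g : S.G) • c, Fintype.card ↥H * n, smul_prod_subgroup c H, ?_, ?_⟩
    · have h := Good.Lev.Pole.prod (T := Finset.univ) (x := fun g : ↥H => (g : S.G) • c)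
        fun g _ => hp.smul _
      rw [Finset.card_univ] at h
      rw [mul_assoc]
      exact_mod_cast h
    · rw [map_prod, mul_comm (Fintype.card ↥H) n, pow_mul, ← Finset.card_univ,
        ← Finset.prod_const, ← Finset.prod_mul_distrib]
      refine Finset.prod_congr rfl fun g _ => ?_
      show S.fibK.toK ((g : S.G) • c) = S.jF ^ n * ((g : S.G) • w)
      have hc' : S.fibK.toK c = S.jF ^ n * w := hc
      rw [← Good.Lev.Fib.smul_toK, hc', smul_mul', smul_pow', S.smul_jF]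

include hM hι hΔ in
theorem exists_lift_infResH {x : LaurentSeries S.k} (hx : InInfResH M Δ S.A x) :
    ∃ b : LaurentSeries S.A, InInfH M Δ S.A (toBar S.A b) ∧ toRes S.A b = x := by
  obtain ⟨hxF, hxi⟩ := hx
  rw [FSH_eq_fixLvl hM hι hΔ] at hxF
  set z : ↥S.fibK.K := ⟨qExpand S.k S.M x, S.fibK.qExpand_mem_K hxF⟩
  have hz : IsIntegral (Algebra.adjoin S.k ({S.jF⁻¹} : Set ↥S.fibK.K)) z := by
    refine Good.isIntegral_val S.fibK.K ?_
    have h := Good.isIntegral_adjoin_map (RingHom.id S.k) (qExpand S.k S.M)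
      S.algebraMap_k_qExpand hxi
    rw [map_inv₀, ← Good.Lev.resA_jL] at h
    exact h
  obtain ⟨y, n, hy, hp, hyz⟩ := exists_invariant_pole_lift (lvlGrp M Δ S) hz
    (S.fibK.fixed_of_mem hxF rfl)
  obtain ⟨b, hbA, hbF, hb'⟩ := exists_inFinH_of_fixed hι hΔ hy
  have hgy := expQ_eq_qExpand hbA
  obtain ⟨t, ht, -⟩ := (Good.Lev.hasLead_jqModC S.A).exists_inv
  have htb : toBar S.A t = (jBarSeries : LaurentSeries Qb)⁻¹ := by
    refine eq_inv_of_mul_eq_one_right ?_
    rw [← S.toBar_jqModC, ← map_mul, ht, map_one]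
  have htr : toRes S.A t = (jqModC S.k)⁻¹ := by
    refine eq_inv_of_mul_eq_one_right ?_
    rw [← ModularCurve.coeffMap_jqModC (IsLocalRing.residue S.A), ← map_mul, ht, map_one]
  refine ⟨t ^ n * b, ⟨?_, ?_⟩, ?_⟩
  · rw [map_mul, map_pow, htb]
    exact mul_mem (pow_mem (inv_mem jBar_mem_FBH) n) hbF.1
  · refine Good.isIntegral_adjoin_of_map (qExpand Qb S.M) (fun r => ?_)
      (qExpand_injective S.M) ?_
    · rw [S.algebraMap_A_eq, qExpand_single, mul_zero]
    · rw [map_inv₀, ← S.expQ_jL, map_mul, map_pow, htb, map_mul, map_pow, map_inv₀, ← S.expQ_jL,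
        ← hgy, mul_comm]
      exact S.isIntegral_div y n hp
  · refine qExpand_injective (R := S.k) S.M ?_
    rw [map_mul, map_pow, htr, map_mul, map_pow, map_inv₀, hb', ← Good.Lev.resA_jL]
    have h := congrArg Subtype.val hyz
    simp only [MulMemClass.coe_mul, SubmonoidClass.coe_pow] at h
    change S.resA y = _ at h
    rw [h, ← mul_assoc, ← mul_pow, show ((S.jF : ↥S.fibK.K) : LaurentSeries S.k) = S.resA S.jL
      from rfl, inv_mul_cancel₀ S.resA_jL_ne_zero, one_pow, one_mul]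

/-! ### degree and separability -/

include hM hι hΔ in
theorem finrank_FSH_lev :
    Module.finrank (IntermediateField.adjoin S.k ({jqModC S.k} : Set _))
        (IntermediateField.extendScalars
          (F := IntermediateField.adjoin S.k ({jqModC S.k} : Set _)) (E := FSH M Δ S.A)
          (IntermediateField.adjoin_le_iff.mpr
            (Set.singleton_subset_iff.mpr (jqModC_mem_FSH M Δ S.A)))) = (grpH M Δ).index :=
  ((Good.Lev.invPoly_fibK.finrank_isSeparable_fixLvl Good.Lev.twists_fibK T_mem_lvlGrp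
    (FSH_eq_fixLvl hM hι hΔ) rfl _).1).trans (index_lvlGrp hM hΔ)

include hM hι hΔ in
theorem isSeparable_FSH_lev {x : LaurentSeries S.k} (hx : x ∈ FSH M Δ S.A) :
    IsSeparable (IntermediateField.adjoin S.k ({jqModC S.k} : Set _)) x :=
  (Good.Lev.invPoly_fibK.finrank_isSeparable_fixLvl Good.Lev.twists_fibK T_mem_lvlGrp
    (FSH_eq_fixLvl hM hι hΔ) rfl (IntermediateField.adjoin_le_iff.mpr
      (Set.singleton_subset_iff.mpr (jqModC_mem_FSH M Δ S.A)))).2 x hx

/-! ### diamonds -/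

theorem fixed_conj {α : Type*} [MulAction S.G α] (γ : Gamma0 M) {z : α}
    (hz : ∀ g ∈ lvlGrp M Δ S, g • z = z) :
    ∀ g ∈ lvlGrp M Δ S, g • (S.mkG (γ : SL(2, ℤ)))⁻¹ • z = (S.mkG (γ : SL(2, ℤ)))⁻¹ • z := by
  rintro g hg
  obtain ⟨δ, hδ, rfl⟩ := mem_lvlGrp.mp hg
  have h1 := hz _ (mem_lvlGrp.mpr ⟨_, conj_mem_grpH γ.2 hδ, rfl⟩)
  rw [Good.Lev.mkG_mul, Good.Lev.mkG_mul, Good.Lev.mkG_inv, mul_smul, mul_smul] at h1
  rw [eq_inv_smul_iff]
  exact h1

theorem fixed_congr {α : Type*} [MulAction S.G α] {γ γ' : Gamma0 M} (h : dHom M γ = dHom M γ')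
    {z : α} (hz : ∀ g ∈ lvlGrp M Δ S, g • z = z) :
    (S.mkG (γ : SL(2, ℤ)))⁻¹ • z = (S.mkG (γ' : SL(2, ℤ)))⁻¹ • z := by
  have hm : ((γ * γ'⁻¹ : Gamma0 M) : SL(2, ℤ)) ∈ grpH M Δ := by
    refine mem_grpH.mpr ⟨(γ * γ'⁻¹).2, ?_⟩
    show dHom M (γ * γ'⁻¹) ∈ Δ
    rw [map_mul, map_inv, h, mul_inv_cancel]
    exact one_mem _
  have h1 := hz _ (mem_lvlGrp.mpr ⟨_, hm, rfl⟩)
  rw [inv_smul_eq_iff, ← mul_smul]
  rw [Subgroup.coe_mul, Subgroup.coe_inv, Good.Lev.mkG_mul, Good.Lev.mkG_inv] at h1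
  exact h1.symm

include hM hι hΔ in
theorem exists_diamondRes_lev :
    ∃ e : (ZMod M)ˣ →* (↥(FSH M Δ S.A) ≃ₐ[S.k] ↥(FSH M Δ S.A)),
      ∀ (γ : Gamma0 M) (x : ↥(FBH M Δ)) (x' : ↥(FBH M Δ)) (b b' : LaurentSeries S.A)
        (z : ↥(FSH M Δ S.A)),
        InFinH M Δ S.A (x : LaurentSeries Qb) → toBar S.A b = (x : LaurentSeries Qb) →
        toBar S.A b' = (x' : LaurentSeries Qb) →
        (∀ w F G, IsQuotH M Δ (x : LaurentSeries Qb) w F G →
          IsQuotH M Δ (x' : LaurentSeries Qb) w (F ∣[w] (γ : SL(2, ℤ))) (G ∣[w] (γ : SL(2, ℤ)))) →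
        toRes S.A b = (z : LaurentSeries S.k) →
          (e (dHom M γ) z : LaurentSeries S.k) = toRes S.A b' := by
  classical
  have hFS := FSH_eq_fixLvl hM hι hΔ
  have hfix : ∀ f : ↥(FSH M Δ S.A), ∃ z : ↥S.fibK.K, (∀ g ∈ lvlGrp M Δ S, g • z = z) ∧
      (z : LaurentSeries S.k) = qExpand S.k S.M (f : LaurentSeries S.k) := fun f => by
    have h := f.2
    simp only [hFS] at h
    exact h
  choose up hup hup' using hfix
  have hdown : ∀ z : ↥S.fibK.K, (∀ g ∈ lvlGrp M Δ S, g • z = z) →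
      ∃ f : ↥(FSH M Δ S.A), up f = z := fun z hz => by
    obtain ⟨f, hf⟩ := Good.Lev.Fib.exists_qExpand_of_fixed Good.Lev.twists_fibK T_mem_lvlGrp hz
    refine ⟨⟨f, ?_⟩, Subtype.ext ((hup' _).trans hf)⟩
    rw [hFS]
    exact ⟨z, hz, hf.symm⟩
  have up_inj : Function.Injective up := fun a b h => Subtype.ext (qExpand_injective (R := S.k) S.M
    (((hup' a).symm.trans (congrArg Subtype.val h)).trans (hup' b)))
  have hE : ∀ (γ : Gamma0 M) (f : ↥(FSH M Δ S.A)),
      ∃ f', up f' = (S.mkG (γ : SL(2, ℤ)))⁻¹ • up f :=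
    fun γ f => hdown _ (fixed_conj γ (hup f))
  choose D hD using hE
  have up_add : ∀ a b, up (a + b) = up a + up b := fun a b => Subtype.ext (by
    rw [hup', AddMemClass.coe_add, map_add, ← hup', ← hup']; rfl)
  have up_mul : ∀ a b, up (a * b) = up a * up b := fun a b => Subtype.ext (by
    rw [hup', MulMemClass.coe_mul, map_mul, ← hup', ← hup']; rfl)
  have up_alg : ∀ r : S.k, up (algebraMap S.k _ r) = algebraMap S.k ↥S.fibK.K r := fun r =>
    Subtype.ext (by
      rw [hup']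
      show qExpand S.k S.M (algebraMap S.k (LaurentSeries S.k) r) = _
      rw [S.algebraMap_k_qExpand]
      rfl)
  have hcomp : ∀ γ δ f, D γ (D δ f) = D (δ * γ) f := fun γ δ f => up_inj (by
    rw [hD, hD, hD, Subgroup.coe_mul, Good.Lev.mkG_mul, mul_inv_rev, mul_smul])
  have hcongr : ∀ γ γ', dHom M γ = dHom M γ' → ∀ f, D γ f = D γ' f := fun γ γ' h f => up_inj (by
    rw [hD, hD]; exact fixed_congr h (hup f))
  have hone : ∀ f, D 1 f = f := fun f => up_inj (by
    rw [hD, OneMemClass.coe_one, ← Good.Lev.mkG_inv, inv_one]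
    exact hup f _ (mem_lvlGrp.mpr ⟨1, one_mem _, rfl⟩))
  let E : Gamma0 M → (↥(FSH M Δ S.A) ≃ₐ[S.k] ↥(FSH M Δ S.A)) := fun γ =>
    { toFun := D γ
      invFun := D γ⁻¹
      left_inv := fun f => by rw [hcomp, mul_inv_cancel, hone]
      right_inv := fun f => by rw [hcomp, inv_mul_cancel, hone]
      map_mul' := fun a b => up_inj (by rw [hD, up_mul, up_mul, hD, hD, smul_mul'])
      map_add' := fun a b => up_inj (by rw [hD, up_add, up_add, hD, hD, smul_add])
      commutes' := fun r => up_inj (by rw [hD, up_alg, S.fibK.smul_algebraMap]) }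
  refine ⟨{ toFun := fun d => E (diaRep d)
            map_one' := AlgEquiv.ext fun f => by
              show D (diaRep 1) f = f
              rw [hcongr _ 1 (by rw [dHom_diaRep, map_one]), hone]
            map_mul' := fun d d' => AlgEquiv.ext fun f => by
              show D (diaRep (d * d')) f = D (diaRep d) (D (diaRep d') f)
              rw [hcomp]
              exact hcongr _ _ (by rw [map_mul, dHom_diaRep, dHom_diaRep, dHom_diaRep, mul_comm]) f },
    fun γ x x' b b' z hx hb hb' hrel hz => ?_⟩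
  show (D (diaRep (dHom M γ)) z : LaurentSeries S.k) = toRes S.A b'
  rw [hcongr _ γ (dHom_diaRep _)]
  rw [← hb] at hx
  obtain ⟨y, hy, hyA, hyr⟩ := qExpand_toRes_of_inFinH hM hι hΔ hx
  set y' := (S.mkG (γ : SL(2, ℤ)))⁻¹ • y with hy'def
  have hy' : ∀ g ∈ lvlGrp M Δ S, g • y' = y' := fixed_conj γ hy
  have hyfun : (y' : ℍ → ℂ) = fun τ => (y : ℍ → ℂ) ((γ : SL(2, ℤ)) • τ) := by
    funext τ
    rw [hy'def, ← Good.Lev.mkG_inv, Good.Lev.mkG_smul, Good.Lev.act_apply, inv_inv]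
  obtain ⟨n, hn⟩ := exists_isMFH_mul_delta hy
  obtain ⟨u, hu, hqu⟩ := exists_quot_of_fixed hι hy
  obtain ⟨u', hu', hqu'⟩ := exists_quot_of_fixed hι hy'
  rw [qExpand_injective (R := S.A) S.M (hu.trans hyA), hb] at hqu
  have h1 := hrel _ _ _ (hqu n hn)
  rw [slash_zero_mul_delta, ModFun.slash_zero_eq, ← hyfun,
    (isMFH_delta_pow (M := M) (Δ := ⊤) n).inv _ (by rw [grpH_top]; exact γ.2)] at h1
  have hb'u : b' = u' := toBar_injective S.A (hb'.trans
    (coeffMap_embC_inj (h1.unique (hqu' n h1.num))))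
  refine qExpand_injective (R := S.k) S.M ?_
  rw [← hup', hD]
  have hz' : up z = S.fibK.toK y := Subtype.ext (by rw [hup', ← hz, hyr]; rfl)
  rw [hz', Good.Lev.Fib.smul_toK, ← hy'def, hb'u, ← ModularCurve.coeffMap_qExpand, hu']
  rfl

end FLTAgent.DS
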