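import Fermat.Agent.Good.Fields
import Mathlib.FieldTheory.Galois.IsGaloisGroup

/-!
Fixed fields of subgroups in both fibres of the level `M` ring, viewed in `F((q))`: degree and
separability over `F(j)`.
-/

set_option autoImplicit false
set_option linter.style.haveILetI false
set_option synthInstance.maxHeartbeats 200000
set_option maxHeartbeats 1000000

noncomputable section

open UpperHalfPlane ModularCurve CongruenceSubgroup IntermediateField
open scoped MatrixGroups

namespace FLTAgent.Good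

namespace Lev

variable {S : Lev} {F : Type} [Field F] (Φ : S.Fib F)

/-- translations are visible on the coefficients -/
def Fib.Twists : Prop := ∀ n : ℤ, ¬ (S.M : ℤ) ∣ n → Φ.c (upow S.tUnit n) ≠ 1

theorem twists_fibK : S.fibK.Twists := fun _ hn => residue_upow_tUnit_ne_one hn

theorem twists_fibQ : S.fibQ.Twists := fun n hn h => residue_upow_tUnit_ne_one hn (by
  have h1 : upow S.tUnit n = 1 := Subtype.ext h
  rw [h1, map_one])

theorem faithfulSMul_fibQ : FaithfulSMul S.G ↥S.fibQ.K := ⟨fun {g h} e =>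
  Subtype.ext (RingEquiv.ext fun x => S.expQ_injective (by
    have h1 := e (S.fibQ.toK x)
    rw [Fib.smul_toK, Fib.smul_toK] at h1
    exact congrArg Subtype.val h1))⟩

variable {Φ}

theorem Fib.exists_qExpand_of_T (hΦ : Φ.Twists) {x : S.LF}
    (hx : Φ.φ (S.mkG ModularGroup.T⁻¹ • x) = Φ.φ x) :
    ∃ w : LaurentSeries F, qExpand F S.M w = Φ.φ x := by
  refine exists_qExpand_of_support S.M _ fun n hn => ?_
  rw [mkG_smul] at hx
  have h1 := congrArg (fun s : LaurentSeries F => s.coeff n) hx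
  simp only [Fib.φ, RingHom.comp_apply, S.expA_act_T_inv, coeffMap_coeff, coeff_twist, map_mul]
    at h1
  rw [← sub_eq_zero, ← sub_one_mul, mul_eq_zero] at h1
  exact h1.resolve_left (sub_ne_zero.mpr (hΦ n hn))

/-- elements fixed by a subgroup containing the translation are series in `q` -/
theorem Fib.exists_qExpand_of_fixed (hΦ : Φ.Twists) {H : Subgroup S.G}
    (hT : S.mkG ModularGroup.T ∈ H) {z : ↥Φ.K} (hz : ∀ g ∈ H, g • z = z) :
    ∃ f : LaurentSeries F, qExpand F S.M f = (z : LaurentSeries F) := by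
  obtain ⟨x, y, hy, hfix, hxy⟩ := Φ.exists_invariant_den H z
  have hT' : S.mkG ModularGroup.T⁻¹ ∈ H := by rw [mkG_inv]; exact inv_mem hT
  obtain ⟨v, hv⟩ := Fib.exists_qExpand_of_T hΦ (x := y) (by rw [hfix _ hT'])
  obtain ⟨u, hu⟩ := Fib.exists_qExpand_of_T hΦ (x := x) (by
    have h1 : S.mkG ModularGroup.T⁻¹ • (z * Φ.toK y) = S.mkG ModularGroup.T⁻¹ • Φ.toK x := by
      rw [hxy]
    rw [smul_mul', hz _ hT', Fib.smul_toK, Fib.smul_toK, hfix _ hT', hxy] at h1
    exact congrArg Subtype.val h1.symm)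
  refine ⟨u / v, ?_⟩
  rw [map_div₀, hu, hv, div_eq_iff hy]
  exact (congrArg Subtype.val hxy).symm

variable (Φ)

/-- the fixed field of `H`, in `F((q))` -/
def Fib.fixLvl (H : Subgroup S.G) : IntermediateField F (LaurentSeries F) where
  carrier := {f | ∃ z : ↥Φ.K, (∀ g ∈ H, g • z = z) ∧ (z : LaurentSeries F) = qExpand F S.M f}
  mul_mem' := fun ⟨z, hz, e⟩ ⟨z', hz', e'⟩ =>
    ⟨z * z', fun g hg => by rw [smul_mul', hz g hg, hz' g hg], by rw [map_mul, ← e, ← e']; rfl⟩
  one_mem' := ⟨1, fun g _ => smul_one g, by rw [map_one]; rfl⟩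
  add_mem' := fun ⟨z, hz, e⟩ ⟨z', hz', e'⟩ =>
    ⟨z + z', fun g hg => by rw [smul_add, hz g hg, hz' g hg], by rw [map_add, ← e, ← e']; rfl⟩
  zero_mem' := ⟨0, fun g _ => smul_zero g, by rw [map_zero]; rfl⟩
  algebraMap_mem' r := ⟨algebraMap F ↥Φ.K r, fun g _ => Φ.smul_algebraMap g r, by
    rw [← qExpandAlgHomC_apply, AlgHom.commutes]; rfl⟩
  inv_mem' := fun _ ⟨z, hz, e⟩ =>
    ⟨z⁻¹, fun g hg => by rw [smul_inv'', hz g hg], by rw [map_inv₀, ← e]; rfl⟩

theorem Fib.mem_fixLvl {H : Subgroup S.G} {f : LaurentSeries F} :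
    f ∈ Φ.fixLvl H ↔
      ∃ z : ↥Φ.K, (∀ g ∈ H, g • z = z) ∧ (z : LaurentSeries F) = qExpand F S.M f := Iff.rfl

theorem Fib.qExpand_mem_K {H : Subgroup S.G} {f : LaurentSeries F} (hf : f ∈ Φ.fixLvl H) :
    qExpand F S.M f ∈ Φ.K := by
  obtain ⟨z, -, e⟩ := hf
  exact e ▸ z.2

theorem Fib.fixed_of_mem {H : Subgroup S.G} {f : LaurentSeries F} (hf : f ∈ Φ.fixLvl H)
    {z : ↥Φ.K} (hz : (z : LaurentSeries F) = qExpand F S.M f) : ∀ g ∈ H, g • z = z := by
  obtain ⟨z', hz', e⟩ := hf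
  rwa [show z = z' from Subtype.ext (hz.trans e.symm)]

theorem Fib.adjoin_j_le_fixLvl (H : Subgroup S.G) :
    IntermediateField.adjoin F ({jqModC F} : Set (LaurentSeries F)) ≤ Φ.fixLvl H := by
  rw [IntermediateField.adjoin_simple_le_iff]
  exact ⟨Φ.toK S.jL, fun g _ => by rw [Fib.smul_toK, smul_jL], Φ.φ_jL⟩

variable {Φ}

theorem Fib.InvPoly.fixLvl_top_le (h : Φ.InvPoly) :
    Φ.fixLvl ⊤ ≤ IntermediateField.adjoin F ({jqModC F} : Set (LaurentSeries F)) := by
  rintro f ⟨z, hz, e⟩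
  have h1 := h.mem_adjoin_j fun g => hz g trivial
  have h2 : IntermediateField.adjoin F ({Φ.φ S.jL} : Set (LaurentSeries F)) =
      (IntermediateField.adjoin F ({jqModC F} : Set (LaurentSeries F))).map
        (qExpandAlgHomC F S.M) := by
    rw [IntermediateField.adjoin_map, Set.image_singleton, qExpandAlgHomC_apply, ← Φ.φ_jL]
  rw [h2, IntermediateField.mem_map, e] at h1
  obtain ⟨w, hw, hwf⟩ := h1
  rwa [← qExpand_injective (R := F) S.M hwf]

/-- `F(j)` is the fixed field of the whole group -/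
theorem Fib.InvPoly.exists_baseEquiv (h : Φ.InvPoly) (hΦ : Φ.Twists) :
    ∃ i : ↥(IntermediateField.adjoin F ({jqModC F} : Set (LaurentSeries F))) ≃+*
        ↥(FixedPoints.subfield S.G ↥Φ.K),
      ∀ f, (((i f : ↥Φ.K)) : LaurentSeries F) = qExpand F S.M (f : LaurentSeries F) := by
  let m : ↥(IntermediateField.adjoin F ({jqModC F} : Set (LaurentSeries F))) →+*
      ↥(FixedPoints.subfield S.G ↥Φ.K) :=
    { toFun := fun f => ⟨⟨_, Φ.qExpand_mem_K (Φ.adjoin_j_le_fixLvl ⊤ f.2)⟩, fun g =>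
        Φ.fixed_of_mem (Φ.adjoin_j_le_fixLvl ⊤ f.2) rfl g trivial⟩
      map_one' := Subtype.ext (Subtype.ext (map_one _))
      map_mul' := fun a b => Subtype.ext (Subtype.ext (map_mul _ _ _))
      map_zero' := Subtype.ext (Subtype.ext (map_zero _))
      map_add' := fun a b => Subtype.ext (Subtype.ext (map_add _ _ _)) }
  refine ⟨RingEquiv.ofBijective m ⟨m.injective, fun z => ?_⟩, fun f => rfl⟩
  obtain ⟨f, hf⟩ := Fib.exists_qExpand_of_fixed hΦ (H := ⊤) trivial (z := (z : ↥Φ.K))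
    fun g _ => z.2 g
  exact ⟨⟨f, h.fixLvl_top_le ⟨z, fun g _ => z.2 g, hf.symm⟩⟩, Subtype.ext (Subtype.ext hf)⟩

/-- degree and separability of the fixed field of `H` over `F(j)` -/
theorem Fib.InvPoly.finrank_isSeparable_fixLvl (h : Φ.InvPoly) (hΦ : Φ.Twists)
    [FaithfulSMul S.G ↥Φ.K] {H : Subgroup S.G} (hT : S.mkG ModularGroup.T ∈ H)
    {E : IntermediateField F (LaurentSeries F)} (hE : E = Φ.fixLvl H) {j : LaurentSeries F}
    (hj : j = jqModC F) (hle : IntermediateField.adjoin F ({j} : Set (LaurentSeries F)) ≤ E) :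
    Module.finrank (IntermediateField.adjoin F ({j} : Set (LaurentSeries F)))
        (IntermediateField.extendScalars hle) = H.index ∧
      ∀ x ∈ E, IsSeparable (IntermediateField.adjoin F ({j} : Set (LaurentSeries F))) x := by
  classical
  subst hE hj
  have := Fintype.ofFinite S.G
  obtain ⟨i, hi⟩ := h.exists_baseEquiv hΦ
  let F' := FixedPoints.subfield S.G ↥Φ.K
  haveI : IsGaloisGroup S.G F' ↥Φ.K := IsGaloisGroup.fixedPoints S.G ↥Φ.K
  let L : IntermediateField F' ↥Φ.K := FixedPoints.intermediateField H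
  let m : ↥(IntermediateField.extendScalars hle) →+* ↥L :=
    { toFun := fun f => ⟨⟨_, Φ.qExpand_mem_K f.2⟩, fun g => Φ.fixed_of_mem f.2 rfl g g.2⟩
      map_one' := Subtype.ext (Subtype.ext (map_one _))
      map_mul' := fun a b => Subtype.ext (Subtype.ext (map_mul _ _ _))
      map_zero' := Subtype.ext (Subtype.ext (map_zero _))
      map_add' := fun a b => Subtype.ext (Subtype.ext (map_add _ _ _)) }
  let e : ↥(IntermediateField.extendScalars hle) ≃+* ↥L :=
    RingEquiv.ofBijective m ⟨m.injective, fun z => by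
      obtain ⟨f, hf⟩ := Fib.exists_qExpand_of_fixed hΦ hT (z := (z : ↥Φ.K))
        fun g hg => z.2 ⟨g, hg⟩
      exact ⟨⟨f, ⟨z, fun g hg => z.2 ⟨g, hg⟩, hf.symm⟩⟩, Subtype.ext (Subtype.ext hf)⟩⟩
  have hc : (algebraMap ↥F' ↥L).comp i.toRingHom = e.toRingHom.comp (algebraMap _ _) :=
    RingHom.ext fun f => Subtype.ext (Subtype.ext (by
      show (((i f : ↥Φ.K)) : LaurentSeries F) = _
      exact (hi f).trans rfl))
  haveI := IsGaloisGroup.finiteDimensional S.G F' ↥Φ.K
  refine ⟨?_, fun x hx => ?_⟩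
  · rw [Algebra.finrank_eq_of_equiv_equiv i e hc]
    have h1 := Module.finrank_mul_finrank ↥F' ↥L ↥Φ.K
    rw [IsGaloisGroup.finrank_fixedPoints_eq_card_subgroup S.G F' ↥Φ.K H,
      ← IsGaloisGroup.card_eq_finrank S.G F' ↥Φ.K, ← H.index_mul_card] at h1
    exact Nat.eq_of_mul_eq_mul_right Nat.card_pos h1
  · haveI : Algebra.IsSeparable ↥F' ↥L := Algebra.isSeparable_tower_bot_of_isSeparable F' ↥L ↥Φ.K
    haveI := Algebra.IsSeparable.of_equiv_equiv i.symm e.symm (RingHom.ext fun a => by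
      obtain ⟨f, rfl⟩ := i.surjective a
      have h1 := RingHom.congr_fun hc f
      simp only [RingHom.comp_apply] at h1 ⊢
      refine Eq.trans ?_ (congrArg e.symm h1).symm
      simp)
    have h2 := Algebra.IsSeparable.isSeparable
      ↥(IntermediateField.adjoin F ({jqModC F} : Set (LaurentSeries F)))
      (⟨x, hx⟩ : ↥(IntermediateField.extendScalars hle))
    unfold IsSeparable at h2 ⊢
    rw [IntermediateField.minpoly_eq] at h2
    exact h2

end Lev

end FLTAgent.Good
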