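import Fermat.Agent.DS.CurveBasic
import Fermat.Agent.Good.LevelAPI
import Fermat.Agent.Good.Series
import Fermat.Agent.Good.Units

/-!
A form of weight `12 n` with integral `q`-expansion whose stabiliser is exactly `H`.

For `x ∈ (ℤ/M)ˣ` the form `F_x = D_x(Mτ) E₄ E₆`, `D_x = Σ_{y ≠ 0} (℘_x - ℘_y)`, is permuted by
`Γ₀(M)` through `x ↦ x a`; the generator is `Δ(Mτ) Δ^(n-1) + s ∏_{d ∈ Δ} (t Δ - F_d)`.
-/

set_option autoImplicit false
set_option synthInstance.maxHeartbeats 100000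
set_option linter.unusedSectionVars false

noncomputable section

open UpperHalfPlane CongruenceSubgroup ModularCurve ModularForm Filter
open scoped MatrixGroups Manifold Topology

namespace FLTAgent.DS

open ModFun (qx qp IsMF IntQ dil aff scale gN isMF_delta isMF_E4 isMF_gN)
open Good (pDiff Lbl lblAct lblSeries torsPt periodPairAt)

/-! ### integral expansions -/

theorem intQ_add {f g : ℍ → ℂ} (hf : ModFun.Good f) (hg : ModFun.Good g) (hf' : IntQ f)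
    (hg' : IntQ g) : IntQ (f + g) := by
  obtain ⟨a, ha⟩ := hf'; obtain ⟨b, hb⟩ := hg'
  exact ⟨a + b, by rw [ModFun.Good.qx_add hf hg, ha, hb, map_add]⟩

theorem intQ_sub {f g : ℍ → ℂ} (hf : ModFun.Good f) (hg : ModFun.Good g) (hf' : IntQ f)
    (hg' : IntQ g) : IntQ (f - g) := by
  obtain ⟨a, ha⟩ := hf'; obtain ⟨b, hb⟩ := hg'
  exact ⟨a - b, by rw [ModFun.Good.qx_sub hf hg, ha, hb, map_sub]⟩

theorem intQ_zero : IntQ (0 : ℍ → ℂ) := ⟨0, by rw [qx, qExpansion_zero, map_zero]⟩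

theorem intQ_natSmul {f : ℍ → ℂ} (hf : ModFun.Good f) (hf' : IntQ f) (m : ℕ) :
    IntQ ((m : ℂ) • f) := by
  obtain ⟨a, ha⟩ := hf'
  refine ⟨(m : PowerSeries ℤ) * a, ?_⟩
  rw [ModFun.Good.qx_smul _ hf, ha, map_mul, map_natCast, PowerSeries.smul_eq_C_mul, map_natCast]

theorem intQ_pow {f : ℍ → ℂ} (hf : ModFun.Good f) (hf' : IntQ f) (m : ℕ) : IntQ (f ^ m) := by
  obtain ⟨a, ha⟩ := hf'
  exact ⟨a ^ m, by rw [ModFun.Good.qx_pow hf, ha, map_pow]⟩

theorem intQ_prod {ι : Type*} (s : Finset ι) {F : ι → ℍ → ℂ} (h : ∀ i ∈ s, ModFun.Good (F i))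
    (h' : ∀ i ∈ s, IntQ (F i)) : ModFun.Good (∏ i ∈ s, F i) ∧ IntQ (∏ i ∈ s, F i) :=
  Finset.prod_induction F (fun f => ModFun.Good f ∧ IntQ f)
    (fun _ _ ha hb => ⟨ha.1.mul hb.1, IntQ.mul ha.1 hb.1 ha.2 hb.2⟩)
    ⟨ModFun.Good.one, IntQ.one⟩ fun i hi => ⟨h i hi, h' i hi⟩

theorem intQ_dil {f : ℍ → ℂ} (hf : ModFun.Good f) (hf' : IntQ f) (N : ℕ) [NeZero N] :
    IntQ (dil N f) := by
  obtain ⟨Z, hZ⟩ := hf'
  refine ⟨PowerSeries.mk (fun m => if N ∣ m then Z.coeff (m / N) else 0), PowerSeries.ext fun m => ?_⟩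
  rw [ModFun.qx_dil' hf, hZ]
  simp only [PowerSeries.coeff_map, PowerSeries.coeff_mk]
  split_ifs with h <;> simp

theorem intQ_delta : IntQ discriminant :=
  ⟨PowerSeries.X * dedekindEtaUnit, by rw [ModFun.qx_discriminant, map_mul, PowerSeries.map_X]⟩

variable (M : ℕ) [NeZero M]

theorem intQ_gN : IntQ (gN M) := intQ_dil isMF_delta.good intQ_delta M

/-! ### the basic forms -/

/-- sum of `℘_x - ℘_y` over the labels `(y, 0)`, `y ≠ 0` -/
def dLbl (x : ZMod M) : ℍ → ℂ :=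
  ∑ y ∈ Finset.univ.erase (0 : ZMod M), pDiff M ((x, 0) : Lbl M) (y, 0)

variable {M}

theorem lbl_ne_zero {x : ZMod M} (hx : x ≠ 0) : ((x, 0) : Lbl M) ≠ 0 := fun h =>
  hx (congrArg Prod.fst h)

theorem unit_ne_zero_of_ne (x : (ZMod M)ˣ) {y : ZMod M} (hy : y ≠ 0) : (x : ZMod M) ≠ 0 := fun h =>
  hy (by
    have h1 : (1 : ZMod M) = 0 := by rw [← x.mul_inv, h, zero_mul]
    rw [← mul_one y, h1, mul_zero])

theorem qParam_scale (τ : ℍ) : Function.Periodic.qParam M (scale M τ : ℂ) = qp τ := by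
  simp only [qp, Function.Periodic.qParam, ModFun.coe_scale, Complex.ofReal_natCast, Complex.ofReal_one,
    div_one]
  congr 1
  have : (M : ℂ) ≠ 0 := Nat.cast_ne_zero.mpr (NeZero.ne M)
  field_simp

theorem good_dil_pDiff {v w : Lbl M} (hv : v ≠ 0) (hw : w ≠ 0) :
    ModFun.Good (dil M (pDiff M v w)) := by
  refine Good.good_of_hasSum (ModFun.mdiff_dil (Good.mdiff_pDiff M hv hw) M)
    (c := fun n => ((PowerSeries.coeff n (lblSeries M v - lblSeries M w) : Good.coeffRing M) : ℂ))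
    fun τ => ?_
  have h := Good.hasSum_pDiff M hv hw (scale M τ)
  simpa only [Good.tq, qParam_scale, dil] using h

theorem bdd_pDiff {v w : Lbl M} (hv : v ≠ 0) (hw : w ≠ 0) : IsBoundedAtImInfty (pDiff M v w) := by
  have e : pDiff M v w = dil M (pDiff M v w) ∘ aff 1 0 M := by
    funext τ
    simp only [Function.comp_apply, dil]
    congr 1
    ext
    rw [ModFun.coe_scale, ModFun.coe_aff]
    have : (M : ℂ) ≠ 0 := Nat.cast_ne_zero.mpr (NeZero.ne M)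
    push_cast
    field_simp
    simp
  rw [e]
  exact (good_dil_pDiff hv hw).bdd.comp_tendsto (ModFun.tendsto_aff 1 0 M)

theorem slash_pDiff {v w : Lbl M} (hv : v ≠ 0) (hw : w ≠ 0) (γ : SL(2, ℤ)) :
    pDiff M v w ∣[(2 : ℤ)] γ = pDiff M (lblAct M v γ) (lblAct M w γ) := by
  funext τ
  rw [SL_slash_apply, Good.pDiff_smul M hv hw, ModFun.denom_SL]
  set D : ℂ := ((γ 1 0 : ℤ) : ℂ) * (τ : ℂ) + ((γ 1 1 : ℤ) : ℂ) with hD
  have hd : D ≠ 0 := by
    have := denom_ne_zero (γ : GL (Fin 2) ℝ) τ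
    rwa [ModFun.denom_SL] at this
  rw [show (-(2 : ℤ)) = -((2 : ℕ) : ℤ) from rfl, zpow_neg, zpow_natCast]
  field_simp

theorem slash_dLbl (x : (ZMod M)ˣ) (γ : SL(2, ℤ)) :
    dLbl M (x : ZMod M) ∣[(2 : ℤ)] γ = ∑ y ∈ Finset.univ.erase (0 : ZMod M),
      pDiff M (lblAct M ((x : ZMod M), 0) γ) (lblAct M (y, 0) γ) := by
  rw [dLbl, SlashAction.sum_slash]
  exact Finset.sum_congr rfl fun y hy => slash_pDiff
    (lbl_ne_zero (unit_ne_zero_of_ne x (Finset.ne_of_mem_erase hy)))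
    (lbl_ne_zero (Finset.ne_of_mem_erase hy)) γ

theorem mdiff_dLbl (x : (ZMod M)ˣ) : MDiff (dLbl M (x : ZMod M)) :=
  ModFun.mdiff_sum _ fun y hy => Good.mdiff_pDiff M
    (lbl_ne_zero (unit_ne_zero_of_ne x (Finset.ne_of_mem_erase hy)))
    (lbl_ne_zero (Finset.ne_of_mem_erase hy))

theorem bdd_slash_dLbl (x : (ZMod M)ˣ) (γ : SL(2, ℤ)) :
    IsBoundedAtImInfty (dLbl M (x : ZMod M) ∣[(2 : ℤ)] γ) := by
  rw [slash_dLbl]
  refine ModFun.bdd_sum _ fun y hy => bdd_pDiff ?_ ?_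
  · intro h
    exact lbl_ne_zero (unit_ne_zero_of_ne x (Finset.ne_of_mem_erase hy))
      (Good.lblAct_injective M γ (h.trans (Good.lblAct_zero M γ).symm))
  · intro h
    exact lbl_ne_zero (Finset.ne_of_mem_erase hy)
      (Good.lblAct_injective M γ (h.trans (Good.lblAct_zero M γ).symm))

/-- `F_x` -/
def genF (x : (ZMod M)ˣ) : ℍ → ℂ :=
  dil M (dLbl M (x : ZMod M)) * ((ModularForm.E₄ : ℍ → ℂ) * (ModularForm.E₆ : ℍ → ℂ))

theorem isMF_E46 : IsMF 1 10 ((ModularForm.E₄ : ℍ → ℂ) * (ModularForm.E₆ : ℍ → ℂ)) :=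
  (isMF_E4.mul (ModFun.isMF_levelOne ModularForm.E₆ : IsMF 1 6 _)).cast (by norm_num)

theorem dil_dLbl_slash (x : (ZMod M)ˣ) (γ : Gamma0 M) :
    dil M (dLbl M (x : ZMod M)) ∣[(2 : ℤ)] (γ : SL(2, ℤ)) =
      dil M (dLbl M ((x * (dHom M γ)⁻¹ : (ZMod M)ˣ) : ZMod M)) := by
  obtain ⟨γ', h00, h01, h10, h11, -⟩ := exists_lift_dil (M := 1) (M' := M) (d := M)
    (by rw [mul_one]) γ.2
  have hM : (M : ℤ) ≠ 0 := by exact_mod_cast NeZero.ne M
  have e00 : (γ' : SL(2, ℤ)) 0 0 = (γ : SL(2, ℤ)) 0 0 :=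
    mul_right_cancel₀ hM (h00.symm.trans (mul_comm _ _))
  have ha : ((((γ : SL(2, ℤ)) 0 0 : ℤ)) : ZMod M) = (((dHom M γ)⁻¹ : (ZMod M)ˣ) : ZMod M) := by
    refine (Units.inv_eq_of_mul_eq_one_left ?_).symm
    rw [coe_dHom]
    have hdet : (γ : SL(2, ℤ)) 0 0 * (γ : SL(2, ℤ)) 1 1 - (γ : SL(2, ℤ)) 0 1 * (γ : SL(2, ℤ)) 1 0
        = 1 := by
      have := (γ : SL(2, ℤ)).prop; rwa [Matrix.det_fin_two] at this
    have h1 := congrArg (fun z : ℤ => (z : ZMod M)) hdet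
    push_cast at h1
    rw [Gamma0_mem.mp γ.2, mul_zero, sub_zero] at h1
    exact h1
  have h01' : (((γ' : SL(2, ℤ)) 0 1 : ℤ) : ZMod M) = 0 := by
    have e := congrArg (fun z : ℤ => (z : ZMod M)) h01
    push_cast at e
    simpa using e.symm
  have hact : ∀ z : ZMod M, lblAct M (z, 0) (γ' : SL(2, ℤ)) =
      (z * (((dHom M γ)⁻¹ : (ZMod M)ˣ) : ZMod M), 0) := fun z => by
    simp only [lblAct, zero_mul, add_zero]
    rw [e00, ha, h01', mul_zero]
  funext τ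
  rw [dil_slash (dLbl M (x : ZMod M)) 2 M _ _ M 0 1 h00 h01 h10 h11 τ, slash_dLbl]
  simp only [Nat.cast_one, one_zpow, one_mul, dil, scale, hact]
  simp only [dLbl, Finset.sum_apply]
  refine Finset.sum_equiv (Units.mulRight (dHom M γ)⁻¹) (fun y => ?_) fun y _ => ?_
  · simp
  · simp

theorem isMFH_genF_aux (x : (ZMod M)ˣ) :
    MDiff (genF x) ∧ ∀ γ : SL(2, ℤ), IsBoundedAtImInfty (genF x ∣[(12 : ℤ)] γ) := by
  refine ⟨(ModFun.mdiff_dil (mdiff_dLbl x) M).mul isMF_E46.holo, fun γ => ?_⟩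
  rw [genF, show (12 : ℤ) = 2 + 10 by norm_num, ModularForm.mul_slash_SL2]
  refine Filter.BoundedAtFilter.mul ?_ (isMF_E46.bdd γ)
  obtain ⟨γ', A, B, D, hA, hD, -, -, h00, h01, h10, h11⟩ := ModFun.exists_hermite M γ
  rw [funext fun τ => dil_slash (dLbl M (x : ZMod M)) 2 M γ γ' A B D h00 h01 h10 h11 τ]
  exact Asymptotics.IsBigO.const_mul_left
    ((bdd_slash_dLbl x γ').comp_tendsto (ModFun.tendsto_aff A B D)) _

theorem genF_slash (x : (ZMod M)ˣ) (γ : Gamma0 M) :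
    genF x ∣[(12 : ℤ)] (γ : SL(2, ℤ)) = genF (x * (dHom M γ)⁻¹) := by
  rw [genF, show (12 : ℤ) = 2 + 10 by norm_num, ModularForm.mul_slash_SL2, dil_dLbl_slash,
    isMF_E46.inv _ (ModFun.mem_Gamma0_one _)]
  rfl

theorem intQ_dil_dLbl (x : (ZMod M)ˣ) :
    ModFun.Good (dil M (dLbl M (x : ZMod M))) ∧ IntQ (dil M (dLbl M (x : ZMod M))) := by
  have he : dil M (dLbl M (x : ZMod M)) = ∑ y ∈ Finset.univ.erase (0 : ZMod M),
      dil M (pDiff M ((x : ZMod M), 0) (y, 0)) := by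
    funext τ
    simp only [dLbl, dil, Finset.sum_apply]
  rw [he]
  refine Finset.sum_induction _ (fun f => ModFun.Good f ∧ IntQ f)
    (fun _ _ ha hb => ⟨ha.1.add hb.1, intQ_add ha.1 hb.1 ha.2 hb.2⟩)
    ⟨ModFun.Good.zero, intQ_zero⟩ fun y hy => ?_
  have hy0 := Finset.ne_of_mem_erase hy
  have hv := lbl_ne_zero (unit_ne_zero_of_ne x hy0)
  have hw := lbl_ne_zero hy0
  refine ⟨good_dil_pDiff hv hw, ?_⟩
  have hint : ∀ (z : ZMod M), z ≠ 0 → ∀ n, ∃ m : ℤ,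
      ((PowerSeries.coeff n (lblSeries M (z, 0)) : Good.coeffRing M) : ℂ) = m := by
    intro z hz n
    refine ⟨∑ p : {p : Good.Idx M ((z, 0) : Lbl M) // Good.termE M (z, 0) p = n}, (p.1.1.2 : ℤ), ?_⟩
    rw [lblSeries, PowerSeries.coeff_mk, Good.cst, if_neg hz, ite_self, zero_add,
      AddSubmonoidClass.coe_finsetSum]
    push_cast
    refine Finset.sum_congr rfl fun p _ => ?_
    have hrow : Good.rowLbl M ((z, 0) : Lbl M) p.1.1.1 = 0 := by simp [Good.rowLbl]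
    simp [Good.termC, hrow, Good.zp_zero]
  choose a ha using fun n => hint _ (unit_ne_zero_of_ne x hy0) n
  choose b hb using fun n => hint _ hy0 n
  refine ⟨PowerSeries.mk fun n => a n - b n, ?_⟩
  rw [Good.qx_of_hasSum (ModFun.mdiff_dil (Good.mdiff_pDiff M hv hw) M)
    (c := fun n => ((PowerSeries.coeff n (lblSeries M ((x : ZMod M), 0) - lblSeries M (y, 0)) :
      Good.coeffRing M) : ℂ))
    (fun τ => by simpa only [Good.tq, qParam_scale, dil] using Good.hasSum_pDiff M hv hw (scale M τ))]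
  ext n
  simp [ha, hb]

theorem intQ_genF (x : (ZMod M)ˣ) : IntQ (genF x) := by
  obtain ⟨h1, h2⟩ := intQ_dil_dLbl x
  exact IntQ.mul h1 isMF_E46.good h2 (IntQ.mul isMF_E4.good
    (ModFun.isMF_levelOne ModularForm.E₆ : IsMF 1 6 _).good ModFun.intQ_E4 ModFun.intQ_E6)

theorem genF_eq_imp {x y : (ZMod M)ˣ} (h : genF x = genF y) : y = x ∨ y = -x := by
  by_cases hM : M = 1
  · subst hM
    exact Or.inl (Subsingleton.elim _ _)
  have : Fact (1 < M) := ⟨by have := NeZero.ne M; omega⟩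
  obtain ⟨g1, -⟩ := intQ_dil_dLbl x
  obtain ⟨g2, -⟩ := intQ_dil_dLbl y
  have hE : ModFun.Good ((ModularForm.E₄ : ℍ → ℂ) * (ModularForm.E₆ : ℍ → ℂ)) := isMF_E46.good
  have hE0 : qx ((ModularForm.E₄ : ℍ → ℂ) * (ModularForm.E₆ : ℍ → ℂ)) ≠ 0 := by
    intro h'
    have h'' := congrArg (PowerSeries.constantCoeff (R := ℂ)) h'
    rw [ModFun.Good.qx_mul isMF_E4.good (ModFun.isMF_levelOne ModularForm.E₆ : IsMF 1 6 _).good,
      map_mul, ← PowerSeries.coeff_zero_eq_constantCoeff, qx, qx,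
      EisensteinSeries.E_qExpansion_coeff_zero _ ⟨2, rfl⟩,
      EisensteinSeries.E_qExpansion_coeff_zero _ ⟨3, rfl⟩] at h''
    simp at h''
  have h1 : dil M (dLbl M (x : ZMod M)) = dil M (dLbl M (y : ZMod M)) := by
    refine ModFun.Good.qx_inj g1 g2 (mul_right_cancel₀ hE0 ?_)
    rw [← ModFun.Good.qx_mul g1 hE, ← ModFun.Good.qx_mul g2 hE]
    exact congrArg qx h
  have hx0 : (x : ZMod M) ≠ 0 := x.ne_zero
  have hy0 : (y : ZMod M) ≠ 0 := y.ne_zero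
  set τ := scale M UpperHalfPlane.I
  have hτ : dLbl M (x : ZMod M) τ = dLbl M (y : ZMod M) τ := congrFun h1 UpperHalfPlane.I
  have e : dLbl M (x : ZMod M) τ - dLbl M (y : ZMod M) τ =
      ((Finset.univ.erase (0 : ZMod M)).card : ℂ) *
        pDiff M ((x : ZMod M), 0) ((y : ZMod M), 0) τ := by
    simp only [dLbl, Finset.sum_apply, ← Finset.sum_sub_distrib]
    rw [← nsmul_eq_mul, ← Finset.sum_const]
    refine Finset.sum_congr rfl fun z _ => ?_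
    simp only [pDiff]
    ring
  rw [hτ, sub_self, eq_comm, mul_eq_zero] at e
  have hcard : ((Finset.univ.erase (0 : ZMod M)).card : ℂ) ≠ 0 :=
    Nat.cast_ne_zero.mpr
      (Finset.card_pos.mpr ⟨1, Finset.mem_erase.mpr ⟨one_ne_zero, Finset.mem_univ _⟩⟩).ne'
  rcases (Good.pDiff_eq_zero_iff M (lbl_ne_zero hx0) (lbl_ne_zero hy0) τ).mp
    (e.resolve_left hcard) with h2 | h2
  · exact Or.inl (Units.ext (congrArg Prod.fst h2))
  · exact Or.inr (Units.ext (by simpa using congrArg Prod.fst h2))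

/-! ### the generator -/

variable (Δ : Subgroup (ZMod M)ˣ)

/-- `Δ` as a finite set -/
def finΔ : Finset (ZMod M)ˣ := by
  classical exact Finset.univ.filter (· ∈ Δ)

theorem mem_finΔ {d : (ZMod M)ˣ} : d ∈ finΔ Δ ↔ d ∈ Δ := by
  classical simp [finΔ]

theorem card_finΔ_pos : 0 < (finΔ Δ).card := Finset.card_pos.mpr ⟨1, (mem_finΔ Δ).mpr (one_mem _)⟩

/-- `∏_{d ∈ Δ} (t Δ - F_{du})` -/
def genP (t : ℕ) (u : (ZMod M)ˣ) : ℍ → ℂ :=
  ∏ d ∈ finΔ Δ, ((t : ℂ) • discriminant - genF (d * u))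

theorem genP_mul_mem (t : ℕ) (u : (ZMod M)ˣ) {e : (ZMod M)ˣ} (he : e ∈ Δ) :
    genP Δ t (u * e) = genP Δ t u := by
  refine Finset.prod_equiv (Equiv.mulRight e) (fun d => ?_) fun d _ => ?_
  · rw [mem_finΔ, mem_finΔ, Equiv.coe_mulRight, Δ.mul_mem_cancel_right he]
  · simp only [Equiv.coe_mulRight]
    rw [show d * (u * e) = d * e * u by rw [mul_comm u e, mul_assoc]]

theorem genP_slash_Gamma0 (t : ℕ) (u : (ZMod M)ˣ) (γ : Gamma0 M) :
    genP Δ t u ∣[((finΔ Δ).card : ℤ) * 12] (γ : SL(2, ℤ)) = genP Δ t (u * (dHom M γ)⁻¹) := by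
  rw [genP, ModFun.prod_slash', genP]
  refine Finset.prod_congr rfl fun d _ => ?_
  rw [sub_eq_add_neg, SlashAction.add_slash, SlashAction.neg_slash, ModularForm.SL_smul_slash,
    isMF_delta.inv _ (ModFun.mem_Gamma0_one _), genF_slash, ← sub_eq_add_neg, mul_assoc]

theorem isMFH_genP (t : ℕ) (u : (ZMod M)ˣ) :
    IsMFH M Δ ((finΔ Δ).card * 12) (genP Δ t u) where
  holo := ModFun.mdiff_prod _ fun d _ =>
    (isMF_delta.holo.const_smul (t : ℂ)).sub (isMFH_genF_aux _).1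
  inv γ hγ := by
    obtain ⟨h0, hd⟩ := mem_grpH.mp hγ
    rw [show γ = ((⟨γ, h0⟩ : Gamma0 M) : SL(2, ℤ)) from rfl, genP_slash_Gamma0,
      genP_mul_mem Δ t u (inv_mem hd)]
  bdd γ := by
    rw [genP, ModFun.prod_slash']
    refine ModFun.bdd_prod _ fun d _ => ?_
    rw [sub_eq_add_neg, SlashAction.add_slash, SlashAction.neg_slash, ModularForm.SL_smul_slash]
    exact ((isMF_delta.bdd γ).smul _).add ((isMFH_genF_aux _).2 γ).neg_left

theorem intQ_genP (t : ℕ) (u : (ZMod M)ˣ) :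
    ModFun.Good (genP Δ t u) ∧ IntQ (genP Δ t u) := by
  have hg : ∀ x : (ZMod M)ˣ, ModFun.Good (genF x) := fun x =>
    (intQ_dil_dLbl x).1.mul isMF_E46.good
  refine intQ_prod _ (fun d _ => (isMF_delta.good.smul _).sub (hg _)) fun d _ => ?_
  exact intQ_sub (isMF_delta.good.smul _) (hg _) (intQ_natSmul isMF_delta.good intQ_delta t)
    (intQ_genF _)

/-- the weight -/
def genWt : ℤ := ((finΔ Δ).card : ℤ) * 12

/-- the generator -/
def genW (s t : ℕ) (u : (ZMod M)ˣ) : ℍ → ℂ :=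
  gN M * discriminant ^ ((finΔ Δ).card - 1) + (s : ℂ) • genP Δ t u

theorem isMF_top (Δ : Subgroup (ZMod M)ˣ) :
    IsMF M (genWt Δ) (gN M * discriminant ^ ((finΔ Δ).card - 1)) :=
  ((isMF_gN M).mul ((isMF_delta.pow _).levelOne)).cast (by
    have := card_finΔ_pos Δ
    rw [genWt, Nat.cast_sub this]
    ring)

theorem isMFH_genW (s t : ℕ) (u : (ZMod M)ˣ) : IsMFH M Δ (genWt Δ) (genW Δ s t u) :=
  (IsMFH.of_isMF (isMF_top Δ)).add ((isMFH_genP Δ t u).smul _)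

theorem intQ_genW (s t : ℕ) (u : (ZMod M)ˣ) : IntQ (genW Δ s t u) := by
  obtain ⟨h1, h2⟩ := intQ_genP Δ t u
  exact intQ_add ((isMF_gN M).good.mul (isMF_delta.good.pow _)) (h1.smul _)
    (IntQ.mul (isMF_gN M).good (isMF_delta.good.pow _) (intQ_gN M)
      (intQ_pow isMF_delta.good intQ_delta _))
    (intQ_natSmul h1 h2 s)

theorem genW_slash_Gamma0 (s t : ℕ) (u : (ZMod M)ˣ) (γ : Gamma0 M) :
    genW Δ s t u ∣[genWt Δ] (γ : SL(2, ℤ)) = genW Δ s t (u * (dHom M γ)⁻¹) := by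
  rw [genW, SlashAction.add_slash, ModularForm.SL_smul_slash, (isMF_top Δ).inv _ γ.2, genWt,
    genP_slash_Gamma0]
  rfl

variable {Δ}

theorem finite_bad_t (hΔ : (-1 : (ZMod M)ˣ) ∈ Δ) {u : (ZMod M)ˣ} (hu : u ∉ Δ) :
    {t : ℕ | genP Δ t u = genP Δ t 1}.Finite := by
  classical
  by_contra hinf
  rw [← Set.Infinite] at hinf
  have hzero : (∏ d ∈ finΔ Δ, (genF u - genF d)) = 0 := by
    funext τ
    simp only [Finset.prod_apply, Pi.sub_apply, Pi.zero_apply]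
    set δ := discriminant τ
    have hδ : δ ≠ 0 := ModularForm.discriminant_ne_zero τ
    let P : (ZMod M)ˣ → Polynomial ℂ := fun v =>
      ∏ d ∈ finΔ Δ, (Polynomial.C δ * Polynomial.X - Polynomial.C (genF (d * v) τ))
    have heval : ∀ (t : ℂ) (v : (ZMod M)ˣ),
        (P v).eval t = ∏ d ∈ finΔ Δ, (δ * t - genF (d * v) τ) := fun t v => by
      simp [P, Polynomial.eval_prod]
    have hPeq : P u = P 1 := by
      refine Polynomial.eq_of_infinite_eval_eq _ _ (Set.Infinite.mono ?_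
        (hinf.image (f := fun t : ℕ => (t : ℂ)) Nat.cast_injective.injOn))
      rintro _ ⟨t, ht, rfl⟩
      have := congrFun ht τ
      simp only [genP, Finset.prod_apply, Pi.sub_apply, Pi.smul_apply, smul_eq_mul] at this
      simp only [Set.mem_setOf_eq, heval]
      convert this using 2 with d _ d _ <;> ring
    have h := congrArg (fun p : Polynomial ℂ => p.eval (genF u τ / δ)) hPeq
    simp only [heval, mul_div_cancel₀ _ hδ, mul_one] at h
    rw [← h]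
    exact Finset.prod_eq_zero ((mem_finΔ Δ).mpr (one_mem Δ)) (by rw [one_mul, sub_self])
  obtain ⟨d, hd, hd0⟩ := (UpperHalfPlane.prod_eq_zero_iff fun d _ =>
    (isMFH_genF_aux u).1.sub (isMFH_genF_aux d).1).mp hzero
  rcases genF_eq_imp (sub_eq_zero.mp hd0) with h | h
  · exact hu (h ▸ (mem_finΔ Δ).mp hd)
  · refine hu ?_
    have h2 := mul_mem hΔ ((mem_finΔ Δ).mp hd)
    rwa [h, mul_neg, neg_mul, neg_neg, one_mul] at h2

/-- suitable parameters -/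
theorem exists_gen (hΔ : (-1 : (ZMod M)ˣ) ∈ Δ) :
    ∃ s t : ℕ, ∀ γ : SL(2, ℤ), genW Δ s t 1 ∣[genWt Δ] γ = genW Δ s t 1 → γ ∈ grpH M Δ := by
  classical
  have : Fintype (SL(2, ℤ) ⧸ grpH M Δ) := Fintype.ofFinite _
  obtain ⟨t, ht⟩ : ∃ t : ℕ, ∀ u : (ZMod M)ˣ, u ∉ Δ → genP Δ t u ≠ genP Δ t 1 := by
    obtain ⟨t, ht⟩ := (Set.Finite.biUnion (Set.toFinite {u : (ZMod M)ˣ | u ∉ Δ})
      fun u hu => finite_bad_t hΔ hu).exists_notMem
    refine ⟨t, fun u hu h => ht ?_⟩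
    simp only [Set.mem_iUnion]
    exact ⟨u, hu, h⟩
  let B : SL(2, ℤ) → Set ℕ := fun g =>
    {s | g ∉ Gamma0 M ∧ genW Δ s t 1 ∣[genWt Δ] g = genW Δ s t 1}
  set top := gN M * discriminant ^ ((finΔ Δ).card - 1)
  have hB : ∀ g, (B g).Subsingleton := by
    rintro g s ⟨hg, hs⟩ s' ⟨-, hs'⟩
    by_contra hne
    have hsub : ∀ r : ℕ, genW Δ r t 1 ∣[genWt Δ] g = genW Δ r t 1 →
        (top ∣[genWt Δ] g - top) + (r : ℂ) • (genP Δ t 1 ∣[genWt Δ] g - genP Δ t 1) = 0 := by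
      intro r hr
      rw [genW, SlashAction.add_slash, ModularForm.SL_smul_slash] at hr
      rw [smul_sub, sub_add_sub_comm, hr, sub_self]
    have h1 := hsub s hs
    have h2 := hsub s' hs'
    have hP : genP Δ t 1 ∣[genWt Δ] g - genP Δ t 1 = 0 := by
      have h3 : ((s : ℂ) - (s' : ℂ)) • (genP Δ t 1 ∣[genWt Δ] g - genP Δ t 1) = 0 := by
        rw [sub_smul, ← add_sub_add_left_eq_sub _ _ (top ∣[genWt Δ] g - top), h1, h2, sub_self]
      refine (smul_eq_zero.mp h3).resolve_left (sub_ne_zero.mpr ?_)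
      exact_mod_cast hne
    rw [hP, smul_zero, add_zero, sub_eq_zero] at h1
    refine hg (ModFun.gN_stab M ?_)
    have hw : genWt Δ = 12 + (((finΔ Δ).card - 1 : ℕ) : ℤ) * 12 := by
      rw [genWt, Nat.cast_sub (card_finΔ_pos Δ)]; ring
    rw [hw, ModularForm.mul_slash_SL2,
      (isMF_delta.pow _).inv g (ModFun.mem_Gamma0_one g)] at h1
    funext τ
    exact mul_right_cancel₀ (pow_ne_zero _ (ModularForm.discriminant_ne_zero τ)) (congrFun h1 τ)
  obtain ⟨s, hs⟩ :=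
    ((Set.finite_iUnion fun q : SL(2, ℤ) ⧸ grpH M Δ => (hB q.out⁻¹).finite).insert 0).exists_notMem
  simp only [Set.mem_insert_iff, Set.mem_iUnion, not_or, not_exists] at hs
  obtain ⟨hs0, hs⟩ := hs
  refine ⟨s, t, fun γ hγ => ?_⟩
  have hinv := (isMFH_genW Δ s t 1).inv
  obtain ⟨h, hh⟩ := QuotientGroup.mk_out_eq_mul (grpH M Δ) γ⁻¹
  set r := (QuotientGroup.mk γ⁻¹ : SL(2, ℤ) ⧸ grpH M Δ).out
  have hγ' : γ = (h : SL(2, ℤ)) * r⁻¹ := by rw [hh]; group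
  rw [hγ', SlashAction.slash_mul, hinv _ h.2] at hγ
  have h0 : r⁻¹ ∈ Gamma0 M := by
    by_contra hc
    exact hs _ ⟨hc, hγ⟩
  suffices hr : r⁻¹ ∈ grpH M Δ by rw [hγ']; exact mul_mem h.2 hr
  refine mem_grpH.mpr ⟨h0, ?_⟩
  rw [show r⁻¹ = ((⟨r⁻¹, h0⟩ : Gamma0 M) : SL(2, ℤ)) from rfl, genW_slash_Gamma0, genW, genW,
    add_right_inj] at hγ
  have hP := smul_right_injective _ (Nat.cast_ne_zero.mpr hs0) hγ
  by_contra hc
  rw [one_mul] at hP
  exact ht _ (fun hm => hc (by simpa using inv_mem hm)) hP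

end FLTAgent.DS
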