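import Fermat.Agent.DS.CurveGen

/-!
`ℚ̄(X_H) = ℚ̄(j, w)` for the quotient `w` of the generator by a power of the discriminant:
interpolation over the cosets of `H` and descent of the coefficients to `ℚ̄`; degree of `j`.
-/

set_option autoImplicit false
set_option synthInstance.maxHeartbeats 100000
set_option linter.unusedSectionVars false

noncomputable section

open UpperHalfPlane CongruenceSubgroup ModularCurve ModularForm Filter IntermediateField
open scoped MatrixGroups Manifold Topology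

namespace FLTAgent.DS

open Genus (embC)
open ModFun (qx qp IsMF IntQ lx jM jFun esum M1 Mod1 isMF_delta isMF_E4)
open scoped Genus

local notation "Qb" => AlgebraicClosure ℚ

variable {M : ℕ} [NeZero M] {Δ : Subgroup (ZMod M)ˣ}

/-! ### parameters -/

/-- parameters of the generator -/
def parS (hΔ : (-1 : (ZMod M)ˣ) ∈ Δ) : ℕ := (exists_gen hΔ).choose

/-- parameters of the generator -/
def parT (hΔ : (-1 : (ZMod M)ˣ) ∈ Δ) : ℕ := (exists_gen hΔ).choose_spec.choose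

variable (hΔ : (-1 : (ZMod M)ˣ) ∈ Δ)

/-- the numerator of `w` (and of its conjugates under `Γ₀(M)`) -/
def numW (u : (ZMod M)ˣ) : ℍ → ℂ := genW Δ (parS hΔ) (parT hΔ) u

theorem isMFH_numW (u : (ZMod M)ˣ) : IsMFH M Δ (genWt Δ) (numW hΔ u) := isMFH_genW Δ _ _ u

theorem numW_stab {γ : SL(2, ℤ)} (h : numW hΔ 1 ∣[genWt Δ] γ = numW hΔ 1) : γ ∈ grpH M Δ :=
  (exists_gen hΔ).choose_spec.choose_spec γ h

variable (Δ) in
/-- the exponent of the discriminant -/
def expN : ℕ := (finΔ Δ).card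

/-- `w` as a function -/
def wFun (u : (ZMod M)ˣ) : ℍ → ℂ := fun τ => numW hΔ u τ / discriminant τ ^ expN Δ

theorem wFun_mul_delta (u : (ZMod M)ˣ) : wFun hΔ u * discriminant ^ expN Δ = numW hΔ u := by
  funext τ
  simp [wFun, div_mul_cancel₀ _ (pow_ne_zero _ (ModularForm.discriminant_ne_zero τ))]

theorem slash_zero_mul_delta (f : ℍ → ℂ) (n : ℕ) (γ : SL(2, ℤ)) :
    (f * discriminant ^ n) ∣[(n : ℤ) * 12] γ = (f ∣[(0 : ℤ)] γ) * discriminant ^ n := by
  conv_lhs => rw [show (n : ℤ) * 12 = 0 + (n : ℤ) * 12 by ring]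
  rw [ModularForm.mul_slash_SL2, (isMF_delta.pow n).inv γ (ModFun.mem_Gamma0_one γ)]

theorem mul_delta_cancel {f g : ℍ → ℂ} {n : ℕ}
    (h : f * discriminant ^ n = g * discriminant ^ n) : f = g :=
  funext fun τ => mul_right_cancel₀ (pow_ne_zero n (ModularForm.discriminant_ne_zero τ)) (congrFun h τ)

theorem isBounded_div_delta {F : ℍ → ℂ} (hF : IsBoundedAtImInfty F) {f : ℍ → ℂ} {n : ℕ}
    (h : f * discriminant ^ n = F) : IsBoundedAtImInfty (f * qp ^ n) := by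
  have h2 : IsBoundedAtImInfty (fun τ => ((ModFun.etaFn τ ^ 24) ^ n)⁻¹) := by
    have := ((ModFun.tendsto_etaFn.pow 24).pow n).inv₀ (by norm_num)
    exact this.isBigO_one ℝ
  refine (hF.mul h2).congr_left fun τ => ?_
  have he : ModFun.etaFn τ ≠ 0 := fun h0 =>
    ModularForm.discriminant_ne_zero τ (by rw [ModFun.discriminant_eq]; simp [h0])
  simp only [Pi.mul_apply, Pi.pow_apply, ← h, ModFun.discriminant_eq, mul_pow]
  field_simp

theorem mdiff_wFun (u : (ZMod M)ˣ) : MDiff (wFun hΔ u) :=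
  (isMFH_numW hΔ u).holo.div (isMF_delta.holo.pow _) fun τ =>
    pow_ne_zero _ (ModularForm.discriminant_ne_zero τ)

theorem wFun_inv (u : (ZMod M)ˣ) {γ : SL(2, ℤ)} (hγ : γ ∈ grpH M Δ) :
    wFun hΔ u ∣[(0 : ℤ)] γ = wFun hΔ u := by
  apply mul_delta_cancel (n := expN Δ)
  rw [← slash_zero_mul_delta, wFun_mul_delta]
  exact (isMFH_numW hΔ u).inv γ hγ

theorem wFun_slash_bdd (u : (ZMod M)ˣ) (γ : SL(2, ℤ)) :
    IsBoundedAtImInfty ((wFun hΔ u ∣[(0 : ℤ)] γ) * qp ^ expN Δ) :=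
  isBounded_div_delta ((isMFH_numW hΔ u).bdd γ) (by
    rw [← slash_zero_mul_delta, wFun_mul_delta]; rfl)

theorem mod1_of_inv {f : ℍ → ℂ} (hf : MDiff f) (hinv : ∀ γ ∈ grpH M Δ, f ∣[(0 : ℤ)] γ = f) {m : ℕ}
    (hb : ∀ γ : SL(2, ℤ), IsBoundedAtImInfty ((f ∣[(0 : ℤ)] γ) * qp ^ m)) : Mod1 f := by
  refine ⟨ModFun.periodic_ofComplex_of fun z hz hz' => ?_, hf, m, by simpa using hb 1⟩
  have e : (⟨z + 1, hz'⟩ : ℍ) = ModularGroup.T • (⟨z, hz⟩ : ℍ) := by
    ext
    rw [UpperHalfPlane.modular_T_smul]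
    simp [add_comm]
  have h := congrFun (hinv _ T_mem_grpH) ⟨z, hz⟩
  rw [ModFun.slash_zero_eq] at h
  rw [e]; exact h

/-- `w` in the algebra of periodic functions -/
def wM (u : (ZMod M)ˣ) : M1 :=
  ⟨wFun hΔ u, mod1_of_inv (mdiff_wFun hΔ u) (fun _ hγ => wFun_inv hΔ u hγ) (wFun_slash_bdd hΔ u)⟩

/-- the integral expansion of the numerator -/
def numZ (u : (ZMod M)ˣ) : PowerSeries ℤ := (intQ_genW Δ (parS hΔ) (parT hΔ) u).choose

theorem qx_numW (u : (ZMod M)ˣ) : qx (numW hΔ u) = (numZ hΔ u).map (Int.castRingHom ℂ) :=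
  (intQ_genW Δ (parS hΔ) (parT hΔ) u).choose_spec

/-- `w` in `ℚ((q))` -/
def wSer (u : (ZMod M)ˣ) : LaurentSeries ℚ :=
  HahnSeries.ofPowerSeries ℤ ℚ ((numZ hΔ u).map (Int.castRingHom ℚ)) /
    HahnSeries.ofPowerSeries ℤ ℚ
      (((PowerSeries.X : PowerSeries ℤ) * dedekindEtaUnit) ^ expN Δ |>.map (Int.castRingHom ℚ))

theorem coeffEmb_intSeries (P : PowerSeries ℤ) :
    coeffEmb ℂ (HahnSeries.ofPowerSeries ℤ ℚ (P.map (Int.castRingHom ℚ))) =
      HahnSeries.ofPowerSeries ℤ ℂ (P.map (Int.castRingHom ℂ)) := by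
  rw [coeffEmb, ModFun.coeffMap_ofPowerSeries]
  congr 1

theorem qx_delta_pow (n : ℕ) : qx (discriminant ^ n) =
    (((PowerSeries.X : PowerSeries ℤ) * dedekindEtaUnit) ^ n).map (Int.castRingHom ℂ) := by
  rw [ModFun.Good.qx_pow isMF_delta.good, ModFun.qx_discriminant, map_pow, map_mul, PowerSeries.map_X]

theorem coeffEmb_wSer (u : (ZMod M)ˣ) : coeffEmb ℂ (wSer hΔ u) =
    HahnSeries.ofPowerSeries ℤ ℂ (qx (numW hΔ u)) /
      HahnSeries.ofPowerSeries ℤ ℂ (qx (discriminant ^ expN Δ)) := by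
  rw [wSer, map_div₀, coeffEmb_intSeries, coeffEmb_intSeries, qx_numW, qx_delta_pow]

theorem isMFH_delta_pow (n : ℕ) : IsMFH M Δ ((n : ℤ) * 12) (discriminant ^ n) :=
  IsMFH.of_isMF ((isMF_delta.pow n).levelOne)

theorem delta_pow_ne_zero (n : ℕ) : (discriminant : ℍ → ℂ) ^ n ≠ 0 := fun h =>
  pow_ne_zero n (ModularForm.discriminant_ne_zero UpperHalfPlane.I) (congrFun h UpperHalfPlane.I)

theorem isQuotC_wSer (u : (ZMod M)ˣ) :
    IsQuotC M Δ (coeffEmb ℂ (wSer hΔ u)) (genWt Δ) (numW hΔ u) (discriminant ^ expN Δ) := by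
  refine ⟨isMFH_numW hΔ u, isMFH_delta_pow _, delta_pow_ne_zero _, ?_⟩
  rw [coeffEmb_wSer, div_mul_cancel₀]
  exact (isMFH_delta_pow (Δ := Δ) _).qx_ne_zero (delta_pow_ne_zero _)

theorem wSer_mem_F0H (u : (ZMod M)ˣ) : wSer hΔ u ∈ F0H M Δ :=
  mem_F0H.mpr ⟨_, _, _, isQuotC_wSer hΔ u⟩

theorem lx_wM (u : (ZMod M)ˣ) : lx (wM hΔ u) = coeffEmb ℂ (wSer hΔ u) := by
  have hd := (isMF_delta.pow (expN Δ)).good
  have h := congrArg lx (show wM hΔ u * (⟨_, hd.mod1⟩ : M1) =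
    ⟨_, (isMFH_numW hΔ u).good.mod1⟩ from Subtype.ext (wFun_mul_delta hΔ u))
  rw [map_mul, ModFun.lx_good hd, ModFun.lx_good (isMFH_numW hΔ u).good] at h
  rw [coeffEmb_wSer, eq_div_iff ((isMFH_delta_pow (Δ := Δ) _).qx_ne_zero (delta_pow_ne_zero _))]
  exact h

/-! ### conjugates -/

variable (M Δ) in
/-- the cosets of `H` -/
abbrev CosH : Type := SL(2, ℤ) ⧸ grpH M Δ

instance : Fintype (CosH M Δ) := Fintype.ofFinite _

instance : DecidableEq (CosH M Δ) := Classical.decEq _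

/-- conjugates of a function -/
def cjH (f : ℍ → ℂ) (q : CosH M Δ) : ℍ → ℂ := f ∣[(0 : ℤ)] (q.out)⁻¹

theorem cjH_mk {f : ℍ → ℂ} (hf : ∀ γ ∈ grpH M Δ, f ∣[(0 : ℤ)] γ = f) (g : SL(2, ℤ)) :
    cjH f (QuotientGroup.mk g : CosH M Δ) = f ∣[(0 : ℤ)] g⁻¹ := by
  obtain ⟨h, hh⟩ := QuotientGroup.mk_out_eq_mul (grpH M Δ) g
  rw [cjH, hh, mul_inv_rev, SlashAction.slash_mul, hf _ (inv_mem h.2)]

/-- the base coset -/
def cos₁ (M : ℕ) (Δ : Subgroup (ZMod M)ˣ) : CosH M Δ := QuotientGroup.mk 1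

theorem cjH_one {f : ℍ → ℂ} (hf : ∀ γ ∈ grpH M Δ, f ∣[(0 : ℤ)] γ = f) : cjH f (cos₁ M Δ) = f := by
  rw [cos₁, cjH_mk hf, inv_one, SlashAction.slash_one]

theorem cjH_slash {f : ℍ → ℂ} (hf : ∀ γ ∈ grpH M Δ, f ∣[(0 : ℤ)] γ = f) (γ : SL(2, ℤ))
    (q : CosH M Δ) : cjH f q ∣[(0 : ℤ)] γ = cjH f ((MulAction.toPerm γ⁻¹) q) := by
  have : (MulAction.toPerm γ⁻¹) q = (QuotientGroup.mk (γ⁻¹ * q.out) : CosH M Δ) := by
    show γ⁻¹ • q = _
    conv_lhs => rw [← QuotientGroup.out_eq' q]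
    rfl
  rw [this, cjH_mk hf, mul_inv_rev, inv_inv, cjH, SlashAction.slash_mul]

theorem mdiff_cjH {f : ℍ → ℂ} (hf : MDiff f) (q : CosH M Δ) : MDiff (cjH f q) :=
  ModFun.mdiff_slash hf 0 _

/-- the conjugates of `w` -/
def wC (q : CosH M Δ) : ℍ → ℂ := cjH (wFun hΔ 1) q

theorem wC_one : wC hΔ (cos₁ M Δ) = wFun hΔ 1 := cjH_one fun _ h => wFun_inv hΔ 1 h

theorem wC_injective : Function.Injective (wC hΔ) := by
  intro q r h
  have h1 : wFun hΔ 1 ∣[(0 : ℤ)] (q.out⁻¹ * r.out) = wFun hΔ 1 := by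
    rw [SlashAction.slash_mul, show wFun hΔ 1 ∣[(0 : ℤ)] q.out⁻¹ = wFun hΔ 1 ∣[(0 : ℤ)] r.out⁻¹ from h,
      ← SlashAction.slash_mul, inv_mul_cancel, SlashAction.slash_one]
  have hmem : q.out⁻¹ * r.out ∈ grpH M Δ := by
    refine numW_stab hΔ ?_
    rw [← wFun_mul_delta]
    show (wFun hΔ 1 * discriminant ^ expN Δ) ∣[(expN Δ : ℤ) * 12] _ = _
    rw [slash_zero_mul_delta, h1]
  rw [← QuotientGroup.out_eq' q, ← QuotientGroup.out_eq' r, QuotientGroup.eq]
  exact hmem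

theorem card_cosH : Fintype.card (CosH M Δ) = (grpH M Δ).index := by
  rw [Subgroup.index, Nat.card_eq_fintype_card]

/-- symmetric expressions in conjugates are polynomials in `j` -/
theorem exists_poly_sym {g : CosH M Δ → ℍ → ℂ} (hg : ∀ q, MDiff (g q))
    (hperm : ∀ (γ : SL(2, ℤ)) q, g q ∣[(0 : ℤ)] γ = g ((MulAction.toPerm γ⁻¹) q)) {m : ℕ}
    (hb : ∀ q, IsBoundedAtImInfty (g q * qp ^ m)) :
    ∃ P : Polynomial ℂ, ∀ τ, (∑ q, g q) τ = P.eval (jFun τ) := by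
  obtain ⟨P, -, hP⟩ := ModFun.exists_poly_jFun (f := ∑ q, g q) (m := m)
    (ModFun.mdiff_sum _ fun q _ => hg q)
    (fun γ τ => by
      have h : (∑ q, g q) ∣[(0 : ℤ)] γ = ∑ q, g q := by
        rw [SlashAction.sum_slash]
        exact Finset.sum_equiv (MulAction.toPerm γ⁻¹) (by simp) fun q _ => hperm γ q
      rw [ModFun.slash_zero_eq] at h
      exact congrFun h τ)
    (by rw [Finset.sum_mul]; exact ModFun.bdd_sum _ fun q _ => hb q)
  exact ⟨P, hP⟩

theorem esum_wC_bdd (s : Finset (CosH M Δ)) (m : ℕ) :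
    IsBoundedAtImInfty (esum (wC hΔ) s m * qp ^ (expN Δ * m)) := by
  rw [esum, Finset.sum_mul]
  refine ModFun.bdd_sum _ fun S hS => ?_
  rw [pow_mul, ← (Finset.mem_powersetCard.mp hS).2, ← Finset.prod_const, ← Finset.prod_mul_distrib]
  exact ModFun.bdd_prod S fun r _ => wFun_slash_bdd hΔ 1 r.out⁻¹

theorem esum_wC_slash (γ : SL(2, ℤ)) (s : Finset (CosH M Δ)) (m : ℕ) :
    esum (wC hΔ) s m ∣[(0 : ℤ)] γ =
      esum (wC hΔ) (s.map (MulAction.toPerm γ⁻¹ : Equiv.Perm (CosH M Δ)).toEmbedding) m := by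
  have e := ModFun.esum_slash (wC hΔ) (MulAction.toPerm γ⁻¹) 0 γ
    (cjH_slash (fun _ h => wFun_inv hΔ 1 h) γ) s m
  rwa [mul_zero] at e

/-- Lagrange coefficient -/
def interA (f : ℍ → ℂ) (m : ℕ) : ℍ → ℂ :=
  ∑ q : CosH M Δ, cjH f q * esum (wC hΔ) (Finset.univ.erase q) m

theorem interA_poly {f : ℍ → ℂ} (hf : MDiff f) (hinv : ∀ γ ∈ grpH M Δ, f ∣[(0 : ℤ)] γ = f) {m₀ : ℕ}
    (hb : ∀ γ : SL(2, ℤ), IsBoundedAtImInfty ((f ∣[(0 : ℤ)] γ) * qp ^ m₀)) (m : ℕ) :
    ∃ P : Polynomial ℂ, ∀ τ, interA hΔ f m τ = P.eval (jFun τ) := by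
  refine exists_poly_sym (m := m₀ + expN Δ * m)
    (fun q => (mdiff_cjH hf q).mul (ModFun.esum_mdiff _ _ _ fun r => mdiff_cjH (mdiff_wFun hΔ 1) r))
    (fun γ q => ?_) (fun q => ?_)
  · have e2 := ModularForm.mul_slash_SL2 0 0 γ (cjH f q) (esum (wC hΔ) (Finset.univ.erase q) m)
    rw [add_zero] at e2
    rw [e2, cjH_slash hinv, esum_wC_slash, Finset.map_erase, Finset.map_univ_equiv]
    rfl
  · rw [pow_add, mul_mul_mul_comm]
    exact (hb _).mul (esum_wC_bdd hΔ _ m)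

/-- Lagrange denominator -/
def interD : ℍ → ℂ := ∏ r ∈ Finset.univ.erase (cos₁ M Δ), (wFun hΔ 1 - wC hΔ r)

theorem interD_ne_zero : interD hΔ ≠ 0 := by
  intro h
  rw [interD, UpperHalfPlane.prod_eq_zero_iff] at h
  · obtain ⟨r, hr, hr0⟩ := h
    refine Finset.ne_of_mem_erase hr (wC_injective hΔ ?_)
    rw [wC_one]
    exact (sub_eq_zero.mp hr0).symm
  · exact fun r _ => (mdiff_wFun hΔ 1).sub (mdiff_cjH (mdiff_wFun hΔ 1) r)

/-- polynomial expressions in `j` and `w` over `ℂ` -/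
def polyH : Subalgebra ℂ (LaurentSeries ℂ) :=
  Algebra.adjoin ℂ ({coeffEmb ℂ jq, coeffEmb ℂ (wSer hΔ 1)} : Set (LaurentSeries ℂ))

theorem interp {f : ℍ → ℂ} (hf : MDiff f) (hinv : ∀ γ ∈ grpH M Δ, f ∣[(0 : ℤ)] γ = f) {m₀ : ℕ}
    (hb : ∀ γ : SL(2, ℤ), IsBoundedAtImInfty ((f ∣[(0 : ℤ)] γ) * qp ^ m₀)) :
    ∃ R : M1, lx R ∈ polyH hΔ ∧ (R : ℍ → ℂ) = f * interD hΔ := by
  choose P hP using interA_poly hΔ hf hinv hb
  set n := Fintype.card (CosH M Δ)
  refine ⟨∑ m ∈ Finset.range n,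
    algebraMap ℂ M1 ((-1 : ℂ) ^ m) * ((wM hΔ 1) ^ (n - 1 - m) * Polynomial.aeval jM (P m)), ?_, ?_⟩
  · have e1 : coeffEmb ℂ (wSer hΔ 1) ∈ polyH hΔ :=
      Algebra.subset_adjoin (Set.mem_insert_of_mem _ rfl)
    have e2 : coeffEmb ℂ jq ∈ polyH hΔ := Algebra.subset_adjoin (Set.mem_insert _ _)
    rw [map_sum]
    refine Subalgebra.sum_mem _ fun m _ => ?_
    rw [map_mul, AlgHom.commutes, map_mul, map_pow lx (wM hΔ 1), lx_wM, ModFun.lx_aeval_jM]
    exact Subalgebra.mul_mem _ (Subalgebra.algebraMap_mem _ _)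
      (Subalgebra.mul_mem _ (Subalgebra.pow_mem _ e1 _)
        ((Algebra.adjoin_mono (Set.singleton_subset_iff.mpr (Set.mem_insert _ _)))
          (Polynomial.aeval_mem_adjoin_singleton _ _)))
  · have h1 : f * interD hΔ = ∑ q : CosH M Δ,
        cjH f q * ∏ r ∈ Finset.univ.erase q, (wFun hΔ 1 - wC hΔ r) := by
      rw [Finset.sum_eq_single_of_mem (cos₁ M Δ) (Finset.mem_univ _), cjH_one hinv]
      · rfl
      · intro q _ hq
        rw [Finset.prod_eq_zero (i := cos₁ M Δ)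
          (Finset.mem_erase.mpr ⟨Ne.symm hq, Finset.mem_univ _⟩), mul_zero]
        rw [wC_one, sub_self]
    rw [h1]
    simp only [ModFun.prod_sub_eq, Finset.card_erase_of_mem (Finset.mem_univ _), Finset.card_univ,
      Finset.mul_sum]
    rw [Nat.sub_add_cancel (show 1 ≤ Fintype.card (CosH M Δ) from Fintype.card_pos), Finset.sum_comm]
    funext τ
    simp only [AddSubmonoidClass.coe_finsetSum, Finset.sum_apply]
    refine Finset.sum_congr rfl fun m _ => ?_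
    rw [← Algebra.smul_def, Subalgebra.coe_smul, Subalgebra.coe_mul, Subalgebra.coe_pow, Pi.smul_apply,
      Pi.mul_apply, Pi.pow_apply, ModFun.aeval_jM_apply, ← hP, interA, Finset.sum_apply, Finset.mul_sum,
      Finset.smul_sum]
    refine Finset.sum_congr rfl fun q _ => ?_
    simp only [Pi.mul_apply, Pi.smul_apply, Pi.pow_apply, smul_eq_mul]
    rw [show ((wM hΔ 1 : M1) : ℍ → ℂ) τ = wFun hΔ 1 τ from rfl]
    ring

theorem exists_mul_polyH {f : ℍ → ℂ} (hf : MDiff f) (hinv : ∀ γ ∈ grpH M Δ, f ∣[(0 : ℤ)] γ = f)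
    {m₀ : ℕ} (hb : ∀ γ : SL(2, ℤ), IsBoundedAtImInfty ((f ∣[(0 : ℤ)] γ) * qp ^ m₀)) (hf1 : Mod1 f) :
    ∃ D ∈ polyH hΔ, D ≠ 0 ∧ lx ⟨f, hf1⟩ * D ∈ polyH hΔ := by
  obtain ⟨D, hD, hDe⟩ := interp hΔ (f := 1) mdifferentiable_const
    (fun γ _ => ModularForm.is_invariant_one γ) (m₀ := 0) (fun γ => by
      rw [ModularForm.is_invariant_one, pow_zero, mul_one]; exact ModFun.Good.one.bdd)
  rw [one_mul] at hDe
  obtain ⟨R, hR, hRe⟩ := interp hΔ hf hinv hb
  refine ⟨lx D, hD, fun h => interD_ne_zero hΔ ?_, ?_⟩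
  · rw [← hDe, (map_eq_zero_iff _ ModFun.lx_injective).mp h]; rfl
  rw [← map_mul, show (⟨f, hf1⟩ : M1) * D = R from Subtype.ext (by
    rw [Subalgebra.coe_mul, hRe, hDe])]
  exact hR

/-- quotients of forms are rational in `j` and `w` over `ℂ` -/
theorem quot_mem_polyH_field {X : LaurentSeries ℂ} {w : ℤ} {F G : ℍ → ℂ}
    (h : IsQuotC M Δ X w F G) :
    X ∈ IntermediateField.adjoin ℂ
      ({coeffEmb ℂ jq, coeffEmb ℂ (wSer hΔ 1)} : Set (LaurentSeries ℂ)) := by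
  -- reduce to even weight
  have hF2 : IsMFH M Δ (w + w) (F * G) := h.num.mul h.den
  have hG2 : IsMFH M Δ (w + w) (G * G) := h.den.mul h.den
  obtain ⟨a, b, c, habc⟩ : ∃ a b c : ℕ, 4 * (a : ℤ) + 6 * b = 12 * c - (w + w) := by
    rcases Int.even_or_odd w with ⟨u, hu⟩ | ⟨u, hu⟩
    · exact ⟨(3 * ((w + w).toNat : ℤ) - u).toNat, 0, (w + w).toNat, by omega⟩
    · exact ⟨(3 * (((w + w).toNat + 1 : ℕ) : ℤ) - u - 2).toNat, 1, (w + w).toNat + 1, by omega⟩
  set E : ℍ → ℂ := (ModularForm.E₄ : ℍ → ℂ) ^ a * (ModularForm.E₆ : ℍ → ℂ) ^ b with hE'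
  have h6 : IsMF 1 6 (ModularForm.E₆ : ℍ → ℂ) := ModFun.isMF_levelOne ModularForm.E₆
  have hE : IsMFH M Δ ((a : ℤ) * 4 + (b : ℤ) * 6) E :=
    IsMFH.of_isMF ((isMF_E4.pow a).mul (h6.pow b)).levelOne
  have hE0 : qx E ≠ 0 := by
    intro h'
    have h'' := congrArg (PowerSeries.constantCoeff (R := ℂ)) h'
    rw [hE', ModFun.Good.qx_mul (isMF_E4.good.pow a) (h6.good.pow b),
      ModFun.Good.qx_pow isMF_E4.good, ModFun.Good.qx_pow h6.good,
      map_mul, map_pow, map_pow, ← PowerSeries.coeff_zero_eq_constantCoeff, qx, qx,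
      EisensteinSeries.E_qExpansion_coeff_zero _ ⟨2, rfl⟩,
      EisensteinSeries.E_qExpansion_coeff_zero _ ⟨3, rfl⟩] at h''
    simp at h''
  have key : ∀ F : ℍ → ℂ, IsMFH M Δ (w + w) F →
      ∃ Y ∈ IntermediateField.adjoin ℂ
          ({coeffEmb ℂ jq, coeffEmb ℂ (wSer hΔ 1)} : Set (LaurentSeries ℂ)),
        Y * HahnSeries.ofPowerSeries ℤ ℂ (qx (discriminant ^ c)) =
          HahnSeries.ofPowerSeries ℤ ℂ (qx F) * HahnSeries.ofPowerSeries ℤ ℂ (qx E) := by
    intro F hF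
    set f : ℍ → ℂ := fun τ => F τ * E τ / discriminant τ ^ c with hf'
    have hFE : IsMFH M Δ ((c : ℤ) * 12) (F * E) := (hF.mul hE).cast (by omega)
    have hfm : f * discriminant ^ c = F * E := by
      funext τ
      simp [hf', div_mul_cancel₀ _ (pow_ne_zero c (ModularForm.discriminant_ne_zero τ))]
    have hm : MDiff f := hFE.holo.div (isMF_delta.holo.pow c)
      (fun τ => pow_ne_zero _ (ModularForm.discriminant_ne_zero τ))
    have hinv : ∀ γ ∈ grpH M Δ, f ∣[(0 : ℤ)] γ = f := fun γ hγ => by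
      apply mul_delta_cancel (n := c)
      rw [← slash_zero_mul_delta, hfm]
      exact hFE.inv γ hγ
    have hb : ∀ γ : SL(2, ℤ), IsBoundedAtImInfty ((f ∣[(0 : ℤ)] γ) * qp ^ c) := fun γ =>
      isBounded_div_delta (hFE.bdd γ) (by rw [← slash_zero_mul_delta, hfm])
    have h1 := mod1_of_inv hm hinv hb
    obtain ⟨D, hD, hD0, hR⟩ := exists_mul_polyH hΔ hm hinv hb h1
    refine ⟨lx ⟨f, h1⟩, ?_, ?_⟩
    · have hle := IntermediateField.algebra_adjoin_le_adjoin ℂ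
        ({coeffEmb ℂ jq, coeffEmb ℂ (wSer hΔ 1)} : Set (LaurentSeries ℂ))
      rw [show lx ⟨f, h1⟩ = (lx ⟨f, h1⟩ * D) / D by rw [mul_div_assoc, div_self hD0, mul_one]]
      exact div_mem (hle hR) (hle hD)
    · rw [← ModFun.lx_good (isMF_delta.good.pow c), ← map_mul (HahnSeries.ofPowerSeries ℤ ℂ),
        ← ModFun.Good.qx_mul hF.good hE.good, ← ModFun.lx_good hFE.good, ← map_mul]
      exact congrArg lx (Subtype.ext hfm)
  obtain ⟨Y, hY, eY⟩ := key _ hF2
  obtain ⟨Y', hY', eY'⟩ := key _ hG2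
  have hEL : HahnSeries.ofPowerSeries ℤ ℂ (qx E) ≠ 0 :=
    (map_ne_zero_iff _ HahnSeries.ofPowerSeries_injective).mpr hE0
  have hD0 := (isMFH_delta_pow (Δ := Δ) c).qx_ne_zero (delta_pow_ne_zero c)
  have hG0 : HahnSeries.ofPowerSeries ℤ ℂ (qx (G * G)) ≠ 0 :=
    hG2.qx_ne_zero (h.den.mul_ne_zero' h.den h.den_ne h.den_ne)
  have hY0 : Y' ≠ 0 := fun e => mul_ne_zero hG0 hEL (by rw [← eY', e, zero_mul])
  have hX : X = Y / Y' := by
    rw [eq_div_iff hY0]
    refine mul_right_cancel₀ hD0 ?_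
    rw [mul_assoc, eY', eY, ModFun.Good.qx_mul h.den.good h.den.good,
      ModFun.Good.qx_mul h.num.good h.den.good, map_mul, map_mul, ← h.eq]
    ring
  rw [hX]
  exact div_mem hY hY'

/-! ### descent to `ℚ̄` -/

theorem coeffMap_embC_inj : Function.Injective (coeffMap embC) := fun a b h => by
  ext k
  exact embC.injective (by simpa only [coeffMap_coeff] using congrArg (fun z => z.coeff k) h)

/-- coefficientwise functional -/
def phiH (φ : ℂ →ₗ[Qb] Qb) (x : LaurentSeries ℂ) : LaurentSeries Qb := x.map φ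

theorem phiH_coeff (φ : ℂ →ₗ[Qb] Qb) (x : LaurentSeries ℂ) (k : ℤ) :
    (phiH φ x).coeff k = φ (x.coeff k) := rfl

theorem phiH_mul_coeffMap (φ : ℂ →ₗ[Qb] Qb) (Y : LaurentSeries Qb) (Z : LaurentSeries ℂ) :
    phiH φ (coeffMap embC Y * Z) = Y * phiH φ Z := by
  ext k
  have hsY : (coeffMap embC Y).support ⊆ Y.support := fun i hi => by
    intro h0; exact hi (by rw [coeffMap_coeff, h0, map_zero])
  have hsZ : (phiH φ Z).support ⊆ Z.support := fun i hi => by
    intro h0; exact hi (by rw [phiH_coeff, h0, map_zero])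
  rw [phiH_coeff, HahnSeries.coeff_mul_left' Y.isPWO_support hsY,
    HahnSeries.coeff_mul_right' Z.isPWO_support hsZ, map_sum]
  refine Finset.sum_congr rfl fun ij _ => ?_
  rw [coeffMap_coeff, phiH_coeff, ← smul_eq_mul (Y.coeff ij.1), ← φ.map_smul, Algebra.smul_def]
  rfl

theorem exists_phiH {c : ℂ} (hc : c ≠ 0) : ∃ φ : ℂ →ₗ[Qb] Qb, φ c = 1 := by
  obtain ⟨f, hf⟩ := (LinearMap.toSpanSingleton Qb ℂ c).exists_leftInverse_of_injective
    (LinearMap.ker_eq_bot.mpr fun a b h => smul_left_injective Qb hc (by simpa using h))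
  exact ⟨f, by simpa using LinearMap.congr_fun hf 1⟩

/-- `ℚ̄(j, w)` -/
def genB : IntermediateField Qb (LaurentSeries Qb) :=
  IntermediateField.adjoin Qb
    ({Good.jBarSeries, coeffEmb Qb (wSer hΔ 1)} : Set (LaurentSeries Qb))

theorem phiH_one (φ : ℂ →ₗ[Qb] Qb) : phiH φ 1 = algebraMap Qb _ (φ 1) := by
  ext k
  rw [phiH_coeff, algebraMap_laurentSeries_eq_single, HahnSeries.coeff_one, HahnSeries.coeff_single]
  split_ifs <;> simp

theorem polyH_phiH {Z : LaurentSeries ℂ} (hZ : Z ∈ polyH hΔ) :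
    ∀ φ : ℂ →ₗ[Qb] Qb, phiH φ Z ∈ genB hΔ := by
  rw [polyH, ← Subalgebra.mem_toSubmodule, Algebra.adjoin_eq_span] at hZ
  induction hZ using Submodule.span_induction with
  | mem x hx =>
    have : ∃ z ∈ genB hΔ, x = coeffMap embC z := by
      induction hx using Submonoid.closure_induction with
      | mem y hy =>
        rcases hy with h | h
        · exact ⟨_, IntermediateField.subset_adjoin _ _ (Set.mem_insert _ _),
            h.trans (ModFun.coeffMap_coeffEmb_comp embC jq).symm⟩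
        · exact ⟨_, IntermediateField.subset_adjoin _ _ (Set.mem_insert_of_mem _ rfl),
            (Set.mem_singleton_iff.mp h).trans (ModFun.coeffMap_coeffEmb_comp embC _).symm⟩
      | one => exact ⟨1, one_mem _, (map_one _).symm⟩
      | mul a b _ _ ha hb =>
        obtain ⟨za, hza, rfl⟩ := ha
        obtain ⟨zb, hzb, rfl⟩ := hb
        exact ⟨za * zb, mul_mem hza hzb, (map_mul _ _ _).symm⟩
    obtain ⟨z, hz, rfl⟩ := this
    intro φ
    rw [← mul_one (coeffMap embC z), phiH_mul_coeffMap, phiH_one]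
    exact mul_mem hz (IntermediateField.algebraMap_mem _ _)
  | zero =>
    intro φ
    have : phiH φ 0 = 0 := by ext k; simp [phiH_coeff]
    rw [this]; exact zero_mem _
  | add x y _ _ hx hy =>
    intro φ
    have : phiH φ (x + y) = phiH φ x + phiH φ y := by ext k; simp [phiH_coeff]
    rw [this]; exact add_mem (hx φ) (hy φ)
  | smul c x _ hx =>
    intro φ
    convert hx (φ.comp (LinearMap.mulLeft Qb c)) using 1
    ext k
    rw [phiH_coeff, phiH_coeff, LinearMap.comp_apply, LinearMap.mulLeft_apply, Algebra.smul_def,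
      ModFun.algebraMap_mul_coeff]

theorem mem_genB_of_isQuotH {X : LaurentSeries Qb} {w : ℤ} {F G : ℍ → ℂ}
    (h : IsQuotH M Δ X w F G) : X ∈ genB hΔ := by
  have hq := quot_mem_polyH_field hΔ h
  rw [IntermediateField.mem_adjoin_iff_div] at hq
  obtain ⟨r, hr, s, hs, hrs⟩ := hq
  rcases eq_or_ne s 0 with rfl | hs0
  · rw [div_zero, map_eq_zero_iff _ coeffMap_embC_inj] at hrs
    rw [hrs]; exact zero_mem _
  rw [eq_div_iff hs0] at hrs
  obtain ⟨k, hk⟩ : ∃ k, s.coeff k ≠ 0 := by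
    by_contra hc
    push Not at hc
    exact hs0 (HahnSeries.ext (funext hc))
  obtain ⟨φ, hφ⟩ := exists_phiH hk
  have hne : phiH φ s ≠ 0 := fun h0 => by
    have := congrArg (fun z : LaurentSeries Qb => z.coeff k) h0
    simp [phiH_coeff, hφ] at this
  have hmain : X * phiH φ s = phiH φ r := by rw [← phiH_mul_coeffMap, hrs]
  rw [(eq_div_iff hne).mpr hmain]
  exact div_mem (polyH_phiH hΔ hr φ) (polyH_phiH hΔ hs φ)

theorem FBH_eq_genB : FBH M Δ = genB hΔ := by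
  refine le_antisymm (fun x hx => ?_) (IntermediateField.adjoin_le_iff.mpr ?_)
  · obtain ⟨w, F, G, h⟩ := exists_isQuotH' hx
    exact mem_genB_of_isQuotH hΔ h
  · rintro x (rfl | rfl)
    · exact jBar_mem_FBH
    · exact coeffEmb_mem_laurentBaseChange _ (wSer_mem_F0H hΔ 1)

include hΔ in
theorem mem_FBH_of_isQuotH' {X : LaurentSeries Qb} {w : ℤ} {F G : ℍ → ℂ}
    (h : IsQuotH M Δ X w F G) : X ∈ FBH M Δ :=
  (FBH_eq_genB hΔ).symm ▸ mem_genB_of_isQuotH hΔ h

/-! ### the degree of `j` -/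

/-- `w` in `ℚ̄(X_H)` -/
def wBar : ↥(FBH M Δ) :=
  ⟨coeffEmb Qb (wSer hΔ 1), coeffEmb_mem_laurentBaseChange _ (wSer_mem_F0H hΔ 1)⟩

theorem coe_aeval_jBarH (P : Polynomial Qb) :
    ((Polynomial.aeval (jBarH M Δ) P : ↥(FBH M Δ)) : LaurentSeries Qb) =
      Polynomial.aeval (Good.jBarSeries : LaurentSeries Qb) P :=
  (Polynomial.aeval_algHom_apply (FBH M Δ).val (jBarH M Δ) P).symm

theorem generated_FBH :
    IntermediateField.adjoin Qb ({jBarH M Δ, wBar hΔ} : Set ↥(FBH M Δ)) = ⊤ := by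
  refine IntermediateField.map_injective (FBH M Δ).val ?_
  rw [IntermediateField.adjoin_map, Set.image_pair, ← AlgHom.fieldRange_eq_map,
    IntermediateField.fieldRange_val]
  exact (FBH_eq_genB hΔ).symm

theorem coeff_zero_of_aeval_w {c : ℕ → Polynomial ℂ}
    (h : ∑ i ∈ Finset.range (Fintype.card (CosH M Δ)), Polynomial.aeval jM (c i) * wM hΔ 1 ^ i
      = (0 : M1)) :
    ∀ i < Fintype.card (CosH M Δ), c i = 0 := by
  set n := Fintype.card (CosH M Δ)
  have hpt : ∀ (q : CosH M Δ) (τ : ℍ),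
      ∑ i ∈ Finset.range n, (c i).eval (jFun τ) * wC hΔ q τ ^ i = 0 := by
    intro q τ
    have h' := congrArg (ModFun.evalM (q.out⁻¹ • τ)) h
    rw [map_sum, map_zero] at h'
    refine Eq.trans (Finset.sum_congr rfl fun i _ => ?_) h'
    rw [map_mul, map_pow, ModFun.evalM_apply, ModFun.evalM_apply, ModFun.aeval_jM_apply,
      ModFun.jFun_smul]
    congr 2
    show cjH (wFun hΔ 1) q τ = _
    rw [cjH, ModFun.slash_zero_eq]
    rfl
  let G : ℍ → ℂ := ∏ p ∈ (Finset.univ : Finset (CosH M Δ)).offDiag, (wC hΔ p.1 - wC hΔ p.2)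
  have hmw : ∀ q, MDiff (wC hΔ q) := fun q => mdiff_cjH (mdiff_wFun hΔ 1) q
  have hGm : MDiff G := ModFun.mdiff_prod _ fun p _ => (hmw p.1).sub (hmw p.2)
  have hG : G ≠ 0 := by
    intro h0
    rw [UpperHalfPlane.prod_eq_zero_iff (fun p _ => (hmw p.1).sub (hmw p.2))] at h0
    obtain ⟨p, hp, hp0⟩ := h0
    exact (Finset.mem_offDiag.mp hp).2.2 (wC_injective hΔ (sub_eq_zero.mp hp0))
  intro i hi
  have hprod : (fun τ => (c i).eval (jFun τ)) * G = 0 := by
    funext τ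
    by_cases hτ : G τ = 0
    · simp [hτ]
    have hinj : Function.Injective (fun q : CosH M Δ => wC hΔ q τ) := by
      intro q r hqr
      by_contra hne
      apply hτ
      simp only [G, Finset.prod_apply]
      exact Finset.prod_eq_zero (i := (q, r)) (Finset.mem_offDiag.mpr
        ⟨Finset.mem_univ _, Finset.mem_univ _, hne⟩) (by simpa [sub_eq_zero] using hqr)
    let p : Polynomial ℂ := ∑ l ∈ Finset.range n,
      Polynomial.C ((c l).eval (jFun τ)) * Polynomial.X ^ l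
    have hp : p = 0 := by
      refine Polynomial.eq_zero_of_degree_lt_of_eval_finset_eq_zero
        (Finset.univ.image fun q : CosH M Δ => wC hΔ q τ) ?_ ?_
      · rw [Finset.card_image_of_injective _ hinj, Finset.card_univ]
        refine (Polynomial.degree_sum_le _ _).trans_lt ?_
        refine (Finset.sup_lt_iff (WithBot.bot_lt_coe _)).mpr fun l hl => ?_
        refine (Polynomial.degree_C_mul_X_pow_le _ _).trans_lt ?_
        exact Nat.cast_lt.mpr (Finset.mem_range.mp hl)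
      · intro x hx
        obtain ⟨q, -, rfl⟩ := Finset.mem_image.mp hx
        simpa [p, Polynomial.eval_finsetSum] using hpt q τ
    have := congrArg (fun P : Polynomial ℂ => P.coeff i) hp
    simp [p, hi] at this
    simp [this]
  have hcm : MDiff (fun τ => (c i).eval (jFun τ)) := by
    have := (Polynomial.aeval jM (c i)).2.holo
    rwa [show ((Polynomial.aeval jM (c i) : M1) : ℍ → ℂ) = fun τ => (c i).eval (jFun τ) from
      funext (ModFun.aeval_jM_apply _)] at this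
  have hz := ((UpperHalfPlane.mul_eq_zero_iff hcm hGm).mp hprod).resolve_right hG
  refine Polynomial.zero_of_eval_zero _ fun a => ?_
  obtain ⟨τ, rfl⟩ := ModFun.jFun_surjective a
  exact congrFun hz τ

theorem indep_FBH {c : ℕ → Polynomial Qb}
    (h : ∑ i ∈ Finset.range (Fintype.card (CosH M Δ)),
      Polynomial.aeval (jBarH M Δ) (c i) * wBar hΔ ^ i = 0) :
    ∀ i < Fintype.card (CosH M Δ), c i = 0 := by
  intro i hi
  apply Polynomial.map_injective embC embC.injective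
  rw [Polynomial.map_zero]
  refine coeff_zero_of_aeval_w hΔ (c := fun i => (c i).map embC) ?_ i hi
  apply ModFun.lx_injective
  rw [map_sum, map_zero]
  have h1 := congrArg (fun z : ↥(FBH M Δ) => coeffMap embC (z : LaurentSeries Qb)) h
  simp only [AddSubmonoidClass.coe_finsetSum, MulMemClass.coe_mul, SubmonoidClass.coe_pow,
    ZeroMemClass.coe_zero, map_sum, map_mul, map_pow, map_zero, coe_aeval_jBarH] at h1
  refine Eq.trans (Finset.sum_congr rfl fun i _ => ?_) h1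
  rw [map_mul, map_pow lx (wM hΔ 1), lx_wM, ModFun.lx_aeval_jM, wBar,
    ← ModFun.coeffMap_coeffEmb_comp embC jq, ← ModFun.coeffMap_coeffEmb_comp embC (wSer hΔ 1)]
  congr 1
  rw [← ModFun.coeffMap_aeval]

theorem relation_FBH : ∃ c : ℕ → Polynomial Qb, c 0 = 1 ∧
    ∑ m ∈ Finset.range (Fintype.card (CosH M Δ) + 1),
      Polynomial.aeval (jBarH M Δ) (c m) * wBar hΔ ^ (Fintype.card (CosH M Δ) - m) = 0 := by
  set n := Fintype.card (CosH M Δ)
  have hpoly : ∀ m, ∃ P : Polynomial ℂ, ∀ τ,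
      (((-1 : ℂ) ^ m) • esum (wC hΔ) Finset.univ m) τ = P.eval (jFun τ) := by
    intro m
    obtain ⟨P, -, hP⟩ := ModFun.exists_poly_jFun
      (f := ((-1 : ℂ) ^ m) • esum (wC hΔ) Finset.univ m) (m := expN Δ * m)
      ((ModFun.esum_mdiff _ _ _ fun q => mdiff_cjH (mdiff_wFun hΔ 1) q).const_smul _)
      (fun γ τ => by
        have h : esum (wC hΔ) Finset.univ m ∣[(0 : ℤ)] γ = esum (wC hΔ) Finset.univ m := by
          rw [esum_wC_slash, Finset.map_univ_equiv]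
        rw [ModFun.slash_zero_eq] at h
        simp only [Pi.smul_apply]
        rw [show esum (wC hΔ) Finset.univ m (γ • τ) = esum (wC hΔ) Finset.univ m τ from congrFun h τ])
      (by rw [smul_mul_assoc]; exact (esum_wC_bdd hΔ _ m).smul _)
    exact ⟨P, hP⟩
  choose P hP using hpoly
  have hP0 : P 0 = 1 := Polynomial.funext fun a => by
    obtain ⟨τ, rfl⟩ := ModFun.jFun_surjective a
    rw [← hP 0 τ]
    simp [esum]
  have hM : ∑ m ∈ Finset.range (n + 1),
      Polynomial.aeval jM (P m) * wM hΔ 1 ^ (n - m) = (0 : M1) := by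
    have h : ∏ q : CosH M Δ, (wFun hΔ 1 - wC hΔ q) = 0 :=
      Finset.prod_eq_zero (Finset.mem_univ (cos₁ M Δ)) (by rw [wC_one, sub_self])
    rw [ModFun.prod_sub_eq, Finset.card_univ] at h
    refine Subtype.ext (funext fun τ => ?_)
    refine Eq.trans ?_ (congrFun h τ)
    simp only [AddSubmonoidClass.coe_finsetSum, Finset.sum_apply, Subalgebra.coe_mul,
      Subalgebra.coe_pow, Pi.mul_apply, Pi.pow_apply, ModFun.aeval_jM_apply, ← hP, Pi.smul_apply,
      smul_eq_mul]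
    refine Finset.sum_congr rfl fun m _ => ?_
    rw [show ((wM hΔ 1 : M1) : ℍ → ℂ) τ = wFun hΔ 1 τ from rfl]
    ring
  have hL := congrArg lx hM
  rw [map_sum, map_zero] at hL
  obtain ⟨φ, hφ⟩ := exists_phiH (c := (1 : ℂ)) one_ne_zero
  -- apply `φ` to the coefficients of the polynomials
  have hQ : ∀ P : Polynomial ℂ, ∃ Q : Polynomial Qb, (P = 1 → Q = 1) ∧ ∀ Y : LaurentSeries Qb,
      phiH φ (Polynomial.aeval (coeffEmb ℂ jq) P * coeffMap embC Y) =
        Polynomial.aeval (Good.jBarSeries : LaurentSeries Qb) Q * Y := by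
    intro P
    refine ⟨∑ i ∈ P.support, Polynomial.monomial i (φ (P.coeff i)), fun h1 => ?_, fun Y => ?_⟩
    · subst h1
      rw [show (1 : Polynomial ℂ).support = {0} by
        rw [← Polynomial.C_1]; exact Polynomial.support_C one_ne_zero]
      simp [hφ]
    · rw [map_sum, Finset.sum_mul, Polynomial.aeval_def, Polynomial.eval₂_eq_sum, Polynomial.sum_def,
        Finset.sum_mul]
      rw [show phiH φ (∑ i ∈ P.support, algebraMap ℂ (LaurentSeries ℂ) (P.coeff i) *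
          coeffEmb ℂ jq ^ i * coeffMap embC Y) = ∑ i ∈ P.support,
          phiH φ (algebraMap ℂ (LaurentSeries ℂ) (P.coeff i) * coeffEmb ℂ jq ^ i * coeffMap embC Y) by
        ext k; simp [phiH_coeff]]
      refine Finset.sum_congr rfl fun i _ => ?_
      rw [Polynomial.aeval_monomial, ← ModFun.coeffMap_coeffEmb_comp embC jq, ← map_pow, mul_assoc,
        ← map_mul, mul_comm, phiH_mul_coeffMap,
        show phiH φ (algebraMap ℂ (LaurentSeries ℂ) (P.coeff i)) =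
          algebraMap Qb (LaurentSeries Qb) (φ (P.coeff i)) by
        ext k
        rw [phiH_coeff, algebraMap_laurentSeries_eq_single, algebraMap_laurentSeries_eq_single,
          HahnSeries.coeff_single, HahnSeries.coeff_single]
        split_ifs <;> simp]
      simp only [Good.jBarSeries]
      ring
  choose Q hQ1 hQ using fun m => hQ (P m)
  refine ⟨Q, hQ1 0 hP0, Subtype.ext ?_⟩
  have h2 := congrArg (phiH φ) hL
  rw [show phiH φ (∑ m ∈ Finset.range (n + 1),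
      lx (Polynomial.aeval jM (P m) * wM hΔ 1 ^ (n - m))) = ∑ m ∈ Finset.range (n + 1),
      phiH φ (lx (Polynomial.aeval jM (P m) * wM hΔ 1 ^ (n - m))) by ext k; simp [phiH_coeff],
    show phiH φ 0 = 0 by ext k; simp [phiH_coeff]] at h2
  rw [ZeroMemClass.coe_zero, AddSubmonoidClass.coe_finsetSum]
  refine Eq.trans (Finset.sum_congr rfl fun m _ => ?_) h2
  rw [MulMemClass.coe_mul, SubmonoidClass.coe_pow, coe_aeval_jBarH, map_mul,
    map_pow lx (wM hΔ 1), lx_wM, ModFun.lx_aeval_jM,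
    ← ModFun.coeffMap_coeffEmb_comp embC (wSer hΔ 1), ← map_pow, hQ]
  rfl

include hΔ in
theorem ndeg_jBarH' : RR.ndeg Qb (jBarH M Δ) = (grpH M Δ).index := by
  rw [ModFun.FieldAux.ndeg_eq Fintype.card_pos (generated_FBH hΔ) (fun _ h => indep_FBH hΔ h)
    (relation_FBH hΔ), card_cosH]

include hΔ in
theorem finite_FBH :
    FiniteDimensional (IntermediateField.adjoin Qb ({jBarH M Δ} : Set ↥(FBH M Δ))) ↥(FBH M Δ) :=
  ModFun.FieldAux.finite_of_relation Fintype.card_pos (generated_FBH hΔ) (fun _ h => indep_FBH hΔ h)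
    (relation_FBH hΔ)

end FLTAgent.DS
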