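import Fermat.Agent.DS.CurveFix
import Fermat.Agent.DS.CurveDiamond
import Fermat.Agent.Good.Main
import Fermat.Agent.Reduction.Subfield

/-!
The curve `X_H` inside an auxiliary level: the image of `H` in the level group, invariant elements
and their expansions, the function field as a fixed field.
-/

set_option autoImplicit false
set_option synthInstance.maxHeartbeats 200000
set_option maxHeartbeats 1000000
set_option linter.style.haveILetI false
set_option linter.unusedSectionVars false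

noncomputable section

open UpperHalfPlane CongruenceSubgroup ModularCurve ModularForm IntermediateField Filter
open scoped MatrixGroups Manifold Topology

namespace FLTAgent.DS

open Genus (embC)
open ModFun (qx qp lx dil aff M1 Mod1 isMF_delta)
open Good (Lev)

local notation "Qb" => AlgebraicClosure ℚ

/-- a level prime to `ℓ` divisible by `M`, with the embedding used for `X_H` -/
theorem exists_lev_embC (A : ValuationSubring Qb) (M : ℕ) [NeZero M] {ℓ : ℕ} (hℓ : ℓ.Prime)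
    (hℓM : ¬ ℓ ∣ M) (hA : A.LiesOverPrime ℓ) :
    ∃ S : Lev, S.A = A ∧ S.ι = embC ∧ M ∣ S.M := by
  obtain ⟨S₀, rfl, hM₀⟩ := Good.exists_levDvd A M hℓ hℓM hA
  exact ⟨{ S₀ with ι := embC }, rfl, rfl, hM₀⟩

variable {M : ℕ} [NeZero M] {Δ : Subgroup (ZMod M)ˣ} {S : Lev}

variable (M Δ S) in
/-- the image of `H` in the level group -/
def lvlGrp : Subgroup S.G := (grpH M Δ).map S.actHom.rangeRestrict

theorem mem_lvlGrp {g : S.G} : g ∈ lvlGrp M Δ S ↔ ∃ γ ∈ grpH M Δ, S.mkG γ = g := Iff.rfl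

theorem T_mem_lvlGrp : S.mkG ModularGroup.T ∈ lvlGrp M Δ S :=
  mem_lvlGrp.mpr ⟨_, T_mem_grpH, rfl⟩

theorem pm_of_mkG_eq_one (γ : SL(2, ℤ)) (h : S.mkG γ = 1) :
    γ ∈ Gamma S.M ∨ -γ ∈ Gamma S.M := by
  refine Good.pm_of_orders S.three_le γ fun σ v w hv hw h1 h2 => ?_
  have hadm : Good.Adm S.M v w := ⟨hv, hw, h1, h2⟩
  have a1 := S.hasLead_termG hadm (σ⁻¹ * γ⁻¹)
  have a2 := S.hasLead_termG hadm σ⁻¹
  have h' : S.mkG γ⁻¹ = 1 := by rw [Good.Lev.mkG_inv, h, inv_one]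
  have e : Good.Lev.act σ⁻¹ (Good.Lev.act γ⁻¹ (S.termG v w)) =
      Good.Lev.act σ⁻¹ (S.termG v w) := by
    rw [show Good.Lev.act γ⁻¹ (S.termG v w) = S.mkG γ⁻¹ • S.termG v w from rfl, h', one_smul]
  rw [S.act_act_base] at e
  rw [e, mul_inv_rev, inv_inv, inv_inv] at a1
  rw [inv_inv] at a2
  have := a1.unique a2
  simp only [Good.pOrd, ← Nat.cast_min] at this
  omega

variable (hM : M ∣ S.M)

include hM in
theorem Gamma_le_grpH : Gamma S.M ≤ grpH M Δ := fun γ hγ => by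
  rw [Gamma_mem] at hγ
  refine Gamma1_le_grpH ?_
  rw [Gamma1_mem]
  have c : ∀ a : ℤ, ∀ b : ℤ, (a : ZMod S.M) = (b : ZMod S.M) → (a : ZMod M) = (b : ZMod M) := by
    intro a b h
    rw [ZMod.intCast_eq_intCast_iff_dvd_sub] at h ⊢
    exact (Int.natCast_dvd_natCast.mpr hM).trans h
  exact ⟨by simpa using c _ 1 (by simpa using hγ.1), by simpa using c _ 1 (by simpa using hγ.2.2.2),
    by simpa using c _ 0 (by simpa using hγ.2.2.1)⟩

include hM in
theorem index_lvlGrp (hΔ : (-1 : (ZMod M)ˣ) ∈ Δ) :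
    (lvlGrp M Δ S).index = (grpH M Δ).index := by
  refine Subgroup.index_map_eq _ S.actHom.rangeRestrict_surjective fun γ hγ => ?_
  rcases pm_of_mkG_eq_one γ hγ with h | h
  · exact Gamma_le_grpH hM h
  · have h1 := mul_mem (neg_one_mem_grpH hΔ) (Gamma_le_grpH (Δ := Δ) hM h)
    simpa using h1

theorem apply_eq_of_fixed {x : S.LF} (hx : ∀ g ∈ lvlGrp M Δ S, g • x = x) {γ : SL(2, ℤ)}
    (hγ : γ ∈ grpH M Δ) (τ : ℍ) : (x : ℍ → ℂ) (γ • τ) = (x : ℍ → ℂ) τ := by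
  have h1 := hx _ (mem_lvlGrp.mpr ⟨γ⁻¹, inv_mem hγ, rfl⟩)
  rw [Good.Lev.mkG_smul] at h1
  have h2 := congrFun (congrArg Subtype.val h1) τ
  rwa [Good.Lev.act_apply, inv_inv] at h2

theorem conj_mem_grpH {γ δ : SL(2, ℤ)} (hγ : γ ∈ Gamma0 M) (hδ : δ ∈ grpH M Δ) :
    γ * δ * γ⁻¹ ∈ grpH M Δ := by
  obtain ⟨h0, hd⟩ := mem_grpH.mp hδ
  refine mem_grpH.mpr ⟨mul_mem (mul_mem hγ h0) (inv_mem hγ), ?_⟩
  have e : (⟨γ * δ * γ⁻¹, mul_mem (mul_mem hγ h0) (inv_mem hγ)⟩ : Gamma0 M) =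
      ⟨γ, hγ⟩ * ⟨δ, h0⟩ * ⟨γ, hγ⟩⁻¹ := rfl
  rw [e, map_mul, map_mul, map_inv, mul_right_comm, mul_inv_cancel, one_mul]
  exact hd

/-! ### growth at the cusps -/

theorem growth_of_hasExp {f : ℍ → ℂ} {s : LaurentSeries S.A} (h : S.HasExp f s) :
    ∃ n : ℕ, IsBoundedAtImInfty (f * qp ^ n) := by
  obtain ⟨a, -⟩ := h
  obtain ⟨n, hn⟩ := a.growth
  refine ⟨n, ?_⟩
  have h1 := hn.comp_tendsto (ModFun.tendsto_aff 1 0 S.M)
  have h2 : IsBoundedAtImInfty (fun τ => qp τ ^ n / qp (aff 1 0 S.M τ) ^ n) := by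
    rw [UpperHalfPlane.isBoundedAtImInfty_iff]
    refine ⟨1, 0, fun τ _ => ?_⟩
    rw [norm_div, norm_pow, norm_pow, ModFun.norm_qp, ModFun.norm_qp, ModFun.im_aff, ← div_pow]
    refine pow_le_one₀ (by positivity) ?_
    rw [← Real.exp_sub, Real.exp_le_one_iff, sub_nonpos, Nat.cast_one, one_mul]
    have hM1 : (1 : ℝ) ≤ S.M := by exact_mod_cast Nat.one_le_iff_ne_zero.mpr (NeZero.ne S.M)
    have := div_le_self τ.im_pos.le hM1
    nlinarith [Real.pi_pos]
  refine (h1.mul h2).congr (fun τ => ?_) fun τ => by simp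
  have e : ModFun.scale S.M (aff 1 0 S.M τ) = τ := by
    ext
    rw [ModFun.coe_scale, ModFun.coe_aff]
    have : (S.M : ℂ) ≠ 0 := Nat.cast_ne_zero.mpr (NeZero.ne S.M)
    field_simp
    simp
  have := ModFun.qp_ne_zero (aff 1 0 S.M τ)
  simp only [Function.comp_apply, Pi.mul_apply, Pi.pow_apply, dil, e]
  field_simp

theorem exists_growth (x : S.LF) :
    ∃ n : ℕ, ∀ γ : SL(2, ℤ), IsBoundedAtImInfty ((fun τ => (x : ℍ → ℂ) (γ • τ)) * qp ^ n) := by
  classical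
  have := Fintype.ofFinite S.G
  choose n hn using fun g : S.G => growth_of_hasExp (S.hasExp_expA (g • x))
  refine ⟨Finset.univ.sup n, fun γ => ?_⟩
  obtain ⟨j, hj⟩ := Nat.exists_eq_add_of_le (Finset.le_sup (f := n) (Finset.mem_univ (S.mkG γ⁻¹)))
  have e : ((S.mkG γ⁻¹ • x : S.LF) : ℍ → ℂ) = fun τ => (x : ℍ → ℂ) (γ • τ) := by
    funext τ
    rw [Good.Lev.mkG_smul, Good.Lev.act_apply, inv_inv]
  have h := hn (S.mkG γ⁻¹)
  rw [e] at h
  rw [hj, pow_add, ← mul_assoc]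
  exact h.mul (ModFun.good_qp.pow j).bdd

theorem isBounded_mul_delta {f : ℍ → ℂ} {n : ℕ} (h : IsBoundedAtImInfty (f * qp ^ n)) :
    IsBoundedAtImInfty (f * discriminant ^ n) := by
  have h2 : IsBoundedAtImInfty (fun τ => (ModFun.etaFn τ ^ 24) ^ n) :=
    ((ModFun.tendsto_etaFn.pow 24).pow n).isBigO_one ℝ
  refine (h.mul h2).congr_left fun τ => ?_
  simp only [Pi.mul_apply, Pi.pow_apply, ModFun.discriminant_eq, mul_pow, mul_assoc]

theorem exists_isMFH_mul_delta {x : S.LF} (hx : ∀ g ∈ lvlGrp M Δ S, g • x = x) :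
    ∃ n : ℕ, IsMFH M Δ ((n : ℤ) * 12) ((x : ℍ → ℂ) * discriminant ^ n) := by
  obtain ⟨n, hn⟩ := exists_growth x
  refine ⟨n, x.2.1.mul (isMF_delta.holo.pow _), fun γ hγ => ?_, fun γ => ?_⟩
  · rw [slash_zero_mul_delta, ModFun.slash_zero_eq]
    congr 1
    exact funext (apply_eq_of_fixed hx hγ)
  · rw [slash_zero_mul_delta, ModFun.slash_zero_eq]
    exact isBounded_mul_delta (hn γ)

/-- an invariant element as a quotient of forms, with its series over `A` -/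
theorem exists_quot_of_fixed (hι : S.ι = embC) {x : S.LF}
    (hx : ∀ g ∈ lvlGrp M Δ S, g • x = x) :
    ∃ b : LaurentSeries S.A, qExpand S.A S.M b = S.expA x ∧
      ∀ n : ℕ, IsMFH M Δ ((n : ℤ) * 12) ((x : ℍ → ℂ) * discriminant ^ n) →
        IsQuotH M Δ (Good.toBar S.A b) ((n : ℤ) * 12) ((x : ℍ → ℂ) * discriminant ^ n)
          (discriminant ^ n) := by
  obtain ⟨n₀, hn₀⟩ := exists_growth x
  have hm : Mod1 (x : ℍ → ℂ) := ⟨ModFun.periodic_ofComplex_of fun z hz hz' => by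
      have e : (⟨z + 1, hz'⟩ : ℍ) = ModularGroup.T • (⟨z, hz⟩ : ℍ) := by
        ext
        rw [UpperHalfPlane.modular_T_smul]
        simp [add_comm]
      rw [e]
      exact apply_eq_of_fixed hx T_mem_grpH _, x.2.1, n₀, by simpa using hn₀ 1⟩
  obtain ⟨a, ha⟩ := S.hasExp_expA x
  have hl : lx ⟨dil S.M (x : ℍ → ℂ), a⟩ = qExpand ℂ S.M (lx ⟨(x : ℍ → ℂ), hm⟩) :=
    ModFun.lx_dil ⟨(x : ℍ → ℂ), hm⟩ S.M
  obtain ⟨b, hb, hb'⟩ := Good.exists_qExpand_eq S.ιA S.ιA_injective S.M (ha.symm.trans hl)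
  refine ⟨b, hb, fun n hn => ⟨hn, isMFH_delta_pow n, delta_pow_ne_zero n, ?_⟩⟩
  have hbC : coeffMap embC (Good.toBar S.A b) = lx ⟨(x : ℍ → ℂ), hm⟩ := by
    rw [← hb', ModularCurve.coeffMap_coeffMap]
    exact coeffMap_congr (by rw [Good.Lev.ιA, hι]) b
  have hd := (isMF_delta.pow n).good
  rw [hbC, ← ModFun.lx_good hd, ← ModFun.lx_good hn.good, ← map_mul]
  exact congrArg lx (Subtype.ext rfl)

theorem expQ_eq_qExpand {x : S.LF} {b : LaurentSeries S.A} (hb : qExpand S.A S.M b = S.expA x) :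
    S.expQ x = qExpand Qb S.M (Good.toBar S.A b) := by
  rw [Good.Lev.expQ, RingHom.comp_apply, ← hb, ModularCurve.coeffMap_qExpand]

variable (hι : S.ι = embC) (hΔ : (-1 : (ZMod M)ˣ) ∈ Δ)

include hι hΔ in
theorem exists_mem_FBH_of_fixed {x : S.LF} (hx : ∀ g ∈ lvlGrp M Δ S, g • x = x) :
    ∃ b : LaurentSeries S.A, qExpand S.A S.M b = S.expA x ∧ Good.toBar S.A b ∈ FBH M Δ := by
  obtain ⟨b, hb, hq⟩ := exists_quot_of_fixed hι hx
  obtain ⟨n, hn⟩ := exists_isMFH_mul_delta hx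
  exact ⟨b, hb, mem_FBH_of_isQuotH' hΔ (hq n hn)⟩

theorem jBarSeries_eq : (Good.jBarSeries : LaurentSeries Qb) = jqModC Qb := by
  rw [Good.jBarSeries, coeffEmb, ← jqModC_rat, ModularCurve.coeffMap_jqModC]

include hM hι hΔ in
/-- `ℚ̄(X_H)` is the fixed field of `H` -/
theorem FBH_eq_fixLvl : FBH M Δ = S.fibQ.fixLvl (lvlGrp M Δ S) := by
  haveI := Good.Lev.faithfulSMul_fibQ (S := S)
  have h1 : IntermediateField.adjoin Qb ({Good.jBarSeries} : Set (LaurentSeries Qb)) ≤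
      S.fibQ.fixLvl (lvlGrp M Δ S) := by
    rw [jBarSeries_eq]
    exact S.fibQ.adjoin_j_le_fixLvl _
  have hle : S.fibQ.fixLvl (lvlGrp M Δ S) ≤ FBH M Δ := by
    rintro f ⟨z, hz, e⟩
    obtain ⟨x, y, hy, hfix, hxy⟩ := S.fibQ.exists_invariant_den (lvlGrp M Δ S) z
    have hxfix : ∀ g ∈ lvlGrp M Δ S, g • x = x := fun g hg => by
      have h2 : g • (z * S.fibQ.toK y) = g • S.fibQ.toK x := by rw [hxy]
      rw [smul_mul', hz g hg, Good.Lev.Fib.smul_toK, Good.Lev.Fib.smul_toK, hfix g hg, hxy] at h2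
      exact S.expQ_injective (congrArg Subtype.val h2).symm
    obtain ⟨u, hu, huF⟩ := exists_mem_FBH_of_fixed hι hΔ hxfix
    obtain ⟨v, hv, hvF⟩ := exists_mem_FBH_of_fixed hι hΔ hfix
    have hf : f = Good.toBar S.A u / Good.toBar S.A v := by
      refine qExpand_injective (R := Qb) S.M ?_
      rw [map_div₀, ← expQ_eq_qExpand hu, ← expQ_eq_qExpand hv, ← e]
      exact (eq_div_iff (show S.expQ y ≠ 0 from hy)).mpr (congrArg Subtype.val hxy)
    exact hf ▸ div_mem huF hvF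
  have hjF := h1.trans hle
  have hF : Module.finrank (IntermediateField.adjoin Qb ({Good.jBarSeries} : Set _))
      (IntermediateField.extendScalars hjF) = (grpH M Δ).index := by
    rw [← ndeg_jBarH' hΔ]
    exact (Reduction.ndeg_eq_finrank (FBH M Δ) (jBarH M Δ) hjF).symm
  haveI : FiniteDimensional (IntermediateField.adjoin Qb ({Good.jBarSeries} : Set _))
      (IntermediateField.extendScalars hjF) :=
    FiniteDimensional.of_finrank_pos (by rw [hF]; exact index_grpH_pos')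
  have h2 := IntermediateField.eq_of_le_of_finrank_eq
    (F := IntermediateField.extendScalars h1) (E := IntermediateField.extendScalars hjF)
    (fun f hf => hle hf) (by
      rw [(Good.Lev.invPoly_fibQ.finrank_isSeparable_fixLvl Good.Lev.twists_fibQ T_mem_lvlGrp rfl
        jBarSeries_eq h1).1, hF, index_lvlGrp hM hΔ])
  refine le_antisymm (fun f hf => ?_) hle
  have h3 : f ∈ IntermediateField.extendScalars h1 := h2.symm ▸ hf
  exact h3

end FLTAgent.DS
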