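import Fermat.Agent.DS.MeroC
import Fermat.Agent.JTors.Descent

/-!
Expansions at the cusps of `X_H`: the forms `(F | δ)(M τ)` and the order valuation on `ℂ((q))`.
-/

set_option autoImplicit false
set_option linter.unusedSectionVars false

noncomputable section

open UpperHalfPlane CongruenceSubgroup ModularCurve ModularForm Filter
open scoped MatrixGroups Manifold WithZero

namespace FLTAgent.DS

open Genus (vlog)
open ModFun (qx qp Good dil scale)

/-! ### the order -/

theorem vX_mul [DecidableEq (LaurentSeries ℂ)] (x y : LaurentSeries ℂ) :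
    (if x * y = 0 then (0 : ℤᵐ⁰) else WithZero.exp (-(x * y).order)) =
      (if x = 0 then 0 else WithZero.exp (-x.order)) *
        (if y = 0 then 0 else WithZero.exp (-y.order)) := by
    rcases eq_or_ne x 0 with rfl | hx
    · simp
    rcases eq_or_ne y 0 with rfl | hy
    · simp
    rw [if_neg hx, if_neg hy, if_neg (mul_ne_zero hx hy), HahnSeries.order_mul hx hy, neg_add,
      WithZero.exp_add]

theorem vX_add [DecidableEq (LaurentSeries ℂ)] (x y : LaurentSeries ℂ) :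
    (if x + y = 0 then (0 : ℤᵐ⁰) else WithZero.exp (-(x + y).order)) ≤
      max (if x = 0 then 0 else WithZero.exp (-x.order))
        (if y = 0 then 0 else WithZero.exp (-y.order)) := by
    rcases eq_or_ne x 0 with rfl | hx
    · simp
    rcases eq_or_ne y 0 with rfl | hy
    · simp
    rcases eq_or_ne (x + y) 0 with hxy | hxy
    · rw [if_pos hxy]; exact zero_le
    rw [if_neg hx, if_neg hy, if_neg hxy]
    rcases le_total x.order y.order with h | h
    · refine le_trans ?_ (le_max_left _ _)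
      rw [WithZero.exp_le_exp, neg_le_neg_iff]
      have := HahnSeries.min_order_le_order_add hxy
      rwa [min_eq_left h] at this
    · refine le_trans ?_ (le_max_right _ _)
      rw [WithZero.exp_le_exp, neg_le_neg_iff]
      have := HahnSeries.min_order_le_order_add hxy
      rwa [min_eq_right h] at this

/-- the order as a valuation -/
def vX : Valuation (LaurentSeries ℂ) ℤᵐ⁰ :=
  letI := Classical.decEq (LaurentSeries ℂ)
  { toFun := fun x => if x = 0 then 0 else WithZero.exp (-x.order)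
    map_zero' := if_pos rfl
    map_one' := by rw [if_neg one_ne_zero, HahnSeries.order_one, neg_zero, WithZero.exp_zero]
    map_mul' := vX_mul
    map_add_le_max' := vX_add }

theorem vlog_vX {x : LaurentSeries ℂ} (hx : x ≠ 0) : vlog vX x = x.order := by
  classical
  show -(WithZero.log (if x = 0 then 0 else WithZero.exp (-x.order))) = x.order
  rw [if_neg hx, WithZero.log_exp, neg_neg]

theorem vlog_eq_of_coeff {x : LaurentSeries ℂ} {a : ℤ} (hlow : ∀ i < a, x.coeff i = 0)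
    (hlead : x.coeff a ≠ 0) : vlog vX x = a := by
  have hx : x ≠ 0 := HahnSeries.ne_zero_of_coeff_ne_zero hlead
  rw [vlog_vX hx]
  refine le_antisymm (HahnSeries.order_le_of_coeff_ne_zero hlead) ?_
  by_contra hlt
  rw [not_le] at hlt
  exact hx (HahnSeries.coeff_order_eq_zero.mp (hlow _ hlt))

theorem coeff_vlog_ne_zero {x : LaurentSeries ℂ} (hx : x ≠ 0) : x.coeff (vlog vX x) ≠ 0 := by
  rw [vlog_vX hx]
  exact HahnSeries.coeff_order_eq_zero.not.mpr hx

theorem coeff_of_lt_vlog {x : LaurentSeries ℂ} (hx : x ≠ 0) {i : ℤ} (hi : i < vlog vX x) :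
    x.coeff i = 0 := by
  rw [vlog_vX hx] at hi
  exact HahnSeries.coeff_eq_zero_of_lt_order hi

theorem vlog_qExpand (b : ℕ) [NeZero b] {x : LaurentSeries ℂ} (hx : x ≠ 0) :
    vlog vX (qExpand ℂ b x) = b * vlog vX x := by
  refine vlog_eq_of_coeff (fun i hi => ?_) (by
    rw [qExpand_coeff_mul]; exact coeff_vlog_ne_zero hx)
  by_cases hd : (b : ℤ) ∣ i
  · obtain ⟨j, rfl⟩ := hd
    rw [qExpand_coeff_mul]
    exact coeff_of_lt_vlog hx (lt_of_mul_lt_mul_left hi (Nat.cast_nonneg b))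
  · exact qExpand_coeff_of_not_dvd _ _ hd

theorem vlog_qExpand_dvd (b : ℕ) [NeZero b] (x : LaurentSeries ℂ) :
    (b : ℤ) ∣ vlog vX (qExpand ℂ b x) := by
  rcases eq_or_ne x 0 with rfl | hx
  · rw [map_zero]
    simp [vlog]
  · exact ⟨_, vlog_qExpand b hx⟩

theorem vlog_ofPowerSeries {P : PowerSeries ℂ} {a : ℕ} (hlow : ∀ i < a, P.coeff i = 0)
    (hlead : P.coeff a ≠ 0) : vlog vX (HahnSeries.ofPowerSeries ℤ ℂ P) = a := by
  refine vlog_eq_of_coeff (fun i hi => ?_) (by
    rw [HahnSeries.ofPowerSeries_apply_coeff]; exact hlead)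
  rcases lt_or_ge i 0 with h | h
  · exact ModularCurve.ofPowerSeries_coeff_of_neg _ h
  · lift i to ℕ using h
    rw [HahnSeries.ofPowerSeries_apply_coeff]
    exact hlow i (by exact_mod_cast hi)

/-! ### translations -/

/-- a translate has the same order -/
theorem vlog_qx_vadd {f : ℍ → ℂ} (hf : Good f) (s : ℝ) (hg : Good fun τ => f (s +ᵥ τ)) :
    vlog vX (HahnSeries.ofPowerSeries ℤ ℂ (qx fun τ => f (s +ᵥ τ))) =
      vlog vX (HahnSeries.ofPowerSeries ℤ ℂ (qx f)) := by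
  set ζ := Function.Periodic.qParam 1 (s : ℂ) with hζ
  have e : qx (fun τ => f (s +ᵥ τ)) = PowerSeries.mk fun m => (qx f).coeff m * ζ ^ m := by
    refine ModFun.coeff_unique' hg fun τ => ?_
    convert hf.hasSum (s +ᵥ τ) using 1
    funext m
    have hq : qp (s +ᵥ τ) = ζ * qp τ := by
      simp only [qp, hζ, coe_vadd, Function.Periodic.qParam, ← Complex.exp_add]
      congr 1
      ring
    rw [hq, mul_pow]
    ring
  rcases eq_or_ne (qx f) 0 with h0 | h0
  · rw [e, h0]
    congr 2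
    ext m
    simp
  obtain ⟨a, hlow, hlead⟩ := JTors.exists_lead h0
  rw [vlog_ofPowerSeries hlow hlead, vlog_ofPowerSeries (a := a)]
  · intro i hi
    rw [e, PowerSeries.coeff_mk, hlow i hi, zero_mul]
  · rw [e, PowerSeries.coeff_mk]
    exact mul_ne_zero hlead (pow_ne_zero _ (Complex.exp_ne_zero _))

/-! ### periodic functions -/

theorem apply_T_zpow_smul {φ : ℍ → ℂ} {w m : ℤ} (h : φ ∣[w] (ModularGroup.T ^ m) = φ) (τ : ℍ) :
    φ (ModularGroup.T ^ m • τ) = φ τ := by
  have e := congrFun h τ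
  rw [ModularForm.SL_slash_apply] at e
  have e10 : (ModularGroup.T ^ m : SL(2, ℤ)) 1 0 = 0 := by rw [ModularGroup.coe_T_zpow]; rfl
  have e11 : (ModularGroup.T ^ m : SL(2, ℤ)) 1 1 = 1 := by rw [ModularGroup.coe_T_zpow]; rfl
  generalize hA : (ModularGroup.T ^ m : SL(2, ℤ)) = A at e e10 e11 ⊢
  have hd : denom (A : GL (Fin 2) ℝ) (τ : ℂ) = 1 := by simp [denom, e10, e11]
  rwa [hd, one_zpow, mul_one] at e

theorem good_dil_of_slash {φ : ℍ → ℂ} {w : ℤ} (a : ℕ) [NeZero a] (hh : MDiff φ)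
    (hb : IsBoundedAtImInfty φ) (hp : φ ∣[w] (ModularGroup.T ^ (a : ℤ)) = φ) :
    Good (dil a φ) where
  per := ModFun.periodic_ofComplex_of fun z hz hz' => by
    show φ (scale a ⟨z + 1, hz'⟩) = φ (scale a ⟨z, hz⟩)
    rw [← apply_T_zpow_smul hp (scale a ⟨z, hz⟩), modular_T_zpow_smul]
    congr 1
    apply UpperHalfPlane.ext
    simp [ModFun.coe_scale]
    ring
  holo := ModFun.mdiff_dil hh a
  bdd := hb.comp_tendsto (ModFun.tendsto_aff a 0 1)

theorem dil_dil (a b : ℕ) [NeZero a] [NeZero b] [NeZero (a * b)] (φ : ℍ → ℂ) :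
    dil (a * b) φ = dil b (dil a φ) := by
  funext τ
  show φ (scale (a * b) τ) = φ (scale a (scale b τ))
  congr 1
  apply UpperHalfPlane.ext
  simp [ModFun.coe_scale, mul_assoc]

/-- a function of period `a` has orders divisible by `b` in `q_{ab}` -/
theorem vlog_dil_dvd {φ : ℍ → ℂ} {w : ℤ} (a b N : ℕ) [NeZero a] [NeZero b] [NeZero N]
    (hN : a * b = N) (hh : MDiff φ) (hb : IsBoundedAtImInfty φ)
    (hp : φ ∣[w] (ModularGroup.T ^ (a : ℤ)) = φ) :
    (b : ℤ) ∣ vlog vX (HahnSeries.ofPowerSeries ℤ ℂ (qx (dil N φ))) := by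
  subst hN
  rw [dil_dil, qx_dil_series (good_dil_of_slash a hh hb hp)]
  exact vlog_qExpand_dvd b _

theorem dil_injective (N : ℕ) [NeZero N] : Function.Injective (dil N) := by
  intro f g h
  funext τ
  have e := congrFun h (ModFun.aff 1 0 N τ)
  have hτ : scale N (ModFun.aff 1 0 N τ) = τ := by
    apply UpperHalfPlane.ext
    simp [ModFun.coe_scale, ModFun.coe_aff]
    rw [mul_div_cancel₀ _ (Nat.cast_ne_zero.mpr (NeZero.ne N))]
  rwa [dil, dil, hτ] at e

/-! ### forms at a cusp -/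

variable {M : ℕ} [NeZero M] {Δ : Subgroup (ZMod M)ˣ}

theorem T_pow_level_conj (δ : SL(2, ℤ)) :
    δ * ModularGroup.T ^ (M : ℤ) * δ⁻¹ ∈ grpH M Δ := by
  have h : ModularGroup.T ^ (M : ℤ) ∈ CongruenceSubgroup.Gamma M := by
    simpa using ModularGroup_T_pow_mem_Gamma (M : ℤ) (M : ℤ) dvd_rfl
  have := (Gamma_normal M).conj_mem _ h δ
  rw [Gamma_mem] at this
  refine Gamma1_le_grpH ?_
  rw [Gamma1_mem]
  exact ⟨this.1, this.2.2.2, this.2.2.1⟩

theorem slash_slash_T_zpow {w : ℤ} {F : ℍ → ℂ} {δ : SL(2, ℤ)} {a : ℤ}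
    (h : F ∣[w] (δ * ModularGroup.T ^ a * δ⁻¹) = F) :
    (F ∣[w] δ) ∣[w] (ModularGroup.T ^ a) = F ∣[w] δ := by
  rw [← SlashAction.slash_mul,
    show δ * ModularGroup.T ^ a = (δ * ModularGroup.T ^ a * δ⁻¹) * δ by group,
    SlashAction.slash_mul, h]

theorem IsMFH.good_cusp {w : ℤ} {F : ℍ → ℂ} (hF : IsMFH M Δ w F) (δ : SL(2, ℤ)) :
    Good (dil M (F ∣[w] δ)) :=
  good_dil_of_slash M (ModFun.mdiff_slash hF.holo w δ) (hF.bdd δ)
    (slash_slash_T_zpow (hF.inv _ (T_pow_level_conj δ)))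

variable (M Δ) in
/-- expansions at the cusp `δ ∞` in `exp (2πiτ/M)` -/
def realC (δ : SL(2, ℤ)) : Realisation M Δ (LaurentSeries ℂ) where
  θ w F := HahnSeries.ofPowerSeries ℤ ℂ (qx (dil M (F ∣[w] δ)))
  mul {w w' F G} hF hG := by
    rw [← map_mul, ← Good.qx_mul (hF.good_cusp δ) (hG.good_cusp δ), ModularForm.mul_slash_SL2]
    rfl
  add {w F G} hF hG := by
    rw [← map_add, ← Good.qx_add (hF.good_cusp δ) (hG.good_cusp δ), SlashAction.add_slash]
    rfl
  ne_zero {w F} hF h0 := by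
    intro h
    rw [map_eq_zero_iff _ HahnSeries.ofPowerSeries_injective] at h
    have h1 : dil M (F ∣[w] δ) = dil M 0 :=
      Good.qx_inj (hF.good_cusp δ) Good.zero (h.trans (qExpansion_zero 1).symm)
    have h2 := congrArg (fun f : ℍ → ℂ => f ∣[w] δ⁻¹) (dil_injective M h1)
    simp only [← SlashAction.slash_mul, mul_inv_cancel, SlashAction.slash_one,
      SlashAction.zero_slash] at h2
    exact h0 h2
  const c := by
    have e : dil M ((c • (1 : ℍ → ℂ)) ∣[(0 : ℤ)] δ) = c • (1 : ℍ → ℂ) := by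
      rw [ModularForm.SL_smul_slash, ModularForm.is_invariant_one]
      rfl
    rw [e, Good.qx_smul c Good.one, show qx (1 : ℍ → ℂ) = 1 from qExpansion_one 1,
      PowerSeries.smul_eq_C_mul, mul_one, HahnSeries.ofPowerSeries_C,
      algebraMap_laurentSeries_eq_single]
    rfl

theorem realC_θ (δ : SL(2, ℤ)) (w : ℤ) (F : ℍ → ℂ) :
    (realC M Δ δ).θ w F = HahnSeries.ofPowerSeries ℤ ℂ (qx (dil M (F ∣[w] δ))) := rfl

theorem vlog_realC_mul_T {w : ℤ} {F : ℍ → ℂ} (hF : IsMFH M Δ w F) (δ : SL(2, ℤ)) (m : ℤ) :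
    vlog vX ((realC M Δ (δ * ModularGroup.T ^ m)).θ w F) = vlog vX ((realC M Δ δ).θ w F) := by
  have hMR : (M : ℂ) ≠ 0 := Nat.cast_ne_zero.mpr (NeZero.ne M)
  have e : dil M (F ∣[w] (δ * ModularGroup.T ^ m)) =
      fun τ => dil M (F ∣[w] δ) (((m : ℝ) / M) +ᵥ τ) := by
    funext τ
    show (F ∣[w] (δ * ModularGroup.T ^ m)) (scale M τ) = (F ∣[w] δ) (scale M _)
    rw [SlashAction.slash_mul, ModularForm.SL_slash_apply]
    have e10 : (ModularGroup.T ^ m : SL(2, ℤ)) 1 0 = 0 := by rw [ModularGroup.coe_T_zpow]; rfl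
    have e11 : (ModularGroup.T ^ m : SL(2, ℤ)) 1 1 = 1 := by rw [ModularGroup.coe_T_zpow]; rfl
    rw [modular_T_zpow_smul]
    generalize hA : (ModularGroup.T ^ m : SL(2, ℤ)) = A at e10 e11 ⊢
    have hd : denom (A : GL (Fin 2) ℝ) ((scale M τ : ℍ) : ℂ) = 1 := by simp [denom, e10, e11]
    rw [hd, one_zpow, mul_one]
    refine congrArg _ (UpperHalfPlane.ext ?_)
    simp only [coe_vadd, ModFun.coe_scale, Complex.ofReal_div, Complex.ofReal_intCast,
      Complex.ofReal_natCast]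
    field_simp
  rw [realC_θ, realC_θ, e]
  exact vlog_qx_vadd (hF.good_cusp δ) _ (e ▸ hF.good_cusp _)

end FLTAgent.DS
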