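import Fermat.Agent.DS.DensityCyc
import Mathlib.NumberTheory.PrimesCongruentOne
import Mathlib.NumberTheory.Cyclotomic.Basic
import Mathlib.RingTheory.ZMod.UnitsCyclic

/-!
**Chebotarev density, symmetrised under inversion**: for a class function `φ` on a finite
Galois group with `φ g⁻¹ = φ g`, the primes equidistribute.
-/

set_option autoImplicit false

noncomputable section

namespace FLTAgent.DS

open NumberField Filter Topology Asymptotics Polynomial
open scoped Classical IntermediateField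
open FLTAgent.Chebotarev (QBar GalQBar frobRes frobAt countSum)

/-! ### Counting -/

lemma sum_comp_surjective {G' G : Type*} [Group G'] [Fintype G'] [Group G] [Fintype G]
    (f : G' →* G) (hf : Function.Surjective f) (φ : G → ℝ) :
    (Fintype.card G : ℝ) * ∑ g, φ (f g) = (Fintype.card G' : ℝ) * ∑ x, φ x := by
  have h1 : ∀ x : G, ∑ g, φ (f g) = ∑ g, φ (f g * x) := fun x => by
    obtain ⟨y, rfl⟩ := hf x
    simp only [← map_mul]
    exact (Equiv.sum_comp (Equiv.mulRight y) fun g => φ (f g)).symm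
  calc (Fintype.card G : ℝ) * ∑ g, φ (f g) = ∑ x : G, ∑ g, φ (f g * x) := by
        rw [← Finset.sum_congr rfl fun x _ => h1 x, Finset.sum_const, nsmul_eq_mul,
          Finset.card_univ]
    _ = ∑ g : G', ∑ x : G, φ (f g * x) := Finset.sum_comm
    _ = _ := by
        have e : ∀ g : G', ∑ x, φ (f g * x) = ∑ x, φ x := fun g =>
          Equiv.sum_comp (Equiv.mulLeft (f g)) φ
        rw [Finset.sum_congr rfl fun g _ => e g, Finset.sum_const, nsmul_eq_mul, Finset.card_univ]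

lemma exists_pow_of_not_dvd_orderOf {A : Type*} [CommGroup A] [Fintype A] {n K : ℕ} (hn : n ≠ 0)
    (hK : 1 ≤ K) (hdvd : n ^ K ∣ Fintype.card A) (c : A) (hc : ¬ n ∣ orderOf c) :
    ∃ l ∈ n.primeFactors, c ^ (Fintype.card A / l ^ (K - 1)) = 1 := by
  rw [Nat.dvd_iff_prime_pow_dvd_dvd] at hc
  push Not at hc
  obtain ⟨l, a, hl, han, had⟩ := hc
  have ha : a ≠ 0 := by rintro rfl; simp at had
  refine ⟨l, Nat.mem_primeFactors.mpr ⟨hl, dvd_trans (dvd_pow_self l ha) han, hn⟩, ?_⟩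
  set N := Fintype.card A
  obtain ⟨b, d', hd', hd⟩ := Nat.exists_eq_pow_mul_and_not_dvd (orderOf_pos c).ne' l hl.ne_one
  have hb : b < a := by
    by_contra hba
    exact had (hd ▸ dvd_mul_of_dvd_left (pow_dvd_pow l (not_lt.mp hba)) d')
  have hlN : l ^ (a * K) ∣ N := by
    rw [pow_mul]
    exact dvd_trans (pow_dvd_pow_of_dvd han K) hdvd
  have hd'N : d' ∣ N := dvd_trans ⟨l ^ b, by rw [hd, mul_comm]⟩ (orderOf_dvd_card (x := c))
  have hcop : Nat.Coprime (l ^ (a * K)) d' :=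
    Nat.Coprime.pow_left _ (hl.coprime_iff_not_dvd.mpr hd')
  have hexp : K - 1 + b ≤ a * K := by
    have h : (K - 1) * 1 ≤ (K - 1) * a := Nat.mul_le_mul_left _ (Nat.pos_of_ne_zero ha)
    have h' : a * K = (K - 1) * a + a := by
      obtain ⟨K', rfl⟩ := Nat.exists_eq_add_of_le hK
      rw [Nat.add_sub_cancel_left]; ring
    omega
  have hbig : l ^ (K - 1) * orderOf c ∣ N := by
    rw [hd, ← mul_assoc, ← pow_add]
    exact dvd_trans (mul_dvd_mul_right (pow_dvd_pow l hexp) d')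
      (hcop.mul_dvd_of_dvd_of_dvd hlN hd'N)
  exact orderOf_dvd_iff_pow_eq_one.mp (Nat.dvd_div_of_mul_dvd hbig)

lemma card_not_dvd_orderOf_le {A : Type*} [CommGroup A] [Fintype A] [IsCyclic A] {n K : ℕ}
    (hn : n ≠ 0) (hK : 1 ≤ K) (hdvd : n ^ K ∣ Fintype.card A) :
    (((Finset.univ.filter fun c : A => ¬ n ∣ orderOf c).card : ℕ) : ℝ) ≤
      (n : ℝ) * ((Fintype.card A : ℝ) / 2 ^ (K - 1)) := by
  have hsub : (Finset.univ.filter fun c : A => ¬ n ∣ orderOf c) ⊆
      n.primeFactors.biUnion fun l =>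
        Finset.univ.filter fun c : A => c ^ (Fintype.card A / l ^ (K - 1)) = 1 := by
    intro c hc
    obtain ⟨l, hl, h⟩ := exists_pow_of_not_dvd_orderOf hn hK hdvd c (Finset.mem_filter.mp hc).2
    exact Finset.mem_biUnion.mpr ⟨l, hl, Finset.mem_filter.mpr ⟨Finset.mem_univ _, h⟩⟩
  refine (Nat.cast_le.mpr ((Finset.card_le_card hsub).trans Finset.card_biUnion_le)).trans ?_
  push_cast
  refine (Finset.sum_le_card_nsmul _ _ ((Fintype.card A : ℝ) / 2 ^ (K - 1)) fun l hl => ?_).trans ?_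
  · have hl' := Nat.prime_of_mem_primeFactors hl
    have hdl : l ^ (K - 1) ∣ Fintype.card A :=
      dvd_trans (dvd_trans (pow_dvd_pow_of_dvd (Nat.dvd_of_mem_primeFactors hl) _)
        (pow_dvd_pow n (Nat.sub_le K 1))) hdvd
    have hpos : 0 < Fintype.card A / l ^ (K - 1) :=
      Nat.div_pos (Nat.le_of_dvd Fintype.card_pos hdl) (pow_pos hl'.pos _)
    refine (Nat.cast_le.mpr (IsCyclic.card_pow_eq_one_le (α := A) hpos)).trans ?_
    rw [Nat.cast_div hdl (by exact_mod_cast (pow_pos hl'.pos (K - 1)).ne'), Nat.cast_pow]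
    exact div_le_div_of_nonneg_left (Nat.cast_nonneg _) (by positivity)
      (pow_le_pow_left₀ zero_le_two (by exact_mod_cast hl'.two_le) _)
  · rw [nsmul_eq_mul]
    refine mul_le_mul_of_nonneg_right (Nat.cast_le.mpr ?_) (by positivity)
    exact (Finset.card_le_card (fun l hl => Finset.mem_Icc.mpr
      ⟨(Nat.prime_of_mem_primeFactors hl).one_le, Nat.le_of_mem_primeFactors hl⟩)).trans
      (by simp [Nat.card_Icc])

/-- an auxiliary prime with almost all units of order divisible by `n` -/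
lemma exists_aux_prime (n : ℕ) (hn : n ≠ 0) {ε : ℝ} (hε : 0 < ε) :
    ∃ q : ℕ, ∃ _ : NeZero q, q.Prime ∧
      ((Finset.univ.filter fun c : (ZMod q)ˣ => ¬ n ∣ orderOf c).card : ℝ) ≤
        ε * Fintype.card (ZMod q)ˣ := by
  obtain ⟨j, hj⟩ := pow_unbounded_of_one_lt ((n : ℝ) / ε) (show (1 : ℝ) < 2 by norm_num)
  obtain ⟨q, hq, -, hmod⟩ :=
    Nat.exists_prime_gt_modEq_one (k := n ^ (j + 1)) 0 (pow_ne_zero _ hn)
  have : Fact q.Prime := ⟨hq⟩
  refine ⟨q, inferInstance, hq, ?_⟩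
  have hdvd : n ^ (j + 1) ∣ Fintype.card (ZMod q)ˣ := by
    rw [ZMod.card_units]
    exact (Nat.modEq_iff_dvd' hq.one_le).mp hmod.symm
  refine (card_not_dvd_orderOf_le hn (Nat.le_add_left 1 j) hdvd).trans ?_
  rw [Nat.add_sub_cancel, mul_div_assoc', div_le_iff₀ (by positivity), mul_comm ε, mul_assoc,
    mul_comm (n : ℝ)]
  refine mul_le_mul_of_nonneg_left ?_ (Nat.cast_nonneg _)
  rw [div_lt_iff₀ hε] at hj
  linarith

/-! ### Asymptotics -/

lemma tendsto_neg_log_sub_one :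
    Tendsto (fun s : ℝ => -Real.log (s - 1)) (𝓝[>] (1 : ℝ)) atTop := by
  refine tendsto_neg_atBot_atTop.comp (Real.tendsto_log_nhdsGT_zero.comp ?_)
  refine tendsto_nhdsWithin_iff.mpr ⟨?_, ?_⟩
  · simpa using ((continuous_sub_right (1 : ℝ)).tendsto 1).mono_left nhdsWithin_le_nhds
  · filter_upwards [self_mem_nhdsWithin] with s (hs : 1 < s) using sub_pos.mpr hs

lemma summable_bounded_primeSum {c : Nat.Primes → ℝ} {B : ℝ} (hB : ∀ p, |c p| ≤ B) {s : ℝ}
    (hs : 1 < s) : Summable fun p : Nat.Primes => c p * (p : ℝ) ^ (-s) := by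
  refine Summable.of_norm_bounded
    (((Real.summable_nat_rpow.mpr (by linarith : -s < -1)).comp_injective
      Nat.Primes.coe_nat_injective).mul_left B) fun p => ?_
  rw [norm_mul, Real.norm_eq_abs, Real.norm_eq_abs,
    abs_of_nonneg (Real.rpow_nonneg (Nat.cast_nonneg _) _)]
  exact mul_le_mul_of_nonneg_right (hB p) (Real.rpow_nonneg (Nat.cast_nonneg _) _)

variable (L : IntermediateField ℚ QBar) [FiniteDimensional ℚ L] [Normal ℚ L]

lemma abs_le_sum (φ : (L ≃ₐ[ℚ] L) → ℝ) (g : L ≃ₐ[ℚ] L) : |φ g| ≤ ∑ x, |φ x| :=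
  Finset.single_le_sum (fun x _ => abs_nonneg (φ x)) (Finset.mem_univ g)

/-- restriction `Gal(M) → Gal(L)` for `L ≤ M` -/
lemma exists_restrictHom (M : IntermediateField ℚ QBar) [Normal ℚ M] (hLM : L ≤ M) :
    ∃ res : (M ≃ₐ[ℚ] M) →* (L ≃ₐ[ℚ] L), Function.Surjective res ∧
      ∀ σ : GalQBar, res (AlgEquiv.restrictNormalHom M σ) = AlgEquiv.restrictNormalHom L σ := by
  have : IsGalois ℚ QBar := FLTAgent.Alg.qb_isGalois
  set rM : GalQBar →* (M ≃ₐ[ℚ] M) := AlgEquiv.restrictNormalHom M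
  set rL : GalQBar →* (L ≃ₐ[ℚ] L) := AlgEquiv.restrictNormalHom L
  have hsurj : Function.Surjective rM :=
    AlgEquiv.restrictNormalHom_surjective (F := ℚ) (K₁ := M) QBar
  have hsurjL : Function.Surjective rL :=
    AlgEquiv.restrictNormalHom_surjective (F := ℚ) (K₁ := L) QBar
  have hker : rM.ker ≤ rL.ker := by
    intro σ hσ
    rw [MonoidHom.mem_ker] at hσ ⊢
    refine AlgEquiv.ext fun x => Subtype.ext ?_
    have h1 : ((rM σ ⟨(x : QBar), hLM x.2⟩ : M) : QBar) = σ (x : QBar) :=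
      AlgEquiv.restrictNormal_commutes σ M ⟨(x : QBar), hLM x.2⟩
    have h2 : ((rL σ x : L) : QBar) = σ (x : QBar) := AlgEquiv.restrictNormal_commutes σ L x
    rw [h2, ← h1, hσ]
    rfl
  obtain ⟨res, hres⟩ : ∃ res : (M ≃ₐ[ℚ] M) →* (L ≃ₐ[ℚ] L), res.comp rM = rL :=
    ⟨rM.liftOfSurjective hsurj ⟨rL, hker⟩, MonoidHom.liftOfRightInverse_comp rM _ _ _⟩
  have hres' : ∀ σ, res (rM σ) = rL σ := fun σ => DFunLike.congr_fun hres σ
  refine ⟨res, fun g => ?_, hres'⟩
  obtain ⟨σ, rfl⟩ := hsurjL g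
  exact ⟨rM σ, hres' σ⟩

/-- lower bound for nonnegative symmetric class functions -/
lemma eventually_mean_sub_le (φ : (L ≃ₐ[ℚ] L) → ℝ) (hconj : ∀ x g, φ (x⁻¹ * g * x) = φ g)
    (hinv : ∀ g, φ g⁻¹ = φ g) (hpos : ∀ g, 0 ≤ φ g) {ε : ℝ} (hε : 0 < ε) :
    ∀ᶠ s in 𝓝[>] (1 : ℝ), ((∑ g, φ g) / Nat.card (L ≃ₐ[ℚ] L) - ε) * -Real.log (s - 1) ≤
      ∑' p : Nat.Primes, φ (frobRes L p) * (p : ℝ) ^ (-s) := by
  set n := Fintype.card (L ≃ₐ[ℚ] L) with hn
  have hn0 : n ≠ 0 := Fintype.card_ne_zero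
  set B : ℝ := ∑ g, |φ g|
  have hB : 0 ≤ B := Finset.sum_nonneg fun g _ => abs_nonneg _
  have hε' : 0 < ε / (2 * (B + 1)) := by positivity
  obtain ⟨q, _, hq, hbadq⟩ := exists_aux_prime n hn0 hε'
  obtain ⟨z, hz⟩ := IsAlgClosed.exists_root (cyclotomic q QBar)
    (degree_cyclotomic_pos q QBar (NeZero.pos q)).ne'
  have hqQ : NeZero (q : QBar) := ⟨Nat.cast_ne_zero.mpr (NeZero.ne q)⟩
  have hz' : IsPrimitiveRoot z q := isRoot_cyclotomic_iff.mp hz
  have : Algebra.IsAlgebraic ℚ QBar := FLTAgent.Alg.qb_isAlgebraic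
  have : Algebra.IsIntegral ℚ QBar := Algebra.IsAlgebraic.isIntegral
  let F : IntermediateField ℚ QBar := ℚ⟮z⟯
  have : IsCyclotomicExtension {q} ℚ F :=
    hz'.intermediateField_adjoin_isCyclotomicExtension (K := ℚ)
  have hFn : Normal ℚ F := (IsCyclotomicExtension.isGalois {q} ℚ F).to_normal
  have : FiniteDimensional ℚ F := IsCyclotomicExtension.finiteDimensional {q} ℚ F
  let M : IntermediateField ℚ QBar := L ⊔ F
  have : FiniteDimensional ℚ M := IntermediateField.finiteDimensional_sup L F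
  have : Normal ℚ M := @IntermediateField.normal_sup _ _ _ _ _ L F ‹Normal ℚ L› hFn
  have hzM : z ∈ M := (le_sup_right : F ≤ M) (IntermediateField.mem_adjoin_simple_self ℚ z)
  set ζ : M := ⟨z, hzM⟩
  have hζ : IsPrimitiveRoot ζ q :=
    IsPrimitiveRoot.of_map_of_injective (f := algebraMap M QBar) hz' (algebraMap M QBar).injective
  obtain ⟨res, hsurj, hres⟩ := exists_restrictHom L M le_sup_left
  set cyc := hζ.autToPow ℚ with hcyc
  have hcycsurj : Function.Surjective cyc := by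
    intro u
    have hprim : IsPrimitiveRoot (ζ ^ (u : ZMod q).val) q :=
      hζ.pow_of_coprime _ (ZMod.val_coe_unit_coprime u)
    have hint : IsIntegral ℤ ζ := hζ.isIntegral (NeZero.pos q)
    obtain ⟨g, hg⟩ := Chebotarev.exists_galois_mapsTo M hint (a := ζ ^ (u : ZMod q).val) (by
      rw [show minpoly ℤ ζ = cyclotomic q ℤ from (cyclotomic_eq_minpoly hζ (NeZero.pos q)).symm,
        aeval_def, ← eval_map, map_cyclotomic]
      exact hprim.isRoot_cyclotomic (NeZero.pos q))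
    refine ⟨g, Units.ext (ZMod.val_injective q ?_)⟩
    exact hζ.pow_inj (ZMod.val_lt _) (ZMod.val_lt _) ((hζ.autToPow_spec ℚ g).trans hg)
  -- fixing L and ζ is trivial
  have hgen : ∀ y : M ≃ₐ[ℚ] M, res y = 1 → cyc y = 1 → y = 1 := by
    intro y hy1 hy2
    have : IsGalois ℚ QBar := FLTAgent.Alg.qb_isGalois
    obtain ⟨σ, rfl⟩ := AlgEquiv.restrictNormalHom_surjective (F := ℚ) (K₁ := M) QBar y
    rw [hres] at hy1
    have hfix : M ≤ IntermediateField.fixedField (Subgroup.zpowers σ) := by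
      have hstab : ∀ x : QBar, σ x = x → x ∈ IntermediateField.fixedField (Subgroup.zpowers σ) := by
        intro x hx
        rintro ⟨g, hg⟩
        obtain ⟨k, rfl⟩ := hg
        change (σ ^ k) x = x
        have : σ ∈ MulAction.stabilizer GalQBar x := hx
        exact Subgroup.zpow_mem _ this k
      refine sup_le (fun x hx => hstab x ?_)
        (IntermediateField.adjoin_simple_le_iff.mpr (hstab z ?_))
      · have h1 : ((AlgEquiv.restrictNormalHom L σ ⟨x, hx⟩ : L) : QBar) = σ x :=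
          AlgEquiv.restrictNormal_commutes σ L ⟨x, hx⟩
        rw [← h1, hy1]
        rfl
      · have h1 : ((AlgEquiv.restrictNormalHom M σ ζ : M) : QBar) = σ z :=
          AlgEquiv.restrictNormal_commutes σ M ζ
        rw [← h1, ← hζ.autToPow_spec ℚ, ← hcyc, hy2, Units.val_one, ZMod.val_one_eq_one_mod,
          Nat.mod_eq_of_lt hq.one_lt, pow_one]
    refine AlgEquiv.ext fun x => Subtype.ext ?_
    have h1 : ((AlgEquiv.restrictNormalHom M σ x : M) : QBar) = σ (x : QBar) :=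
      AlgEquiv.restrictNormal_commutes σ M x
    rw [h1]
    exact hfix x.2 ⟨σ, Subgroup.mem_zpowers σ⟩
  -- the truncated function
  set good : (M ≃ₐ[ℚ] M) → Prop := fun g => n ∣ orderOf (cyc g)
  have hsep : ∀ g, good g → CycSeparated hζ g := by
    intro g hg k hk
    refine hgen _ ?_ (by rw [map_zpow]; exact hk)
    rw [map_zpow]
    exact orderOf_dvd_iff_zpow_eq_one.mp ((Int.natCast_dvd_natCast.mpr
      (dvd_trans (orderOf_dvd_card (x := res g)) hg)).trans (orderOf_dvd_iff_zpow_eq_one.mpr hk))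
  have hcycconj : ∀ x g : M ≃ₐ[ℚ] M, cyc (x⁻¹ * g * x) = cyc g := fun x g => by
    rw [map_mul, map_mul, map_inv, mul_comm _ (cyc g), mul_assoc, inv_mul_cancel, mul_one]
  let Φ : (M ≃ₐ[ℚ] M) → ℝ := fun g => if good g then φ (res g) else 0
  have hΦ := tsum_separated_isBigO hζ Φ
    (fun x g => by
      simp only [Φ, good]
      rw [hcycconj, map_mul, map_mul, map_inv, hconj])
    (fun g => by simp only [Φ, good, map_inv, orderOf_inv, hinv])
    (fun g hg => hsep g (by by_contra h; exact hg (if_neg h)))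
  set N : ℝ := (Fintype.card (M ≃ₐ[ℚ] M) : ℝ) with hN
  have hN0 : 0 < N := Nat.cast_pos.mpr Fintype.card_pos
  have hmean : (∑ g, φ g) / Nat.card (L ≃ₐ[ℚ] L) - ε / 2 ≤
      (∑ g, Φ g) / Nat.card (M ≃ₐ[ℚ] M) := by
    rw [Nat.card_eq_fintype_card, Nat.card_eq_fintype_card, ← hn, ← hN]
    have h1 : ∑ g, φ g / (n : ℝ) = (∑ g, φ (res g)) / N := by
      rw [← Finset.sum_div, div_eq_div_iff (Nat.cast_ne_zero.mpr hn0) hN0.ne', hN,
        mul_comm _ (n : ℝ), sum_comp_surjective res hsurj φ, mul_comm]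
    rw [Finset.sum_div, h1]
    set ind : (ZMod q)ˣ → ℝ := fun c => if n ∣ orderOf c then 0 else 1
    have h2 : ∑ g, φ (res g) ≤ ∑ g, Φ g + B * ∑ g, ind (cyc g) := by
      rw [Finset.mul_sum, ← Finset.sum_add_distrib]
      refine Finset.sum_le_sum fun g _ => ?_
      simp only [Φ, ind, good]
      split_ifs
      · linarith
      · linarith [le_abs_self (φ (res g)), abs_le_sum L φ (res g)]
    have h3 : ∑ g, ind (cyc g) ≤ N * (ε / (2 * (B + 1))) := by
      have h4 := sum_comp_surjective cyc hcycsurj ind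
      have h5 : ∑ c, ind c ≤ ε / (2 * (B + 1)) * Fintype.card (ZMod q)ˣ := by
        refine le_trans (le_of_eq ?_) hbadq
        simp only [ind]
        rw [Finset.card_filter, Nat.cast_sum]
        refine Finset.sum_congr rfl fun c _ => ?_
        split_ifs <;> simp
      have hu : (0 : ℝ) < Fintype.card (ZMod q)ˣ := Nat.cast_pos.mpr Fintype.card_pos
      refine le_of_mul_le_mul_left ?_ hu
      rw [h4, ← hN]
      calc N * ∑ c, ind c ≤ N * (ε / (2 * (B + 1)) * Fintype.card (ZMod q)ˣ) :=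
            mul_le_mul_of_nonneg_left h5 hN0.le
        _ = _ := by ring
    have h6 : B * (ε / (2 * (B + 1))) ≤ ε / 2 := by
      rw [← mul_div_assoc, div_le_div_iff₀ (by positivity) two_pos]
      nlinarith
    rw [sub_le_iff_le_add, div_le_iff₀ hN0, add_mul, div_mul_cancel₀ _ hN0.ne']
    nlinarith [mul_le_mul_of_nonneg_left h3 hB]
  obtain ⟨C, hC⟩ := hΦ.bound
  filter_upwards [hC, self_mem_nhdsWithin,
    tendsto_neg_log_sub_one.eventually_ge_atTop (2 * |C| / ε)] with s hs (hs1 : 1 < s) hl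
  rw [Real.norm_eq_abs, norm_one, mul_one] at hs
  have hl0 : 0 ≤ -Real.log (s - 1) := le_trans (by positivity) hl
  have hl' : |C| ≤ ε / 2 * -Real.log (s - 1) := by
    rw [div_le_iff₀ hε] at hl
    linarith
  have hle : ∑' p : Nat.Primes, Φ (frobRes M p) * (p : ℝ) ^ (-s) ≤
      ∑' p : Nat.Primes, φ (frobRes L p) * (p : ℝ) ^ (-s) := by
    refine Summable.tsum_le_tsum (fun p => ?_)
      (summable_bounded_primeSum (B := B) (fun p => ?_) hs1)
      (summable_bounded_primeSum (B := B) (fun p => abs_le_sum L φ _) hs1)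
    · refine mul_le_mul_of_nonneg_right ?_ (Real.rpow_nonneg (Nat.cast_nonneg _) _)
      have hr : res (frobRes M p) = frobRes L p := hres (frobAt p)
      simp only [Φ, hr]
      split_ifs
      · exact le_rfl
      · exact hpos _
    · simp only [Φ]
      split_ifs
      · exact abs_le_sum L φ _
      · simpa using hB
  nlinarith [(abs_le.mp hs).1, le_abs_self C,
    mul_le_mul_of_nonneg_right hmean hl0]

/-- the total sum over the primes -/
lemma totalSum_isBigO (L : IntermediateField ℚ QBar) [FiniteDimensional ℚ L] [Normal ℚ L] :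
    (fun s : ℝ => (∑' p : Nat.Primes, (p : ℝ) ^ (-s)) + Real.log (s - 1)) =O[𝓝[>] (1 : ℝ)]
      fun _ => (1 : ℝ) := by
  set N : ℝ := (Nat.card (L ≃ₐ[ℚ] L) : ℝ)
  have hN : N ≠ 0 := Nat.cast_ne_zero.mpr Nat.card_pos.ne'
  refine ((Chebotarev.countSum_conjCount L ⊤).const_mul_left N⁻¹).congr_left fun s => ?_
  have h1 : ∀ p : Nat.Primes,
      (Chebotarev.conjCount (frobRes L p) (⊤ : Subgroup (L ≃ₐ[ℚ] L)) : ℝ) = N := by
    intro p
    simp only [Chebotarev.conjCount, N, Subgroup.mem_top]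
    rw [Nat.card_congr (Equiv.subtypeUnivEquiv fun _ => trivial)]
  simp only [countSum, h1, tsum_mul_left, Subgroup.card_top]
  rw [mul_add, ← mul_assoc, inv_mul_cancel₀ hN, one_mul, ← mul_assoc, inv_mul_cancel₀ hN, one_mul]

/-- **Chebotarev density theorem, symmetrised under inversion.** -/
theorem tendsto_symm_density (φ : (L ≃ₐ[ℚ] L) → ℝ) (hconj : ∀ x g, φ (x⁻¹ * g * x) = φ g)
    (hinv : ∀ g, φ g⁻¹ = φ g) :
    Tendsto (fun s : ℝ => (∑' p : Nat.Primes, φ (frobRes L p) * (p : ℝ) ^ (-s)) /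
      -Real.log (s - 1)) (𝓝[>] (1 : ℝ)) (𝓝 ((∑ g, φ g) / Nat.card (L ≃ₐ[ℚ] L))) := by
  set m : ℝ := (∑ g, φ g) / Nat.card (L ≃ₐ[ℚ] L) with hm
  set B : ℝ := ∑ g, |φ g| with hBdef
  have hB : 0 ≤ B := Finset.sum_nonneg fun g _ => abs_nonneg _
  have hN : (Nat.card (L ≃ₐ[ℚ] L) : ℝ) ≠ 0 := Nat.cast_ne_zero.mpr Nat.card_pos.ne'
  rw [Metric.tendsto_nhds]
  intro η hη
  have hε : 0 < η / 4 := by linarith
  obtain ⟨D, hD⟩ := (totalSum_isBigO L).bound
  have h1 := eventually_mean_sub_le L (fun g => φ g + B) (fun x g => by simp [hconj])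
    (fun g => by simp [hinv]) (fun g => by linarith [neg_abs_le (φ g), abs_le_sum L φ g]) hε
  have h2 := eventually_mean_sub_le L (fun g => B - φ g) (fun x g => by simp [hconj])
    (fun g => by simp [hinv]) (fun g => by linarith [le_abs_self (φ g), abs_le_sum L φ g]) hε
  have hm1 : (∑ g, (φ g + B)) / (Nat.card (L ≃ₐ[ℚ] L) : ℝ) = m + B := by
    rw [Finset.sum_add_distrib, Finset.sum_const, nsmul_eq_mul, Finset.card_univ,
      ← Nat.card_eq_fintype_card, add_div, mul_div_cancel_left₀ _ hN]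
  have hm2 : (∑ g, (B - φ g)) / (Nat.card (L ≃ₐ[ℚ] L) : ℝ) = B - m := by
    rw [Finset.sum_sub_distrib, Finset.sum_const, nsmul_eq_mul, Finset.card_univ,
      ← Nat.card_eq_fintype_card, sub_div, mul_div_cancel_left₀ _ hN]
  filter_upwards [h1, h2, hD, self_mem_nhdsWithin,
    tendsto_neg_log_sub_one.eventually_gt_atTop (4 * B * |D| / η)] with s e1 e2 e3 (hs : 1 < s) hl
  rw [Real.norm_eq_abs, norm_one, mul_one] at e3
  rw [hm1] at e1
  rw [hm2] at e2
  set S := ∑' p : Nat.Primes, φ (frobRes L p) * (p : ℝ) ^ (-s)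
  set T := ∑' p : Nat.Primes, (p : ℝ) ^ (-s)
  have hsT : Summable fun p : Nat.Primes => (p : ℝ) ^ (-s) :=
    (Real.summable_nat_rpow.mpr (by linarith : -s < -1)).comp_injective Nat.Primes.coe_nat_injective
  have hsS := summable_bounded_primeSum (c := fun p => φ (frobRes L p)) (B := B)
    (fun p => abs_le_sum L φ _) hs
  have ea : ∑' p : Nat.Primes, (φ (frobRes L p) + B) * (p : ℝ) ^ (-s) = S + B * T := by
    simp only [add_mul]
    rw [hsS.tsum_add (hsT.mul_left B), tsum_mul_left]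
  have eb : ∑' p : Nat.Primes, (B - φ (frobRes L p)) * (p : ℝ) ^ (-s) = B * T - S := by
    simp only [sub_mul]
    rw [(hsT.mul_left B).tsum_sub hsS, tsum_mul_left]
  rw [ea] at e1
  rw [eb] at e2
  obtain ⟨hD1, hD2⟩ := abs_le.mp e3
  set l := -Real.log (s - 1) with hldef
  have hl0 : 0 < l := lt_of_le_of_lt (by positivity) hl
  rw [div_lt_iff₀ hη] at hl
  have hBT : B * T ≤ B * (l + |D|) :=
    mul_le_mul_of_nonneg_left (by linarith [le_abs_self D]) hB
  rw [Real.dist_eq, div_sub' hl0.ne', abs_div, abs_of_pos hl0, div_lt_iff₀ hl0, abs_lt]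
  constructor <;> nlinarith

end FLTAgent.DS
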