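import Fermat.Agent.DS.DensityPrimes
import Fermat.Agent.Chebotarev.Density
import Mathlib.NumberTheory.DirichletCharacter.Orthogonality
import Mathlib.RingTheory.RootsOfUnity.PrimitiveRoots
import Mathlib.RingTheory.Polynomial.Cyclotomic.Roots

/-!
Distribution of Frobenius classes on elements separated by a cyclotomic character.
-/

set_option autoImplicit false

noncomputable section

namespace FLTAgent.DS

open NumberField Filter Topology Asymptotics Polynomial
open scoped Classical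
open FLTAgent.Chebotarev (QBar frobRes frobAt placeAt conjCount genCount countSum rootCount rootSum)

/-! ### Prime sums with bounded coefficients -/

/-- `∑ c p * p ^ (-s)` -/
def primeWeightSum (c : Nat.Primes → ℂ) (s : ℝ) : ℂ :=
  ∑' p : Nat.Primes, c p * (((p : ℝ) ^ (-s) : ℝ) : ℂ)

lemma summable_primeWeight {c : Nat.Primes → ℂ} {B : ℝ} (hB : ∀ p, ‖c p‖ ≤ B) {s : ℝ}
    (hs : 1 < s) : Summable fun p : Nat.Primes => c p * (((p : ℝ) ^ (-s) : ℝ) : ℂ) := by
  refine Summable.of_norm_bounded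
    (((Real.summable_nat_rpow.mpr (by linarith : -s < -1)).comp_injective
      Nat.Primes.coe_nat_injective).mul_left B) fun p => ?_
  rw [norm_mul, Complex.norm_real, Real.norm_eq_abs,
    abs_of_nonneg (Real.rpow_nonneg (Nat.cast_nonneg _) _)]
  exact mul_le_mul_of_nonneg_right (hB p) (Real.rpow_nonneg (Nat.cast_nonneg _) _)

/-- coefficients agreeing outside a finite set give sums with bounded difference -/
lemma primeWeightSum_sub_bounded {c c' : Nat.Primes → ℂ} {B B' : ℝ} (hB : ∀ p, ‖c p‖ ≤ B)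
    (hB' : ∀ p, ‖c' p‖ ≤ B') (bad : Finset Nat.Primes) (h : ∀ p, p ∉ bad → c p = c' p) :
    ∃ C : ℝ, ∀ s : ℝ, 1 < s → ‖primeWeightSum c s - primeWeightSum c' s‖ ≤ C := by
  refine ⟨∑ p ∈ bad, (B + B'), fun s hs => ?_⟩
  rw [primeWeightSum, primeWeightSum,
    ← (summable_primeWeight hB hs).tsum_sub (summable_primeWeight hB' hs),
    tsum_eq_sum (s := bad) fun p hp => by rw [h p hp, sub_self]]
  refine (norm_sum_le _ _).trans (Finset.sum_le_sum fun p _ => ?_)
  rw [← sub_mul, norm_mul, Complex.norm_real, Real.norm_eq_abs,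
    abs_of_nonneg (Real.rpow_nonneg (Nat.cast_nonneg _) _)]
  refine (mul_le_of_le_one_right (norm_nonneg _)
    (Real.rpow_le_one_of_one_le_of_nonpos (by exact_mod_cast p.2.one_le) (by linarith))).trans ?_
  exact (norm_sub_le _ _).trans (add_le_add (hB p) (hB' p))

lemma primeWeightSum_natCast {c : Nat.Primes → ℕ} {B : ℕ} (_hB : ∀ p, c p ≤ B) (s : ℝ) :
    primeWeightSum (fun p => (c p : ℂ)) s = ((countSum c s : ℝ) : ℂ) := by
  rw [countSum, Complex.ofReal_tsum]
  exact tsum_congr fun p => by push_cast; ring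

variable (M : IntermediateField ℚ QBar) [FiniteDimensional ℚ M] [Normal ℚ M]

/-- the fixed field of `D` packaged with its twisted bound -/
lemma exists_fixedField_data (D : Subgroup (M ≃ₐ[ℚ] M)) :
    ∃ (f : ℤ[X]) (bad : Finset Nat.Primes), f.Monic ∧
      (∀ p : Nat.Primes, p ∉ bad →
        conjCount (frobRes M p) D = Nat.card D * rootCount f p) ∧
      ∀ (m : ℕ) [NeZero m] (χ : DirichletCharacter ℂ m) (p : Nat.Primes), p ∉ bad →
        ¬ (p : ℕ) ∣ m → 0 < rootCount f p → χ (p : ℕ) ≠ 1 →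
          ∃ C : ℝ, ∀ᶠ s in 𝓝[>] (1 : ℝ), (rootTwist χ f s).re ≤ C := by
  let K : IntermediateField ℚ M := IntermediateField.fixedField D
  have : NumberField K := { }
  obtain ⟨θ, hθ⟩ := Chebotarev.exists_integral_generator M K
  set t : M := ((θ : K) : M) with htdef
  have ht : IsIntegral ℤ t := map_isIntegral_int (algebraMap K M) θ.isIntegral_coe
  have hstab : ∀ g : M ≃ₐ[ℚ] M, g t = t ↔ g ∈ D := by
    intro g
    constructor
    · intro hg
      rw [← IntermediateField.fixingSubgroup_fixedField D, IntermediateField.mem_fixingSubgroup_iff]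
      intro z hz
      have hmem : (⟨z, hz⟩ : K) ∈ Algebra.adjoin ℚ ({(θ : K)} : Set K) := by
        rw [hθ]; trivial
      have heq : Algebra.adjoin ℚ ({(θ : K)} : Set K) ≤
          AlgHom.equalizer ((g : M →ₐ[ℚ] M).comp K.val) K.val := by
        refine Algebra.adjoin_le (Set.singleton_subset_iff.mpr ?_)
        exact hg
      exact heq hmem
    · intro hg
      exact (θ : K).2 ⟨g, hg⟩
  have hmin : minpoly ℤ θ = minpoly ℤ t := by
    rw [← minpoly.algebraMap_eq RingOfIntegers.coe_injective θ,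
      ← minpoly.algebraMap_eq (algebraMap K M).injective (θ : K)]
    rfl
  obtain ⟨bad, hbad⟩ := Chebotarev.card_fixed_eq_rootCount M ht
  have he := Chebotarev.exponent_ne_zero_of_adjoin_eq_top hθ
  refine ⟨minpoly ℤ t, bad ∪ (RingOfIntegers.exponent θ).divisors.subtype Nat.Prime,
    minpoly.monic ht, fun p hp => ?_, fun m _ χ p hp hpm hroot hχ => ?_⟩
  · replace hp : p ∉ bad ∧ p ∉ ((RingOfIntegers.exponent θ).divisors.subtype Nat.Prime :
        Finset Nat.Primes) :=
      ⟨fun h => hp (Finset.mem_union_left _ h), fun h => hp (Finset.mem_union_right _ h)⟩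
    set R : Finset M := Finset.univ.image fun g : M ≃ₐ[ℚ] M => g t
    rw [← hbad p hp.1, conjCount, Nat.card_eq_fintype_card, Fintype.card_subtype,
      Finset.card_eq_sum_card_fiberwise (f := fun x : M ≃ₐ[ℚ] M => x t)
        (t := R.filter fun r => frobRes M p r = r)]
    · rw [mul_comm, ← smul_eq_mul, ← Finset.sum_const]
      refine Finset.sum_congr rfl fun r hr => ?_
      obtain ⟨hrR, hrfix⟩ := Finset.mem_filter.mp hr
      obtain ⟨g, _, hg⟩ := Finset.mem_image.mp hrR
      rw [← Nat.card_eq_finsetCard]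
      refine Nat.card_congr
        { toFun := fun x => ⟨g⁻¹ * x.1, (hstab _).mp ?_⟩
          invFun := fun d => ⟨g * d.1, Finset.mem_filter.mpr
            ⟨Finset.mem_filter.mpr ⟨Finset.mem_univ _, (hstab _).mp ?_⟩, ?_⟩⟩
          left_inv := fun x => Subtype.ext (mul_inv_cancel_left _ _)
          right_inv := fun d => Subtype.ext (inv_mul_cancel_left _ _) }
      · rw [AlgEquiv.mul_apply, (Finset.mem_filter.mp x.2).2, ← hg]
        exact g.symm_apply_apply t
      · rw [AlgEquiv.mul_apply, AlgEquiv.mul_apply, AlgEquiv.mul_apply, (hstab _).mpr d.2, hg,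
          hrfix, ← hg]
        exact (g * d.1).symm_apply_eq.mpr (by rw [AlgEquiv.mul_apply, (hstab _).mpr d.2])
      · rw [AlgEquiv.mul_apply, (hstab _).mpr d.2, hg]
    · intro x hx
      have hx' := (hstab _).mpr (Finset.mem_filter.mp hx).2
      refine Finset.mem_filter.mpr ⟨Finset.mem_image.mpr ⟨x, Finset.mem_univ _, rfl⟩, ?_⟩
      have h2 : x.symm (frobRes M p (x t)) = t := hx'
      exact (x.symm_apply_eq.mp h2)
  · replace hp : p ∉ bad ∧ p ∉ ((RingOfIntegers.exponent θ).divisors.subtype Nat.Prime :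
        Finset Nat.Primes) :=
      ⟨fun h => hp (Finset.mem_union_left _ h), fun h => hp (Finset.mem_union_right _ h)⟩
    rw [← hmin] at hroot ⊢
    refine exists_re_rootTwist_le χ hθ ?_ hpm hroot hχ
    intro hdvd
    exact hp.2 ((Finset.mem_subtype (p := Nat.Prime)).mpr (Nat.mem_divisors.mpr ⟨hdvd, he⟩))

/-- number of elements conjugating `φ` to `h` -/
def conjTo {G : Type*} [Group G] (φ h : G) : ℕ := Nat.card {x : G // x⁻¹ * φ * x = h}

lemma conjTo_le {G : Type*} [Group G] [Finite G] (φ h : G) : conjTo φ h ≤ Nat.card G :=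
  Nat.card_le_card_of_injective _ Subtype.val_injective

variable {m : ℕ} [NeZero m] {ζ : M} (hζ : IsPrimitiveRoot ζ m)

lemma cyc_frobRes {p : Nat.Primes} (hpm : ¬ (p : ℕ) ∣ m) :
    ((hζ.autToPow ℚ (frobRes M p) : (ZMod m)ˣ) : ZMod m) = ((p : ℕ) : ZMod m) := by
  set A := placeAt p
  have hA : A.LiesOverPrime (p : ℕ) := Chebotarev.placeAt_liesOver p
  have hF := Chebotarev.isFrobeniusAt_frobAt p
  have : Fact (p : ℕ).Prime := ⟨p.2⟩
  have := Chebotarev.charP_residue p.2 hA
  have hζ' : IsPrimitiveRoot ((ζ : M) : QBar) m :=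
    hζ.map_of_injective (f := algebraMap M QBar) (algebraMap M QBar).injective
  have hint : IsIntegral ℤ ((ζ : M) : QBar) := hζ'.isIntegral (NeZero.pos m)
  let z : integralClosure ℤ QBar := ⟨((ζ : M) : QBar), hint⟩
  have : NeZero (m : IsLocalRing.ResidueField A) := ⟨fun h =>
    hpm ((CharP.cast_eq_zero_iff (IsLocalRing.ResidueField A) p m).mp h)⟩
  have hz : IsPrimitiveRoot z m :=
    IsPrimitiveRoot.of_map_of_injective (f := (integralClosure ℤ QBar).val.toRingHom) hζ'
      Subtype.val_injective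
  have hprim : IsPrimitiveRoot (Chebotarev.redAt A z) m := by
    rw [← isRoot_cyclotomic_iff, ← map_cyclotomic m (Chebotarev.redAt A), IsRoot.def,
      eval_map_apply, (hz.isRoot_cyclotomic (NeZero.pos m)).eq_zero, map_zero]
  have hcom : ((frobRes M p ζ : M) : QBar) = frobAt p ((ζ : M) : QBar) :=
    AlgEquiv.restrictNormal_commutes (frobAt p) M ζ
  have hspec := hζ.autToPow_spec ℚ (frobRes M p)
  set c := ((hζ.autToPow ℚ (frobRes M p) : (ZMod m)ˣ) : ZMod m)
  have hred : Chebotarev.redAt A (z ^ c.val) = Chebotarev.redAt A (z ^ (p : ℕ)) := by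
    refine (Chebotarev.redAt_eq_iff _ _).mpr ?_
    have hv : ((z ^ c.val : integralClosure ℤ QBar) : QBar) = frobAt p ((ζ : M) : QBar) := by
      rw [← hcom, ← hspec]
      simp [z]
    rw [hv]
    simp only [z, SubmonoidClass.coe_pow]
    exact Chebotarev.frob_sub_pow_mem hF (Chebotarev.coe_mem_valuationSubring hint)
  rw [map_pow, map_pow, pow_eq_pow_mod c.val hprim.pow_eq_one,
    pow_eq_pow_mod (p : ℕ) hprim.pow_eq_one] at hred
  replace hred := hprim.pow_inj (Nat.mod_lt _ (NeZero.pos m)) (Nat.mod_lt _ (NeZero.pos m)) hred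
  rw [← ZMod.natCast_zmod_val c]
  exact (ZMod.natCast_eq_natCast_iff' _ _ _).mpr hred

variable {M}

/-- `h` is separated by the cyclotomic character -/
def CycSeparated (hζ : IsPrimitiveRoot ζ m) (h : M ≃ₐ[ℚ] M) : Prop :=
  ∀ k : ℤ, (hζ.autToPow ℚ h) ^ k = 1 → h ^ k = 1

/-- `conjCount` restricted to `p ≡ c ^ k` is `conjTo (h ^ k)` -/
lemma conjTo_eq (h F : M ≃ₐ[ℚ] M) (hh : CycSeparated hζ h) (k : ℤ) :
    conjTo F (h ^ k) =
      if hζ.autToPow ℚ F = (hζ.autToPow ℚ h) ^ k then conjCount F (Subgroup.zpowers h) else 0 := by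
  have hconj : ∀ x : M ≃ₐ[ℚ] M, hζ.autToPow ℚ (x⁻¹ * F * x) = hζ.autToPow ℚ F := by
    intro x
    rw [map_mul, map_mul, map_inv, mul_comm _ (hζ.autToPow ℚ F), mul_assoc, inv_mul_cancel, mul_one]
  split_ifs with hc
  · refine Nat.card_congr (Equiv.subtypeEquivRight fun x => ⟨fun hx => ⟨k, hx.symm⟩, ?_⟩)
    rintro ⟨j, hj⟩
    simp only at hj
    have h1 : (hζ.autToPow ℚ h) ^ (j - k) = 1 := by
      rw [zpow_sub, ← map_zpow (hζ.autToPow ℚ) h j, hj, hconj, hc, mul_inv_cancel]
    have h2 := hh _ h1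
    rw [zpow_sub, mul_inv_eq_one] at h2
    rw [← hj, h2]
  · have : IsEmpty {x : M ≃ₐ[ℚ] M // x⁻¹ * F * x = h ^ k} := ⟨fun x => hc (by
      rw [← hconj x.1, x.2, map_zpow])⟩
    exact Nat.card_of_isEmpty

lemma conjTo_one_eq (F : M ≃ₐ[ℚ] M) : conjTo F 1 = genCount F ⊥ := by
  refine Nat.card_congr (Equiv.subtypeEquivRight fun x => ?_)
  rw [Subgroup.zpowers_eq_bot]

/-- the twisted count attached to `h` -/
def twistedCount (h : M ≃ₐ[ℚ] M) (χ : DirichletCharacter ℂ m) (s : ℝ) : ℂ :=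
  primeWeightSum (fun p => χ (p : ℕ) * (conjCount (frobRes M p) (Subgroup.zpowers h) : ℂ)) s

lemma norm_twisted_coeff_le (h : M ≃ₐ[ℚ] M) (χ : DirichletCharacter ℂ m) (p : Nat.Primes) :
    ‖χ (p : ℕ) * (conjCount (frobRes M p) (Subgroup.zpowers h) : ℂ)‖ ≤ Nat.card (M ≃ₐ[ℚ] M) := by
  rw [norm_mul, Complex.norm_natCast]
  refine (mul_le_of_le_one_left (Nat.cast_nonneg _) (χ.norm_le_one _)).trans ?_
  exact_mod_cast Chebotarev.conjCount_le _ _

include hζ in
/-- sum of the twisted counts against a unit -/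
lemma sum_inv_mul_twistedCount (h : M ≃ₐ[ℚ] M) (hh : CycSeparated hζ h) (k : ℤ) :
    ∃ C : ℝ, ∀ s : ℝ, 1 < s →
      ‖(∑ χ : DirichletCharacter ℂ m,
          χ ((((hζ.autToPow ℚ h) ^ k : (ZMod m)ˣ) : ZMod m))⁻¹ * twistedCount h χ s) -
        (m.totient : ℂ) * ((countSum (fun p => conjTo (frobRes M p) (h ^ k)) s : ℝ) : ℂ)‖
          ≤ C := by
  set u : (ZMod m)ˣ := (hζ.autToPow ℚ h) ^ k
  set cc : Nat.Primes → ℕ := fun p => conjCount (frobRes M p) (Subgroup.zpowers h)
  set B : ℕ := Nat.card (M ≃ₐ[ℚ] M)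
  obtain ⟨C, hC⟩ := primeWeightSum_sub_bounded
    (c := fun p : Nat.Primes => if (u : ZMod m) = ((p : ℕ) : ZMod m) then (cc p : ℂ) else 0)
    (c' := fun p => (conjTo (frobRes M p) (h ^ k) : ℂ)) (B := B) (B' := B)
    (fun p => by
      split_ifs
      · rw [Complex.norm_natCast]; exact_mod_cast Chebotarev.conjCount_le _ _
      · simp)
    (fun p => by rw [Complex.norm_natCast]; exact_mod_cast conjTo_le _ _)
    ((m.divisors).subtype Nat.Prime) fun p hp => by
      have hpm : ¬ (p : ℕ) ∣ m := fun hd =>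
        hp ((Finset.mem_subtype (p := Nat.Prime)).mpr (Nat.mem_divisors.mpr ⟨hd, NeZero.ne m⟩))
      rw [conjTo_eq hζ h (frobRes M p) hh k]
      have hiff : ((u : ZMod m) = ((p : ℕ) : ZMod m)) ↔ hζ.autToPow ℚ (frobRes M p) = u := by
        rw [← cyc_frobRes M hζ hpm, Units.val_inj, eq_comm]
      rw [if_congr hiff rfl rfl]
      split_ifs <;> simp [cc]
  refine ⟨m.totient * C, fun s hs => ?_⟩
  have hsum : (∑ χ : DirichletCharacter ℂ m, χ ((u : ZMod m))⁻¹ * twistedCount h χ s) =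
      (m.totient : ℂ) * primeWeightSum
        (fun p : Nat.Primes => if (u : ZMod m) = ((p : ℕ) : ZMod m) then (cc p : ℂ) else 0) s := by
    simp only [twistedCount, primeWeightSum, ← tsum_mul_left]
    rw [← Summable.tsum_finsetSum fun χ _ =>
      (summable_primeWeight (norm_twisted_coeff_le h χ) hs).mul_left _]
    refine tsum_congr fun p => ?_
    simp_rw [← mul_assoc]
    rw [← Finset.sum_mul, ← Finset.sum_mul,
      DirichletCharacter.sum_char_inv_mul_char_eq ℂ u.isUnit]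
    split_ifs <;> simp [cc]
  rw [hsum, ← primeWeightSum_natCast (fun p => conjTo_le (frobRes M p) (h ^ k)) s, ← mul_sub,
    norm_mul, Complex.norm_natCast]
  exact mul_le_mul_of_nonneg_left (hC s hs) (Nat.cast_nonneg _)

lemma isBigO_one_of_bound {f : ℝ → ℝ} {C : ℝ} (h : ∀ᶠ s in 𝓝[>] (1 : ℝ), |f s| ≤ C) :
    f =O[𝓝[>] (1 : ℝ)] fun _ => (1 : ℝ) :=
  IsBigO.of_bound C (h.mono fun s hs => by simpa using hs)

lemma isBigO_one_of_upper {ι : Type*} (F : Finset ι) (f : ι → ℝ → ℝ)
    (hup : ∀ i ∈ F, ∃ C : ℝ, ∀ᶠ s in 𝓝[>] (1 : ℝ), f i s ≤ C)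
    (hsum : (fun s => ∑ i ∈ F, f i s) =O[𝓝[>] (1 : ℝ)] fun _ => (1 : ℝ)) :
    ∀ i ∈ F, f i =O[𝓝[>] (1 : ℝ)] fun _ => (1 : ℝ) := by
  intro i hi
  choose! C hC using hup
  obtain ⟨D, hD⟩ := hsum.bound
  have hall : ∀ᶠ s in 𝓝[>] (1 : ℝ), ∀ j ∈ F, f j s ≤ C j := (eventually_all_finset F).mpr hC
  refine isBigO_one_of_bound (C := |D| + ∑ j ∈ F, |C j|) ?_
  filter_upwards [hall, hD] with s hs hd
  rw [Real.norm_eq_abs, norm_one, mul_one] at hd
  have hsplit := Finset.add_sum_erase F (fun j => f j s) hi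
  have h2 : ∑ j ∈ F.erase i, f j s ≤ ∑ j ∈ F.erase i, |C j| :=
    Finset.sum_le_sum fun j hj => (hs j (Finset.mem_of_mem_erase hj)).trans (le_abs_self _)
  have h4 : ∑ j ∈ F.erase i, |C j| ≤ ∑ j ∈ F, |C j| :=
    Finset.sum_le_sum_of_subset_of_nonneg (Finset.erase_subset i F) fun j _ _ => abs_nonneg _
  have h5 : |C i| ≤ ∑ j ∈ F, |C j| :=
    Finset.single_le_sum (fun j _ => abs_nonneg (C j)) hi
  rw [abs_le]
  obtain ⟨hd1, hd2⟩ := abs_le.mp hd
  constructor
  · linarith [le_abs_self D]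
  · linarith [hs i hi, le_abs_self (C i), abs_nonneg D]

include hζ in
/-- **The symmetrised Chebotarev asymptotic at a separated element.** -/
theorem countSum_conjTo_symm (h : M ≃ₐ[ℚ] M) (hh : CycSeparated hζ h) :
    (fun s : ℝ => countSum (fun p => conjTo (frobRes M p) h) s +
      countSum (fun p => conjTo (frobRes M p) h⁻¹) s + 2 * Real.log (s - 1))
        =O[𝓝[>] (1 : ℝ)] fun _ => (1 : ℝ) := by
  set H := Subgroup.zpowers h with hH
  set cyc := hζ.autToPow ℚ with hcyc
  set c : (ZMod m)ˣ := cyc h with hc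
  obtain ⟨f, bad, hf, hcount, htwist⟩ := exists_fixedField_data M H
  -- the twisted count vs the twisted root sum
  have hT : ∀ χ : DirichletCharacter ℂ m, ∃ C : ℝ, ∀ s : ℝ, 1 < s →
      ‖twistedCount h χ s - (Nat.card H : ℂ) * rootTwist χ f s‖ ≤ C := by
    intro χ
    obtain ⟨C, hC⟩ := primeWeightSum_sub_bounded (norm_twisted_coeff_le h χ)
      (c' := fun p : Nat.Primes => (Nat.card H : ℂ) * (χ (p : ℕ) * (rootCount f p : ℂ)))
      (B' := Nat.card H * f.natDegree) (fun p => by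
        rw [norm_mul, norm_mul, Complex.norm_natCast, Complex.norm_natCast]
        exact mul_le_mul_of_nonneg_left ((mul_le_of_le_one_left (Nat.cast_nonneg _)
          (χ.norm_le_one _)).trans (by exact_mod_cast Chebotarev.rootCount_le hf p))
          (Nat.cast_nonneg _))
      bad fun p hp => by rw [hcount p hp]; push_cast; ring
    refine ⟨C, fun s hs => ?_⟩
    have e : (Nat.card H : ℂ) * rootTwist χ f s = primeWeightSum
        (fun p : Nat.Primes => (Nat.card H : ℂ) * (χ (p : ℕ) * (rootCount f p : ℂ))) s := by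
      simp only [rootTwist, primeWeightSum, ← tsum_mul_left]
      exact tsum_congr fun p => by push_cast; ring
    rw [e]
    exact hC s hs
  -- the principal ones
  set X0 : Finset (DirichletCharacter ℂ m) := Finset.univ.filter fun χ => χ (c : ZMod m) = 1
    with hX0
  have hconjH : ∀ p : Nat.Primes, ¬ (p : ℕ) ∣ m → conjCount (frobRes M p) H ≠ 0 →
      ∃ k : ℤ, ((p : ℕ) : ZMod m) = ((c ^ k : (ZMod m)ˣ) : ZMod m) := by
    intro p hpm hne
    obtain ⟨x, hx⟩ := (Nat.card_pos_iff.mp (Nat.pos_of_ne_zero hne)).1.some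
    obtain ⟨k, hk⟩ := hx
    refine ⟨k, ?_⟩
    simp only at hk
    rw [← cyc_frobRes M hζ hpm, hc, hcyc, ← map_zpow, hk, map_mul, map_mul, map_inv,
      mul_comm _ (hζ.autToPow ℚ (frobRes M p)), mul_assoc, inv_mul_cancel, mul_one]
  have hchar : ∀ χ : DirichletCharacter ℂ m, χ (c : ZMod m) = 1 → ∀ k : ℤ,
      χ ((c ^ k : (ZMod m)ˣ) : ZMod m) = 1 := by
    intro χ hχ k
    have h1 : χ.toUnitHom c = 1 := Units.ext (by rw [MulChar.coe_toUnitHom, hχ, Units.val_one])
    rw [← MulChar.coe_toUnitHom, map_zpow, h1, one_zpow, Units.val_one]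
  have htriv : ∀ χ ∈ X0, ∃ C : ℝ, ∀ s : ℝ, 1 < s →
      ‖twistedCount h χ s - ((countSum (fun p => conjCount (frobRes M p) H) s : ℝ) : ℂ)‖ ≤ C := by
    intro χ hχ
    have hχ1 : χ (c : ZMod m) = 1 := (Finset.mem_filter.mp hχ).2
    obtain ⟨C, hC⟩ := primeWeightSum_sub_bounded (norm_twisted_coeff_le h χ)
      (c' := fun p => (conjCount (frobRes M p) H : ℂ)) (B' := Nat.card (M ≃ₐ[ℚ] M))
      (fun p => by rw [Complex.norm_natCast]; exact_mod_cast Chebotarev.conjCount_le _ _)
      ((m.divisors).subtype Nat.Prime) fun p hp => by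
        rcases eq_or_ne (conjCount (frobRes M p) H) 0 with h0 | hne
        · simp [show conjCount (frobRes M p) (Subgroup.zpowers h) = 0 from h0, h0]
        · obtain ⟨k, hk⟩ := hconjH p (fun hd => hp ((Finset.mem_subtype (p := Nat.Prime)).mpr
            (Nat.mem_divisors.mpr ⟨hd, NeZero.ne m⟩))) hne
          rw [hk, hchar χ hχ1 k, one_mul]
    refine ⟨C, fun s hs => ?_⟩
    rw [← primeWeightSum_natCast (fun p => Chebotarev.conjCount_le (frobRes M p) H) s]
    exact hC s hs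
  -- upper bound off X0
  have hup : ∀ χ ∉ X0, ∃ C : ℝ, ∀ᶠ s in 𝓝[>] (1 : ℝ), (twistedCount h χ s).re ≤ C := by
    intro χ hχ
    have hχ1 : χ (c : ZMod m) ≠ 1 := fun h' => hχ (Finset.mem_filter.mpr ⟨Finset.mem_univ _, h'⟩)
    obtain ⟨p, x, hpS, hx⟩ := Chebotarev.exists_frobRes_conj_gen M h
      (bad.image (fun p : Nat.Primes => (p : ℕ)) ∪ m.divisors)
    simp only [Finset.mem_union, not_or] at hpS
    have hpbad : p ∉ bad := fun hp => hpS.1 (Finset.mem_image_of_mem _ hp)
    have hpm : ¬ (p : ℕ) ∣ m := fun hd => hpS.2 (Nat.mem_divisors.mpr ⟨hd, NeZero.ne m⟩)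
    have hroot : 0 < rootCount f p := by
      have hpos : 0 < conjCount (frobRes M p) H := by
        have : Nonempty {y : (M ≃ₐ[ℚ] M) // y⁻¹ * frobRes M p * y ∈ H} :=
          ⟨⟨x, by rw [hH, ← hx]; exact Subgroup.mem_zpowers _⟩⟩
        exact Nat.card_pos
      rw [hcount p hpbad] at hpos
      exact Nat.pos_of_mul_pos_left hpos
    have hχp : χ (p : ℕ) ≠ 1 := by
      intro h1
      have hmem : h ∈ Subgroup.zpowers (x⁻¹ * frobRes M p * x) := by
        rw [hx]; exact Subgroup.mem_zpowers h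
      obtain ⟨k, hk⟩ := hmem
      simp only at hk
      apply hχ1
      have hcF : cyc (x⁻¹ * frobRes M p * x) = cyc (frobRes M p) := by
        rw [map_mul, map_mul, map_inv, mul_comm _ (cyc (frobRes M p)), mul_assoc, inv_mul_cancel,
          mul_one]
      have hu : χ.toUnitHom (cyc (frobRes M p)) = 1 := Units.ext (by
        rw [MulChar.coe_toUnitHom, hcyc, cyc_frobRes M hζ hpm, h1, Units.val_one])
      rw [hc, ← MulChar.coe_toUnitHom, ← hk, map_zpow, map_zpow, hcF, hu, one_zpow, Units.val_one]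
    obtain ⟨C, hC⟩ := htwist m χ p hpbad hpm hroot hχp
    obtain ⟨D, hD⟩ := hT χ
    refine ⟨D + Nat.card H * C, ?_⟩
    filter_upwards [hC, self_mem_nhdsWithin] with s hs (hs1 : 1 < s)
    have h' := (Complex.re_le_norm _).trans (hD s hs1)
    rw [Complex.sub_re, show ((Nat.card H : ℂ) * rootTwist χ f s).re =
      (Nat.card H : ℝ) * (rootTwist χ f s).re by simp] at h'
    nlinarith [(Nat.card H).cast_nonneg (α := ℝ)]
  -- asymptotics of the principal ones
  set R : ℝ → ℝ := fun s => -((Nat.card H : ℝ) * Real.log (s - 1))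
  have hR : ∀ χ ∈ X0, (fun s => (twistedCount h χ s).re - R s) =O[𝓝[>] (1 : ℝ)]
      fun _ => (1 : ℝ) := by
    intro χ hχ
    obtain ⟨C, hC⟩ := htriv χ hχ
    have h1 : (fun s => (twistedCount h χ s).re -
        countSum (fun p => conjCount (frobRes M p) H) s) =O[𝓝[>] (1 : ℝ)] fun _ => (1 : ℝ) := by
      refine isBigO_one_of_bound (C := C) ?_
      filter_upwards [self_mem_nhdsWithin] with s (hs : 1 < s)
      have h' := (Complex.abs_re_le_norm _).trans (hC s hs)
      rwa [Complex.sub_re, Complex.ofReal_re] at h'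
    refine (h1.add (Chebotarev.countSum_conjCount M H)).congr_left fun s => ?_
    simp only [R]; ring
  -- the sum of all, at a power of c
  have hP : ∀ k : ℤ, (fun s => (∑ χ : DirichletCharacter ℂ m,
      χ (((c ^ k : (ZMod m)ˣ) : ZMod m))⁻¹ * twistedCount h χ s).re -
        (m.totient : ℝ) * countSum (fun p => conjTo (frobRes M p) (h ^ k)) s)
        =O[𝓝[>] (1 : ℝ)] fun _ => (1 : ℝ) := by
    intro k
    obtain ⟨C, hC⟩ := sum_inv_mul_twistedCount hζ h hh k
    refine isBigO_one_of_bound (C := C) ?_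
    filter_upwards [self_mem_nhdsWithin] with s (hs : 1 < s)
    have h' := (Complex.abs_re_le_norm _).trans (hC s hs)
    rw [Complex.sub_re, show ((m.totient : ℂ) *
      ((countSum (fun p => conjTo (frobRes M p) (h ^ k)) s : ℝ) : ℂ)).re =
      (m.totient : ℝ) * countSum (fun p => conjTo (frobRes M p) (h ^ k)) s by simp] at h'
    exact h'
  -- card X0 * |H| = φ(m)
  have hcard : (X0.card : ℂ) * (orderOf c : ℂ) = (m.totient : ℂ) := by
    have h1 : ∑ χ : DirichletCharacter ℂ m, ∑ k ∈ Finset.range (orderOf c),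
        χ (c : ZMod m) ^ k = (m.totient : ℂ) := by
      rw [Finset.sum_comm]
      have hk : ∀ k ∈ Finset.range (orderOf c),
          ∑ χ : DirichletCharacter ℂ m, χ (c : ZMod m) ^ k =
            if k = 0 then (m.totient : ℂ) else 0 := by
        intro k hk
        simp_rw [← map_pow]
        rw [DirichletCharacter.sum_characters_eq]
        refine if_congr ⟨fun h' => ?_, fun h' => by simp [h']⟩ rfl rfl
        by_contra h0
        exact pow_ne_one_of_lt_orderOf h0 (Finset.mem_range.mp hk)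
          (Units.ext (by simpa using h'))
      rw [Finset.sum_congr rfl hk, Finset.sum_ite_eq', if_pos]
      exact Finset.mem_range.mpr (orderOf_pos c)
    have h2 : ∀ χ : DirichletCharacter ℂ m, ∑ k ∈ Finset.range (orderOf c), χ (c : ZMod m) ^ k =
        if χ (c : ZMod m) = 1 then (orderOf c : ℂ) else 0 := by
      intro χ
      split_ifs with hχ
      · simp [hχ]
      · rw [geom_sum_eq hχ, ← map_pow, ← Units.val_pow_eq_pow_val, pow_orderOf_eq_one,
          Units.val_one, map_one, sub_self, zero_div]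
    rw [Finset.sum_congr rfl fun χ _ => h2 χ, ← Finset.sum_filter, Finset.sum_const,
      nsmul_eq_mul] at h1
    exact h1
  have hcardH : Nat.card H = orderOf c := by
    rw [hH, Nat.card_zpowers]
    refine Nat.dvd_antisymm (orderOf_dvd_of_pow_eq_one ?_) (orderOf_map_dvd cyc h)
    have := hh (orderOf c) (by rw [zpow_natCast]; exact pow_orderOf_eq_one c)
    rwa [zpow_natCast] at this
  have hcardR : (X0.card : ℝ) * (Nat.card H : ℝ) = (m.totient : ℝ) := by
    rw [hcardH]
    exact_mod_cast hcard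
  -- conclude
  set T : DirichletCharacter ℂ m → ℝ → ℝ := fun χ s =>
    (twistedCount h χ s).re - (if χ ∈ X0 then R s else 0) with hTdef
  have hsumif : ∀ (w : DirichletCharacter ℂ m → ℝ) (s : ℝ),
      ∑ χ : DirichletCharacter ℂ m, w χ * T χ s =
        (∑ χ : DirichletCharacter ℂ m, w χ * (twistedCount h χ s).re) -
          (∑ χ ∈ X0, w χ) * R s := by
    intro w s
    simp only [T, mul_sub, Finset.sum_sub_distrib, mul_ite, mul_zero, Finset.sum_mul]
    rw [Finset.sum_ite_mem, Finset.univ_inter]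
  have h0 : (fun s => ∑ χ : DirichletCharacter ℂ m, T χ s) =O[𝓝[>] (1 : ℝ)]
      fun _ => (1 : ℝ) := by
    have hg : (fun s => (m.totient : ℝ) * countSum (fun p => conjTo (frobRes M p) (h ^ (0 : ℤ))) s +
        (m.totient : ℝ) * Real.log (s - 1)) =O[𝓝[>] (1 : ℝ)] fun _ => (1 : ℝ) := by
      have hbot : Chebotarev.numGen (⊥ : Subgroup (M ≃ₐ[ℚ] M)) = 1 := by
        rw [Chebotarev.numGen, Nat.card_congr (Equiv.subtypeEquivRight fun d : (M ≃ₐ[ℚ] M) =>
          Subgroup.zpowers_eq_bot (g := d))]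
        simp
      refine ((Chebotarev.countSum_genCount M ⊥).const_mul_left (m.totient : ℝ)).congr_left
        fun s => ?_
      simp only [zpow_zero, conjTo_one_eq, hbot, Nat.cast_one, one_mul]
      ring
    refine ((hP 0).add hg).congr_left fun s => ?_
    have hs' := hsumif (fun _ => 1) s
    simp only [one_mul] at hs'
    rw [hs', Finset.sum_const, nsmul_eq_mul, mul_one]
    simp only [zpow_zero, Units.val_one, ZMod.inv_one, map_one, one_mul, Complex.re_sum, R]
    linear_combination (Real.log (s - 1)) * hcardR.symm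
  have hup' : ∀ χ ∈ (Finset.univ : Finset (DirichletCharacter ℂ m)),
      ∃ C : ℝ, ∀ᶠ s in 𝓝[>] (1 : ℝ), T χ s ≤ C := by
    intro χ _
    by_cases hχ : χ ∈ X0
    · obtain ⟨C, hC⟩ := (hR χ hχ).bound
      refine ⟨C, hC.mono fun s hs => ?_⟩
      rw [norm_one, mul_one, Real.norm_eq_abs] at hs
      simp only [T, if_pos hχ]
      exact (le_abs_self _).trans hs
    · obtain ⟨C, hC⟩ := hup χ hχ
      exact ⟨C, hC.mono fun s hs => by simpa only [T, if_neg hχ, sub_zero] using hs⟩
  have hTall := isBigO_one_of_upper Finset.univ T hup' h0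
  have hw : (fun s => ∑ χ : DirichletCharacter ℂ m, (2 * (χ (c : ZMod m)).re) * T χ s)
      =O[𝓝[>] (1 : ℝ)] fun _ => (1 : ℝ) :=
    IsBigO.fun_sum fun χ hχ => (hTall χ hχ).const_mul_left _
  have hconj : ∀ χ : DirichletCharacter ℂ m,
      χ (((c ^ (1 : ℤ) : (ZMod m)ˣ) : ZMod m))⁻¹ + χ (((c ^ (-1 : ℤ) : (ZMod m)ˣ) : ZMod m))⁻¹ =
        ((2 * (χ (c : ZMod m)).re : ℝ) : ℂ) := by
    intro χ
    have hst : χ ((c⁻¹ : (ZMod m)ˣ) : ZMod m) = star (χ (c : ZMod m)) := by
      rw [MulChar.star_apply', MulChar.inv_apply, Ring.inverse_unit]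
    rw [zpow_one, zpow_neg_one, ZMod.inv_coe_unit, ZMod.inv_coe_unit, inv_inv, hst, add_comm]
    exact Complex.add_conj _
  have hfin : (fun s => (m.totient : ℝ) * (countSum (fun p => conjTo (frobRes M p) h) s +
      countSum (fun p => conjTo (frobRes M p) h⁻¹) s + 2 * Real.log (s - 1)))
        =O[𝓝[>] (1 : ℝ)] fun _ => (1 : ℝ) := by
    refine (hw.sub ((hP 1).add (hP (-1)))).congr_left fun s => ?_
    have e : (∑ χ : DirichletCharacter ℂ m,
        χ (((c ^ (1 : ℤ) : (ZMod m)ˣ) : ZMod m))⁻¹ * twistedCount h χ s).re +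
        (∑ χ : DirichletCharacter ℂ m,
        χ (((c ^ (-1 : ℤ) : (ZMod m)ˣ) : ZMod m))⁻¹ * twistedCount h χ s).re =
        ∑ χ : DirichletCharacter ℂ m, (2 * (χ (c : ZMod m)).re) * (twistedCount h χ s).re := by
      rw [← Complex.add_re, ← Finset.sum_add_distrib, Complex.re_sum]
      refine Finset.sum_congr rfl fun χ _ => ?_
      rw [← add_mul, hconj χ, Complex.re_ofReal_mul]
    have hX : ∑ χ ∈ X0, 2 * (χ (c : ZMod m)).re = 2 * (X0.card : ℝ) := by
      rw [Finset.sum_congr rfl fun χ hχ => by rw [(Finset.mem_filter.mp hχ).2, Complex.one_re],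
        Finset.sum_const, nsmul_eq_mul]
      ring
    rw [hsumif, hX, ← e]
    simp only [zpow_one, zpow_neg_one, R]
    linear_combination (2 * Real.log (s - 1)) * hcardR
  have htot : (m.totient : ℝ) ≠ 0 :=
    Nat.cast_ne_zero.mpr (Nat.totient_pos.mpr (NeZero.pos m)).ne'
  refine (hfin.const_mul_left (m.totient : ℝ)⁻¹).congr_left fun s => ?_
  rw [← mul_assoc, inv_mul_cancel₀ htot, one_mul]

include hζ in
/-- class functions supported on separated elements, symmetric under inversion -/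
theorem tsum_separated_isBigO (Φ : (M ≃ₐ[ℚ] M) → ℝ) (hconj : ∀ x g, Φ (x⁻¹ * g * x) = Φ g)
    (hinv : ∀ g, Φ g⁻¹ = Φ g) (hsupp : ∀ g, Φ g ≠ 0 → CycSeparated hζ g) :
    (fun s : ℝ => (∑' p : Nat.Primes, Φ (frobRes M p) * (p : ℝ) ^ (-s)) +
      (∑ g, Φ g) / Nat.card (M ≃ₐ[ℚ] M) * Real.log (s - 1)) =O[𝓝[>] (1 : ℝ)]
        fun _ => (1 : ℝ) := by
  set N : ℝ := (Nat.card (M ≃ₐ[ℚ] M) : ℝ) with hN
  have hN0 : N ≠ 0 := Nat.cast_ne_zero.mpr Nat.card_pos.ne'
  have hmain : (fun s : ℝ => ∑ h : (M ≃ₐ[ℚ] M), Φ h * (countSum (fun p => conjTo (frobRes M p) h) s +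
      countSum (fun p => conjTo (frobRes M p) h⁻¹) s + 2 * Real.log (s - 1)))
        =O[𝓝[>] (1 : ℝ)] fun _ => (1 : ℝ) := by
    refine IsBigO.fun_sum fun h _ => ?_
    by_cases h0 : Φ h = 0
    · simp only [h0, zero_mul]
      exact isBigO_zero _ _
    · exact (countSum_conjTo_symm hζ h (hsupp h h0)).const_mul_left _
  have hsumF : ∀ F : (M ≃ₐ[ℚ] M), ∑ h : (M ≃ₐ[ℚ] M), Φ h * (conjTo F h : ℝ) = N * Φ F := by
    intro F
    have hfib : ∑ x : (M ≃ₐ[ℚ] M), Φ (x⁻¹ * F * x) =
        ∑ h : (M ≃ₐ[ℚ] M), ∑ x ∈ Finset.univ.filter (fun x : (M ≃ₐ[ℚ] M) => x⁻¹ * F * x = h), Φ (x⁻¹ * F * x) :=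
      (Finset.sum_fiberwise _ _ _).symm
    rw [Finset.sum_congr rfl fun x _ => hconj x F, Finset.sum_const, nsmul_eq_mul,
      Finset.card_univ, ← Nat.card_eq_fintype_card] at hfib
    rw [hN, hfib]
    refine Finset.sum_congr rfl fun h _ => ?_
    rw [Finset.sum_congr rfl fun x hx => by rw [(Finset.mem_filter.mp hx).2], Finset.sum_const,
      nsmul_eq_mul, conjTo, Nat.card_eq_fintype_card, Fintype.card_subtype, mul_comm]
  have hinv' : ∀ F : (M ≃ₐ[ℚ] M), ∑ h : (M ≃ₐ[ℚ] M), Φ h * (conjTo F h⁻¹ : ℝ) = N * Φ F := by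
    intro F
    rw [← hsumF F]
    exact Fintype.sum_equiv (Equiv.inv (M ≃ₐ[ℚ] M)) _ _ fun h => by simp [hinv]
  refine (hmain.const_mul_left (2 * N)⁻¹).congr' ?_ EventuallyEq.rfl
  filter_upwards [self_mem_nhdsWithin] with s (hs : 1 < s)
  have hS : ∀ u : (M ≃ₐ[ℚ] M) → (M ≃ₐ[ℚ] M), ∑ h : (M ≃ₐ[ℚ] M), Φ h * countSum (fun p => conjTo (frobRes M p) (u h)) s =
      ∑' p : Nat.Primes, (∑ h : (M ≃ₐ[ℚ] M), Φ h * (conjTo (frobRes M p) (u h) : ℝ)) * (p : ℝ) ^ (-s) := by
    intro u
    simp only [countSum, ← tsum_mul_left, Finset.sum_mul]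
    rw [← Summable.tsum_finsetSum fun h _ =>
      (Chebotarev.summable_countSum (fun p => conjTo_le (frobRes M p) (u h)) hs).mul_left _]
    exact tsum_congr fun p => Finset.sum_congr rfl fun h _ => by ring
  simp only [mul_add, Finset.sum_add_distrib, ← Finset.sum_mul]
  have h1 := hS id
  have h2 := hS (fun h => h⁻¹)
  simp only [id_eq, hsumF, hinv', mul_assoc, tsum_mul_left] at h1 h2
  rw [h1, h2]
  field_simp
  ring

end FLTAgent.DS
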