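import Fermat.Agent.DS.DensityLattice
import Fermat.Agent.Chebotarev.Zeta
import Mathlib.NumberTheory.DirichletCharacter.Bounds

/-!
`∑ χ(N I) N I ^ (-s)` over the ideals of a number field stays bounded as `s → 1+`, as soon as
`χ(N P) ≠ 1` for some prime `P` prime to the modulus.
-/

set_option autoImplicit false

noncomputable section

namespace FLTAgent.DS

open NumberField NumberField.Units Ideal nonZeroDivisors Filter Topology Module
open scoped Classical
open FLTAgent.Chebotarev (normRpow)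

/-! ### Splitting a periodic weighted sum along a finite quotient -/

section Periodic

variable {A : Type*} [AddCommGroup A]

lemma out_add_bijective (N : AddSubgroup A) :
    Function.Bijective fun qb : (A ⧸ N) × N => qb.1.out + (qb.2 : A) := by
  constructor
  · rintro ⟨q, b⟩ ⟨q', b'⟩ h
    simp only at h
    have hq : q = q' := by
      have h1 := congrArg (fun a : A => (a : A ⧸ N)) h
      simp only [QuotientAddGroup.mk_add, QuotientAddGroup.out_eq',
        (QuotientAddGroup.eq_zero_iff (b : A)).mpr b.2,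
        (QuotientAddGroup.eq_zero_iff (b' : A)).mpr b'.2, add_zero] at h1
      exact h1
    subst hq
    exact Prod.ext rfl (Subtype.ext (add_left_cancel h))
  · intro a
    refine ⟨(QuotientAddGroup.mk a, ⟨-(QuotientAddGroup.mk a : A ⧸ N).out + a, ?_⟩), ?_⟩
    · rw [← QuotientAddGroup.eq_zero_iff, QuotientAddGroup.mk_add, QuotientAddGroup.mk_neg,
        QuotientAddGroup.out_eq', neg_add_cancel]
    · simp

lemma tsum_periodic (N : AddSubgroup A) [Fintype (A ⧸ N)] (ψ F : A → ℂ)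
    (hψ : ∀ a b, b ∈ N → ψ (a + b) = ψ a) (hF : Summable F) :
    ∑' a, ψ a * F a = ∑ q : A ⧸ N, ψ q.out * ∑' b : N, F (q.out + b) := by
  let e := Equiv.ofBijective _ (out_add_bijective N)
  have hsum : Summable fun qb : (A ⧸ N) × N => F (qb.1.out + qb.2) :=
    (e.summable_iff (f := F)).mpr hF
  set M : ℝ := ∑ q : A ⧸ N, ‖ψ q.out‖
  have hsum' : Summable fun qb : (A ⧸ N) × N => ψ qb.1.out * F (qb.1.out + qb.2) := by
    refine Summable.of_norm_bounded (hsum.norm.mul_left M) fun qb => ?_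
    rw [norm_mul]
    exact mul_le_mul_of_nonneg_right
      (Finset.single_le_sum (f := fun q : A ⧸ N => ‖ψ q.out‖) (fun q _ => norm_nonneg _)
        (Finset.mem_univ qb.1)) (norm_nonneg _)
  calc ∑' a, ψ a * F a = ∑' qb : (A ⧸ N) × N, ψ qb.1.out * F (qb.1.out + qb.2) := by
        rw [← e.tsum_eq]
        refine tsum_congr fun qb => ?_
        change ψ (qb.1.out + qb.2) * F (qb.1.out + qb.2) = _
        rw [hψ _ _ qb.2.2]
    _ = _ := by
        rw [hsum'.tsum_prod, tsum_fintype]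
        refine Finset.sum_congr rfl fun q _ => ?_
        simp only []
        rw [tsum_mul_left]

lemma sum_periodic_eq (M D : AddSubgroup A) [M.FiniteIndex] [D.FiniteIndex] (hsup : M ⊔ D = ⊤)
    [Fintype (A ⧸ (M ⊓ D))] (φ : A → ℂ) (hφ : ∀ a b, b ∈ M → φ (a + b) = φ a) :
    ∑ q : A ⧸ (M ⊓ D), φ q.out =
      (D.index : ℂ) * ∑ q : A ⧸ (M ⊓ D), (if q.out ∈ D then φ q.out else 0) := by
  let _ : Fintype (A ⧸ M) := Fintype.ofFinite _
  let _ : Fintype (A ⧸ D) := Fintype.ofFinite _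
  let π : A ⧸ (M ⊓ D) → (A ⧸ M) × (A ⧸ D) := fun q => (q.out, q.out)
  have hπ : Function.Bijective π := by
    constructor
    · intro q q' h
      rw [← QuotientAddGroup.out_eq' q, ← QuotientAddGroup.out_eq' q', QuotientAddGroup.eq]
      exact ⟨(QuotientAddGroup.eq (s := M)).mp (congrArg Prod.fst h),
        (QuotientAddGroup.eq (s := D)).mp (congrArg Prod.snd h)⟩
    · rintro ⟨x, y⟩
      obtain ⟨u, hu, v, hv, huv⟩ := AddSubgroup.mem_sup.mp
        (hsup.symm ▸ AddSubgroup.mem_top (y.out - x.out))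
      refine ⟨QuotientAddGroup.mk (x.out + u), ?_⟩
      have h1 := QuotientAddGroup.out_eq' (QuotientAddGroup.mk (x.out + u) : A ⧸ (M ⊓ D))
      obtain ⟨hM, hD⟩ := AddSubgroup.mem_inf.mp (QuotientAddGroup.eq.mp h1)
      refine Prod.ext ?_ ?_
      · change ((QuotientAddGroup.mk (x.out + u) : A ⧸ (M ⊓ D)).out : A ⧸ M) = x
        rw [QuotientAddGroup.eq.mpr hM, QuotientAddGroup.mk_add,
          (QuotientAddGroup.eq_zero_iff u).mpr hu, add_zero, QuotientAddGroup.out_eq']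
      · change ((QuotientAddGroup.mk (x.out + u) : A ⧸ (M ⊓ D)).out : A ⧸ D) = y
        rw [QuotientAddGroup.eq.mpr hD, show x.out + u = y.out + (-v) by
            rw [eq_sub_iff_add_eq] at huv; rw [← huv]; abel,
          QuotientAddGroup.mk_add, (QuotientAddGroup.eq_zero_iff (-v)).mpr (neg_mem hv), add_zero,
          QuotientAddGroup.out_eq']
  have hout : ∀ q : A ⧸ (M ⊓ D), φ q.out = φ (π q).1.out := by
    intro q
    have h : (((π q).1.out : A) : A ⧸ M) = (q.out : A ⧸ M) := QuotientAddGroup.out_eq' _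
    have h' := hφ (π q).1.out _ (QuotientAddGroup.eq.mp h)
    rwa [add_neg_cancel_left] at h'
  have hmem : ∀ q : A ⧸ (M ⊓ D), q.out ∈ D ↔ (π q).2 = 0 := fun q =>
    (QuotientAddGroup.eq_zero_iff (N := D) q.out).symm
  rw [Fintype.sum_bijective π hπ _ (fun xy => φ xy.1.out) hout,
    Fintype.sum_bijective π hπ (fun q => if q.out ∈ D then φ q.out else 0)
      (fun xy => if xy.2 = 0 then φ xy.1.out else 0) fun q => by
        rw [hout]; exact if_congr (hmem q) rfl rfl,
    Fintype.sum_prod_type, Fintype.sum_prod_type, Finset.mul_sum]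
  refine Finset.sum_congr rfl fun x _ => ?_
  simp only [Finset.sum_const, Finset.sum_ite_eq', Finset.mem_univ, if_true, Finset.card_univ,
    nsmul_eq_mul, AddSubgroup.index, Nat.card_eq_fintype_card]

theorem exists_tsum_sub_index_mul (M D : AddSubgroup A) [M.FiniteIndex] [D.FiniteIndex]
    (hsup : M ⊔ D = ⊤) (F : ℝ → A → ℂ) (S : Set ℝ) (hF : ∀ s ∈ S, Summable (F s)) (φ : A → ℂ)
    (hφ : ∀ a b, b ∈ M → φ (a + b) = φ a)
    (hcmp : ∀ v : A, ∃ C : ℝ, ∀ s ∈ S,
      ‖(∑' b : (M ⊓ D : AddSubgroup A), F s (v + b)) - ∑' b : (M ⊓ D : AddSubgroup A), F s b‖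
        ≤ C) :
    ∃ C : ℝ, ∀ s ∈ S,
      ‖(∑' a, φ a * F s a) - (D.index : ℂ) * ∑' a, (if a ∈ D then φ a else 0) * F s a‖ ≤ C := by
  let _ : Fintype (A ⧸ (M ⊓ D)) := Fintype.ofFinite _
  choose C hC using hcmp
  let c : A ⧸ (M ⊓ D) → ℂ := fun q =>
    φ q.out - (D.index : ℂ) * (if q.out ∈ D then φ q.out else 0)
  refine ⟨∑ q, ‖c q‖ * C q.out, fun s hs => ?_⟩
  have hc : ∑ q, c q = 0 := by
    simp only [c, Finset.sum_sub_distrib, ← Finset.mul_sum]
    rw [sum_periodic_eq M D hsup φ hφ, sub_self]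
  have h1 := tsum_periodic (M ⊓ D) φ (F s) (fun a b hb => hφ a b hb.1) (hF s hs)
  have h2 := tsum_periodic (M ⊓ D) (fun a => if a ∈ D then φ a else 0) (F s)
    (fun a b hb => by simp only [D.add_mem_cancel_right hb.2, hφ a b hb.1]) (hF s hs)
  rw [h1, h2, Finset.mul_sum, ← Finset.sum_sub_distrib]
  have h3 : ∀ q : A ⧸ (M ⊓ D), φ q.out * (∑' b : (M ⊓ D : AddSubgroup A), F s (q.out + b)) -
      (D.index : ℂ) * ((if q.out ∈ D then φ q.out else 0) *
        ∑' b : (M ⊓ D : AddSubgroup A), F s (q.out + b)) =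
      c q * ((∑' b : (M ⊓ D : AddSubgroup A), F s (q.out + b)) -
        ∑' b : (M ⊓ D : AddSubgroup A), F s b) +
      c q * ∑' b : (M ⊓ D : AddSubgroup A), F s b := fun q => by
    simp only [c]; ring
  rw [Finset.sum_congr rfl fun q _ => h3 q, Finset.sum_add_distrib, ← Finset.sum_mul, hc,
    zero_mul, add_zero]
  refine (norm_sum_le _ _).trans (Finset.sum_le_sum fun q _ => ?_)
  rw [norm_mul]
  exact mul_le_mul_of_nonneg_left (hC q.out s hs) (norm_nonneg _)

end Periodic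

/-! ### Ideals as lattices -/

variable {E : Type*} [Field E] [NumberField E]

abbrev iota (a : 𝓞 E) : mixedEmbedding.mixedSpace E := mixedEmbedding E (a : E)

lemma iota_add (a b : 𝓞 E) : iota (a + b) = iota a + iota b := by
  simp [iota, map_add]

lemma iota_injective : Function.Injective (iota (E := E)) := fun _ _ h =>
  RingOfIntegers.coe_injective (mixedEmbedding_injective E h)

/-- the lattice of a nonzero ideal -/
abbrev idealLat (I : Ideal (𝓞 E)) (hI : I ≠ ⊥) : Submodule ℤ (mixedEmbedding.mixedSpace E) :=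
  mixedEmbedding.idealLattice E
    (FractionalIdeal.mk0 E ⟨I, mem_nonZeroDivisors_of_ne_zero hI⟩)

lemma mem_idealLat {I : Ideal (𝓞 E)} {hI : I ≠ ⊥} {x : mixedEmbedding.mixedSpace E} :
    x ∈ idealLat I hI ↔ ∃ a ∈ I, iota a = x := by
  rw [mixedEmbedding.mem_idealLattice]
  constructor
  · rintro ⟨y, hy, rfl⟩
    rw [FractionalIdeal.coe_mk0, SetLike.mem_coe, FractionalIdeal.mem_coeIdeal] at hy
    obtain ⟨a, ha, rfl⟩ := hy
    exact ⟨a, ha, rfl⟩
  · rintro ⟨a, ha, rfl⟩
    refine ⟨(a : E), ?_, rfl⟩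
    rw [FractionalIdeal.coe_mk0, SetLike.mem_coe, FractionalIdeal.mem_coeIdeal]
    exact ⟨a, ha, rfl⟩

/-- an ideal is its lattice -/
def idealLatEquiv (I : Ideal (𝓞 E)) (hI : I ≠ ⊥) : I ≃ idealLat I hI :=
  Equiv.ofBijective (fun a => ⟨iota (a : 𝓞 E), mem_idealLat.mpr ⟨a, a.2, rfl⟩⟩)
    ⟨fun _ _ h => Subtype.ext (iota_injective (congrArg Subtype.val h)), fun x => by
      obtain ⟨a, ha, h⟩ := mem_idealLat.mp x.2
      exact ⟨⟨a, ha⟩, Subtype.ext h⟩⟩

lemma summable_latF_ideal (I : Ideal (𝓞 E)) (hI : I ≠ ⊥) {A B : ℂ} (hA : ‖A‖ ≤ 1) (hB : ‖B‖ ≤ 1)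
    {s : ℝ} (hs : s ∈ Set.Ioc (1 : ℝ) 2) :
    Summable fun a : I => latF A B s (iota (a : 𝓞 E)) := by
  refine ((idealLatEquiv I hI).summable_iff
    (f := fun l : idealLat I hI => latF A B s (l : mixedEmbedding.mixedSpace E))).mpr ?_
  have := summable_latF (idealLat I hI) hA hB hs 0
  simpa using this

lemma exists_latF_translate (I : Ideal (𝓞 E)) (hI : I ≠ ⊥) {A B : ℂ} (hA : ‖A‖ ≤ 1) (hB : ‖B‖ ≤ 1)
    (v : 𝓞 E) : ∃ C : ℝ, ∀ s ∈ Set.Ioc (1 : ℝ) 2,
      ‖(∑' a : I, latF A B s (iota (v + (a : 𝓞 E)))) - ∑' a : I, latF A B s (iota (a : 𝓞 E))‖ ≤ C := by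
  obtain ⟨C, hC⟩ := exists_norm_tsum_latF_sub_le (idealLat I hI) hA hB (iota v) 0
  refine ⟨C, fun s hs => ?_⟩
  have e1 : ∑' a : I, latF A B s (iota (v + (a : 𝓞 E))) =
      ∑' l : idealLat I hI, latF A B s (iota v + (l : mixedEmbedding.mixedSpace E)) := by
    rw [← (idealLatEquiv I hI).tsum_eq]
    exact tsum_congr fun a => by rw [iota_add]; rfl
  have e2 : ∑' a : I, latF A B s (iota (a : 𝓞 E)) =
      ∑' l : idealLat I hI, latF A B s (0 + (l : mixedEmbedding.mixedSpace E)) := by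
    rw [← (idealLatEquiv I hI).tsum_eq]
    exact tsum_congr fun a => by rw [zero_add]; rfl
  rw [e1, e2]
  exact hC s hs

/-! ### The norm relative to an ideal -/

variable (J : Ideal (𝓞 E)) (hJ : J ≠ ⊥)

/-- multiplication by an element of `J`, as a map into `J` -/
def mulTo (a : J) : 𝓞 E →ₗ[ℤ] J := (LinearMap.toSpanSingleton (𝓞 E) J a).restrictScalars ℤ

/-- the relative norm of an element of `J`, as an integer -/
def relNormInt (a : J) : ℤ :=
  (LinearMap.toMatrix (RingOfIntegers.basis E) (Ideal.selfBasis (RingOfIntegers.basis E) J hJ)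
    (mulTo J a)).det

/-- determinant of the inclusion of `J` -/
def inclDet : ℤ :=
  (RingOfIntegers.basis E).det
    ((↑) ∘ Ideal.selfBasis (RingOfIntegers.basis E) J hJ)

lemma natAbs_inclDet : (inclDet J hJ).natAbs = absNorm J :=
  natAbs_det_basis_change _ J _

lemma norm_eq_inclDet_mul (a : J) :
    Algebra.norm ℤ (a : 𝓞 E) = inclDet J hJ * relNormInt J hJ a := by
  set bO := RingOfIntegers.basis E
  set bJ := Ideal.selfBasis bO J hJ
  have hcomp : ((Submodule.subtype J).restrictScalars ℤ) ∘ₗ mulTo J a =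
      LinearMap.mulLeft ℤ (a : 𝓞 E) := by
    apply LinearMap.ext
    intro x
    simp [mulTo, mul_comm]
  have hin : LinearMap.toMatrix bJ bO ((Submodule.subtype J).restrictScalars ℤ) =
      bO.toMatrix ((↑) ∘ bJ) := by
    ext i j
    simp [LinearMap.toMatrix_apply, Basis.toMatrix_apply]
  rw [inclDet, relNormInt, Basis.det_apply, ← hin, ← Matrix.det_mul, ← LinearMap.toMatrix_comp,
    hcomp, Algebra.norm_apply, ← LinearMap.det_toMatrix bO]
  rfl

lemma absNorm_span_of_eq {a : J} {I : Ideal (𝓞 E)} (h : span {(a : 𝓞 E)} = J * I) :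
    absNorm I = (relNormInt J hJ a).natAbs := by
  have h1 : (Algebra.norm ℤ (a : 𝓞 E)).natAbs = absNorm J * absNorm I := by
    rw [← absNorm_span_singleton, h, map_mul]
  rw [norm_eq_inclDet_mul J hJ, Int.natAbs_mul, natAbs_inclDet] at h1
  exact (Nat.eq_of_mul_eq_mul_left
    (Nat.pos_of_ne_zero fun h0 => hJ (absNorm_eq_zero_iff.mp h0)) h1).symm

lemma relNormInt_cast_congr {m : ℕ} {a b : J} {c : J}
    (h : (a : 𝓞 E) = (b : 𝓞 E) + (m : 𝓞 E) * (c : 𝓞 E)) :
    (relNormInt J hJ a : ZMod m) = relNormInt J hJ b := by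
  have hlin : mulTo J a = mulTo J b + (m : ℤ) • mulTo J c := by
    apply LinearMap.ext
    intro x
    apply Subtype.ext
    simp [mulTo, h, mul_add, mul_left_comm]
  simp only [relNormInt, ← eq_intCast (Int.castRingHom (ZMod m)), RingHom.map_det]
  congr 1
  rw [hlin, map_add, map_smul]
  ext i j
  simp only [RingHom.mapMatrix_apply, Matrix.map_apply, Matrix.add_apply, Matrix.smul_apply,
    smul_eq_mul, map_add, map_mul, eq_intCast, Int.cast_natCast, ZMod.natCast_self, zero_mul,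
    add_zero]

/-! ### Unit orbits -/

/-- the ideal `a J⁻¹` -/
def quotIdeal (a : J) : Ideal (𝓞 E) :=
  (Ideal.dvd_iff_le.mpr ((span_singleton_le_iff_mem J).mpr a.2)).choose

lemma span_eq_mul_quotIdeal (a : J) : span {(a : 𝓞 E)} = J * quotIdeal J a :=
  (Ideal.dvd_iff_le.mpr ((span_singleton_le_iff_mem J).mpr a.2)).choose_spec

/-- the ideals in the class inverse to that of `J` -/
def InInvClass (I : Ideal (𝓞 E)) : Prop := I ≠ ⊥ ∧ (J * I).IsPrincipal

include hJ in
theorem tsum_weight_mul (G : Ideal (𝓞 E) → ℂ)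
    (hsum : Summable fun a : J => (weight (iota (a : 𝓞 E)) : ℂ) * G (quotIdeal J a)) :
    ∑' a : J, (weight (iota (a : 𝓞 E)) : ℂ) * G (quotIdeal J a) =
      (torsionOrder E : ℂ) * ∑' I : Ideal (𝓞 E), if InInvClass J I then G I else 0 := by
  have hgen : ∀ I : {I : Ideal (𝓞 E) // InInvClass J I}, ∃ g : 𝓞 E, J * I.1 = span {g} :=
    fun I => I.2.2.principal
  choose g hg using hgen
  have hg0 : ∀ I, g I ≠ 0 := by
    intro I h0
    have := hg I
    rw [h0, Set.singleton_zero, span_zero] at this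
    exact (mul_ne_zero hJ I.2.1) this
  have hgJ : ∀ I, g I ∈ J := fun I =>
    mul_le_left (hg I ▸ mem_span_singleton_self (g I) : g I ∈ J * I.1)
  let e : {I : Ideal (𝓞 E) // InInvClass J I} × (𝓞 E)ˣ → J := fun Iu =>
    ⟨(Iu.2 : 𝓞 E) * g Iu.1, J.mul_mem_left _ (hgJ Iu.1)⟩
  have hq : ∀ Iu, quotIdeal J (e Iu) = Iu.1.1 := by
    intro Iu
    refine mul_left_cancel₀ hJ ?_
    rw [← span_eq_mul_quotIdeal, hg Iu.1]
    exact span_singleton_mul_left_unit Iu.2.isUnit _
  have hinj : Function.Injective e := by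
    rintro ⟨I, u⟩ ⟨I', u'⟩ h
    have hI : I = I' := Subtype.ext (by rw [← hq ⟨I, u⟩, h, hq ⟨I', u'⟩])
    subst hI
    exact Prod.ext rfl (Units.ext (mul_right_cancel₀ (hg0 I) (congrArg Subtype.val h)))
  have hsupp : (Function.support fun a : J =>
      (weight (iota (a : 𝓞 E)) : ℂ) * G (quotIdeal J a)) ⊆ Set.range e := by
    intro a ha
    have ha0 : (a : 𝓞 E) ≠ 0 := by
      intro h0
      apply ha
      simp [iota, h0, weight]
    have hI : InInvClass J (quotIdeal J a) := by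
      refine ⟨fun h0 => ha0 ?_, ⟨(a : 𝓞 E), (span_eq_mul_quotIdeal J a).symm⟩⟩
      have := span_eq_mul_quotIdeal J a
      rw [h0, Ideal.mul_bot, span_singleton_eq_bot] at this
      exact this
    obtain ⟨u, hu⟩ := span_singleton_eq_span_singleton.mp
      ((hg ⟨_, hI⟩).symm.trans (span_eq_mul_quotIdeal J a).symm)
    exact ⟨(⟨_, hI⟩, u), Subtype.ext (by rw [← hu]; exact mul_comm _ _)⟩
  rw [← hinj.tsum_eq hsupp, ← tsum_mul_left]
  have hsum' := hsum.comp_injective hinj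
  simp only [Function.comp_def] at hsum'
  rw [hsum'.tsum_prod]
  have hinner : ∀ I : {I : Ideal (𝓞 E) // InInvClass J I},
      ∑' u : (𝓞 E)ˣ, (weight (iota ((e (I, u)) : 𝓞 E)) : ℂ) * G (quotIdeal J (e (I, u))) =
        (torsionOrder E : ℂ) * G I.1 := by
    intro I
    simp only [hq]
    rw [tsum_mul_right]
    have hN : mixedEmbedding.norm (iota (g I)) ≠ 0 := by
      simp [iota, mixedEmbedding.norm_eq_norm, hg0 I]
    have h := (hasSum_weight_smul hN).map Complex.ofRealHom Complex.continuous_ofReal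
    rw [show ∑' u : (𝓞 E)ˣ, (weight (iota ((e (I, u)) : 𝓞 E)) : ℂ) = (torsionOrder E : ℂ) from ?_]
    refine HasSum.tsum_eq ?_
    convert h using 1
    · funext u
      simp only [Function.comp_apply, Complex.ofRealHom_eq_coe, mixedEmbedding.unitSMul_smul, e,
        iota, map_mul]
    · simp
  rw [tsum_congr hinner]
  refine Eq.trans ?_ (tsum_subtype_eq_of_support_subset (s := {I | InInvClass J I}) ?_)
  · exact tsum_congr fun I => by rw [if_pos (show InInvClass J I.1 from I.2)]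
  · intro I hI
    by_contra h
    exact hI (by simp [show ¬ InInvClass J I from h])

/-! ### The L-series -/

variable {m : ℕ} [NeZero m] (χ : DirichletCharacter ℂ m)

/-- `χ(N I) N I ^ (-s)` -/
def idealTerm (s : ℝ) (I : Ideal (𝓞 E)) : ℂ :=
  χ (absNorm I : ZMod m) * (normRpow s I : ℂ)

lemma norm_idealTerm_le (s : ℝ) (I : Ideal (𝓞 E)) : ‖idealTerm χ s I‖ ≤ normRpow s I := by
  rw [idealTerm, norm_mul, Complex.norm_real, Real.norm_eq_abs,
    abs_of_nonneg (Chebotarev.normRpow_nonneg s I)]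
  exact mul_le_of_le_one_left (Chebotarev.normRpow_nonneg s I) (χ.norm_le_one _)

lemma idealTerm_mul (s : ℝ) (I I' : Ideal (𝓞 E)) :
    idealTerm χ s (I * I') = idealTerm χ s I * idealTerm χ s I' := by
  simp only [idealTerm, Chebotarev.normRpow_mul, map_mul, Nat.cast_mul, Complex.ofReal_mul]
  ring

lemma summable_idealTerm {s : ℝ} (hs : 1 < s) :
    Summable fun I : Ideal (𝓞 E) => idealTerm χ s I :=
  Summable.of_norm_bounded (Chebotarev.summable_normRpow hs) (norm_idealTerm_le χ s)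

/-- the value of `χ` at `-1` or `1` -/
def signA : ℂ := if inclDet J hJ < 0 then 1 else χ (-1)

def signB : ℂ := if inclDet J hJ < 0 then χ (-1) else 1

lemma norm_signA : ‖signA J hJ χ‖ ≤ 1 := by
  rw [signA]; split
  · simp
  · exact χ.norm_le_one _

lemma norm_signB : ‖signB J hJ χ‖ ≤ 1 := by
  rw [signB]; split
  · exact χ.norm_le_one _
  · simp

/-- The summand over `J` in two guises. -/
lemma weight_mul_idealTerm (a : J) {s : ℝ} (hs : 1 < s) :
    (weight (iota (a : 𝓞 E)) : ℂ) * idealTerm χ s (quotIdeal J a) =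
      (((absNorm J : ℝ) ^ s : ℝ) : ℂ) * (χ (relNormInt J hJ a : ZMod m) *
        latF (signA J hJ χ) (signB J hJ χ) s (iota (a : 𝓞 E))) := by
  by_cases hw : weight (iota (a : 𝓞 E)) = 0
  · simp [latF, hw]
  have hN : mixedEmbedding.norm (iota (a : 𝓞 E)) ≠ 0 := fun h => hw (by rw [weight, if_pos h])
  have hspan := span_eq_mul_quotIdeal J a
  set n := relNormInt J hJ a with hn
  have hI : absNorm (quotIdeal J a) = n.natAbs := absNorm_span_of_eq J hJ hspan
  have hnorm : mixedEmbedding.norm (iota (a : 𝓞 E)) = (absNorm J : ℝ) * n.natAbs := by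
    rw [mixedEmbedding.norm_eq_norm, ← Algebra.coe_norm_int (a : 𝓞 E), ← hI,
      ← Nat.cast_mul, ← map_mul, ← hspan, absNorm_span_singleton]
    push_cast [Nat.cast_natAbs]
    rfl
  have hn0 : n ≠ 0 := by
    intro h0
    apply hN
    simp [hnorm, h0]
  have hdet : detMul (iota (a : 𝓞 E)) = ((inclDet J hJ * n : ℤ) : ℝ) := by
    rw [detMul_mixedEmbedding, ← Algebra.coe_norm_int (a : 𝓞 E), norm_eq_inclDet_mul J hJ, hn]
    simp
  have hJpos : (0 : ℝ) < absNorm J :=
    Nat.cast_pos.mpr (Nat.pos_of_ne_zero fun h0 => hJ (absNorm_eq_zero_iff.mp h0))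
  have hpow : (absNorm J : ℝ) ^ s * mixedEmbedding.norm (iota (a : 𝓞 E)) ^ (-s) =
      normRpow s (quotIdeal J a) := by
    rw [hnorm, Real.mul_rpow hJpos.le (Nat.cast_nonneg _), ← mul_assoc, ← Real.rpow_add hJpos,
      add_neg_cancel, Real.rpow_zero, one_mul, normRpow, hI]
  have hd0 : inclDet J hJ ≠ 0 := by
    intro h0
    have := natAbs_inclDet J hJ
    rw [h0, Int.natAbs_zero] at this
    exact hJ (absNorm_eq_zero_iff.mp this.symm)
  have hchi : χ ((n : ZMod m)) * (if detMul (iota (a : 𝓞 E)) < 0 then signA J hJ χ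
      else signB J hJ χ) = χ ((n.natAbs : ℕ) : ZMod m) := by
    have hsq : χ (-1) * χ (-1) = 1 := by rw [← map_mul, neg_mul_neg, one_mul, map_one]
    have hcast : ((n.natAbs : ℕ) : ZMod m) = if n < 0 then -(n : ZMod m) else (n : ZMod m) := by
      rw [← Int.cast_natCast]
      split_ifs with h
      · rw [Int.ofNat_natAbs_of_nonpos h.le, Int.cast_neg]
      · rw [Int.natAbs_of_nonneg (not_lt.mp h)]
    rw [hdet, hcast]
    simp only [Int.cast_lt_zero, signA, signB]
    rcases lt_or_gt_of_ne hd0 with hd | hd <;> rcases lt_or_gt_of_ne hn0 with hn' | hn'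
    · rw [if_pos hn', if_neg (not_lt.mpr (mul_pos_of_neg_of_neg hd hn').le), if_pos hd,
        ← map_mul, mul_neg_one]
    · rw [if_neg (not_lt.mpr hn'.le), if_pos (mul_neg_of_neg_of_pos hd hn'), if_pos hd, mul_one]
    · rw [if_pos hn', if_pos (mul_neg_of_pos_of_neg hd hn'), if_neg (not_lt.mpr hd.le), ← map_mul,
        mul_neg_one]
    · rw [if_neg (not_lt.mpr hn'.le), if_neg (not_lt.mpr (mul_pos hd hn').le),
        if_neg (not_lt.mpr hd.le), mul_one]
  rw [idealTerm, latF, hI, ← hpow, ← hchi]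
  push_cast
  ring

set_option maxHeartbeats 1000000 in
include hJ in
/-- Comparison of one class with its part divisible by `P`. -/
theorem exists_class_bound {P : Ideal (𝓞 E)} (hP : Prime P) (hm : (m : 𝓞 E) ∉ P) :
    ∃ C : ℝ, ∀ s ∈ Set.Ioc (1 : ℝ) 2,
      ‖(∑' I : Ideal (𝓞 E), if InInvClass J I then idealTerm χ s I else 0) -
        (absNorm P : ℂ) * ∑' I : Ideal (𝓞 E),
          if InInvClass J I then (if P ∣ I then idealTerm χ s I else 0) else 0‖ ≤ C := by
  have hm0 : (span {(m : 𝓞 E)} : Ideal (𝓞 E)) ≠ ⊥ := by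
    simp [NeZero.ne m]
  set MI : Ideal (𝓞 E) := span {(m : 𝓞 E)} * J with hMI
  set DI : Ideal (𝓞 E) := P * J with hDI
  let incl : J →+ 𝓞 E := (Submodule.subtype J).toAddMonoidHom
  let MA : AddSubgroup J := AddSubgroup.comap incl MI.toAddSubgroup
  let DA : AddSubgroup J := AddSubgroup.comap incl DI.toAddSubgroup
  have hMI0 : MI ≠ ⊥ := mul_ne_zero hm0 hJ
  have hDI0 : DI ≠ ⊥ := mul_ne_zero hP.ne_zero hJ
  have hrange : incl.range = J.toAddSubgroup := by
    ext x
    exact ⟨fun ⟨a, ha⟩ => ha ▸ a.2, fun hx => ⟨⟨x, hx⟩, rfl⟩⟩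
  have hidx : ∀ I : Ideal (𝓞 E), I ≤ J → I ≠ ⊥ →
      (AddSubgroup.comap incl I.toAddSubgroup).index * absNorm J = absNorm I ∧
        (AddSubgroup.comap incl I.toAddSubgroup).index ≠ 0 := by
    intro I hle hI
    have h1 : I.toAddSubgroup.relIndex J.toAddSubgroup * J.toAddSubgroup.index =
        I.toAddSubgroup.index := AddSubgroup.relIndex_mul_index hle
    have h2 : ∀ K' : Ideal (𝓞 E), K'.toAddSubgroup.index = absNorm K' := fun K' => by
      rw [absNorm_apply, Submodule.cardQuot_apply]; rfl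
    rw [h2, h2] at h1
    rw [AddSubgroup.index_comap, hrange]
    refine ⟨h1, fun h0 => hI ?_⟩
    rw [h0, zero_mul] at h1
    exact absNorm_eq_zero_iff.mp h1.symm
  have : MA.FiniteIndex := ⟨(hidx MI Ideal.mul_le_right hMI0).2⟩
  have : DA.FiniteIndex := ⟨(hidx DI Ideal.mul_le_right hDI0).2⟩
  have hDidx : DA.index = absNorm P := by
    have h := (hidx DI Ideal.mul_le_right hDI0).1
    rw [hDI, map_mul] at h
    exact Nat.eq_of_mul_eq_mul_right
      (Nat.pos_of_ne_zero fun h0 => hJ (absNorm_eq_zero_iff.mp h0)) h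
  have hsup : MA ⊔ DA = ⊤ := by
    have hmax : P.IsMaximal := (isPrime_of_prime hP).isMaximal hP.ne_zero
    have hco : span {(m : 𝓞 E)} ⊔ P = ⊤ := by
      rw [sup_comm]
      refine hmax.1.2 _ (lt_of_le_of_ne le_sup_left fun h => hm ?_)
      rw [h]
      exact mem_sup_right (mem_span_singleton_self _)
    have hJeq : MI ⊔ DI = J := by rw [hMI, hDI, ← Ideal.sup_mul, hco, Ideal.top_mul]
    rw [eq_top_iff]
    intro a _
    obtain ⟨u, hu, v, hv, huv⟩ :=
      Submodule.mem_sup.mp ((hJeq.symm ▸ a.2 : (a : 𝓞 E) ∈ MI ⊔ DI))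
    exact AddSubgroup.mem_sup.mpr ⟨⟨u, Ideal.mul_le_right hu⟩, hu, ⟨v, Ideal.mul_le_right hv⟩, hv,
      Subtype.ext huv⟩
  let F : ℝ → J → ℂ := fun s a => latF (signA J hJ χ) (signB J hJ χ) s (iota (a : 𝓞 E))
  let φ : J → ℂ := fun a => χ (relNormInt J hJ a : ZMod m)
  have hφ : ∀ a b : J, b ∈ MA → φ (a + b) = φ a := by
    intro a b hb
    obtain ⟨z, hz, hz'⟩ := mem_span_singleton_mul.mp (hb : (b : 𝓞 E) ∈ MI)
    simp only [φ]
    rw [relNormInt_cast_congr J hJ (a := a + b) (b := a) (c := ⟨z, hz⟩)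
      (by rw [Submodule.coe_add]; exact congrArg _ hz'.symm)]
  have hne : MI ⊓ DI ≠ ⊥ := fun h =>
    mul_ne_zero hMI0 hDI0 (le_bot_iff.mp (h ▸ Ideal.mul_le_inf))
  let eN : (MA ⊓ DA : AddSubgroup J) ≃ ↥(MI ⊓ DI) :=
    { toFun := fun b => ⟨((b : J) : 𝓞 E), b.2.1, b.2.2⟩
      invFun := fun x => ⟨⟨x.1, Ideal.mul_le_right x.2.1⟩, x.2.1, x.2.2⟩
      left_inv := fun _ => rfl
      right_inv := fun _ => rfl }
  have hcmp : ∀ v : J, ∃ C : ℝ, ∀ s ∈ Set.Ioc (1 : ℝ) 2,
      ‖(∑' b : (MA ⊓ DA : AddSubgroup J), F s (v + b)) -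
        ∑' b : (MA ⊓ DA : AddSubgroup J), F s b‖ ≤ C := by
    intro v
    obtain ⟨C, hC⟩ := exists_latF_translate (MI ⊓ DI) hne (norm_signA J hJ χ) (norm_signB J hJ χ)
      (v : 𝓞 E)
    refine ⟨C, fun s hs => ?_⟩
    have h := hC s hs
    rw [← eN.tsum_eq, ← eN.tsum_eq] at h
    exact h
  obtain ⟨C, hC⟩ := exists_tsum_sub_index_mul MA DA hsup F (Set.Ioc (1 : ℝ) 2)
    (fun s hs => summable_latF_ideal J hJ (norm_signA J hJ χ) (norm_signB J hJ χ) hs) φ hφ hcmp
  refine ⟨(absNorm J : ℝ) ^ (2 : ℝ) / torsionOrder E * C, fun s hs => ?_⟩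
  have hJ1 : (1 : ℝ) ≤ absNorm J :=
    Nat.one_le_cast.mpr (Nat.pos_of_ne_zero fun h0 => hJ (absNorm_eq_zero_iff.mp h0))
  have hFs := summable_latF_ideal J hJ (norm_signA J hJ χ) (norm_signB J hJ χ) hs
  have hφ1 : ∀ a, ‖φ a‖ ≤ 1 := fun a => χ.norm_le_one _
  have hsψ : ∀ ψ : J → ℂ, (∀ a, ‖ψ a‖ ≤ 1) →
      Summable fun a : J => (((absNorm J : ℝ) ^ s : ℝ) : ℂ) * (ψ a * F s a) := by
    intro ψ hψ
    have h0 : Summable fun a : J => ψ a * F s a :=
      Summable.of_norm_bounded (f := fun a : J => ψ a * F s a) hFs.norm fun a => by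
        rw [norm_mul]
        exact mul_le_of_le_one_left (norm_nonneg _) (hψ a)
    exact h0.mul_left _
  have hterm : ∀ a : J, (weight (iota (a : 𝓞 E)) : ℂ) * idealTerm χ s (quotIdeal J a) =
      (((absNorm J : ℝ) ^ s : ℝ) : ℂ) * (φ a * F s a) := fun a =>
    weight_mul_idealTerm J hJ χ a hs.1
  have e1 := tsum_weight_mul J hJ (idealTerm χ s) ((hsψ φ hφ1).congr fun a => (hterm a).symm)
  have hdiv : ∀ a : J, (weight (iota (a : 𝓞 E)) : ℂ) *
      (if P ∣ quotIdeal J a then idealTerm χ s (quotIdeal J a) else 0) =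
      (((absNorm J : ℝ) ^ s : ℝ) : ℂ) * ((if a ∈ DA then φ a else 0) * F s a) := by
    intro a
    have hiff : a ∈ DA ↔ P ∣ quotIdeal J a := by
      change (a : 𝓞 E) ∈ DI ↔ _
      rw [← span_singleton_le_iff_mem, ← dvd_iff_le, span_eq_mul_quotIdeal J a, hDI, mul_comm P J]
      exact mul_dvd_mul_iff_left hJ
    rw [if_congr hiff rfl rfl]
    split_ifs
    · exact hterm a
    · simp
  have e2 := tsum_weight_mul J hJ (fun I => if P ∣ I then idealTerm χ s I else 0)
    ((hsψ (fun a => if a ∈ DA then φ a else 0) fun a => by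
      split_ifs
      · exact hφ1 a
      · simp).congr fun a => (hdiv a).symm)
  rw [tsum_congr hterm, tsum_mul_left] at e1
  rw [tsum_congr hdiv, tsum_mul_left] at e2
  have hw : (torsionOrder E : ℂ) ≠ 0 := Nat.cast_ne_zero.mpr (torsionOrder_ne_zero E)
  have h := hC s hs
  rw [hDidx] at h
  set T := ∑' a, φ a * F s a
  set D := ∑' a, (if a ∈ DA then φ a else 0) * F s a
  set K : ℂ := (((absNorm J : ℝ) ^ s : ℝ) : ℂ) with hK
  have e1' : (∑' I : Ideal (𝓞 E), if InInvClass J I then idealTerm χ s I else 0) =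
      K * T / torsionOrder E := by
    rw [eq_div_iff hw, mul_comm _ (torsionOrder E : ℂ)]; exact e1.symm
  have e2' : (∑' I : Ideal (𝓞 E), if InInvClass J I then
      (if P ∣ I then idealTerm χ s I else 0) else 0) = K * D / torsionOrder E := by
    rw [eq_div_iff hw, mul_comm _ (torsionOrder E : ℂ)]; exact e2.symm
  rw [e1', e2', show K * T / (torsionOrder E : ℂ) - (absNorm P : ℂ) * (K * D / torsionOrder E) =
      K / torsionOrder E * (T - (absNorm P : ℂ) * D) by ring, norm_mul, norm_div, hK,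
    Complex.norm_real, Real.norm_eq_abs, abs_of_nonneg (Real.rpow_nonneg (Nat.cast_nonneg _) _),
    Complex.norm_natCast]
  exact mul_le_mul
    (div_le_div_of_nonneg_right (Real.rpow_le_rpow_of_exponent_le hJ1 hs.2) (Nat.cast_nonneg _))
    h (norm_nonneg _) (by positivity)

/-- **Boundedness of the L-series.** -/
theorem exists_norm_LSum_le {P : Ideal (𝓞 E)} (hP : Prime P) (hm : (m : 𝓞 E) ∉ P)
    (hχ : χ (absNorm P : ZMod m) ≠ 1) :
    ∃ C : ℝ, ∀ᶠ s in 𝓝[>] (1 : ℝ), ‖∑' I : Ideal (𝓞 E), idealTerm χ s I‖ ≤ C := by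
  have hrep : ∀ c : ClassGroup (𝓞 E), ∃ J : (Ideal (𝓞 E))⁰, ClassGroup.mk0 J = c⁻¹ :=
    fun c => ClassGroup.mk0_surjective _
  choose Jc hJc using hrep
  have hJ0 : ∀ c, (Jc c : Ideal (𝓞 E)) ≠ ⊥ := fun c => nonZeroDivisors.coe_ne_zero _
  choose C hC using fun c => exists_class_bound (Jc c : Ideal (𝓞 E)) (hJ0 c) χ hP hm
  let _ : Fintype (ClassGroup (𝓞 E)) := Fintype.ofFinite _
  have hone : ∀ (s : ℝ) (hs : 1 < s) (G : Ideal (𝓞 E) → ℂ), G ⊥ = 0 →
      (∀ I, ‖G I‖ ≤ normRpow s I) →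
      ∑' I, G I = ∑ c : ClassGroup (𝓞 E), ∑' I, if InInvClass (Jc c : Ideal (𝓞 E)) I then G I
        else 0 := by
    intro s hs G hG0 hG
    rw [← Summable.tsum_finsetSum fun c _ => Summable.of_norm_bounded
      (Chebotarev.summable_normRpow hs) fun I => ?_]
    · refine tsum_congr fun I => ?_
      rcases eq_or_ne I ⊥ with rfl | hI
      · simp [hG0]
      have hmem : I ∈ (Ideal (𝓞 E))⁰ := mem_nonZeroDivisors_of_ne_zero hI
      have hiff : ∀ c, InInvClass (Jc c : Ideal (𝓞 E)) I ↔ c = ClassGroup.mk0 ⟨I, hmem⟩ := by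
        intro c
        simp only [InInvClass, ne_eq, hI, not_false_eq_true, true_and]
        rw [← ClassGroup.mk0_eq_one_iff (mul_mem (Jc c).2 hmem),
          show (⟨(Jc c : Ideal (𝓞 E)) * I, mul_mem (Jc c).2 hmem⟩ : (Ideal (𝓞 E))⁰) =
            Jc c * ⟨I, hmem⟩ from rfl, map_mul, hJc, inv_mul_eq_one]
      rw [Finset.sum_congr rfl fun c _ => if_congr (hiff c) rfl rfl, Finset.sum_ite_eq',
        if_pos (Finset.mem_univ _)]
    · split_ifs
      · exact hG I
      · simpa using Chebotarev.normRpow_nonneg s I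
  set k : ℂ := (absNorm P : ℂ)
  have hlim : Tendsto (fun s : ℝ => k * idealTerm χ s P) (𝓝[>] 1) (𝓝 (χ (absNorm P : ZMod m))) := by
    have hNP : (0 : ℝ) < absNorm P := by
      have := Chebotarev.two_le_absNorm hP
      exact_mod_cast (by omega : 0 < absNorm P)
    have h1 : Tendsto (fun s : ℝ => (absNorm P : ℝ) ^ (-s)) (𝓝[>] 1)
        (𝓝 ((absNorm P : ℝ) ^ (-(1 : ℝ)))) :=
      (((Real.continuous_const_rpow hNP.ne').comp continuous_neg).tendsto 1).mono_left
        nhdsWithin_le_nhds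
    have h2 := ((Complex.continuous_ofReal.tendsto _).comp h1).const_mul
      (k * χ (absNorm P : ZMod m))
    convert h2 using 1
    · funext s
      simp only [idealTerm, normRpow, Function.comp_apply]
      ring
    · rw [Real.rpow_neg_one]
      push_cast
      have : (absNorm P : ℂ) ≠ 0 := Nat.cast_ne_zero.mpr (by exact_mod_cast hNP.ne')
      simp only [k]
      field_simp
  set δ : ℝ := ‖1 - χ (absNorm P : ZMod m)‖ / 2 with hδ
  have hδ0 : 0 < δ := half_pos (norm_pos_iff.mpr (sub_ne_zero.mpr (Ne.symm hχ)))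
  refine ⟨(∑ c, C c) / δ, ?_⟩
  have hnear : ∀ᶠ s in 𝓝[>] (1 : ℝ), δ ≤ ‖1 - k * idealTerm χ s P‖ :=
    ((tendsto_const_nhds.sub hlim).norm).eventually_const_le (by linarith)
  filter_upwards [hnear, Ioo_mem_nhdsGT (show (1 : ℝ) < 2 by norm_num)] with s hnr hs
  have hs1 : 1 < s := hs.1
  have hs2 : s ∈ Set.Ioc (1 : ℝ) 2 := ⟨hs.1, hs.2.le⟩
  set L := ∑' I : Ideal (𝓞 E), idealTerm χ s I with hL
  have hbot : idealTerm χ s (⊥ : Ideal (𝓞 E)) = 0 := by
    have : normRpow s (⊥ : Ideal (𝓞 E)) = 0 := Chebotarev.normRpow_zero (by linarith)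
    simp [idealTerm, this]
  have hLdiv : ∑' I : Ideal (𝓞 E), (if P ∣ I then idealTerm χ s I else 0) =
      idealTerm χ s P * L := by
    rw [hL, ← tsum_mul_left, ← (mul_right_injective₀ hP.ne_zero).tsum_eq
      (f := fun I => if P ∣ I then idealTerm χ s I else 0) (g := fun I => P * I)]
    · exact tsum_congr fun I => by simp [idealTerm_mul]
    · intro I hI
      by_contra hr
      apply hI
      refine if_neg fun ⟨I', hI'⟩ => hr ⟨I', hI'.symm⟩
  have h1 := hone s hs1 (idealTerm χ s) hbot (norm_idealTerm_le χ s)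
  have h2 := hone s hs1 (fun I => if P ∣ I then idealTerm χ s I else 0) (by simp [hbot]) fun I => by
    split_ifs
    · exact norm_idealTerm_le χ s I
    · simpa using Chebotarev.normRpow_nonneg s I
  rw [← hL] at h1
  rw [hLdiv] at h2
  have hkey : ‖(1 - k * idealTerm χ s P) * L‖ ≤ ∑ c, C c := by
    rw [sub_mul, one_mul, mul_assoc, h2, Finset.mul_sum]
    nth_rw 1 [h1]
    rw [← Finset.sum_sub_distrib]
    exact (norm_sum_le _ _).trans (Finset.sum_le_sum fun c _ => hC c s hs2)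
  rw [le_div_iff₀ hδ0]
  calc ‖L‖ * δ ≤ ‖L‖ * ‖1 - k * idealTerm χ s P‖ :=
        mul_le_mul_of_nonneg_left hnr (norm_nonneg _)
    _ ≤ _ := by rw [mul_comm, ← norm_mul]; exact hkey

end FLTAgent.DS
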