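import Mathlib.NumberTheory.NumberField.CanonicalEmbedding.FundamentalCone
import Mathlib.Algebra.Module.ZLattice.Summable
import Mathlib.Analysis.SpecialFunctions.Pow.Real
import Mathlib.Algebra.Group.Pi.Units

/-!
A smooth homogeneous fundamental weight for the units of a number field, and the comparison
of the sums of `|N x| ^ (-s)` times this weight over two translates of one lattice.
-/

set_option autoImplicit false

noncomputable section

namespace FLTAgent.DS

open NumberField NumberField.InfinitePlace NumberField.Units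
  NumberField.Units.dirichletUnitTheorem Module
open mixedEmbedding (normAtPlace logMap)
open scoped Classical

/-! ### The tent function -/

def tent (t : ℝ) : ℝ := max 0 (1 - |t|)

lemma tent_nonneg (t : ℝ) : 0 ≤ tent t := le_max_left _ _

lemma tent_le_one (t : ℝ) : tent t ≤ 1 := max_le zero_le_one (by linarith [abs_nonneg t])

lemma abs_tent_sub_le (a b : ℝ) : |tent a - tent b| ≤ |a - b| := by
  refine (abs_max_sub_max_le_max 0 (1 - |a|) 0 (1 - |b|)).trans ?_
  rw [sub_self, abs_zero, max_eq_right (abs_nonneg _)]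
  rw [show 1 - |a| - (1 - |b|) = |b| - |a| by ring, abs_sub_comm]
  exact abs_abs_sub_abs_le_abs_sub a b

lemma abs_lt_one_of_tent_ne_zero {t : ℝ} (h : tent t ≠ 0) : |t| < 1 := by
  by_contra hc
  exact h (max_eq_left (by linarith))

lemma sum_tent (t : ℝ) :
    tent (t + ((-⌊t⌋ : ℤ) : ℝ)) + tent (t + ((-⌊t⌋ - 1 : ℤ) : ℝ)) = 1 := by
  have h0 := Int.fract_nonneg t
  have h1 := (Int.fract_lt_one t).le
  have e : t = Int.fract t + ⌊t⌋ := (Int.fract_add_floor t).symm
  have a : t + ((-⌊t⌋ : ℤ) : ℝ) = Int.fract t := by push_cast; linarith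
  have b : t + ((-⌊t⌋ - 1 : ℤ) : ℝ) = Int.fract t - 1 := by push_cast; linarith
  rw [a, b, tent, tent, abs_of_nonneg h0, abs_of_nonpos (by linarith), max_eq_right (by linarith),
    max_eq_right (by linarith)]
  ring

lemma tent_add_eq_zero {t : ℝ} {n : ℤ} (h1 : n ≠ -⌊t⌋) (h2 : n ≠ -⌊t⌋ - 1) :
    tent (t + n) = 0 := by
  by_contra hc
  obtain ⟨ha, hb⟩ := abs_lt.mp (abs_lt_one_of_tent_ne_zero hc)
  rcases lt_or_gt_of_ne h1 with h | h
  · have h' : n ≤ -⌊t⌋ - 2 := by omega
    have : (n : ℝ) ≤ -(⌊t⌋ : ℝ) - 2 := by exact_mod_cast h'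
    linarith [Int.lt_floor_add_one t]
  · have : -(⌊t⌋ : ℝ) + 1 ≤ n := by exact_mod_cast h
    linarith [Int.floor_le t]

lemma hasSum_prod_tent {ι : Type*} [Fintype ι] [DecidableEq ι] (t : ι → ℝ) :
    HasSum (fun e : ι → ℤ => ∏ i, tent (t i + e i)) 1 := by
  classical
  let F : ι → Finset ℤ := fun i => {-⌊t i⌋, -⌊t i⌋ - 1}
  have h : ∑ e ∈ Fintype.piFinset F, ∏ i, tent (t i + e i) = 1 := by
    rw [← Finset.prod_univ_sum F fun i n => tent (t i + (n : ℤ))]
    refine Finset.prod_eq_one fun i _ => ?_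
    rw [Finset.sum_insert (by simp only [Finset.mem_singleton]; omega), Finset.sum_singleton]
    exact sum_tent (t i)
  have h' := hasSum_sum_of_ne_finset_zero (s := Fintype.piFinset F)
    (f := fun e : ι → ℤ => ∏ i, tent (t i + e i)) (L := SummationFilter.unconditional _) ?_
  · rwa [h] at h'
  · intro e he
    simp only [Fintype.mem_piFinset, not_forall] at he
    obtain ⟨i, hi⟩ := he
    simp only [F, Finset.mem_insert, Finset.mem_singleton, not_or] at hi
    exact Finset.prod_eq_zero (Finset.mem_univ i) (tent_add_eq_zero hi.1 hi.2)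

lemma abs_prod_sub_prod_le {ι : Type*} (F : Finset ι) (a b : ι → ℝ) (ha : ∀ i, a i ∈ Set.Icc (0:ℝ) 1)
    (hb : ∀ i, b i ∈ Set.Icc (0:ℝ) 1) :
    |∏ i ∈ F, a i - ∏ i ∈ F, b i| ≤ ∑ i ∈ F, |a i - b i| := by
  classical
  induction F using Finset.induction with
  | empty => simp
  | insert i F hi ih =>
    rw [Finset.prod_insert hi, Finset.prod_insert hi, Finset.sum_insert hi]
    have hA : |∏ j ∈ F, a j| ≤ 1 := by
      rw [Finset.abs_prod]
      exact Finset.prod_le_one (fun j _ => abs_nonneg _)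
        (fun j _ => by rw [abs_of_nonneg (ha j).1]; exact (ha j).2)
    calc |a i * ∏ j ∈ F, a j - b i * ∏ j ∈ F, b j|
        = |(a i - b i) * ∏ j ∈ F, a j + b i * (∏ j ∈ F, a j - ∏ j ∈ F, b j)| := by ring_nf
      _ ≤ |a i - b i| * |∏ j ∈ F, a j| + |b i| * |∏ j ∈ F, a j - ∏ j ∈ F, b j| := by
          refine (abs_add_le _ _).trans ?_
          rw [abs_mul, abs_mul]
      _ ≤ |a i - b i| * 1 + 1 * ∑ j ∈ F, |a j - b j| := by
          refine add_le_add (mul_le_mul_of_nonneg_left hA (abs_nonneg _))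
            (mul_le_mul ?_ ih (abs_nonneg _) zero_le_one)
          rw [abs_of_nonneg (hb i).1]; exact (hb i).2
      _ = _ := by ring

lemma abs_exp_sub_exp_le {u v M : ℝ} (hu : u ≤ M) (hv : v ≤ M) :
    |Real.exp u - Real.exp v| ≤ Real.exp M * |u - v| := by
  wlog h : v ≤ u generalizing u v with H
  · rw [abs_sub_comm, abs_sub_comm u]
    exact H hv hu (le_of_not_ge h)
  rw [abs_of_nonneg (sub_nonneg.mpr (Real.exp_le_exp.mpr h)), abs_of_nonneg (sub_nonneg.mpr h)]
  have h1 := Real.add_one_le_exp (v - u)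
  have h2 : Real.exp u - Real.exp v ≤ Real.exp u * (u - v) := by
    have e : Real.exp v = Real.exp u * Real.exp (v - u) := by rw [← Real.exp_add]; ring_nf
    rw [e]
    nlinarith [Real.exp_pos u]
  exact h2.trans (mul_le_mul_of_nonneg_right (Real.exp_le_exp.mpr hu) (sub_nonneg.mpr h))

/-! ### The weight -/

variable (K : Type*) [Field K] [NumberField K]

open scoped Classical in
/-- the basis of the log space given by a fundamental system of units -/
def logBasis : Basis (Fin (rank K)) ℝ (logSpace K) :=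
  (basisUnitLattice K).ofZLatticeBasis ℝ _

variable {K}

def unitCoord (x : mixedEmbedding.mixedSpace K) (i : Fin (rank K)) : ℝ :=
  (logBasis K).repr (logMap x) i

open scoped Classical in
/-- homogeneous partition of unity for the action of the units -/
def weight (x : mixedEmbedding.mixedSpace K) : ℝ :=
  if mixedEmbedding.norm x = 0 then 0 else ∏ i, tent (unitCoord x i)

lemma weight_nonneg (x : mixedEmbedding.mixedSpace K) : 0 ≤ weight x := by
  rw [weight]; split
  · exact le_rfl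
  · exact Finset.prod_nonneg fun i _ => tent_nonneg _

lemma weight_le_one (x : mixedEmbedding.mixedSpace K) : weight x ≤ 1 := by
  rw [weight]; split
  · exact zero_le_one
  · exact Finset.prod_le_one (fun i _ => tent_nonneg _) (fun i _ => tent_le_one _)

lemma unitCoord_smul (u : (𝓞 K)ˣ) {x : mixedEmbedding.mixedSpace K}
    (hx : mixedEmbedding.norm x ≠ 0) (ζ : torsion K) (e : Fin (rank K) → ℤ)
    (hu : u = (ζ : (𝓞 K)ˣ) * ∏ i, fundSystem K i ^ e i) (i : Fin (rank K)) :
    unitCoord (u • x) i = unitCoord x i + e i := by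
  classical
  have h0 : logEmbedding K (Additive.ofMul (ζ : (𝓞 K)ˣ)) = 0 :=
    logEmbedding_eq_zero_iff.mpr ζ.2
  have h1 : logEmbedding K (Additive.ofMul u) = ∑ j, (e j : ℝ) • logBasis K j := by
    rw [hu, ofMul_mul, map_add, h0, zero_add, ofMul_prod, map_sum]
    refine Finset.sum_congr rfl fun j _ => ?_
    rw [ofMul_zpow, map_zsmul, logEmbedding_fundSystem, logBasis, Basis.ofZLatticeBasis_apply,
      Int.cast_smul_eq_zsmul]
  rw [unitCoord, mixedEmbedding.logMap_unit_smul u hx, h1, map_add, Finsupp.add_apply,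
    Basis.repr_sum_self, unitCoord, add_comm]

lemma hasSum_weight_smul {x : mixedEmbedding.mixedSpace K} (hx : mixedEmbedding.norm x ≠ 0) :
    HasSum (fun u : (𝓞 K)ˣ => weight (u • x)) (torsionOrder K : ℝ) := by
  classical
  let g : torsion K × (Fin (rank K) → ℤ) → (𝓞 K)ˣ :=
    fun ze => (ze.1 : (𝓞 K)ˣ) * ∏ i, fundSystem K i ^ ze.2 i
  have hg : Function.Bijective g := by
    constructor
    · intro a b hab
      exact (exist_unique_eq_mul_prod K (g a)).unique rfl hab
    · intro u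
      obtain ⟨ze, hze, -⟩ := exist_unique_eq_mul_prod K u
      exact ⟨ze, hze.symm⟩
  refine ((Equiv.ofBijective g hg).hasSum_iff).mp ?_
  have hrw : (fun u : (𝓞 K)ˣ => weight (u • x)) ∘ (Equiv.ofBijective g hg) =
      fun ze => ∏ i, tent (unitCoord x i + ze.2 i) := by
    funext ze
    simp only [Function.comp_apply, Equiv.ofBijective_apply, weight, mixedEmbedding.norm_unit_smul,
      if_neg hx]
    exact Finset.prod_congr rfl fun i _ => by rw [unitCoord_smul (g ze) hx ze.1 ze.2 rfl i]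
  rw [hrw]
  have h1 := hasSum_prod_tent (unitCoord x)
  have hsum : Summable fun ze : torsion K × (Fin (rank K) → ℤ) =>
      ∏ i, tent (unitCoord x i + ze.2 i) := by
    refine (summable_prod_of_nonneg ?_).mpr ⟨fun _ => h1.summable, Summable.of_finite⟩
    exact fun ze => Finset.prod_nonneg fun i _ => tent_nonneg _
  convert hsum.hasSum using 1
  let _ := Fintype.ofFinite (torsion K)
  rw [hsum.tsum_prod, tsum_congr fun _ => h1.tsum_eq, tsum_fintype, Finset.sum_const,
    nsmul_eq_mul, mul_one, Finset.card_univ, torsionOrder, Nat.card_eq_fintype_card]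

lemma normAtPlace_le_norm (w : InfinitePlace K) (x : mixedEmbedding.mixedSpace K) :
    normAtPlace w x ≤ ‖x‖ := by
  rw [mixedEmbedding.norm_eq_sup'_normAtPlace]
  exact Finset.le_sup' (fun w => normAtPlace w x) (Finset.mem_univ w)

lemma sub_norm_le_normAtPlace (w : InfinitePlace K) (x y : mixedEmbedding.mixedSpace K) :
    normAtPlace w x - ‖y‖ ≤ normAtPlace w (x + y) := by
  have h := mixedEmbedding.normAtPlace_add_le w (x + y) (-y)
  rw [add_neg_cancel_right, mixedEmbedding.normAtPlace_neg] at h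
  linarith [normAtPlace_le_norm w y]

lemma abs_normAtPlace_sub_le (w : InfinitePlace K) (x y : mixedEmbedding.mixedSpace K) :
    |normAtPlace w (x + y) - normAtPlace w x| ≤ ‖y‖ := by
  rw [abs_le]
  constructor
  · linarith [sub_norm_le_normAtPlace w x y]
  · linarith [mixedEmbedding.normAtPlace_add_le w x y, normAtPlace_le_norm w y]

variable (K) in
/-- the support of the weight is a cone away from the norm zero set -/
lemma exists_cone : ∃ c : ℝ, 0 < c ∧ c ≤ 1 ∧ ∀ x : mixedEmbedding.mixedSpace K, weight x ≠ 0 →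
    ∀ w, c * ‖x‖ ≤ normAtPlace w x := by
  classical
  set B : ℝ := ∑ i, ‖logBasis K i‖
  have hB : 0 ≤ B := Finset.sum_nonneg fun i _ => norm_nonneg _
  set B1 : ℝ := B * (1 + Fintype.card (InfinitePlace K))
  refine ⟨Real.exp (-(2 * B1)), Real.exp_pos _, Real.exp_le_one_iff.mpr ?_, fun x hx w => ?_⟩
  · have : 0 ≤ B1 := mul_nonneg hB (by positivity)
    linarith
  have hN : mixedEmbedding.norm x ≠ 0 := fun h => hx (by rw [weight, if_pos h])
  rw [weight, if_neg hN, Finset.prod_ne_zero_iff] at hx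
  have hlog : ‖logMap x‖ ≤ B := by
    conv_lhs => rw [← (logBasis K).sum_repr (logMap x)]
    refine (norm_sum_le _ _).trans (Finset.sum_le_sum fun i hi => ?_)
    rw [norm_smul, Real.norm_eq_abs]
    exact mul_le_of_le_one_left (norm_nonneg _) (abs_lt_one_of_tent_ne_zero (hx i hi)).le
  set L : ℝ := Real.log (mixedEmbedding.norm x) * (finrank ℚ K : ℝ)⁻¹ with hL
  have hpos : ∀ v, 0 < normAtPlace v x := fun v =>
    lt_of_le_of_ne (mixedEmbedding.normAtPlace_nonneg v x)
      (mixedEmbedding.norm_ne_zero_iff.mp hN v).symm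
  have hsum : ∑ v : InfinitePlace K, (mult v : ℝ) * (Real.log (normAtPlace v x) - L) = 0 := by
    simp_rw [mul_sub]
    rw [Finset.sum_sub_distrib, ← Finset.sum_mul, ← Nat.cast_sum, sum_mult_eq, hL]
    have : ∑ v : InfinitePlace K, (mult v : ℝ) * Real.log (normAtPlace v x) =
        Real.log (mixedEmbedding.norm x) := by
      rw [mixedEmbedding.norm_apply, Real.log_prod fun v _ => pow_ne_zero _ (hpos v).ne']
      simp [Real.log_pow]
    rw [this]
    have : (finrank ℚ K : ℝ) ≠ 0 := Nat.cast_ne_zero.mpr finrank_pos.ne'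
    field_simp
    ring
  have hne : ∀ v, v ≠ w₀ → |(mult v : ℝ) * (Real.log (normAtPlace v x) - L)| ≤ B := fun v hv => by
    have := (norm_le_pi_norm (logMap x) ⟨v, hv⟩).trans hlog
    rwa [mixedEmbedding.logMap_apply, Real.norm_eq_abs, ← hL] at this
  have hall : ∀ v, |(mult v : ℝ) * (Real.log (normAtPlace v x) - L)| ≤ B1 := by
    intro v
    rcases eq_or_ne v w₀ with rfl | hv
    · rw [← Finset.add_sum_erase _ _ (Finset.mem_univ (w₀ (K := K)))] at hsum
      rw [eq_neg_of_add_eq_zero_left hsum, abs_neg]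
      refine (Finset.abs_sum_le_sum_abs _ _).trans ?_
      refine (Finset.sum_le_card_nsmul _ _ B fun v hv => hne v (Finset.ne_of_mem_erase hv)).trans ?_
      rw [nsmul_eq_mul, mul_comm]
      refine mul_le_mul_of_nonneg_left ?_ hB
      have : ((Finset.univ.erase (w₀ (K := K))).card : ℝ) ≤ Fintype.card (InfinitePlace K) := by
        exact_mod_cast Finset.card_erase_le
      linarith
    · exact (hne v hv).trans (le_mul_of_one_le_right hB (le_add_of_nonneg_right (Nat.cast_nonneg _)))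
  have hdev : ∀ v, |Real.log (normAtPlace v x) - L| ≤ B1 := fun v => by
    refine le_trans ?_ (hall v)
    rw [abs_mul, abs_of_nonneg (Nat.cast_nonneg (mult v) : (0:ℝ) ≤ mult v)]
    exact le_mul_of_one_le_left (abs_nonneg _) one_le_mult
  obtain ⟨v, -, hv⟩ := Finset.exists_mem_eq_sup' (Finset.univ_nonempty (α := InfinitePlace K))
    fun v => normAtPlace v x
  rw [mixedEmbedding.norm_eq_sup'_normAtPlace, hv, ← Real.exp_log (hpos v),
    ← Real.exp_log (hpos w), ← Real.exp_add, Real.exp_le_exp]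
  linarith [(abs_le.mp (hdev v)).2, (abs_le.mp (hdev w)).1]

/-! ### Sign of the norm -/

/-- determinant of multiplication by `x` on the mixed space -/
def detMul (x : mixedEmbedding.mixedSpace K) : ℝ := LinearMap.det (LinearMap.mulLeft ℝ x)

lemma detMul_mixedEmbedding (a : K) :
    detMul (mixedEmbedding K a) = (Algebra.norm ℚ a : ℝ) := by
  classical
  rw [detMul, ← LinearMap.det_toMatrix (mixedEmbedding.latticeBasis K),
    Algebra.norm_eq_matrix_det (integralBasis K), ← eq_ratCast (algebraMap ℚ ℝ),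
    RingHom.map_det]
  congr 1
  ext i j
  rw [LinearMap.toMatrix_apply, LinearMap.mulLeft_apply, mixedEmbedding.latticeBasis_apply,
    ← map_mul, RingHom.mapMatrix_apply, Matrix.map_apply, Algebra.leftMulMatrix_eq_repr_mul,
    mixedEmbedding.latticeBasis_repr_apply, eq_ratCast]

lemma continuous_detMul : Continuous (detMul (K := K)) := by
  classical
  let b := mixedEmbedding.latticeBasis K
  have h : detMul (K := K) =
      fun x => (LinearMap.toMatrix b b (LinearMap.mulLeft ℝ x)).det :=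
    funext fun x => (LinearMap.det_toMatrix b _).symm
  rw [h]
  refine Continuous.matrix_det (continuous_matrix fun i j => ?_)
  simp only [LinearMap.toMatrix_apply, LinearMap.mulLeft_apply]
  exact (b.coord i).continuous_of_finiteDimensional.comp (continuous_id.mul continuous_const)

lemma isUnit_of_normAtPlace_pos {x : mixedEmbedding.mixedSpace K}
    (h : ∀ w, 0 < normAtPlace w x) : IsUnit x := by
  rw [Prod.isUnit_iff]
  constructor <;> refine Pi.isUnit_iff.mpr fun w => isUnit_iff_ne_zero.mpr fun h0 => ?_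
  · have := h w.1
    rw [mixedEmbedding.normAtPlace_apply_of_isReal w.2] at this
    simp [h0] at this
  · have := h w.1
    rw [mixedEmbedding.normAtPlace_apply_of_isComplex w.2] at this
    simp [h0] at this

lemma detMul_ne_zero {x : mixedEmbedding.mixedSpace K} (h : ∀ w, 0 < normAtPlace w x) :
    detMul x ≠ 0 := by
  obtain ⟨u, rfl⟩ := isUnit_of_normAtPlace_pos h
  intro h0
  have h1 : LinearMap.mulLeft ℝ (u : mixedEmbedding.mixedSpace K) *
      LinearMap.mulLeft ℝ ((u⁻¹ : (mixedEmbedding.mixedSpace K)ˣ) : mixedEmbedding.mixedSpace K)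
        = 1 := by
    apply LinearMap.ext
    intro y
    simp [LinearMap.mulLeft_apply]
  have h2 := congrArg LinearMap.det h1
  rw [map_mul, map_one] at h2
  rw [show LinearMap.det (LinearMap.mulLeft ℝ (u : mixedEmbedding.mixedSpace K)) = 0 from h0,
    zero_mul] at h2
  exact zero_ne_one h2

lemma detMul_neg_iff {x h : mixedEmbedding.mixedSpace K}
    (hpos : ∀ t ∈ Set.Icc (0 : ℝ) 1, ∀ w, 0 < normAtPlace w (x + t • h)) :
    detMul (x + h) < 0 ↔ detMul x < 0 := by
  have hc : ContinuousOn (fun t : ℝ => detMul (x + t • h)) (Set.Icc 0 1) :=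
    (continuous_detMul.comp (by fun_prop)).continuousOn
  have hne : ∀ t ∈ Set.Icc (0 : ℝ) 1, detMul (x + t • h) ≠ 0 := fun t ht =>
    detMul_ne_zero (hpos t ht)
  have h0 : detMul (x + (0 : ℝ) • h) = detMul x := by simp
  have h1 : detMul (x + (1 : ℝ) • h) = detMul (x + h) := by simp
  constructor <;> intro hh <;> by_contra hc'
  · have h00 : 0 < detMul x := lt_of_le_of_ne (not_lt.mp hc')
      (h0 ▸ hne 0 (by simp)).symm
    obtain ⟨t, ht, ht0⟩ := intermediate_value_Icc' zero_le_one hc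
      (show (0 : ℝ) ∈ Set.Icc (detMul (x + (1:ℝ) • h)) (detMul (x + (0:ℝ) • h)) from
        ⟨by rw [h1]; exact hh.le, by rw [h0]; exact h00.le⟩)
    exact hne t ht ht0
  · have h00 : 0 < detMul (x + h) := lt_of_le_of_ne (not_lt.mp hc')
      (h1 ▸ hne 1 (by simp)).symm
    obtain ⟨t, ht, ht0⟩ := intermediate_value_Icc zero_le_one hc
      (show (0 : ℝ) ∈ Set.Icc (detMul (x + (0:ℝ) • h)) (detMul (x + (1:ℝ) • h)) from
        ⟨by rw [h0]; exact hh.le, by rw [h1]; exact h00.le⟩)
    exact hne t ht ht0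

/-! ### The summand -/

open scoped Classical in
/-- `|N x| ^ (-s)` times the weight, times a constant depending on the sign of the norm -/
def latF (a b : ℂ) (s : ℝ) (x : mixedEmbedding.mixedSpace K) : ℂ :=
  ((mixedEmbedding.norm x ^ (-s) * weight x : ℝ) : ℂ) * (if detMul x < 0 then a else b)

lemma norm_ite_le {a b : ℂ} (ha : ‖a‖ ≤ 1) (hb : ‖b‖ ≤ 1) (P : Prop) [Decidable P] :
    ‖if P then a else b‖ ≤ 1 := by
  split <;> assumption

lemma norm_latF_le {a b : ℂ} (ha : ‖a‖ ≤ 1) (hb : ‖b‖ ≤ 1) (s : ℝ)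
    (x : mixedEmbedding.mixedSpace K) :
    ‖latF a b s x‖ ≤ mixedEmbedding.norm x ^ (-s) * weight x := by
  classical
  rw [latF, norm_mul, Complex.norm_real, Real.norm_eq_abs,
    abs_of_nonneg (mul_nonneg (Real.rpow_nonneg (mixedEmbedding.norm_nonneg _) _) (weight_nonneg x))]
  exact mul_le_of_le_one_right
    (mul_nonneg (Real.rpow_nonneg (mixedEmbedding.norm_nonneg _) _) (weight_nonneg x))
    (norm_ite_le ha hb _)

lemma pow_le_norm {x : mixedEmbedding.mixedSpace K} {m : ℝ} (hm : 0 ≤ m)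
    (h : ∀ w, m ≤ normAtPlace w x) : m ^ finrank ℚ K ≤ mixedEmbedding.norm x := by
  rw [mixedEmbedding.norm_apply, ← sum_mult_eq, ← Finset.prod_pow_eq_pow_sum]
  exact Finset.prod_le_prod (fun w _ => pow_nonneg hm _) fun w _ => pow_le_pow_left₀ hm (h w) _

lemma latF_bound {a b : ℂ} (ha : ‖a‖ ≤ 1) (hb : ‖b‖ ≤ 1) :
    ∃ C : ℝ, 0 ≤ C ∧ ∀ s ∈ Set.Ioc (1 : ℝ) 2, ∀ x : mixedEmbedding.mixedSpace K,
      ‖latF a b s x‖ ≤ C * ‖x‖ ^ (-((finrank ℚ K : ℝ) * s)) := by
  obtain ⟨c, hc0, hc1, hc⟩ := exists_cone K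
  refine ⟨(c ^ finrank ℚ K) ^ (-2 : ℝ), by positivity, fun s hs x => ?_⟩
  refine (norm_latF_le ha hb s x).trans ?_
  by_cases hw : weight x = 0
  · rw [hw, mul_zero]; positivity
  have hN : mixedEmbedding.norm x ≠ 0 := fun h => hw (by rw [weight, if_pos h])
  have hx : x ≠ 0 := fun h => hN (by rw [h, map_zero])
  have hx0 : 0 < c * ‖x‖ := mul_pos hc0 (norm_pos_iff.mpr hx)
  refine (mul_le_of_le_one_right (Real.rpow_nonneg (mixedEmbedding.norm_nonneg _) _)
    (weight_le_one x)).trans ?_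
  refine (Real.rpow_le_rpow_of_nonpos (pow_pos hx0 _) (pow_le_norm hx0.le (hc x hw))
    (by linarith [hs.1])).trans ?_
  rw [mul_pow, Real.mul_rpow (by positivity) (by positivity),
    ← Real.rpow_natCast ‖x‖ (finrank ℚ K), ← Real.rpow_mul (norm_nonneg _),
    show (finrank ℚ K : ℝ) * -s = -((finrank ℚ K : ℝ) * s) by ring]
  refine mul_le_mul_of_nonneg_right ?_ (by positivity)
  exact Real.rpow_le_rpow_of_exponent_ge (pow_pos hc0 _) (pow_le_one₀ hc0.le hc1)
    (by linarith [hs.2])

lemma latF_unif {a b : ℂ} (ha : ‖a‖ ≤ 1) (hb : ‖b‖ ≤ 1) {s : ℝ} (hs : s ∈ Set.Ioc (1 : ℝ) 2)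
    (x : mixedEmbedding.mixedSpace K) :
    ‖latF a b s x‖ ≤ 1 + mixedEmbedding.norm x ^ (-2 : ℝ) := by
  refine (norm_latF_le ha hb s x).trans ?_
  have hN0 := mixedEmbedding.norm_nonneg x
  refine (mul_le_of_le_one_right (Real.rpow_nonneg hN0 _) (weight_le_one x)).trans ?_
  rcases hN0.eq_or_lt with h | h
  · rw [← h, Real.zero_rpow (by linarith [hs.1] : -s ≠ 0)]
    positivity
  rcases le_total 1 (mixedEmbedding.norm x) with h1 | h1
  · have := Real.rpow_le_one_of_one_le_of_nonpos h1 (by linarith [hs.1] : -s ≤ 0)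
    linarith [Real.rpow_nonneg hN0 (-2 : ℝ)]
  · have := Real.rpow_le_rpow_of_exponent_ge h h1 (by linarith [hs.2] : (-2 : ℝ) ≤ -s)
    linarith

lemma abs_log_sub_le {m u v : ℝ} (hm : 0 < m) (hu : m ≤ u) (hv : m ≤ v) :
    |Real.log u - Real.log v| ≤ |u - v| / m := by
  wlog h : v ≤ u generalizing u v with H
  · rw [abs_sub_comm, abs_sub_comm u]
    exact H hv hu (le_of_not_ge h)
  have hv0 : 0 < v := hm.trans_le hv
  have hu0 : 0 < u := hm.trans_le hu
  rw [abs_of_nonneg (sub_nonneg.mpr (Real.log_le_log hv0 h)), abs_of_nonneg (sub_nonneg.mpr h),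
    ← Real.log_div hu0.ne' hv0.ne']
  refine (Real.log_le_sub_one_of_pos (div_pos hu0 hv0)).trans ?_
  rw [div_sub_one hv0.ne']
  exact div_le_div_of_nonneg_left (sub_nonneg.mpr h) hm hv

/-- Lipschitz bound on the summand -/
lemma latF_lipschitz {a b : ℂ} (ha : ‖a‖ ≤ 1) (hb : ‖b‖ ≤ 1) {R : ℝ} (hR : 0 ≤ R) :
    ∃ C R0 : ℝ, 0 ≤ C ∧ 0 < R0 ∧ ∀ s ∈ Set.Ioc (1 : ℝ) 2,
      ∀ x h : mixedEmbedding.mixedSpace K, ‖h‖ ≤ R → R0 ≤ ‖x‖ →
        ‖latF a b s (x + h) - latF a b s x‖ ≤ C * ‖x‖ ^ (-((finrank ℚ K : ℝ) + 1)) := by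
  classical
  obtain ⟨c, hc0, hc1, hc⟩ := exists_cone K
  let Φ : logSpace K →L[ℝ] (Fin (rank K) → ℝ) :=
    (logBasis K).equivFunL.toContinuousLinearMap
  set d : ℝ := (finrank ℚ K : ℝ) with hd
  have hd0 : 0 < d := Nat.cast_pos.mpr finrank_pos
  refine ⟨(2 * d * R + rank K * (‖Φ‖ * (4 * R))) * (c / 4) ^ (-(d + 1)), (4 * R + 4) / c,
    by positivity, by positivity, fun s hs x h hh hx => ?_⟩
  have hx' : 4 * R + 4 ≤ c * ‖x‖ := by rw [div_le_iff₀' hc0] at hx; exact hx
  set m : ℝ := c / 4 * ‖x‖ with hm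
  have hm1 : 1 ≤ m := by rw [hm]; nlinarith
  have hm0 : 0 < m := one_pos.trans_le hm1
  by_cases hsupp : weight x = 0 ∧ weight (x + h) = 0
  · rw [latF, latF, hsupp.1, hsupp.2]
    simp only [mul_zero, Complex.ofReal_zero, zero_mul, sub_zero, norm_zero]
    positivity
  have hlow : ∀ w, c / 2 * ‖x‖ ≤ normAtPlace w x := by
    intro w
    rw [not_and_or] at hsupp
    rcases hsupp with hw | hw
    · exact le_trans (by nlinarith [norm_nonneg x]) (hc x hw w)
    · have h1 := hc (x + h) hw w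
      have h2 : ‖x‖ - R ≤ ‖x + h‖ := by
        have := norm_sub_le (x + h) h
        rw [add_sub_cancel_right] at this
        linarith
      have h3 := mixedEmbedding.normAtPlace_add_le w x h
      have h4 := normAtPlace_le_norm w h
      have h5 : c * (‖x‖ - R) ≤ c * ‖x + h‖ := mul_le_mul_of_nonneg_left h2 hc0.le
      nlinarith [mul_le_of_le_one_left hR hc1]
  have hseg : ∀ t ∈ Set.Icc (0 : ℝ) 1, ∀ w, m ≤ normAtPlace w (x + t • h) := by
    intro t ht w
    have h1 := sub_norm_le_normAtPlace w x (t • h)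
    have h2 : ‖t • h‖ ≤ R := by
      rw [norm_smul, Real.norm_eq_abs, abs_of_nonneg ht.1]
      exact (mul_le_of_le_one_left (norm_nonneg _) ht.2).trans hh
    linarith [hlow w]
  have hmx : ∀ w, m ≤ normAtPlace w x := fun w => by simpa using hseg 0 (by simp) w
  have hmy : ∀ w, m ≤ normAtPlace w (x + h) := fun w => by simpa using hseg 1 (by simp) w
  have hsign : (detMul (x + h) < 0) ↔ detMul x < 0 :=
    detMul_neg_iff fun t ht w => hm0.trans_le (hseg t ht w)
  have hpx : ∀ w, 0 < normAtPlace w x := fun w => hm0.trans_le (hmx w)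
  have hpy : ∀ w, 0 < normAtPlace w (x + h) := fun w => hm0.trans_le (hmy w)
  have hNx : 0 < mixedEmbedding.norm x :=
    (pow_pos hm0 _).trans_le (pow_le_norm hm0.le hmx)
  have hNy : 0 < mixedEmbedding.norm (x + h) :=
    (pow_pos hm0 _).trans_le (pow_le_norm hm0.le hmy)
  have hlw : ∀ w, |Real.log (normAtPlace w (x + h)) - Real.log (normAtPlace w x)| ≤ R / m :=
    fun w => (abs_log_sub_le hm0 (hmy w) (hmx w)).trans
      (div_le_div_of_nonneg_right ((abs_normAtPlace_sub_le w x h).trans hh) hm0.le)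
  have hlogN : ∀ y : mixedEmbedding.mixedSpace K, (∀ w, 0 < normAtPlace w y) →
      Real.log (mixedEmbedding.norm y) = ∑ w, (mult w : ℝ) * Real.log (normAtPlace w y) := by
    intro y hy
    rw [mixedEmbedding.norm_apply, Real.log_prod fun w _ => pow_ne_zero _ (hy w).ne']
    simp [Real.log_pow]
  have hL : |Real.log (mixedEmbedding.norm (x + h)) - Real.log (mixedEmbedding.norm x)| ≤
      d * (R / m) := by
    rw [hlogN _ hpy, hlogN _ hpx, ← Finset.sum_sub_distrib, hd, ← sum_mult_eq (K := K),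
      Nat.cast_sum, Finset.sum_mul]
    refine (Finset.abs_sum_le_sum_abs _ _).trans (Finset.sum_le_sum fun w _ => ?_)
    rw [← mul_sub, abs_mul, abs_of_nonneg (Nat.cast_nonneg _)]
    exact mul_le_mul_of_nonneg_left (hlw w) (Nat.cast_nonneg _)
  have hmap : ‖logMap (x + h) - logMap x‖ ≤ 4 * (R / m) := by
    refine (pi_norm_le_iff_of_nonneg (by positivity)).mpr fun w => ?_
    rw [Pi.sub_apply, mixedEmbedding.logMap_apply, mixedEmbedding.logMap_apply, ← mul_sub,
      Real.norm_eq_abs, abs_mul, abs_of_nonneg (Nat.cast_nonneg _)]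
    have h2 : (mult w.1 : ℝ) ≤ 2 := by
      rw [mult]; split_ifs <;> norm_num
    have h3 : |Real.log (normAtPlace w.1 (x + h)) -
        Real.log (mixedEmbedding.norm (x + h)) * d⁻¹ -
        (Real.log (normAtPlace w.1 x) - Real.log (mixedEmbedding.norm x) * d⁻¹)| ≤ 2 * (R / m) := by
      rw [show ∀ p q u v : ℝ, p - q - (u - v) = (p - u) - (q - v) from fun p q u v => by ring,
        ← sub_mul]
      refine (abs_sub _ _).trans ?_
      rw [abs_mul, abs_of_nonneg (inv_nonneg.mpr hd0.le)]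
      have : |Real.log (mixedEmbedding.norm (x + h)) - Real.log (mixedEmbedding.norm x)| * d⁻¹ ≤
          R / m := by
        refine (mul_le_mul_of_nonneg_right hL (inv_nonneg.mpr hd0.le)).trans (le_of_eq ?_)
        field_simp
      linarith [hlw w.1]
    rw [hd] at h3
    calc _ ≤ (2 : ℝ) * (2 * (R / m)) := mul_le_mul h2 h3 (abs_nonneg _) zero_le_two
      _ = _ := by ring
  have hW : |weight (x + h) - weight x| ≤ rank K * (‖Φ‖ * (4 * (R / m))) := by
    rw [weight, weight, if_neg hNy.ne', if_neg hNx.ne']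
    refine (abs_prod_sub_prod_le _ _ _ (fun i => ⟨tent_nonneg _, tent_le_one _⟩)
      fun i => ⟨tent_nonneg _, tent_le_one _⟩).trans ?_
    refine (Finset.sum_le_card_nsmul _ _ _ fun i _ => ?_).trans
      (le_of_eq (by rw [Finset.card_univ, Fintype.card_fin, nsmul_eq_mul]))
    refine (abs_tent_sub_le _ _).trans ?_
    refine le_trans ?_ (mul_le_mul_of_nonneg_left hmap (norm_nonneg Φ))
    refine le_trans ?_ (Φ.le_opNorm _)
    refine le_trans (le_of_eq ?_) (norm_le_pi_norm _ i)
    rw [Real.norm_eq_abs, map_sub, Pi.sub_apply]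
    rfl
  have hexp : ∀ y : mixedEmbedding.mixedSpace K, 0 < mixedEmbedding.norm y →
      (∀ w, m ≤ normAtPlace w y) →
      mixedEmbedding.norm y ^ (-s) = Real.exp (-s * Real.log (mixedEmbedding.norm y)) ∧
        -s * Real.log (mixedEmbedding.norm y) ≤ -(d * Real.log m) := by
    intro y hy hmy'
    refine ⟨by rw [Real.rpow_def_of_pos hy]; ring_nf, ?_⟩
    have h1 : d * Real.log m ≤ Real.log (mixedEmbedding.norm y) := by
      rw [hd, ← Real.log_pow]
      exact Real.log_le_log (pow_pos hm0 _) (pow_le_norm hm0.le hmy')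
    have h0 : 0 ≤ d * Real.log m := mul_nonneg hd0.le (Real.log_nonneg hm1)
    nlinarith [hs.1]
  obtain ⟨hex, hbx⟩ := hexp x hNx hmx
  obtain ⟨hey, hby⟩ := hexp (x + h) hNy hmy
  set M : ℝ := Real.exp (-(d * Real.log m)) with hM
  have hNd : |mixedEmbedding.norm (x + h) ^ (-s) - mixedEmbedding.norm x ^ (-s)| ≤
      M * (2 * (d * (R / m))) := by
    rw [hex, hey]
    refine (abs_exp_sub_exp_le hby hbx).trans (mul_le_mul_of_nonneg_left ?_ (Real.exp_pos _).le)
    rw [← mul_sub, abs_mul, abs_neg, abs_of_nonneg (by linarith [hs.1] : (0:ℝ) ≤ s)]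
    exact mul_le_mul hs.2 hL (abs_nonneg _) zero_le_two
  have hNy' : mixedEmbedding.norm (x + h) ^ (-s) ≤ M := by
    rw [hey]; exact Real.exp_le_exp.mpr hby
  have hnn : 0 ≤ mixedEmbedding.norm (x + h) ^ (-s) := Real.rpow_nonneg hNy.le _
  rw [latF, latF, if_congr hsign rfl rfl, ← sub_mul, norm_mul, ← Complex.ofReal_sub,
    Complex.norm_real, Real.norm_eq_abs]
  refine (mul_le_of_le_one_right (abs_nonneg _) (norm_ite_le ha hb _)).trans ?_
  rw [show mixedEmbedding.norm (x + h) ^ (-s) * weight (x + h) -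
      mixedEmbedding.norm x ^ (-s) * weight x =
      mixedEmbedding.norm (x + h) ^ (-s) * (weight (x + h) - weight x) +
      (mixedEmbedding.norm (x + h) ^ (-s) - mixedEmbedding.norm x ^ (-s)) * weight x by ring]
  refine (abs_add_le _ _).trans ?_
  rw [abs_mul, abs_mul, abs_of_nonneg hnn, abs_of_nonneg (weight_nonneg x)]
  calc mixedEmbedding.norm (x + h) ^ (-s) * |weight (x + h) - weight x| +
        |mixedEmbedding.norm (x + h) ^ (-s) - mixedEmbedding.norm x ^ (-s)| * weight x
      ≤ M * (rank K * (‖Φ‖ * (4 * (R / m)))) + M * (2 * (d * (R / m))) * 1 :=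
        add_le_add (mul_le_mul hNy' hW (abs_nonneg _) (Real.exp_pos _).le)
          (mul_le_mul hNd (weight_le_one x) (weight_nonneg x) ((abs_nonneg _).trans hNd))
    _ = (2 * d * R + rank K * (‖Φ‖ * (4 * R))) * (M * m⁻¹) := by ring
    _ = _ := by
        rw [mul_assoc _ ((c / 4) ^ (-(d + 1))), ← Real.mul_rpow (by positivity) (norm_nonneg _), ← hm,
          neg_add, Real.rpow_add hm0, Real.rpow_neg_one, Real.rpow_def_of_pos hm0, hM]
        congr 2
        ring_nf

/-! ### Lattice sums -/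

variable (Λ : Submodule ℤ (mixedEmbedding.mixedSpace K)) [DiscreteTopology Λ] [IsZLattice ℝ Λ]

lemma finrank_lattice : Module.finrank ℤ Λ = finrank ℚ K :=
  (ZLattice.rank ℝ Λ).trans (mixedEmbedding.finrank K)

lemma summable_latF {a b : ℂ} (ha : ‖a‖ ≤ 1) (hb : ‖b‖ ≤ 1) {s : ℝ} (hs : s ∈ Set.Ioc (1 : ℝ) 2)
    (v : mixedEmbedding.mixedSpace K) : Summable fun l : Λ => latF a b s (v + (l : mixedEmbedding.mixedSpace K)) := by
  obtain ⟨C, -, hC⟩ := latF_bound (K := K) ha hb
  have hd : (0 : ℝ) < finrank ℚ K := Nat.cast_pos.mpr finrank_pos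
  have hr : -((finrank ℚ K : ℝ) * s) < -(Module.finrank ℤ Λ : ℝ) := by
    rw [finrank_lattice Λ]
    nlinarith [hs.1]
  refine Summable.of_norm_bounded ((ZLattice.summable_norm_sub_rpow Λ _ hr (-v)).mul_left C)
    fun l => ?_
  rw [sub_neg_eq_add, add_comm ((l : mixedEmbedding.mixedSpace K)) v]
  exact hC s hs _

/-- Two translates of a lattice have the same sum up to a bounded error. -/
theorem exists_norm_tsum_latF_sub_le {a b : ℂ} (ha : ‖a‖ ≤ 1) (hb : ‖b‖ ≤ 1)
    (v w : mixedEmbedding.mixedSpace K) :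
    ∃ C : ℝ, ∀ s ∈ Set.Ioc (1 : ℝ) 2,
      ‖(∑' l : Λ, latF a b s (v + (l : mixedEmbedding.mixedSpace K))) - ∑' l : Λ, latF a b s (w + (l : mixedEmbedding.mixedSpace K))‖ ≤ C := by
  classical
  obtain ⟨C, R0, hC0, hR0, hC⟩ := latF_lipschitz (K := K) ha hb (norm_nonneg (w - v))
  set d : ℝ := (finrank ℚ K : ℝ)
  have hfin : {l : Λ | ‖v + (l : mixedEmbedding.mixedSpace K)‖ < R0}.Finite := by
    have H : IsClosed (X := mixedEmbedding.mixedSpace K) Λ :=
      @AddSubgroup.isClosed_of_discrete _ _ _ _ _ Λ.toAddSubgroup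
        (inferInstanceAs (DiscreteTopology Λ))
    refine ((Metric.finite_isBounded_inter_isClosed DiscreteTopology.isDiscrete
      (Metric.isBounded_closedBall (x := (0 : mixedEmbedding.mixedSpace K)) (r := R0 + ‖v‖))
        H).preimage_embedding (.subtype _)).subset fun l hl => ?_
    refine ⟨?_, l.2⟩
    simp only [Metric.mem_closedBall, dist_zero_right, Function.Embedding.coe_subtype]
    have h1 := norm_sub_le (v + (l : mixedEmbedding.mixedSpace K)) v
    rw [add_sub_cancel_left] at h1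
    have hl' : ‖v + (l : mixedEmbedding.mixedSpace K)‖ < R0 := hl
    linarith
  let g : Λ → ℝ := fun l => C * ‖(l : mixedEmbedding.mixedSpace K) - -v‖ ^ (-(d + 1)) +
    if l ∈ hfin.toFinset then (2 + mixedEmbedding.norm (v + (l : mixedEmbedding.mixedSpace K)) ^ (-2 : ℝ) +
      mixedEmbedding.norm (w + (l : mixedEmbedding.mixedSpace K)) ^ (-2 : ℝ)) else 0
  have hg : Summable g := by
    refine ((ZLattice.summable_norm_sub_rpow Λ _ ?_ (-v)).mul_left C).add
      (summable_of_ne_finset_zero (s := hfin.toFinset) fun l hl => if_neg hl)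
    rw [finrank_lattice Λ]
    simp only [d]
    linarith
  refine ⟨∑' l, g l, fun s hs => ?_⟩
  rw [← (summable_latF Λ ha hb hs v).tsum_sub (summable_latF Λ ha hb hs w)]
  refine tsum_of_norm_bounded hg.hasSum fun l => ?_
  simp only [g, sub_neg_eq_add, add_comm ((l : mixedEmbedding.mixedSpace K)) v]
  have hN : ∀ y : mixedEmbedding.mixedSpace K, 0 ≤ mixedEmbedding.norm y ^ (-2 : ℝ) := fun y =>
    Real.rpow_nonneg (mixedEmbedding.norm_nonneg _) _
  by_cases hl : l ∈ hfin.toFinset
  · rw [if_pos hl]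
    refine le_trans ?_ (le_add_of_nonneg_left (by positivity))
    refine (norm_sub_le _ _).trans ?_
    linarith [latF_unif ha hb hs (v + (l : mixedEmbedding.mixedSpace K)),
      latF_unif ha hb hs (w + (l : mixedEmbedding.mixedSpace K))]
  · rw [if_neg hl, add_zero, norm_sub_rev]
    simp only [Set.Finite.mem_toFinset, Set.mem_ofPred_eq, not_lt] at hl
    have := hC s hs (v + (l : mixedEmbedding.mixedSpace K)) (w - v) le_rfl hl
    rwa [show v + (l : mixedEmbedding.mixedSpace K) + (w - v) = w + (l : mixedEmbedding.mixedSpace K) by abel] at this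

end FLTAgent.DS
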