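import Fermat.Agent.DS.DensityL
import Fermat.Agent.Chebotarev.Split

/-!
Upper bound for the real part of twisted root counting sums.
-/

set_option autoImplicit false

noncomputable section

namespace FLTAgent.DS

open NumberField Ideal Filter Topology Polynomial Module
open scoped Classical
open FLTAgent.Chebotarev (normRpow PrimeIdeal suppSet PrimesAbove rootCount)

variable {E : Type*} [Field E] [NumberField E]

/-! ### Euler product -/

lemma tsum_suppSet_mul (f : Ideal (𝓞 E) →* ℂ) {s : ℝ} (hs : 1 < s)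
    (hf : ∀ I, ‖f I‖ ≤ normRpow s I) (T : Finset (Ideal (𝓞 E))) (hT : ∀ P ∈ T, Prime P) :
    ∑' I : suppSet E T, f (I : Ideal (𝓞 E)) = ∏ P ∈ T, (1 - f P)⁻¹ := by
  induction T using Finset.induction with
  | empty =>
    have : suppSet E (∅ : Finset (Ideal (𝓞 E))) = {1} := by
      ext I
      simp only [suppSet, Set.mem_ofPred_eq, Set.mem_singleton_iff]
      constructor
      · rintro ⟨h0, h⟩
        by_contra h1
        obtain ⟨P, hP, hd⟩ :=
          WfDvdMonoid.exists_irreducible_factor (mt isUnit_iff_eq_one.mp h1) h0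
        exact absurd (h P (irreducible_iff_prime.mp hP) hd) (by simp)
      · rintro rfl
        exact ⟨one_ne_zero, fun P hP hd => absurd (isUnit_of_dvd_one hd) hP.not_isUnit⟩
    rw [this, tsum_singleton (1 : Ideal (𝓞 E)) f, Finset.prod_empty, map_one]
  | insert P T hPT ih =>
    have hP : Prime P := hT P (Finset.mem_insert_self P T)
    have hT' : ∀ Q ∈ T, Prime Q := fun Q hQ => hT Q (Finset.mem_insert_of_mem hQ)
    have hnd : ∀ J : suppSet E T, ¬ P ∣ (J : Ideal (𝓞 E)) :=
      fun J hd => hPT (J.2.2 P hP hd)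
    let φ : ℕ × suppSet E T → suppSet E (insert P T) := fun kJ =>
      ⟨P ^ kJ.1 * (kJ.2 : Ideal (𝓞 E)), mul_ne_zero (pow_ne_zero _ hP.ne_zero) kJ.2.2.1, by
        intro Q hQ hd
        rcases hQ.dvd_mul.mp hd with h | h
        · have := (hQ.dvd_of_dvd_pow h)
          have : Q = P := associated_iff_eq.mp (hQ.associated_of_dvd hP this)
          simp [this]
        · exact Finset.mem_insert_of_mem (kJ.2.2.2 Q hQ h)⟩
    have hφ : Function.Bijective φ := by
      constructor
      · rintro ⟨k, J⟩ ⟨l, J'⟩ h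
        have h' : P ^ k * (J : Ideal (𝓞 E)) = P ^ l * (J' : Ideal (𝓞 E)) :=
          congrArg Subtype.val h
        have key : ∀ k l : ℕ, ∀ J J' : suppSet E T, k ≤ l →
            P ^ k * (J : Ideal (𝓞 E)) = P ^ l * (J' : Ideal (𝓞 E)) → k = l ∧ J = J' := by
          intro k l J J' hkl h
          obtain ⟨d, rfl⟩ := Nat.exists_eq_add_of_le hkl
          rw [pow_add, mul_assoc] at h
          have h'' := mul_left_cancel₀ (pow_ne_zero _ hP.ne_zero) h
          rcases d with _ | d
          · exact ⟨rfl, Subtype.ext (by simpa using h'')⟩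
          · exact absurd ⟨P ^ d * (J' : Ideal (𝓞 E)), by rw [h'', pow_succ']; ring⟩ (hnd J)
        rcases le_total k l with hkl | hkl
        · obtain ⟨rfl, rfl⟩ := key k l J J' hkl h'; rfl
        · obtain ⟨rfl, rfl⟩ := key l k J' J hkl h'.symm; rfl
      · rintro ⟨I, hI0, hI⟩
        obtain ⟨k, J, hJ, rfl⟩ := WfDvdMonoid.max_power_factor hI0 hP.irreducible
        refine ⟨(k, ⟨J, right_ne_zero_of_mul hI0, fun Q hQ hd => ?_⟩), rfl⟩
        rcases Finset.mem_insert.mp (hI Q hQ (dvd_mul_of_dvd_right hd _)) with rfl | h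
        · exact absurd hd hJ
        · exact h
    rw [← (Equiv.ofBijective φ hφ).tsum_eq, Finset.prod_insert hPT, ← ih hT']
    have hx1 : ‖f P‖ < 1 := by
      linarith [hf P, Chebotarev.normRpow_prime_le_half hP hs.le]
    have e : ∀ kJ : ℕ × suppSet E T, f ((Equiv.ofBijective φ hφ kJ : suppSet E (insert P T))
        : Ideal (𝓞 E)) = f P ^ kJ.1 * f (kJ.2 : Ideal (𝓞 E)) := fun kJ => by
      simp [φ, map_mul, map_pow]
    rw [tsum_congr e]
    have h1 : Summable fun k : ℕ => ‖f P ^ k‖ := by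
      simpa [norm_pow] using summable_geometric_of_lt_one (norm_nonneg _) hx1
    have h2 : Summable fun J : suppSet E T => ‖f (J : Ideal (𝓞 E))‖ :=
      ((Summable.of_nonneg_of_le (fun I => norm_nonneg _) hf
        (Chebotarev.summable_normRpow hs)).subtype _)
    rw [← tsum_mul_tsum_of_summable_norm (R := ℂ) (f := fun k : ℕ => f P ^ k)
      (g := fun J : suppSet E T => f (J : Ideal (𝓞 E))) h1 h2,
      tsum_geometric_of_norm_lt_one hx1]

lemma exp_le_norm_inv_one_sub {z : ℂ} (hz : ‖z‖ < 1) :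
    Real.exp (z.re - ‖z‖ ^ 2) ≤ ‖(1 - z)⁻¹‖ := by
  have hne : 1 - z ≠ 0 := fun h => by
    rw [sub_eq_zero] at h
    rw [← h, norm_one] at hz
    exact lt_irrefl _ hz
  have hpos : 0 < ‖1 - z‖ := norm_pos_iff.mpr hne
  have h1 : ‖1 - z‖ ^ 2 = 1 - 2 * z.re + ‖z‖ ^ 2 := by
    rw [Complex.sq_norm, Complex.sq_norm, Complex.normSq_sub]
    simp [Complex.normSq_one]
    ring
  have h2 : ‖1 - z‖ ^ 2 ≤ Real.exp (-(2 * z.re) + ‖z‖ ^ 2) := by
    rw [h1]
    linarith [Real.add_one_le_exp (-(2 * z.re) + ‖z‖ ^ 2)]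
  have h3 : ‖1 - z‖ ≤ Real.exp (-z.re + ‖z‖ ^ 2 / 2) := by
    refine (pow_le_pow_iff_left₀ hpos.le (Real.exp_pos _).le two_ne_zero).mp (h2.trans_eq ?_)
    rw [← Real.exp_nat_mul]
    push_cast
    ring_nf
  rw [norm_inv, le_inv_comm₀ (Real.exp_pos _) hpos, ← Real.exp_neg]
  refine h3.trans (Real.exp_le_exp.mpr ?_)
  linarith [sq_nonneg ‖z‖]

/-- `Re ∑ f P ≤ log ‖∑ f I‖ + O(1)`, in multiplicative form -/
theorem exp_le_norm_tsum (f : Ideal (𝓞 E) →* ℂ) {s : ℝ} (hs : 1 < s)
    (hf : ∀ I, ‖f I‖ ≤ normRpow s I) :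
    Real.exp ((∑' P : PrimeIdeal E, f P.1).re - Chebotarev.primeSum E 2) ≤ ‖∑' I, f I‖ := by
  set z : PrimeIdeal E → ℂ := fun P => f P.1
  have hsumz : Summable z :=
    Summable.of_norm_bounded (Chebotarev.summable_primeSum hs) fun P => hf P.1
  have hn := Chebotarev.summable_normRpow (K := E) hs
  have hsumf : Summable fun I => f I := Summable.of_norm_bounded hn hf
  have key : ∀ T' : Finset (PrimeIdeal E),
      Real.exp ((∑ P ∈ T', z P).re - Chebotarev.primeSum E 2) ≤ ‖∑' I, f I‖ +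
        (Chebotarev.zetaReal E s - Real.exp (∑ P ∈ T', Chebotarev.eulerLog E s P)) := by
    intro T'
    set T := T'.map (Function.Embedding.subtype _) with hTdef
    have hT : ∀ P ∈ T, Prime P := fun P hP => by
      obtain ⟨Q, _, rfl⟩ := Finset.mem_map.mp hP
      exact Q.2
    have h1 : Real.exp ((∑ P ∈ T', z P).re - Chebotarev.primeSum E 2) ≤
        ‖∑' I : suppSet E T, f (I : Ideal (𝓞 E))‖ := by
      rw [tsum_suppSet_mul f hs hf T hT, hTdef, Finset.prod_map, norm_prod]
      refine le_trans ?_ (Finset.prod_le_prod (fun P _ => (Real.exp_pos _).le) fun P _ =>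
        exp_le_norm_inv_one_sub (z := z P) ?_)
      · rw [← Real.exp_sum, Real.exp_le_exp, Finset.sum_sub_distrib, Complex.re_sum]
        have : ∑ P ∈ T', ‖z P‖ ^ 2 ≤ Chebotarev.primeSum E 2 := by
          refine le_trans (Finset.sum_le_sum fun P _ => ?_)
            ((Chebotarev.summable_primeSum one_lt_two).sum_le_tsum T'
              fun P _ => Chebotarev.normRpow_nonneg _ _)
          refine (pow_le_pow_left₀ (norm_nonneg _) (hf P.1) 2).trans ?_
          have hN : (1 : ℝ) ≤ absNorm P.1 := by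
            exact_mod_cast le_trans one_le_two (Chebotarev.two_le_absNorm P.2)
          rw [normRpow, normRpow, ← Real.rpow_natCast, ← Real.rpow_mul (by linarith)]
          exact Real.rpow_le_rpow_of_exponent_le hN (by push_cast; linarith)
        linarith
      · linarith [hf P.1, Chebotarev.normRpow_prime_le_half P.2 hs.le]
    refine h1.trans ?_
    have hsplit := hsumf.tsum_subtype_add_tsum_subtype_compl (suppSet E T)
    have hsplit' := hn.tsum_subtype_add_tsum_subtype_compl (suppSet E T)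
    have hc : ‖∑' I : ↑(suppSet E T)ᶜ, f (I : Ideal (𝓞 E))‖ ≤
        ∑' I : ↑(suppSet E T)ᶜ, normRpow s (I : Ideal (𝓞 E)) :=
      tsum_of_norm_bounded (hn.subtype _).hasSum fun I => hf _
    rw [Chebotarev.exp_sum_eulerLog hs T hT T' rfl, Chebotarev.zetaReal, ← hsplit']
    have h3 : ‖∑' I : suppSet E T, f (I : Ideal (𝓞 E))‖ ≤
        ‖∑' I, f I‖ + ‖∑' I : ↑(suppSet E T)ᶜ, f (I : Ideal (𝓞 E))‖ := by
      rw [eq_sub_of_add_eq hsplit]
      exact norm_sub_le _ _
    linarith
  have t1 : Tendsto (fun T' : Finset (PrimeIdeal E) =>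
      Real.exp ((∑ P ∈ T', z P).re - Chebotarev.primeSum E 2)) atTop
      (𝓝 (Real.exp ((∑' P, z P).re - Chebotarev.primeSum E 2))) :=
    (Real.continuous_exp.tendsto _).comp
      (((Complex.continuous_re.tendsto _).comp hsumz.hasSum).sub_const _)
  have t2 : Tendsto (fun T' : Finset (PrimeIdeal E) => ‖∑' I, f I‖ +
      (Chebotarev.zetaReal E s - Real.exp (∑ P ∈ T', Chebotarev.eulerLog E s P))) atTop
      (𝓝 (‖∑' I, f I‖ + (Chebotarev.zetaReal E s -
        Real.exp (∑' P, Chebotarev.eulerLog E s P)))) :=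
    (((Real.continuous_exp.tendsto _).comp
      (Chebotarev.summable_eulerLog hs).hasSum).const_sub _).const_add _
  have h := le_of_tendsto_of_tendsto' t1 t2 key
  rw [Chebotarev.tsum_eulerLog hs,
    Real.exp_log (zero_lt_one.trans_le (Chebotarev.one_le_zetaReal hs)), sub_self, add_zero] at h
  exact h

variable {m : ℕ} [NeZero m] (χ : DirichletCharacter ℂ m)

/-- `idealTerm` as a monoid hom -/
def idealHom (s : ℝ) : Ideal (𝓞 E) →* ℂ where
  toFun := idealTerm χ s
  map_one' := by simp [idealTerm, normRpow]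
  map_mul' := idealTerm_mul χ s

theorem exists_re_primeSum_le {P : Ideal (𝓞 E)} (hP : Prime P) (hm : (m : 𝓞 E) ∉ P)
    (hχ : χ (absNorm P : ZMod m) ≠ 1) :
    ∃ C : ℝ, ∀ᶠ s in 𝓝[>] (1 : ℝ), (∑' Q : PrimeIdeal E, idealTerm χ s Q.1).re ≤ C := by
  obtain ⟨C, hC⟩ := exists_norm_LSum_le χ hP hm hχ
  refine ⟨C + Chebotarev.primeSum E 2, ?_⟩
  filter_upwards [hC, self_mem_nhdsWithin] with s hs (hs1 : 1 < s)
  have h := (exp_le_norm_tsum (idealHom χ s) hs1 (norm_idealTerm_le χ s)).trans hs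
  have h' := Real.add_one_le_exp ((∑' Q : PrimeIdeal E, idealTerm χ s Q.1).re -
    Chebotarev.primeSum E 2)
  change Real.exp ((∑' Q : PrimeIdeal E, idealTerm χ s Q.1).re - _) ≤ C at h
  linarith

/-! ### Dictionary with root counts -/

/-- twisted root counting sum -/
def rootTwist (f : ℤ[X]) (s : ℝ) : ℂ :=
  ∑' p : Nat.Primes, χ (p : ℕ) * (((rootCount f p : ℝ) * (p : ℝ) ^ (-s) : ℝ) : ℂ)

lemma summable_rootTwist {f : ℤ[X]} (hf : f.Monic) {s : ℝ} (hs : 1 < s) :
    Summable fun p : Nat.Primes => χ (p : ℕ) * (((rootCount f p : ℝ) * (p : ℝ) ^ (-s) : ℝ) : ℂ) := by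
  refine Summable.of_norm_bounded (Chebotarev.summable_rootSum hf hs) fun p => ?_
  rw [norm_mul, Complex.norm_real, Real.norm_eq_abs, abs_of_nonneg (by positivity)]
  exact mul_le_of_le_one_left (by positivity) (χ.norm_le_one _)

lemma exists_primeTwist_sub_rootTwist {θ : 𝓞 E} (hθ : Algebra.adjoin ℚ ({(θ : E)} : Set E) = ⊤) :
    ∃ C : ℝ, ∀ s : ℝ, 1 < s →
      ‖(∑' Q : PrimeIdeal E, idealTerm χ s Q.1) - rootTwist χ (minpoly ℤ θ) s‖ ≤ C := by
  have he := Chebotarev.exponent_ne_zero_of_adjoin_eq_top hθ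
  set f := minpoly ℤ θ
  have hf : f.Monic := minpoly.monic θ.isIntegral
  let bad : Finset Nat.Primes := (RingOfIntegers.exponent θ).divisors.subtype Nat.Prime
  let b : Nat.Primes → ℝ := fun p => (f.natDegree : ℝ) * (p : ℝ) ^ (-2 : ℝ) +
    if p ∈ bad then (Nat.card (PrimesAbove E p) : ℝ) + (f.natDegree : ℝ) else 0
  have hb : Summable b := by
    refine Summable.add (((Real.summable_nat_rpow.mpr (by norm_num : (-2 : ℝ) < -1)).comp_injective
      Nat.Primes.coe_nat_injective).mul_left _) ?_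
    exact summable_of_ne_finset_zero (s := bad) fun p hp => if_neg hp
  refine ⟨∑' p, b p, fun s hs => ?_⟩
  let e := Equiv.ofBijective _ (Chebotarev.toPrimeIdeal_bijective (K := E))
  have hsum : Summable fun Q : PrimeIdeal E => idealTerm χ s Q.1 :=
    Summable.of_norm_bounded (Chebotarev.summable_primeSum hs) fun Q => norm_idealTerm_le χ s Q.1
  have hsum' : Summable fun c : Σ p : Nat.Primes, PrimesAbove E p => idealTerm χ s c.2.1 :=
    (e.summable_iff (f := fun Q : PrimeIdeal E => idealTerm χ s Q.1)).mpr hsum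
  have h2 : (∑' Q : PrimeIdeal E, idealTerm χ s Q.1) =
      ∑' (p : Nat.Primes) (Q : PrimesAbove E p), idealTerm χ s Q.1 := by
    rw [← hsum'.tsum_sigma, ← e.tsum_eq (fun Q : PrimeIdeal E => idealTerm χ s Q.1)]
    rfl
  rw [h2, rootTwist, ← hsum'.sigma.tsum_sub (summable_rootTwist χ hf hs)]
  refine tsum_of_norm_bounded hb.hasSum fun p => ?_
  let _ := Fintype.ofFinite (PrimesAbove E p)
  rw [tsum_fintype]
  by_cases hp : (p : ℕ) ∣ RingOfIntegers.exponent θ
  · have hmem : p ∈ bad :=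
      (Finset.mem_subtype (p := Nat.Prime)).mpr (Nat.mem_divisors.mpr ⟨hp, he⟩)
    simp only [b, if_pos hmem]
    refine (norm_sub_le _ _).trans (le_trans (add_le_add ?_ ?_)
      (le_add_of_nonneg_left (by positivity)))
    · rw [Nat.card_eq_fintype_card, ← Finset.card_univ]
      refine (norm_sum_le _ _).trans ((Finset.sum_le_card_nsmul _ _ 1 fun Q _ => ?_).trans (by simp))
      linarith [norm_idealTerm_le χ s Q.1,
        Chebotarev.normRpow_prime_le_half (Chebotarev.prime_primesAbove p Q) hs.le]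
    · rw [norm_mul, Complex.norm_real, Real.norm_eq_abs, abs_of_nonneg (by positivity)]
      refine (mul_le_of_le_one_left (by positivity) (χ.norm_le_one _)).trans ?_
      refine le_trans (mul_le_of_le_one_right (Nat.cast_nonneg _) ?_)
        (by exact_mod_cast Chebotarev.rootCount_le hf p)
      exact Real.rpow_le_one_of_one_le_of_nonpos (by exact_mod_cast p.2.one_le) (by linarith)
  · refine le_trans ?_ (le_add_of_nonneg_right (by split <;> positivity))
    set one : Finset (PrimesAbove E p) :=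
      Finset.univ.filter fun Q : PrimesAbove E p => inertiaDeg Q.1 ℤ = 1 with hone
    have hcard : (one.card : ℝ) = rootCount f p := by
      rw [← Chebotarev.card_deg_one_eq_rootCount hp, Nat.card_eq_fintype_card,
        Fintype.card_subtype]
    have heq : ∑ Q ∈ one, idealTerm χ s Q.1 =
        χ (p : ℕ) * (((rootCount f p : ℝ) * (p : ℝ) ^ (-s) : ℝ) : ℂ) := by
      have : ∀ Q ∈ one, idealTerm χ s Q.1 = χ (p : ℕ) * (((p : ℝ) ^ (-s) : ℝ) : ℂ) := fun Q hQ => by
        simp [idealTerm, normRpow, Chebotarev.absNorm_primesAbove, (Finset.mem_filter.mp hQ).2]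
      rw [Finset.sum_congr rfl this, Finset.sum_const, nsmul_eq_mul, ← hcard]
      push_cast
      ring
    rw [← Finset.sum_filter_add_sum_filter_not Finset.univ
      (fun Q : PrimesAbove E p => inertiaDeg Q.1 ℤ = 1) (fun Q => idealTerm χ s Q.1), ← hone, heq,
      add_sub_cancel_left]
    refine (norm_sum_le _ _).trans
      ((Finset.sum_le_card_nsmul _ _ ((p : ℝ) ^ (-2 : ℝ)) fun Q hQ => ?_).trans ?_)
    · refine (norm_idealTerm_le χ s Q.1).trans ?_
      have h1 := (Finset.mem_filter.mp hQ).2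
      have h0 : inertiaDeg Q.1 ℤ ≠ 0 := by
        intro h
        have h2 := Chebotarev.two_le_absNorm (Chebotarev.prime_primesAbove p Q)
        rw [Chebotarev.absNorm_primesAbove, h, pow_zero] at h2
        omega
      have hp1 : (1 : ℝ) ≤ p := by exact_mod_cast p.2.one_le
      rw [normRpow, Chebotarev.absNorm_primesAbove, Nat.cast_pow, ← Real.rpow_natCast,
        ← Real.rpow_mul (by positivity)]
      refine Real.rpow_le_rpow_of_exponent_le hp1 ?_
      have : (2 : ℝ) ≤ (inertiaDeg Q.1 ℤ : ℕ) := by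
        exact_mod_cast (show 2 ≤ inertiaDeg Q.1 ℤ by omega)
      nlinarith
    · rw [nsmul_eq_mul]
      refine mul_le_mul_of_nonneg_right ?_ (by positivity)
      exact_mod_cast le_trans (Finset.card_filter_le _ _)
        (le_of_eq_of_le (Finset.card_univ.trans Nat.card_eq_fintype_card.symm)
          (Chebotarev.card_primesAbove_le hp))

/-- If some good prime with a root has `χ(p) ≠ 1`, the twisted root sum is bounded above. -/
theorem exists_re_rootTwist_le {θ : 𝓞 E} (hθ : Algebra.adjoin ℚ ({(θ : E)} : Set E) = ⊤)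
    {p : Nat.Primes} (hp : ¬ (p : ℕ) ∣ RingOfIntegers.exponent θ) (hpm : ¬ (p : ℕ) ∣ m)
    (hroot : 0 < rootCount (minpoly ℤ θ) p) (hχ : χ (p : ℕ) ≠ 1) :
    ∃ C : ℝ, ∀ᶠ s in 𝓝[>] (1 : ℝ), (rootTwist χ (minpoly ℤ θ) s).re ≤ C := by
  rw [← Chebotarev.card_deg_one_eq_rootCount hp, Nat.card_pos_iff] at hroot
  obtain ⟨Q, hQ⟩ := hroot.1.some
  have hN : absNorm Q.1 = (p : ℕ) := by rw [Chebotarev.absNorm_primesAbove, hQ, pow_one]
  have hmQ : (m : 𝓞 E) ∉ Q.1 := by
    intro h
    have h' := absNorm_dvd_norm_of_mem h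
    rw [hN, Algebra.norm_natCast] at h'
    exact hpm (p.2.dvd_of_dvd_pow (n := Module.finrank ℤ (𝓞 E)) (by exact_mod_cast h'))
  obtain ⟨C, hC⟩ := exists_re_primeSum_le χ (Chebotarev.prime_primesAbove p Q) hmQ (by rwa [hN])
  obtain ⟨D, hD⟩ := exists_primeTwist_sub_rootTwist χ hθ
  refine ⟨C + D, ?_⟩
  filter_upwards [hC, self_mem_nhdsWithin] with s hs (hs1 : 1 < s)
  have h := (Complex.abs_re_le_norm _).trans (hD s hs1)
  rw [Complex.sub_re] at h
  linarith [(abs_le.mp h).1]

end FLTAgent.DS
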