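import Fermat.Agent.DS.AssemblyDefs

/-!
Area DS, parcel DS10: use of the density theorem for homomorphisms to finite groups.
-/

set_option autoImplicit false
set_option linter.style.haveILetI false

noncomputable section

open Filter Topology
open FLTAgent.Chebotarev (QBar GalQBar frobRes frobAt)

namespace FLTAgent.DS

theorem tendsto_negLog :
    Tendsto (fun s : ℝ => -Real.log (s - 1)) (𝓝[>] 1) atTop := by
  have h : Tendsto (fun s : ℝ => s - 1) (𝓝[>] 1) (𝓝[>] 0) := by
    refine tendsto_nhdsWithin_iff.mpr ⟨?_, ?_⟩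
    · simpa using ((continuous_sub_right (1 : ℝ)).tendsto 1).mono_left nhdsWithin_le_nhds
    · filter_upwards [self_mem_nhdsWithin] with s (hs : 1 < s) using sub_pos.mpr hs
  exact tendsto_neg_atBot_atTop.comp ((Real.tendsto_log_nhdsGT_zero).comp h)

theorem summable_bounded {f : Nat.Primes → ℝ} {B : ℝ} (hf : ∀ p, |f p| ≤ B) {s : ℝ} (hs : 1 < s) :
    Summable fun p : Nat.Primes => f p * (p : ℝ) ^ (-s) := by
  have h0 : Summable fun p : Nat.Primes => B * (p : ℝ) ^ (-s) :=
    ((Real.summable_nat_rpow.mpr (by linarith : -s < -1)).comp_injective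
      Nat.Primes.coe_nat_injective).mul_left B
  refine Summable.of_norm_bounded h0 fun p => ?_
  have hp : (0 : ℝ) ≤ (p : ℝ) ^ (-s) := by positivity
  rw [Real.norm_eq_abs, abs_mul, abs_of_nonneg hp]
  exact mul_le_mul_of_nonneg_right (hf p) hp

/-- comparison of a density with an upper bound, up to finitely many primes -/
theorem density_le {f g : Nat.Primes → ℝ} {B m b : ℝ} (S : Finset Nat.Primes)
    (hf : ∀ p, |f p| ≤ B) (hg : ∀ p, |g p| ≤ B) (hfg : ∀ p ∉ S, f p ≤ g p)
    (hm : Tendsto (fun s : ℝ => primeW f s / (-Real.log (s - 1))) (𝓝[>] 1) (𝓝 m))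
    (hb : ∀ᶠ s in 𝓝[>] (1 : ℝ), primeW g s ≤ b * (-Real.log (s - 1))) : m ≤ b := by
  have hle : ∀ s : ℝ, 1 < s → primeW f s ≤ primeW g s + ∑ p ∈ S, |f p - g p| := by
    intro s hs
    have h1 := summable_bounded hf hs
    have h2 := summable_bounded hg hs
    rw [← sub_le_iff_le_add', primeW, primeW, ← h1.tsum_sub h2]
    rw [← Summable.sum_add_tsum_compl (s := S) (h1.sub h2)]
    have h3 : ∑' x : ↥((S : Set Nat.Primes)ᶜ),
        (f x.1 * (x.1 : ℝ) ^ (-s) - g x.1 * (x.1 : ℝ) ^ (-s)) ≤ 0 := tsum_nonpos fun x => by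
      have hp : (0 : ℝ) ≤ (x.1 : ℝ) ^ (-s) := by positivity
      exact sub_nonpos.2 (mul_le_mul_of_nonneg_right (hfg x.1 x.2) hp)
    have h4 : ∑ p ∈ S, (f p * (p : ℝ) ^ (-s) - g p * (p : ℝ) ^ (-s)) ≤ ∑ p ∈ S, |f p - g p| := by
      refine Finset.sum_le_sum fun p _ => ?_
      have hp1 : (p : ℝ) ^ (-s) ≤ 1 :=
        Real.rpow_le_one_of_one_le_of_nonpos (by exact_mod_cast p.2.one_le) (by linarith)
      rw [← sub_mul]
      calc (f p - g p) * (p : ℝ) ^ (-s) ≤ |f p - g p| * (p : ℝ) ^ (-s) :=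
            mul_le_mul_of_nonneg_right (le_abs_self _) (by positivity)
        _ ≤ |f p - g p| := mul_le_of_le_one_right (abs_nonneg _) hp1
    linarith
  set C := ∑ p ∈ S, |f p - g p|
  have hC : Tendsto (fun s : ℝ => b + C / (-Real.log (s - 1))) (𝓝[>] 1) (𝓝 b) := by
    simpa using tendsto_const_nhds.add (tendsto_const_nhds.div_atTop tendsto_negLog)
  refine le_of_tendsto_of_tendsto hm hC ?_
  filter_upwards [hb, self_mem_nhdsWithin, tendsto_negLog.eventually_gt_atTop 0] with s h1 hs hl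
  rw [div_le_iff₀ hl, add_mul, div_mul_cancel₀ C hl.ne']
  exact (hle s hs).trans (add_le_add h1 le_rfl)

/-- a homomorphism of finite level factors through a finite normal extension -/
theorem exists_normal_factor {H : Type} [Group H] (π : GalQBar →* H)
    (hπ : GaloisFactorsThroughFiniteLevel π) :
    ∃ (L : IntermediateField ℚ QBar) (_ : FiniteDimensional ℚ L) (_ : Normal ℚ L),
      ∀ σ : GalQBar, AlgEquiv.restrictNormalHom L σ = 1 → π σ = 1 := by
  obtain ⟨E, hE, h⟩ := hπ
  haveI := hE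
  haveI : IsGalois ℚ QBar := FLTAgent.Alg.qb_isGalois
  haveI : Normal ℚ (IntermediateField.normalClosure ℚ E QBar) := normalClosure.normal ℚ E QBar
  refine ⟨IntermediateField.normalClosure ℚ E QBar, inferInstance, inferInstance, fun σ hσ => ?_⟩
  refine h σ fun x hx => ?_
  have h1 := AlgEquiv.restrictNormal_commutes σ (IntermediateField.normalClosure ℚ E QBar)
    ⟨x, E.le_normalClosure hx⟩
  exact h1.symm.trans (congrArg (algebraMap (IntermediateField.normalClosure ℚ E QBar) QBar)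
    (DFunLike.congr_fun hσ ⟨x, E.le_normalClosure hx⟩))

/-- the density theorem for a surjection to a finite group -/
theorem DensityThm.tendsto_image (hD : DensityThm) {G : Type} [Group G] [Fintype G]
    (π : GalQBar →* G) (hπ : GaloisFactorsThroughFiniteLevel π) (hsurj : Function.Surjective π)
    (F : G → ℝ) (hcl : ∀ x g, F (x * g * x⁻¹) = F g) (hinv : ∀ g, F g⁻¹ = F g) :
    Tendsto (fun s : ℝ => primeW (fun p => F (π (frobAt p))) s / (-Real.log (s - 1))) (𝓝[>] 1)
      (𝓝 ((∑ g, F g) / (Fintype.card G : ℝ))) := by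
  classical
  obtain ⟨L, hL, hN, hker⟩ := exists_normal_factor π hπ
  haveI := hL
  haveI := hN
  haveI : IsGalois ℚ QBar := FLTAgent.Alg.qb_isGalois
  have hrs := AlgEquiv.restrictNormalHom_surjective (F := ℚ) (K₁ := L) QBar
  let π' : (L ≃ₐ[ℚ] L) →* G :=
    (AlgEquiv.restrictNormalHom (F := ℚ) (K₁ := QBar) L).liftOfSurjective hrs
      ⟨π, fun σ hσ => MonoidHom.mem_ker.2 (hker σ (MonoidHom.mem_ker.1 hσ))⟩
  have hπ' : ∀ σ, π' (AlgEquiv.restrictNormalHom L σ) = π σ := fun σ =>
    MonoidHom.liftOfRightInverse_comp_apply _ _ _ _ σ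
  have h := hD L (fun g => F (π' g)) (fun x g => by rw [map_mul, map_mul, map_inv]; exact hcl _ _)
    (fun g => by rw [map_inv]; exact hinv _)
  have e : (∑ g : L ≃ₐ[ℚ] L, F (π' g)) / (Fintype.card (L ≃ₐ[ℚ] L) : ℝ) =
      (∑ g, F g) / (Fintype.card G : ℝ) := by
    have hs' : Function.Surjective π' := fun y => by
      obtain ⟨σ, rfl⟩ := hsurj y
      exact ⟨_, hπ' σ⟩
    have hfib : ∀ y : G, (Finset.univ.filter fun g => π' g = y).card =
        (Finset.univ.filter fun g => π' g = 1).card := fun y => by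
      obtain ⟨g₀, rfl⟩ := hs' y
      refine Finset.card_equiv (Equiv.mulLeft g₀⁻¹) fun g => ?_
      rw [Finset.mem_filter, Finset.mem_filter, Equiv.coe_mulLeft, map_mul, map_inv, inv_mul_eq_one]
      exact and_congr (iff_of_true (Finset.mem_univ _) (Finset.mem_univ _)) eq_comm
    set n := (Finset.univ.filter fun g => π' g = 1).card with hn
    have hn0 : 0 < n := Finset.card_pos.2 ⟨1, by simp⟩
    have hsum : ∀ u : G → ℝ, (∑ g : L ≃ₐ[ℚ] L, u (π' g)) = n * ∑ y, u y := fun u => by
      rw [← Finset.sum_fiberwise Finset.univ π' (fun g => u (π' g)), Finset.mul_sum]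
      refine Finset.sum_congr rfl fun y _ => ?_
      rw [Finset.sum_congr rfl (fun g hg => by rw [(Finset.mem_filter.1 hg).2]), Finset.sum_const,
        nsmul_eq_mul, hfib]
    have hc : (Fintype.card (L ≃ₐ[ℚ] L) : ℝ) = n * (Fintype.card G : ℝ) := by
      simpa using hsum fun _ => 1
    rw [hsum, hc, mul_div_mul_left _ _ (by positivity)]
  rw [e] at h
  refine h.congr fun s => ?_
  congr 2
  funext p
  exact congrArg F (hπ' (frobAt p))

end FLTAgent.DS
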