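import Fermat.Agent.DS.GroupsBasic

/-!
Area DS, parcel DS9: in characteristic `ℓ`, few values of trace and determinant on most elements
force the order to be prime to `ℓ`; then non scalar elements have two eigenlines.
-/

set_option autoImplicit false

noncomputable section

open Matrix Module

namespace FLTAgent.DS

variable {k : Type*} [Field k] {G : Type*} [Group G] (ρ : G →* GL (Fin 2) k)

theorem inv_mulVec_mulVec (P : GL (Fin 2) k) (v : Fin 2 → k) :
    (↑(P⁻¹) : Matrix (Fin 2) (Fin 2) k) *ᵥ ((P : Matrix (Fin 2) (Fin 2) k) *ᵥ v) = v := by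
  rw [mulVec_mulVec, P.inv_mul, one_mulVec]

theorem mulVec_inv_mulVec (P : GL (Fin 2) k) (v : Fin 2 → k) :
    (P : Matrix (Fin 2) (Fin 2) k) *ᵥ ((↑(P⁻¹) : Matrix (Fin 2) (Fin 2) k) *ᵥ v) = v := by
  rw [mulVec_mulVec, P.mul_inv, one_mulVec]

theorem mulVec_mat_injective (g : G) : Function.Injective (mat ρ g *ᵥ ·) := fun v w h => by
  have := congrArg ((↑((ρ g)⁻¹) : Matrix (Fin 2) (Fin 2) k) *ᵥ ·) h
  simp only [mat, inv_mulVec_mulVec] at this
  exact this

/-- conjugation by an invertible matrix -/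
def conjRep (P : GL (Fin 2) k) : G →* GL (Fin 2) k :=
  (MulAut.conj P⁻¹).toMonoidHom.comp ρ

theorem mat_conjRep (P : GL (Fin 2) k) (g : G) :
    mat (conjRep ρ P) g = (↑(P⁻¹) : Matrix (Fin 2) (Fin 2) k) * mat ρ g * (P : Matrix (Fin 2) (Fin 2) k) := by
  simp [conjRep, mat, mul_assoc]

theorem conjRep_injective (hinj : Function.Injective ρ) (P : GL (Fin 2) k) :
    Function.Injective (conjRep ρ P) :=
  (MulAut.conj P⁻¹).injective.comp hinj

theorem trDet_conjRep (P : GL (Fin 2) k) (g : G) : trDet (conjRep ρ P) g = trDet ρ g := by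
  simp only [trDet, mat_conjRep]
  rw [Matrix.trace_mul_cycle, ← Units.val_mul, mul_inv_cancel, Units.val_one, one_mul,
    Matrix.det_mul_right_comm, ← Units.val_mul, inv_mul_cancel, Units.val_one, one_mul]

theorem isEig_conjRep (P : GL (Fin 2) k) (g : G) (v : Fin 2 → k) :
    IsEig (conjRep ρ P) g v ↔ IsEig ρ g ((P : Matrix (Fin 2) (Fin 2) k) *ᵥ v) := by
  constructor <;> rintro ⟨c, hc⟩ <;> refine ⟨c, ?_⟩
  · rw [mat_conjRep, ← mulVec_mulVec, ← mulVec_mulVec] at hc
    have := congrArg ((P : Matrix (Fin 2) (Fin 2) k) *ᵥ ·) hc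
    simp only [mulVec_inv_mulVec, mulVec_smul] at this
    exact this
  · rw [mat_conjRep, ← mulVec_mulVec, ← mulVec_mulVec, hc, mulVec_smul, mulVec_mulVec,
      ← Units.val_mul, inv_mul_cancel, Units.val_one, one_mulVec]

theorem isSS_conjRep (hss : IsSS ρ) (P : GL (Fin 2) k) : IsSS (conjRep ρ P) := by
  intro v hv hst
  have hne : (P : Matrix (Fin 2) (Fin 2) k) *ᵥ v ≠ 0 := by
    intro h
    have := congrArg ((↑(P⁻¹) : Matrix (Fin 2) (Fin 2) k) *ᵥ ·) h
    simp only [inv_mulVec_mulVec, mulVec_zero] at this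
    exact hv this
  obtain ⟨w, hw, hli⟩ := hss _ hne fun g => (isEig_conjRep ρ P g v).mp (hst g)
  refine ⟨(↑(P⁻¹) : Matrix (Fin 2) (Fin 2) k) *ᵥ w, fun g => (isEig_conjRep ρ P g _).mpr ?_, ?_⟩
  · rw [mulVec_inv_mulVec]
    exact hw g
  · refine LinearIndependent.pair_iff.mpr fun c d hcd => ?_
    have h1 := congrArg ((P : Matrix (Fin 2) (Fin 2) k) *ᵥ ·) hcd
    simp only [mulVec_add, mulVec_smul, mulVec_inv_mulVec, mulVec_zero] at h1
    exact LinearIndependent.pair_iff.mp hli c d h1

/-- a line moved by a normalised unipotent element of order `ℓ` has orbit of size at least `ℓ + 1` -/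
theorem orbit_bound [Finite G] {ℓ : ℕ} [Fact ℓ.Prime] [CharP k ℓ] {u : G}
    (hu : mat ρ u = !![1, 1; 0, 1]) {g : G} (hg : mat ρ g 1 0 ≠ 0) :
    (ℓ + 1) * Nat.card (eigStab ρ (Pi.single 0 1)) ≤ Nat.card G := by
  classical
  set e : Fin 2 → k := Pi.single 0 1
  set B := eigStab ρ e
  rw [← Subgroup.card_mul_index B, mul_comm]
  refine Nat.mul_le_mul_left _ ?_
  have hcol : ∀ h : G, h ∈ B ↔ mat ρ h 1 0 = 0 := by
    intro h
    constructor
    · rintro ⟨c, hc⟩
      simpa [e] using congrFun hc 1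
    · intro h0
      refine ⟨mat ρ h 0 0, funext fun i => ?_⟩
      fin_cases i <;> simp [e, h0]
  have hupow : ∀ i : ℕ, mat ρ (u ^ i) = !![1, (i : k); 0, 1] := fun i => by
    induction i with
    | zero => simp [one_fin_two]
    | succ i ih => rw [pow_succ, mat_mul, ih, hu]; ext a b; fin_cases a <;> fin_cases b <;>
        simp [Matrix.mul_apply, Fin.sum_univ_two, add_comm]
  let f : Option (Fin ℓ) → G ⧸ B := fun o => o.elim ((1 : G) : G ⧸ B) fun i => ((u ^ (i : ℕ) * g : G) : G ⧸ B)
  have hf : Function.Injective f := by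
    rintro (_ | i) (_ | j) hij
    · rfl
    · exfalso
      have h := QuotientGroup.eq.mp hij
      rw [inv_one, one_mul, hcol, mat_mul, hupow] at h
      exact hg (by simpa [Matrix.mul_apply, Fin.sum_univ_two] using h)
    · exfalso
      have h := QuotientGroup.eq.mp hij.symm
      rw [inv_one, one_mul, hcol, mat_mul, hupow] at h
      exact hg (by simpa [Matrix.mul_apply, Fin.sum_univ_two] using h)
    · have h := QuotientGroup.eq.mp hij
      rw [hcol, mat_mul] at h
      -- the entry is read off after multiplying back by `g`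
      have hid : mat ρ g * (mat ρ ((u ^ (i : ℕ) * g)⁻¹) * mat ρ (u ^ (j : ℕ) * g)) =
          mat ρ ((u ^ (i : ℕ))⁻¹ * u ^ (j : ℕ) * g) := by
        rw [← mat_mul, ← mat_mul]
        congr 1
        group
      have hinv : mat ρ ((u ^ (i : ℕ))⁻¹) = !![1, -((i : ℕ) : k); 0, 1] := by
        have h1 : mat ρ (u ^ (i : ℕ)) * !![1, -((i : ℕ) : k); 0, 1] = 1 := by
          rw [hupow]; ext a b; fin_cases a <;> fin_cases b <;> simp [Matrix.mul_apply, Fin.sum_univ_two]
        have h2 : mat ρ ((u ^ (i : ℕ))⁻¹) * mat ρ (u ^ (i : ℕ)) = 1 := by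
          rw [← mat_mul, inv_mul_cancel, mat_one]
        exact left_inv_eq_right_inv h2 h1
      set Q := mat ρ ((u ^ (i : ℕ) * g)⁻¹) * mat ρ (u ^ (j : ℕ) * g) with hQdef
      have e0 := congrFun (congrFun hid 0) 0
      have e1 := congrFun (congrFun hid 1) 0
      rw [mat_mul, mat_mul, hinv, hupow] at e0 e1
      simp [Matrix.mul_apply, Fin.sum_univ_two, h] at e0 e1
      have hQ1 : Q 0 0 = 1 := by
        rcases mul_right_eq_self₀.mp e1 with h' | h'
        · exact h'
        · exact absurd h' hg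
      rw [hQ1, mul_one] at e0
      have : (((j : ℕ) : k) - ((i : ℕ) : k)) * mat ρ g 1 0 = 0 := by linear_combination -e0
      rcases mul_eq_zero.mp this with h' | h'
      · congr 1
        have h2 := (CharP.natCast_eq_natCast k ℓ).mp (sub_eq_zero.mp h')
        exact Fin.ext (h2.eq_of_lt_of_lt j.isLt i.isLt).symm
      · exact absurd h' hg
  have := Nat.card_le_card_of_injective f hf
  simpa [Finite.card_option, Nat.card_eq_fintype_card, Subgroup.index] using this

/-- few values of trace and determinant on most elements: no element of order `ℓ` -/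
theorem not_dvd_card_of_few [Fintype G] {ℓ : ℕ} [Fact ℓ.Prime] [CharP k ℓ]
    (hinj : Function.Injective ρ) (hss : IsSS ρ) (Hs : Finset G) (T : Finset (k × k))
    (hT : ∀ g ∈ Hs, trDet ρ g ∈ T) (hHs : Fintype.card G < 2 * Hs.card)
    (hbig : 2 * T.card + 2 < ℓ) : ¬ ℓ ∣ Fintype.card G := by
  classical
  intro hdvd
  obtain ⟨u, hu⟩ := exists_prime_orderOf_dvd_card ℓ hdvd
  set N := mat ρ u - 1 with hN
  have hNℓ : N ^ ℓ = 0 := by
    rw [hN, sub_pow_char_of_commute ℓ (Commute.one_right _), one_pow, ← mat_pow, ← hu,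
      pow_orderOf_eq_one, mat_one, sub_self]
  have hN2 : N ^ 2 = 0 := by
    have hd : N.det = 0 := by
      have := congrArg Matrix.det hNℓ
      rw [det_pow, det_zero] at this
      exact pow_eq_zero_iff'.mp this |>.1
    have hch : N ^ 2 = N.trace • N := by
      ext i j
      fin_cases i <;> fin_cases j <;>
        simp [sq, Matrix.mul_apply, Fin.sum_univ_two, trace_fin_two] <;>
        rw [det_fin_two] at hd <;> first | ring1 | linear_combination -hd
    have hpow : ∀ m, N ^ (m + 1) = N.trace ^ m • N := fun m => by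
      induction m with
      | zero => simp
      | succ m ih => rw [pow_succ, ih, smul_mul_assoc, ← sq, hch, smul_smul, ← pow_succ]
    obtain ⟨m, rfl⟩ : ∃ m, ℓ = m + 1 := ⟨ℓ - 1, by have := (Fact.out : ℓ.Prime).one_le; omega⟩
    rw [hpow] at hNℓ
    rcases smul_eq_zero.mp hNℓ with h | h
    · rw [hch, pow_eq_zero_iff'.mp h |>.1, zero_smul]
    · rw [h]; simp [sq]
  have hN0 : N ≠ 0 := fun h => by
    have h1 : u = 1 := hinj (Units.ext (by simpa [mat] using sub_eq_zero.mp h))
    rw [h1, orderOf_one] at hu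
    exact (Fact.out : ℓ.Prime).one_lt.ne' hu.symm
  obtain ⟨v, hv⟩ : ∃ v, N *ᵥ v ≠ 0 := by
    by_contra! h
    exact hN0 (Matrix.toLin'.injective (LinearMap.ext fun x => by simpa using h x))
  set P0 : Matrix (Fin 2) (Fin 2) k := Matrix.of ![![(N *ᵥ v) 0, v 0], ![(N *ᵥ v) 1, v 1]]
  have hli : LinearIndependent k ![N *ᵥ v, v] := by
    refine LinearIndependent.pair_iff.mpr fun a b hab => ?_
    have h1 := congrArg (N *ᵥ ·) hab
    rw [mulVec_add, mulVec_smul, mulVec_smul, mulVec_mulVec, ← sq, hN2, zero_mulVec, smul_zero,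
      zero_add, mulVec_zero] at h1
    have hb : b = 0 := (smul_eq_zero.mp h1).resolve_right hv
    rw [hb, zero_smul, add_zero] at hab
    exact ⟨(smul_eq_zero.mp hab).resolve_right hv, hb⟩
  have hcols : P0 = (Matrix.of ![N *ᵥ v, v]).transpose := by
    ext i j; fin_cases i <;> fin_cases j <;> rfl
  have hdet : IsUnit P0 := by
    rw [hcols, Matrix.isUnit_transpose]
    exact Matrix.linearIndependent_rows_iff_isUnit.mp hli
  set P : GL (Fin 2) k := hdet.unit
  set σ := conjRep ρ P
  have huσ : mat σ u = !![1, 1; 0, 1] := by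
    have : mat ρ u * P0 = P0 * !![1, 1; 0, 1] := by
      have huN : mat ρ u = 1 + N := by rw [hN]; abel
      have h1 : mat ρ u *ᵥ (N *ᵥ v) = N *ᵥ v := by
        rw [huN, add_mulVec, one_mulVec, mulVec_mulVec, ← sq, hN2, zero_mulVec, add_zero]
      have h2 : mat ρ u *ᵥ v = v + N *ᵥ v := by rw [huN, add_mulVec, one_mulVec]
      ext i j
      fin_cases j
      · have := congrFun h1 i
        fin_cases i <;> simpa [P0, mulVec, dotProduct, Matrix.mul_apply, Fin.sum_univ_two] using this
      · have := congrFun h2 i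
        fin_cases i <;>
          simpa [P0, mulVec, dotProduct, Matrix.mul_apply, Fin.sum_univ_two, add_comm] using this
    rw [mat_conjRep, mul_assoc, show (P : Matrix (Fin 2) (Fin 2) k) = P0 from hdet.unit_spec, this,
      ← mul_assoc]
    have : (↑(P⁻¹) : Matrix (Fin 2) (Fin 2) k) * P0 = 1 := by
      conv_lhs => arg 2; rw [← hdet.unit_spec]
      exact P.inv_mul
    rw [this, one_mul]
  have hσT : ∀ g ∈ Hs, trDet σ g ∈ T := fun g hg => by
    rw [trDet_conjRep]; exact hT g hg
  set B := Finset.univ.filter fun g : G => mat σ g 1 0 = 0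
  have hnotall : ∃ g, mat σ g 1 0 ≠ 0 := by
    by_contra! h
    obtain ⟨w, hw, hli'⟩ := isSS_conjRep ρ hss P (Pi.single 0 1) (by simp) fun g =>
      ⟨mat σ g 0 0, funext fun i => by fin_cases i <;> simp [h g, σ]⟩
    obtain ⟨c, hc⟩ := hw u
    rw [huσ] at hc
    have h0 := congrFun hc 0
    have h1 := congrFun hc 1
    simp at h0 h1
    have hw1 : w 1 = 0 := by
      by_contra hne
      have hc1 : c = 1 := mul_right_cancel₀ hne ((h1.symm.trans (one_mul _).symm))
      rw [hc1, one_mul] at h0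
      exact hne (add_eq_left.mp h0)
    exact (LinearIndependent.pair_iff.mp hli' (w 0) (-1) (funext fun i => by
      fin_cases i <;> simp [hw1])).2 |> neg_ne_zero.mpr one_ne_zero
  obtain ⟨g0, hg0⟩ := hnotall
  have hB : (ℓ + 1) * B.card ≤ Fintype.card G := by
    have h := orbit_bound σ huσ hg0
    rw [Nat.card_eq_fintype_card, Nat.card_eq_fintype_card] at h
    refine le_trans (Nat.mul_le_mul_left _ (le_of_eq ?_)) h
    rw [Fintype.card_subtype]
    congr 1
    ext g
    simp only [B, Finset.mem_filter, Finset.mem_univ, true_and, mem_eigStab]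
    constructor
    · intro h0
      exact ⟨mat σ g 0 0, funext fun i => by fin_cases i <;> simp [h0]⟩
    · rintro ⟨c, hc⟩
      simpa using congrFun hc 1
  have hupow : ∀ i : ℕ, mat σ (u ^ i) = !![1, (i : k); 0, 1] := fun i => by
    induction i with
    | zero => simp [one_fin_two]
    | succ i ih => rw [pow_succ, mat_mul, ih, huσ]; ext a b; fin_cases a <;> fin_cases b <;>
        simp [Matrix.mul_apply, Fin.sum_univ_two, add_comm]
  have key : ∀ g ∈ Bᶜ, ((Finset.range ℓ).filter fun i => g * u ^ i ∈ Hs).card ≤ T.card := by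
    intro g hg
    simp only [Finset.mem_compl, B, Finset.mem_filter, Finset.mem_univ, true_and] at hg
    refine Finset.card_le_card_of_injOn (fun i => trDet σ (g * u ^ i))
      (fun i hi => hσT _ (Finset.mem_filter.mp hi).2) fun i hi j hj h => ?_
    have h1 := congrArg Prod.fst h
    simp [trDet, mat_mul, hupow, trace_fin_two, Matrix.mul_apply, Fin.sum_univ_two] at h1
    rcases h1 with h' | h'
    · exact ((CharP.natCast_eq_natCast k ℓ).mp h').eq_of_lt_of_lt
        (Finset.mem_range.mp (Finset.mem_filter.mp hi).1)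
        (Finset.mem_range.mp (Finset.mem_filter.mp hj).1)
    · exact absurd h' hg
  -- double counting over the right translates
  have hmul : ∀ i (g : G), g ∈ Bᶜ → g * u ^ i ∈ Bᶜ := fun i g hg => by
    simp only [Finset.mem_compl, B, Finset.mem_filter, Finset.mem_univ, true_and] at hg ⊢
    simpa [mat_mul, hupow, Matrix.mul_apply, Fin.sum_univ_two] using hg
  have htrans : ∀ i, (Bᶜ.filter fun g => g * u ^ i ∈ Hs).card = (Bᶜ ∩ Hs).card := fun i => by
    refine Finset.card_bij (fun g _ => g * u ^ i) (fun g hg => ?_) (fun a _ b _ h => mul_right_cancel h)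
      fun b hb => ⟨b * (u ^ i)⁻¹, ?_, by group⟩
    · simp only [Finset.mem_filter] at hg
      exact Finset.mem_inter.mpr ⟨hmul i g hg.1, hg.2⟩
    · obtain ⟨hb1, hb2⟩ := Finset.mem_inter.mp hb
      refine Finset.mem_filter.mpr ⟨?_, by simpa using hb2⟩
      by_contra h
      simp only [Finset.mem_compl, B, Finset.mem_filter, Finset.mem_univ, true_and, not_not] at h hb1
      apply hb1
      have : b = b * (u ^ i)⁻¹ * u ^ i := by group
      rw [this, mat_mul, hupow]
      simp [Matrix.mul_apply, Fin.sum_univ_two, h]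
  have hdc : ℓ * (Bᶜ ∩ Hs).card ≤ Bᶜ.card * T.card := by
    calc ℓ * (Bᶜ ∩ Hs).card
        = ∑ i ∈ Finset.range ℓ, (Bᶜ.filter fun g => g * u ^ i ∈ Hs).card := by simp [htrans]
      _ = ∑ g ∈ Bᶜ, ((Finset.range ℓ).filter fun i => g * u ^ i ∈ Hs).card :=
          Finset.sum_card_bipartiteAbove_eq_sum_card_bipartiteBelow
            (r := fun (i : ℕ) (g : G) => g * u ^ i ∈ Hs)
      _ ≤ Bᶜ.card * T.card := by
          simpa [smul_eq_mul] using Finset.sum_le_card_nsmul _ _ _ key
  have hsplit : Hs.card ≤ B.card + (Bᶜ ∩ Hs).card :=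
    (Finset.card_le_card fun g hg => by
      by_cases h : g ∈ B
      · exact Finset.mem_union_left _ h
      · exact Finset.mem_union_right _ (Finset.mem_inter.mpr ⟨Finset.mem_compl.mpr h, hg⟩)).trans
      (Finset.card_union_le _ _)
  have hc : Bᶜ.card * T.card ≤ Fintype.card G * T.card :=
    Nat.mul_le_mul_right _ (Finset.card_le_univ _)
  nlinarith [Fintype.card_pos (α := G)]

end FLTAgent.DS

end
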