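import Fermat.Agent.DS.AssemblyDefs
import Fermat.Agent.DS.CurveDefs
import Fermat.Agent.Attach.Cyclotomic

/-!
Area DS: what parcels DS6 and DS7 deliver for `X_H` (`JacData`), what parcels DS1–DS3 deliver at a
large prime (`Weight2Input`); consumed by parcel DS8.
-/

set_option autoImplicit false

noncomputable section

open UpperHalfPlane CongruenceSubgroup
open scoped MatrixGroups ModularForm
open FLTAgent.Chebotarev (QBar GalQBar)
open IsLocalRing (ResidueField residue)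

namespace FLTAgent.DS

/-- indices of the operators: `T_p` for `p` not dividing `M`, and diamonds -/
abbrev OpIdx (M : ℕ) : Type := {p : Nat.Primes // ¬ (p : ℕ) ∣ M} ⊕ (ZMod M)ˣ

/-- `T_p` on sequences of coefficients, `c` the value of `p ^ (k - 1) * <p>` -/
def seqT (R : Type*) [CommRing R] (p : ℕ) (c : R) : Module.End ℤ (ℕ → R) :=
  AddMonoidHom.toIntLinearMap
    (AddMonoidHom.mk' (fun s n => s (p * n) + c * (if p ∣ n then s (n / p) else 0))
      (fun s s' => funext fun n => by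
        simp only [Pi.add_apply]
        split_ifs <;> ring))

/-- the operators on sequences of coefficients of weight two forms with character `χ` -/
def seqOp {R : Type*} [CommRing R] (M : ℕ) (χ : (ZMod M)ˣ →* R) :
    OpIdx M → Module.End ℤ (ℕ → R)
  | Sum.inl p => seqT R (p.1 : ℕ) ((p.1 : ℕ) * χ (ZMod.unitOfCoprime (p.1 : ℕ)
      ((Nat.Prime.coprime_iff_not_dvd p.1.2).2 p.2)))
  | Sum.inr d => AddMonoidHom.toIntLinearMap
      (AddMonoidHom.mk' (fun s n => χ d * s n) (fun s s' => funext fun n => mul_add _ _ _))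

/-- a weight two cusp form for `H` with character `χ` -/
structure IsCuspH (M : ℕ) (Δ : Subgroup (ZMod M)ˣ) (χ : (ZMod M)ˣ →* ℂ) (g : ℍ → ℂ) : Prop where
  form : IsMFH M Δ 2 g
  cusp : ∀ γ : SL(2, ℤ), IsZeroAtImInfty (g ∣[(2 : ℤ)] γ)
  nebentypus : ∀ γ : Gamma0 M, g ∣[(2 : ℤ)] (γ : SL(2, ℤ)) = χ (dHom M γ) • g

/-- the lattice, the Jacobian and its Galois action -/
structure JacData (M : ℕ) (Δ : Subgroup (ZMod M)ˣ) : Type 1 where
  Lam : Type
  [addLam : AddCommGroup Lam]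
  [finiteLam : Module.Finite ℤ Lam]
  op : OpIdx M → Module.End ℤ Lam
  op_comm : ∀ i j, Commute (op i) (op j)
  faithful : ∀ (χ : (ZMod M)ˣ →* ℂ), (∀ d ∈ Δ, χ d = 1) → ∀ g : ℍ → ℂ, IsCuspH M Δ χ g →
    ∀ P : FreeAlgebra ℤ (OpIdx M), FreeAlgebra.lift ℤ op P = 0 →
      FreeAlgebra.lift ℤ (seqOp M χ) P (fun n => (ModFun.qx g).coeff n) = 0
  J : Type
  [addJ : AddCommGroup J]
  opJ : OpIdx M → Module.End ℤ J
  act : GalQBar →* Module.End ℤ J
  act_op : ∀ σ i, Commute (act σ) (opJ i)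
  tors : ℕ → Lam →+ J
  tors_nsmul : ∀ n : ℕ, 0 < n → ∀ v, n • tors n v = 0
  tors_eq_zero : ∀ n : ℕ, 0 < n → ∀ v, tors n v = 0 → ∃ w, v = (n : ℤ) • w
  tors_op : ∀ (n : ℕ), 0 < n → ∀ i v, tors n (op i v) = opJ i (tors n v)
  exists_level : ∀ x : J, ∃ L : IntermediateField ℚ QBar, FiniteDimensional ℚ L ∧
    ∀ σ : GalQBar, (∀ y ∈ L, σ y = y) → act σ x = x
  inertia : ∀ (p n : ℕ), p.Prime → ¬ p ∣ M → 0 < n → ¬ p ∣ n → ∀ B : ValuationSubring QBar,
    B.LiesOverPrime p → ∀ σ ∈ B.inertiaSubgroupIn ℚ, ∀ x : J, n • x = 0 → act σ x = x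
  frobenius : ∀ (p : Nat.Primes) (hp : ¬ (p : ℕ) ∣ M) (n : ℕ), 0 < n → ¬ (p : ℕ) ∣ n →
    ∀ B : ValuationSubring QBar, B.LiesOverPrime p → ∀ σ : GalQBar, B.IsFrobeniusAt σ p →
      ∀ x : J, n • x = 0 →
        act σ (act σ x) - opJ (Sum.inl ⟨p, hp⟩) (act σ x) +
          (p : ℕ) • opJ (Sum.inr (ZMod.unitOfCoprime (p : ℕ)
            ((Nat.Prime.coprime_iff_not_dvd p.2).2 hp))) x = 0

attribute [instance] JacData.addLam JacData.finiteLam JacData.addJ

/-- the weight two form congruent to the eigensystem at the place `A` -/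
structure Weight2Input {N : ℕ} (D : EigenInput N) (ℓ : ℕ) (A : ValuationSubring QBar) : Type where
  M : ℕ
  M_eq : M = N * ℓ
  Δ : Subgroup (ZMod M)ˣ
  neg_mem : (-1 : (ZMod M)ˣ) ∈ Δ
  χ : (ZMod M)ˣ →* A
  χ_triv : ∀ d ∈ Δ, χ d = 1
  g : ℍ → ℂ
  cusp : IsCuspH M Δ (((Genus.embC.comp A.subtype : A →+* ℂ) : A →* ℂ).comp χ) g
  b : ℕ → A
  b_spec : ∀ n, Genus.embC (b n : QBar) = (ModFun.qx g).coeff n
  b_one : residue A (b 1) = 1
  eigen : ∀ p : ℕ, p.Prime → ¬ p ∣ M → residue A (b p) = redQ A (D.a p) ∧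
    ∀ n, residue A (b (p * n)) + redQ A (D.e p) * (if p ∣ n then residue A (b (n / p)) else 0) =
      residue A (b p) * residue A (b n)
  χ_spec : ∀ (p : ℕ) (hp : p.Prime) (hpM : ¬ p ∣ M),
    (p : ResidueField A) * residue A (χ (ZMod.unitOfCoprime p
      ((Nat.Prime.coprime_iff_not_dvd hp).2 hpM))) = redQ A (D.e p)

end FLTAgent.DS
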