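import Fermat.Agent.DS.CurveBasic
import Fermat.Agent.DS.JacDefs
import Fermat.Agent.LL.CohAPI

/-!
The lattice of integral parabolic homomorphisms on `H = grpH M Δ`, with Hecke operators and
diamonds. Commutation is read off in the cohomology of `SL(2, ℤ)` with coefficients in functions
on `GL(2, ℤ/M) / BΔ`.
-/

set_option autoImplicit false
set_option linter.style.haveILetI false
set_option linter.unusedSectionVars false

noncomputable section

open CongruenceSubgroup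
open ModularCurve.Period (parabolicHoms IsParabolicHom)
open scoped MatrixGroups

namespace FLTAgent.DS.Lat

variable (M : ℕ) (Δ : Subgroup (ZMod M)ˣ)

/-- upper triangular matrices with lower right entry in `Δ` -/
def borelH : Subgroup (GL (Fin 2) (ZMod M)) where
  carrier := {g | g.1 1 0 = 0 ∧ ∃ u ∈ Δ, (u : ZMod M) = g.1 1 1}
  one_mem' := ⟨by simp, 1, one_mem Δ, by simp⟩
  mul_mem' := fun {g h} ⟨hg, u, hu, eu⟩ ⟨hh, v, hv, ev⟩ => by
    refine ⟨?_, u * v, mul_mem hu hv, ?_⟩ <;>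
      simp [Units.val_mul, Matrix.mul_apply, Fin.sum_univ_two, hg, hh, eu, ev]
  inv_mem' := fun {g} ⟨hg, u, hu, eu⟩ => by
    have h10 := congrFun₂ (g.mul_inv) 1 0
    have h11 := congrFun₂ (g.mul_inv) 1 1
    simp only [Matrix.mul_apply, Fin.sum_univ_two, hg, ← eu, zero_mul, zero_add,
      Matrix.one_apply_eq, Matrix.one_apply_ne (one_ne_zero : (1 : Fin 2) ≠ 0)] at h10 h11
    refine ⟨(Units.mul_right_eq_zero u).mp h10, u⁻¹, inv_mem hu, ?_⟩
    exact Units.inv_eq_of_mul_eq_one_right h11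

/-- the homogeneous set -/
abbrev Pts : Type := GL (Fin 2) (ZMod M) ⧸ borelH M Δ

/-- the base point -/
def base : Pts M Δ := QuotientGroup.mk 1

variable {M Δ}

theorem mem_borelH {g : GL (Fin 2) (ZMod M)} :
    g ∈ borelH M Δ ↔ g.1 1 0 = 0 ∧ ∃ u ∈ Δ, (u : ZMod M) = g.1 1 1 := Iff.rfl

theorem smul_base_eq {g : GL (Fin 2) (ZMod M)} : g • base M Δ = base M Δ ↔ g ∈ borelH M Δ := by
  rw [base, MulAction.Quotient.smul_mk, QuotientGroup.eq]
  simp

theorem stab_base : LL.stab M (base M Δ) = grpH M Δ := by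
  ext γ
  rw [LL.mem_stab, smul_base_eq, mem_borelH, mem_grpH, LL.coe_red, Matrix.map_apply,
    Matrix.map_apply]
  constructor
  · rintro ⟨h, u, hu, eu⟩
    refine ⟨Gamma0_mem.mpr h, ?_⟩
    convert hu
    exact Units.ext (by rw [coe_dHom, eu])
  · rintro ⟨h, hd⟩
    exact ⟨Gamma0_mem.mp h, _, hd, coe_dHom M _⟩

theorem mem_borelH_red {γ : SL(2, ℤ)} : LL.red M γ ∈ borelH M Δ ↔ γ ∈ grpH M Δ := by
  rw [← stab_base, LL.mem_stab, smul_base_eq]

theorem transitive [NeZero M] (y : Pts M Δ) : ∃ γ : SL(2, ℤ), LL.red M γ • base M Δ = y := by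
  induction y using QuotientGroup.induction_on with | H g =>
  set d := Matrix.GeneralLinearGroup.det g
  let b : GL (Fin 2) (ZMod M) :=
    ⟨!![(d : ZMod M), 0; 0, 1], !![((d⁻¹ : (ZMod M)ˣ) : ZMod M), 0; 0, 1],
      by ext i j; fin_cases i <;> fin_cases j <;> simp,
      by ext i j; fin_cases i <;> fin_cases j <;> simp⟩
  have hb : b ∈ borelH M Δ := by
    refine mem_borelH.mpr ⟨?_, 1, one_mem Δ, ?_⟩ <;> simp [b]
  obtain ⟨γ, hγ⟩ := LL.exists_red_eq (g := g * b⁻¹) (by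
    rw [map_mul, map_inv, mul_inv_eq_one]
    apply Units.ext
    rw [Matrix.GeneralLinearGroup.val_det_apply]
    simp [b, d, Matrix.det_fin_two])
  refine ⟨γ, ?_⟩
  rw [base, MulAction.Quotient.smul_mk, QuotientGroup.eq, smul_eq_mul, mul_one, hγ,
    _root_.mul_inv_rev, inv_inv, mul_assoc, inv_mul_cancel, mul_one]
  exact hb

/-! ### the normal subgroup `H` of `Γ₀(M)` -/

theorem conj_mem_grpH (δ : Gamma0 M) {γ : SL(2, ℤ)} (hγ : γ ∈ grpH M Δ) :
    (δ : SL(2, ℤ)) * γ * (δ : SL(2, ℤ))⁻¹ ∈ grpH M Δ := by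
  obtain ⟨h0, hd⟩ := mem_grpH.mp hγ
  refine mem_grpH.mpr ⟨mul_mem (mul_mem δ.2 h0) (inv_mem δ.2), ?_⟩
  have e : (⟨(δ : SL(2, ℤ)) * γ * (δ : SL(2, ℤ))⁻¹, mul_mem (mul_mem δ.2 h0) (inv_mem δ.2)⟩ :
      Gamma0 M) = δ * ⟨γ, h0⟩ * δ⁻¹ := rfl
  rw [e, map_mul, map_mul, map_inv, mul_right_comm, mul_inv_cancel, one_mul]
  exact hd

/-- conjugation by an element of `Γ₀(M)` -/
def conjH (δ : Gamma0 M) : grpH M Δ →* grpH M Δ where
  toFun γ := ⟨(δ : SL(2, ℤ)) * γ * (δ : SL(2, ℤ))⁻¹, conj_mem_grpH δ γ.2⟩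
  map_one' := Subtype.ext (by simp)
  map_mul' γ γ' := Subtype.ext (by simp [mul_assoc])

theorem coe_conjH (δ : Gamma0 M) (γ : grpH M Δ) :
    ((conjH δ γ : grpH M Δ) : SL(2, ℤ)) = (δ : SL(2, ℤ)) * γ * (δ : SL(2, ℤ))⁻¹ := rfl

theorem inv_mul_mem_grpH {δ δ' : Gamma0 M} (h : dHom M δ = dHom M δ') :
    (δ : SL(2, ℤ))⁻¹ * δ' ∈ grpH M Δ :=
  mem_grpH.mpr ⟨mul_mem (inv_mem δ.2) δ'.2, by
    have e : (⟨(δ : SL(2, ℤ))⁻¹ * δ', mul_mem (inv_mem δ.2) δ'.2⟩ : Gamma0 M) = δ⁻¹ * δ' := rfl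
    rw [e, map_mul, map_inv, h, inv_mul_cancel]
    exact one_mem Δ⟩

/-- an element of `Γ₀(M)` with given image -/
def lift [NeZero M] (d : (ZMod M)ˣ) : Gamma0 M := (dHom_surjective' (M := M) d).choose

theorem dHom_lift [NeZero M] (d : (ZMod M)ˣ) : dHom M (lift d) = d :=
  (dHom_surjective' (M := M) d).choose_spec

/-! ### Shapiro -/

/-- homomorphisms on `H` -/
abbrev HomH (M : ℕ) (Δ : Subgroup (ZMod M)ˣ) : Type := Additive (grpH M Δ) →+ ℤ

/-- functions on the homogeneous set, as a representation -/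
abbrev rhoH (M : ℕ) (Δ : Subgroup (ZMod M)ˣ) :
    Representation ℤ (GL (Fin 2) (ZMod M)) (Pts M Δ → ℤ) :=
  LL.funRep ℤ (Pts M Δ) (M := M)

/-- evaluation at the base point -/
def evH : LL.H1 (rhoH M Δ) →ₗ[ℤ] HomH M Δ where
  toFun y := (LL.eval ℤ (base M Δ) y).comp
    (MonoidHom.toAdditive (Subgroup.inclusion (stab_base (M := M) (Δ := Δ)).ge))
  map_add' _ _ := by
    ext γ
    simp
  map_smul' _ _ := by
    ext γ
    simp

theorem evH_apply (y : LL.H1 (rhoH M Δ)) (γ : grpH M Δ) :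
    evH y (Additive.ofMul γ) =
      LL.eval ℤ (base M Δ) y (Additive.ofMul ⟨γ.1, (stab_base (M := M) (Δ := Δ)).ge γ.2⟩) := rfl

theorem evH_mk (f : LL.Z1 (rhoH M Δ)) (γ : grpH M Δ) :
    evH (LL.H1.mk (rhoH M Δ) f) (Additive.ofMul γ) = f.1 γ (base M Δ) := rfl

variable [NeZero M]

theorem evH_bijective : Function.Bijective (evH (M := M) (Δ := Δ)) := by
  constructor
  · intro y y' hyy
    refine LL.eval_injective (base M Δ) transitive (AddMonoidHom.ext fun a => ?_)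
    obtain ⟨γ, rfl⟩ := Additive.ofMul.surjective a
    exact DFunLike.congr_fun hyy (Additive.ofMul ⟨γ.1, stab_base.le γ.2⟩)
  · intro φ
    obtain ⟨y, hy⟩ := LL.eval_surjective (base M Δ) transitive
      (φ.comp (MonoidHom.toAdditive (Subgroup.inclusion (stab_base (M := M) (Δ := Δ)).le)))
    refine ⟨y, AddMonoidHom.ext fun a => ?_⟩
    obtain ⟨γ, rfl⟩ := Additive.ofMul.surjective a
    exact DFunLike.congr_fun hy (Additive.ofMul ⟨γ.1, stab_base.ge γ.2⟩)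

/-- Shapiro's isomorphism -/
def shapiro : LL.H1 (rhoH M Δ) ≃ₗ[ℤ] HomH M Δ := LinearEquiv.ofBijective evH evH_bijective

theorem shapiro_apply (y : LL.H1 (rhoH M Δ)) : shapiro y = evH y := rfl

theorem evH_shapiro_symm (φ : HomH M Δ) : evH (shapiro.symm φ) = φ := shapiro.apply_symm_apply φ

/-- right translation on the homogeneous set -/
def diaPt (δ : Gamma0 M) : Pts M Δ → Pts M Δ :=
  Quotient.map' (fun g => g * (LL.red M (δ : SL(2, ℤ)))⁻¹) (fun g g' h => by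
    rw [QuotientGroup.leftRel_apply] at h ⊢
    have key : ∀ b ∈ borelH M Δ,
        LL.red M (δ : SL(2, ℤ)) * b * (LL.red M (δ : SL(2, ℤ)))⁻¹ ∈ borelH M Δ := by
      rintro b ⟨hb, u, hu, eu⟩
      set a := LL.red M (δ : SL(2, ℤ))
      have ha : a.1 1 0 = 0 := by
        show (LL.red M (δ : SL(2, ℤ)) : Matrix (Fin 2) (Fin 2) (ZMod M)) 1 0 = 0
        rw [LL.coe_red, Matrix.map_apply]
        exact Gamma0_mem.mp δ.2
      obtain ⟨v, hv⟩ : ∃ v : (ZMod M)ˣ, (v : ZMod M) = a.1 1 1 := by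
        refine ⟨dHom M δ, ?_⟩
        show _ = (LL.red M (δ : SL(2, ℤ)) : Matrix (Fin 2) (Fin 2) (ZMod M)) 1 1
        rw [LL.coe_red, Matrix.map_apply]
        exact coe_dHom M δ
      have h10 := congrFun₂ a.mul_inv 1 0
      have h11 := congrFun₂ a.mul_inv 1 1
      simp only [Matrix.mul_apply, Fin.sum_univ_two, ha, ← hv, zero_mul, zero_add,
        Matrix.one_apply_eq, Matrix.one_apply_ne (one_ne_zero : (1 : Fin 2) ≠ 0)] at h10 h11
      have ha' := (Units.mul_right_eq_zero v).mp h10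
      have hv' : ((v⁻¹ : (ZMod M)ˣ) : ZMod M) = (↑a⁻¹ : Matrix (Fin 2) (Fin 2) (ZMod M)) 1 1 :=
        Units.inv_eq_of_mul_eq_one_right h11
      refine mem_borelH.mpr ⟨?_, u, hu, ?_⟩ <;>
        simp only [Units.val_mul, Matrix.mul_apply, Fin.sum_univ_two, ha, hb, ha', ← hv, ← eu,
          ← hv', zero_mul, mul_zero, add_zero, zero_add]
      rw [mul_comm (v : ZMod M), mul_assoc, Units.mul_inv, mul_one]
    have e : (g * (LL.red M (δ : SL(2, ℤ)))⁻¹)⁻¹ * (g' * (LL.red M (δ : SL(2, ℤ)))⁻¹) =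
        LL.red M (δ : SL(2, ℤ)) * (g⁻¹ * g') * (LL.red M (δ : SL(2, ℤ)))⁻¹ := by group
    rw [e]
    exact key _ h)

theorem diaPt_smul (δ : Gamma0 M) (g : GL (Fin 2) (ZMod M)) (x : Pts M Δ) :
    diaPt δ (g • x) = g • diaPt δ x := by
  induction x using QuotientGroup.induction_on with | H a =>
  show (QuotientGroup.mk (g * a * _) : Pts M Δ) = QuotientGroup.mk (g * (a * _))
  rw [mul_assoc]

theorem diaPt_base (δ : Gamma0 M) :
    diaPt (Δ := Δ) δ (base M Δ) = LL.red M ((δ⁻¹ : Gamma0 M) : SL(2, ℤ)) • base M Δ := by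
  show (QuotientGroup.mk (1 * _) : Pts M Δ) = QuotientGroup.mk (_ * 1)
  rw [one_mul, mul_one, Subgroup.coe_inv, map_inv]

/-- the operators on homomorphisms -/
def opHom : OpIdx M → Module.End ℤ (HomH M Δ)
  | Sum.inl p => shapiro.toLinearMap ∘ₗ LL.T (rhoH M Δ) p.1.2 p.2 ∘ₗ shapiro.symm.toLinearMap
  | Sum.inr d => shapiro.toLinearMap ∘ₗ
      LL.map (LL.isTwist_funPull (M := M) (A := ℤ) (diaPt (Δ := Δ) (lift d))
        (diaPt_smul (lift d))) ∘ₗ shapiro.symm.toLinearMap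

theorem elt_mem_grpH {n : ℕ} {ι : Type} [Fintype ι] (R : LL.Reps n ι) (hn : n.Coprime M)
    (hR : ∀ i, R.adjRed M i • base M Δ = base M Δ) (γ : grpH M Δ) (i : ι) :
    R.elt γ i ∈ grpH M Δ :=
  stab_base.le (LL.elt_mem_stab R hn hR (stab_base.ge γ.2) i)

theorem opHom_inl_apply (p : {p : Nat.Primes // ¬ (p : ℕ) ∣ M}) {ι : Type} [Fintype ι]
    (R : LL.Reps (p.1 : ℕ) ι) (hR : ∀ i, R.adjRed M i • base M Δ = base M Δ) (φ : HomH M Δ)
    (γ : grpH M Δ) :
    opHom (Sum.inl p) φ (Additive.ofMul γ) =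
      ∑ i, φ (Additive.ofMul ⟨R.elt γ i,
        elt_mem_grpH R ((p.1.2.coprime_iff_not_dvd).mpr p.2) hR γ i⟩) := by
  show evH (LL.T (rhoH M Δ) p.1.2 p.2 (shapiro.symm φ)) (Additive.ofMul γ) = _
  rw [LL.T_eq_heckeH p.1.2 p.2 R, evH_apply, LL.eval_heckeH R _ (base M Δ) hR]
  conv_rhs => rw [← evH_shapiro_symm φ]
  rfl

/-- the transfer formula along any representatives fixing the base point -/
theorem opHom_inl_apply' (p : {p : Nat.Primes // ¬ (p : ℕ) ∣ M}) {ι : Type} [Fintype ι]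
    (R : LL.Reps (p.1 : ℕ) ι) (hR : ∀ i, R.adjRed M i • base M Δ = base M Δ) (φ : HomH M Δ)
    (γ : grpH M Δ) (σ : ι → ι) (g : ι → grpH M Δ)
    (hg : ∀ i, R.rep i * ((γ : SL(2, ℤ)) : Matrix (Fin 2) (Fin 2) ℤ) =
      ((g i : SL(2, ℤ)) : Matrix (Fin 2) (Fin 2) ℤ) * R.rep (σ i)) :
    opHom (Sum.inl p) φ (Additive.ofMul γ) = ∑ i, φ (Additive.ofMul (g i)) := by
  rw [opHom_inl_apply p R hR]
  refine Finset.sum_congr rfl fun i _ => ?_
  congr 2
  exact Subtype.ext (R.elt_idx_eq (hg i)).1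

theorem opHom_inr_apply (d : (ZMod M)ˣ) (δ : Gamma0 M) (hδ : dHom M δ = d) (φ : HomH M Δ)
    (γ : grpH M Δ) :
    opHom (Sum.inr d) φ (Additive.ofMul γ) = φ (Additive.ofMul (conjH δ γ)) := by
  obtain ⟨f, hf⟩ := Submodule.Quotient.mk_surjective _ (shapiro.symm φ)
  have hφ : φ = evH (LL.H1.mk (rhoH M Δ) f) := by
    rw [← evH_shapiro_symm φ, ← hf]
    rfl
  show evH ((LL.map (LL.isTwist_funPull (M := M) (A := ℤ) (diaPt (Δ := Δ) (lift d))
      (diaPt_smul (lift d)))) (shapiro.symm φ)) (Additive.ofMul γ) = _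
  rw [← hf, hφ]
  show evH (LL.H1.mk (rhoH M Δ) (LL.mapZ _ f)) (Additive.ofMul γ) = _
  rw [evH_mk, evH_mk, LL.mapZ_apply, LL.funPull_apply, diaPt_base, coe_conjH]
  have hpt : LL.red M ((lift d)⁻¹ : Gamma0 M).1 • base M Δ =
      LL.red M (δ⁻¹ : Gamma0 M).1 • base M Δ := by
    rw [eq_comm, ← inv_smul_eq_iff, ← mul_smul, ← map_inv, ← map_mul, smul_base_eq,
      mem_borelH_red]
    exact inv_mul_mem_grpH (by rw [map_inv, map_inv, dHom_lift, hδ])
  rw [hpt]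
  set a : SL(2, ℤ) := (δ⁻¹ : Gamma0 M).1 with ha
  have ha' : (δ : SL(2, ℤ)) = a⁻¹ := by rw [ha, Subgroup.coe_inv, inv_inv]
  rw [ha', inv_inv]
  have hmem : a⁻¹ * γ * a ∈ grpH M Δ := by
    have := conj_mem_grpH δ γ.2
    rwa [ha', inv_inv] at this
  have e1 := congrFun (LL.Z1_apply_mul (rhoH M Δ) f.2 γ a) (LL.red M a • base M Δ)
  have e2 := congrFun (LL.Z1_apply_mul (rhoH M Δ) f.2 a (a⁻¹ * γ * a)) (LL.red M a • base M Δ)
  rw [Pi.add_apply, LL.funRep_apply] at e1 e2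
  rw [inv_smul_smul] at e2
  have hfix : (LL.red M (γ : SL(2, ℤ)))⁻¹ • LL.red M a • base M Δ = LL.red M a • base M Δ := by
    rw [inv_smul_eq_iff, ← mul_smul, ← map_mul,
      show (γ : SL(2, ℤ)) * a = a * (a⁻¹ * γ * a) by group, map_mul, mul_smul,
      LL.mem_stab.mp (stab_base.ge hmem)]
  rw [hfix] at e1
  have e3 : a * (a⁻¹ * γ * a) = γ * a := by group
  rw [e3] at e2
  linear_combination -e1 + e2

theorem opHom_comm (i j : OpIdx M) : Commute (opHom (Δ := Δ) i) (opHom j) := by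
  have hTT : ∀ (u v : Module.End ℤ (LL.H1 (rhoH M Δ))), Commute u v →
      Commute (shapiro.toLinearMap ∘ₗ u ∘ₗ shapiro.symm.toLinearMap)
        (shapiro.toLinearMap ∘ₗ v ∘ₗ shapiro.symm.toLinearMap) := fun u v h =>
    LinearMap.ext fun φ => by
      simp only [Module.End.mul_apply, LinearMap.comp_apply, LinearEquiv.coe_coe,
        LinearEquiv.symm_apply_apply]
      rw [← Module.End.mul_apply, h.eq, Module.End.mul_apply]
  have hTd : ∀ (p : {p : Nat.Primes // ¬ (p : ℕ) ∣ M}) (d : (ZMod M)ˣ),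
      Commute (opHom (Δ := Δ) (Sum.inl p)) (opHom (Sum.inr d)) := fun p d =>
    hTT _ _ (LinearMap.ext fun x => (LL.map_T_one _ p.1.2 p.2 x).symm)
  rcases i with p | d <;> rcases j with q | e
  · exact hTT _ _ (LL.T_comm p.1.2 p.2 q.1.2 q.2)
  · exact hTd p e
  · exact (hTd q d).symm
  · refine LinearMap.ext fun φ => AddMonoidHom.ext fun a => ?_
    obtain ⟨γ, rfl⟩ := Additive.ofMul.surjective a
    rw [Module.End.mul_apply, Module.End.mul_apply, opHom_inr_apply d _ (dHom_lift d),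
      opHom_inr_apply e _ (dHom_lift e)]
    set δ₁ := lift d
    set δ₂ := lift e
    rw [opHom_inr_apply e δ₂ (dHom_lift e), opHom_inr_apply d δ₁ (dHom_lift d)]
    -- both are values at conjugates by elements with equal image
    have h1 : dHom M (δ₂ * δ₁) = dHom M (δ₁ * δ₂) := by rw [map_mul, map_mul, mul_comm]
    set h : grpH M Δ := ⟨_, inv_mul_mem_grpH (Δ := Δ) h1⟩
    have e' : conjH (Δ := Δ) δ₁ (conjH δ₂ γ) = conjH δ₂ (conjH δ₁ (h * γ * h⁻¹)) := by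
      apply Subtype.ext
      simp only [coe_conjH, h, Subgroup.coe_mul, Subgroup.coe_inv]
      group
    rw [e', map_mul (conjH δ₁), map_mul (conjH δ₁), map_mul (conjH δ₂), map_mul (conjH δ₂),
      map_inv (conjH δ₁), map_inv (conjH δ₂), ofMul_mul, ofMul_mul, ofMul_inv, map_add, map_add,
      map_neg]
    abel

/-! ### parabolicity -/

theorem trace_pow_sq {γ : SL(2, ℤ)}
    (h : (γ : Matrix (Fin 2) (Fin 2) ℤ).trace ^ 2 = 4) (k : ℕ) :
    ((γ ^ k : SL(2, ℤ)) : Matrix (Fin 2) (Fin 2) ℤ).trace ^ 2 = 4 := by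
  obtain ⟨δ, m, hm⟩ := Periods.exists_conj_T_zpow h
  have key : ∀ n : ℤ, ((δ * ModularGroup.T ^ n * δ⁻¹ : SL(2, ℤ)) :
      Matrix (Fin 2) (Fin 2) ℤ).trace = 2 := by
    intro n
    rw [mul_assoc, Matrix.SpecialLinearGroup.coe_mul, Matrix.trace_mul_comm,
      ← Matrix.SpecialLinearGroup.coe_mul, inv_mul_cancel_right, ModularGroup.coe_T_zpow,
      Matrix.trace_fin_two]
    simp
  have hk : (δ * ModularGroup.T ^ m * δ⁻¹) ^ k = δ * ModularGroup.T ^ (m * k) * δ⁻¹ := by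
    rw [conj_pow, zpow_mul, zpow_natCast]
  rcases hm with rfl | rfl
  · rw [hk, key]; norm_num
  · rcases Nat.even_or_odd k with hp | hp
    · rw [hp.neg_pow, hk, key]; norm_num
    · rw [hp.neg_pow, hk, Matrix.SpecialLinearGroup.coe_neg, Matrix.trace_neg, key]; norm_num

/-- representatives multiplied on the left -/
def repsLeft {n : ℕ} {ι : Type} [Fintype ι] (R : LL.Reps n ι) (δ : ι → SL(2, ℤ)) :
    LL.Reps n ι where
  rep i := (δ i : Matrix (Fin 2) (Fin 2) ℤ) * R.rep i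
  pos := R.pos
  det_rep i := by rw [Matrix.det_mul, (δ i).2, R.det_rep, one_mul]
  exists_rep m hm := by
    obtain ⟨i, γ, rfl⟩ := R.exists_rep m hm
    refine ⟨i, γ * (δ i)⁻¹, ?_⟩
    rw [← mul_assoc, ← Matrix.SpecialLinearGroup.coe_mul, inv_mul_cancel_right]
  rep_inj i j γ h := R.rep_inj i j ((δ j)⁻¹ * γ * δ i) (by
    rw [Matrix.SpecialLinearGroup.coe_mul, Matrix.SpecialLinearGroup.coe_mul, mul_assoc, mul_assoc,
      h, ← mul_assoc, ← Matrix.SpecialLinearGroup.coe_mul, inv_mul_cancel,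
      Matrix.SpecialLinearGroup.coe_one, one_mul])

/-- the unit `p` mod `M` -/
def pUnit (p : {p : Nat.Primes // ¬ (p : ℕ) ∣ M}) : (ZMod M)ˣ :=
  ZMod.unitOfCoprime (p.1 : ℕ) ((Nat.Prime.coprime_iff_not_dvd p.1.2).2 p.2)

instance factPrimeIdx (p : {p : Nat.Primes // ¬ (p : ℕ) ∣ M}) : Fact (p.1 : ℕ).Prime := ⟨p.1.2⟩

instance neZeroIdx (p : {p : Nat.Primes // ¬ (p : ℕ) ∣ M}) : NeZero (p.1 : ℕ) := ⟨p.1.2.ne_zero⟩

/-- classical representatives of `T_p` -/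
def stdRepsH (p : {p : Nat.Primes // ¬ (p : ℕ) ∣ M}) :
    LL.Reps (p.1 : ℕ) (Option (ZMod (p.1 : ℕ))) :=
  haveI : Fact (p.1 : ℕ).Prime := ⟨p.1.2⟩
  repsLeft (LL.stdReps (p.1 : ℕ)) fun i => i.elim (lift (pUnit p) : SL(2, ℤ)) fun _ => 1

theorem stdRepsH_none (p : {p : Nat.Primes // ¬ (p : ℕ) ∣ M}) :
    (stdRepsH p).rep none = ((lift (pUnit p) : Gamma0 M) : SL(2, ℤ)).1 *
      !![((p.1 : ℕ) : ℤ), 0; 0, 1] := rfl

theorem stdRepsH_some (p : {p : Nat.Primes // ¬ (p : ℕ) ∣ M}) (b : ZMod (p.1 : ℕ)) :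
    (stdRepsH p).rep (some b) = !![1, (b.val : ℤ); 0, ((p.1 : ℕ) : ℤ)] := by
  show ((1 : SL(2, ℤ)) : Matrix (Fin 2) (Fin 2) ℤ) * _ = _
  rw [Matrix.SpecialLinearGroup.coe_one, one_mul]
  rfl

theorem adjRed_smul_base_of {n : ℕ} {ι : Type} [Fintype ι] (R : LL.Reps n ι) (hn : n.Coprime M)
    (i : ι) (h10 : ((R.rep i 1 0 : ℤ) : ZMod M) = 0) (h00 : ((R.rep i 0 0 : ℤ) : ZMod M) = 1) :
    R.adjRed M i • base M Δ = base M Δ := by
  rw [smul_base_eq, mem_borelH, LL.Reps.adjRed,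
    LL.coe_redGL M (R.isUnit_det_adjugate hn i), Matrix.map_apply, Matrix.map_apply,
    Matrix.adjugate_fin_two]
  refine ⟨?_, 1, one_mem Δ, ?_⟩ <;> simp [h10, h00]

theorem stdRepsH_fix (p : {p : Nat.Primes // ¬ (p : ℕ) ∣ M}) (i : Option (ZMod (p.1 : ℕ))) :
    (stdRepsH p).adjRed M i • base M Δ = base M Δ := by
  refine adjRed_smul_base_of _ ((p.1.2.coprime_iff_not_dvd).mpr p.2) i ?_ ?_
  · rcases i with _ | b
    · rw [stdRepsH_none]
      simp [Matrix.mul_apply, Fin.sum_univ_two, Gamma0_mem.mp (lift (pUnit p)).2]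
    · rw [stdRepsH_some]; simp
  · rcases i with _ | b
    · rw [stdRepsH_none]
      have h0 : ((((lift (pUnit p) : Gamma0 M) : SL(2, ℤ)) 1 0 : ℤ) : ZMod M) = 0 :=
        Gamma0_mem.mp (lift (pUnit p)).2
      have h1 : ((((lift (pUnit p) : Gamma0 M) : SL(2, ℤ)) 1 1 : ℤ) : ZMod M) = (p.1 : ℕ) := by
        rw [← coe_dHom, dHom_lift, pUnit, ZMod.coe_unitOfCoprime]
      have hd := congrArg (Int.cast : ℤ → ZMod M) ((lift (pUnit p) : Gamma0 M) : SL(2, ℤ)).2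
      rw [Matrix.det_fin_two] at hd
      push_cast at hd
      rw [h0, h1, mul_zero, sub_zero] at hd
      simpa [Matrix.mul_apply, Fin.sum_univ_two, mul_comm] using hd
    · rw [stdRepsH_some]; simp

theorem opHom_parabolic (i : OpIdx M) {φ : HomH M Δ} (hφ : IsParabolicHom (grpH M Δ) φ) :
    IsParabolicHom (grpH M Δ) (opHom i φ) := by
  intro γ hγ
  rcases i with p | d
  · set R := stdRepsH p
    set k := orderOf (R.perm (γ : SL(2, ℤ))) with hk
    have hk0 : 0 < k := orderOf_pos _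
    have hidx : ∀ (n : ℕ) j, R.idx ((γ : SL(2, ℤ)) ^ n) j = ((R.perm (γ : SL(2, ℤ))) ^ n) j := by
      intro n
      induction n with
      | zero => intro j; simp [R.idx_one]
      | succ n ih =>
        intro j
        rw [pow_succ, R.idx_mul, ih, pow_succ', Equiv.Perm.mul_apply, R.perm_apply]
    have hz : opHom (Sum.inl p) φ (Additive.ofMul (γ ^ k)) = 0 := by
      rw [opHom_inl_apply p R (stdRepsH_fix p)]
      refine Finset.sum_eq_zero fun j _ => hφ _ ?_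
      show ((R.elt ((γ : SL(2, ℤ)) ^ k) j : SL(2, ℤ)) : Matrix (Fin 2) (Fin 2) ℤ).trace ^ 2 = 4
      have hrep := R.rep_mul ((γ : SL(2, ℤ)) ^ k) j
      rw [hidx, hk, pow_orderOf_eq_one, Equiv.Perm.one_apply] at hrep
      have hp0 : (((p.1 : ℕ) : ℕ) : ℤ) ≠ 0 := Int.natCast_ne_zero.mpr p.1.2.ne_zero
      have htr := congrArg (fun m => (m * (R.rep j).adjugate).trace) hrep
      simp only [mul_assoc, Matrix.mul_adjugate, R.det_rep, Matrix.mul_smul, mul_one,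
        Matrix.trace_smul] at htr
      rw [Matrix.trace_mul_comm, mul_assoc, Matrix.adjugate_mul, R.det_rep, Matrix.mul_smul,
        mul_one, Matrix.trace_smul, smul_eq_mul, smul_eq_mul] at htr
      rw [← mul_left_cancel₀ hp0 htr]
      exact trace_pow_sq hγ k
    rw [ofMul_pow, map_nsmul, nsmul_eq_mul] at hz
    exact (mul_eq_zero.mp hz).resolve_left (by exact_mod_cast hk0.ne')
  · rw [opHom_inr_apply d _ (dHom_lift d)]
    refine hφ _ ?_
    rw [coe_conjH, mul_assoc, Matrix.SpecialLinearGroup.coe_mul, Matrix.trace_mul_comm,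
      ← Matrix.SpecialLinearGroup.coe_mul, inv_mul_cancel_right]
    exact hγ

/-! ### the lattice -/

/-- integral parabolic homomorphisms on `H` -/
abbrev LamH (M : ℕ) (Δ : Subgroup (ZMod M)ˣ) : Type := parabolicHoms ℤ (grpH M Δ) ℤ

/-- the operators on the lattice -/
def opLam (i : OpIdx M) : Module.End ℤ (LamH M Δ) :=
  (opHom i).restrict (p := parabolicHoms ℤ (grpH M Δ) ℤ) (q := parabolicHoms ℤ (grpH M Δ) ℤ)
    fun _ h => opHom_parabolic i h

theorem coe_opLam (i : OpIdx M) (φ : LamH M Δ) : (opLam i φ).1 = opHom i φ.1 := rfl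

theorem opLam_comm (i j : OpIdx M) : Commute (opLam (Δ := Δ) i) (opLam j) :=
  LinearMap.ext fun φ => Subtype.ext
    (LinearMap.congr_fun (opHom_comm (Δ := Δ) i j).eq φ.1)

theorem groupFG_grpH : Group.FG (grpH M Δ) :=
  haveI := JTors.groupFG_SL2Z
  Subgroup.fg_of_index_ne_zero _

theorem lamH_finite : Module.Finite ℤ (LamH M Δ) := by
  haveI := groupFG_grpH (M := M) (Δ := Δ)
  obtain ⟨T, hT⟩ := Group.FG.out (G := grpH M Δ)
  refine Module.Finite.of_injective (N := T → ℤ)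
    (AddMonoidHom.toIntLinearMap
      (AddMonoidHom.mk' (fun φ : LamH M Δ => fun t : T => φ.1 (Additive.ofMul t.1))
        (fun φ ψ => funext fun t => rfl))) ?_
  intro φ ψ h
  refine Subtype.ext (AddMonoidHom.ext fun γ => ?_)
  have hγ : Additive.toMul γ ∈ Subgroup.closure (T : Set (grpH M Δ)) := by simp [hT]
  rw [← ofMul_toMul γ]
  generalize Additive.toMul γ = g at hγ
  induction hγ using Subgroup.closure_induction with
  | mem g hg => exact congrFun h ⟨g, hg⟩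
  | one => simp
  | mul g g' _ _ ihg ihg' => rw [ofMul_mul, map_add, map_add, ihg, ihg']
  | inv g _ ih => rw [ofMul_inv, map_neg, map_neg, ih]

end FLTAgent.DS.Lat
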