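import Fermat.Agent.DS.MeroC
import Fermat.Agent.DS.LamDefs
import Fermat.Agent.JTors.Conj
import Fermat.Agent.HeckeJ.Along

/-!
The two maps from `X_H(Mp)` to `X_H` seen on `ℍ`: representatives of the cosets and the norm along
the forgetful map as a product over them.
-/

set_option autoImplicit false
set_option synthInstance.maxHeartbeats 100000
set_option linter.unusedSectionVars false
set_option linter.style.haveILetI false

noncomputable section

open UpperHalfPlane CongruenceSubgroup ModularCurve ModularForm AlgebraicCurve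
  Matrix.SpecialLinearGroup
open scoped MatrixGroups Manifold

namespace FLTAgent.DS

open Genus (embC)
open ModFun (dil scale)
open JTors (HolH MeroH ofH pullSL pull)
open scoped Genus

local notation "Qb" => AlgebraicClosure ℚ

variable {M : ℕ} [NeZero M] {Δ : Subgroup (ZMod M)ˣ}

variable (Δ) in
/-- the units of level `M * p` over `Δ` -/
def lvlD (p : ℕ) : Subgroup (ZMod (M * p))ˣ :=
  Δ.comap (ZMod.unitsMap (dvd_mul_right M p))

theorem neg_one_mem_lvlD (hΔ : (-1 : (ZMod M)ˣ) ∈ Δ) (p : ℕ) :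
    (-1 : (ZMod (M * p))ˣ) ∈ lvlD Δ p := by
  rw [lvlD, Subgroup.mem_comap]
  convert hΔ
  exact Units.ext (by simp [ZMod.unitsMap])

theorem mem_grpH_lvlD {p : ℕ} {γ : SL(2, ℤ)} :
    γ ∈ grpH (M * p) (lvlD Δ p) ↔ γ ∈ Gamma0 (M * p) ∧ γ ∈ grpH M Δ := by
  have key : ∀ (h : γ ∈ Gamma0 (M * p)) (h' : γ ∈ Gamma0 M),
      ZMod.unitsMap (dvd_mul_right M p) (dHom (M * p) ⟨γ, h⟩) = dHom M ⟨γ, h'⟩ := fun h h' =>
    Units.ext (by simp [ZMod.unitsMap, coe_dHom])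
  have hle : γ ∈ Gamma0 (M * p) → γ ∈ Gamma0 M := fun h => by
    rw [Gamma0_mem, ZMod.intCast_zmod_eq_zero_iff_dvd] at h ⊢
    exact dvd_trans (by exact_mod_cast dvd_mul_right M p) h
  rw [mem_grpH, mem_grpH]
  constructor
  · rintro ⟨h, hd⟩
    exact ⟨h, hle h, by rw [← key h (hle h)]; exact hd⟩
  · rintro ⟨h, h', hd⟩
    exact ⟨h, by show ZMod.unitsMap _ _ ∈ Δ; rw [key h h']; exact hd⟩

theorem grpH_lvlD_le (p : ℕ) : grpH (M * p) (lvlD Δ p) ≤ grpH M Δ := fun _ h =>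
  (mem_grpH_lvlD.mp h).2

variable (Δ) in
/-- `X_H(Mp) → X_H` forgetting the level -/
def incH (p : ℕ) [NeZero p] : ↥(FBH M Δ) →ₐ[Qb] ↥(FBH (M * p) (lvlD Δ p)) :=
  IntermediateField.inclusion (FBH_mono (grpH_lvlD_le (Δ := Δ) p))

variable (Δ) in
/-- `q ↦ q ^ p` -/
def expandH (p : ℕ) [NeZero p] : ↥(FBH M Δ) →ₐ[Qb] ↥(FBH (M * p) (lvlD Δ p)) where
  toFun x := ⟨qExpand Qb p (x : LaurentSeries Qb),
    qExpand_mem_FBH p (dvd_of_eq (mul_comm p M)) (fun _ hu => hu) x.2⟩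
  map_one' := Subtype.ext (map_one (qExpand Qb p))
  map_mul' _ _ := Subtype.ext (map_mul (qExpand Qb p) _ _)
  map_zero' := Subtype.ext (map_zero (qExpand Qb p))
  map_add' _ _ := Subtype.ext (map_add (qExpand Qb p) _ _)
  commutes' a := Subtype.ext ((congrArg (qExpand Qb p)
      ((FBH M Δ).val.commutes a)).trans ((qExpand_algebraMap p a).trans
        ((FBH (M * p) (lvlD Δ p)).val.commutes a).symm))

theorem coe_incH (p : ℕ) [NeZero p] (x : ↥(FBH M Δ)) :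
    (incH Δ p x : LaurentSeries Qb) = x := by
  rw [incH, IntermediateField.coe_inclusion]

theorem coe_expandH (p : ℕ) [NeZero p] (x : ↥(FBH M Δ)) :
    (expandH Δ p x : LaurentSeries Qb) = qExpand Qb p (x : LaurentSeries Qb) := rfl

theorem evQ_incH (p : ℕ) [NeZero p] (x : ↥(FBH M Δ)) :
    evQ (M * p) (lvlD Δ p) (incH Δ p x) = evQ M Δ x := by
  obtain ⟨w, F, G, h⟩ := exists_isQuotH x.2
  have h' : IsQuotC (M * p) (lvlD Δ p) (toC (M * p) (lvlD Δ p) (incH Δ p x) : LaurentSeries ℂ)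
      w F G :=
    ⟨h.num.mono (grpH_lvlD_le p), h.den.mono (grpH_lvlD_le p), h.den_ne, h.eq⟩
  rw [evQ_apply, evQ_apply, evC_eq h', evC_eq (X := toC M Δ x) h]

theorem evQ_expandH (p : ℕ) [NeZero p] (x : ↥(FBH M Δ)) :
    evQ (M * p) (lvlD Δ p) (expandH Δ p x) =
      pull (ModularForm.heckeDiagMatrix p) (JTors.det_diag_pos p) (evQ M Δ x) := by
  obtain ⟨w, F, G, h⟩ := exists_isQuotH x.2
  have h0 := IsQuotC.dilate (Δ' := lvlD Δ p) h p (dvd_of_eq (mul_comm p M)) (fun _ hu => hu)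
  have h' : IsQuotC (M * p) (lvlD Δ p) (toC (M * p) (lvlD Δ p) (expandH Δ p x) : LaurentSeries ℂ)
      w (dil p F) (dil p G) := by
    rw [coe_toC, coe_expandH, ModFun.coeffMap_qExpand]
    exact h0
  rw [evQ_apply, evQ_apply, evC_eq h', evC_eq (X := toC M Δ x) h, map_div₀, JTors.pull_ofH,
    JTors.pull_ofH]
  have e : ∀ τ : ℍ, scale p τ = ModularForm.heckeDiagMatrix p • τ := fun τ => by
    refine UpperHalfPlane.ext ?_
    rw [ModFun.coe_scale, coe_smul_of_det_pos (JTors.det_diag_pos p)]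
    simp [UpperHalfPlane.num, UpperHalfPlane.denom,
      ModularForm.val_heckeDiagMatrix (NeZero.ne p)]
  congr 2
  · exact Subtype.ext (funext fun τ => congrArg F (e τ))
  · exact Subtype.ext (funext fun τ => congrArg G (e τ))

/-- elements fixing the function field lie in the group -/
theorem mem_grpH_of_fix (hΔ : (-1 : (ZMod M)ˣ) ∈ Δ) {γ : SL(2, ℤ)}
    (h : ∀ x : ↥(FBH M Δ), pullSL γ (evQ M Δ x) = evQ M Δ x) : γ ∈ grpH M Δ := by
  set x : ↥(FBH M Δ) := ⟨coeffEmb Qb (wSer hΔ 1),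
    coeffEmb_mem_laurentBaseChange _ (wSer_mem_F0H hΔ 1)⟩
  have hx : toC M Δ x = wCC hΔ :=
    Subtype.ext (ModFun.coeffMap_coeffEmb_comp embC (wSer hΔ 1))
  have h1 := h x
  rw [evQ_apply, hx, evC_wCC, JTors.pullSL_ofH, JTors.ofH_injective.eq_iff, Subtype.ext_iff] at h1
  have h2 : wFun hΔ 1 ∣[(0 : ℤ)] γ = wFun hΔ 1 := by
    funext τ
    have := congrFun h1 τ
    rw [SL_slash_apply, neg_zero, zpow_zero, mul_one]
    exact this
  refine numW_stab hΔ ?_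
  rw [← wFun_mul_delta]
  show (wFun hΔ 1 * discriminant ^ expN Δ) ∣[(expN Δ : ℤ) * 12] γ = _
  rw [slash_zero_mul_delta, h2]

/-! ### representatives -/

section Reps

variable (p : {p : Nat.Primes // ¬ (p : ℕ) ∣ M})

theorem exists_bezout : ∃ x k : ℤ, ((p.1 : ℕ) : ℤ) * k - (M : ℤ) * x = 1 := by
  obtain ⟨u, v, huv⟩ := Int.isCoprime_iff_nat_coprime.mpr
    (show Nat.Coprime ((p.1 : ℕ) : ℤ).natAbs (M : ℤ).natAbs from
      (p.1.2.coprime_iff_not_dvd).mpr p.2)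
  exact ⟨-v, u, by linear_combination huv⟩

/-- a solution of `p k - M x = 1` -/
def bezX : ℤ := (exists_bezout p).choose

/-- a solution of `p k - M x = 1` -/
def bezK : ℤ := (exists_bezout p).choose_spec.choose

theorem bez_eq : ((p.1 : ℕ) : ℤ) * bezK p - (M : ℤ) * bezX p = 1 :=
  (exists_bezout p).choose_spec.choose_spec

/-- representatives of `Γ₀(Mp) ∩ H` in `H` -/
def cosetRep : Option (ZMod (p.1 : ℕ)) → SL(2, ℤ)
  | none => 1
  | some b => ⟨!![1, (b.val : ℤ) + bezX p; (M : ℤ), (M : ℤ) * ((b.val : ℤ) + bezX p) + 1],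
      by rw [Matrix.det_fin_two_of]; ring⟩

theorem cosetRep_mem (i : Option (ZMod (p.1 : ℕ))) : cosetRep p i ∈ grpH M Δ := by
  refine Gamma1_le_grpH ?_
  rcases i with _ | b
  · exact one_mem _
  · rw [Gamma1_mem]
    simp [cosetRep]

theorem cosetRep_sep (i j : Option (ZMod (p.1 : ℕ)))
    (h : cosetRep p i * (cosetRep p j)⁻¹ ∈ Gamma0 (M * (p.1 : ℕ))) : i = j := by
  have hp : Prime ((p.1 : ℕ) : ℤ) := Nat.prime_iff_prime_int.mp p.1.2
  have hpM : ¬ ((p.1 : ℕ) : ℤ) ∣ (M : ℤ) := fun h => p.2 (Int.natCast_dvd_natCast.mp h)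
  rw [Gamma0_mem, ZMod.intCast_zmod_eq_zero_iff_dvd, Nat.cast_mul] at h
  have h' := dvd_trans (dvd_mul_left _ _) h
  rw [Matrix.SpecialLinearGroup.coe_mul, Matrix.SpecialLinearGroup.coe_inv,
    Matrix.adjugate_fin_two] at h'
  rcases i with _ | b <;> rcases j with _ | b' <;>
    simp [cosetRep, Matrix.mul_apply, Fin.sum_univ_two] at h' ⊢
  · exact hpM h'
  · exact hpM h'
  · have e : ((p.1 : ℕ) : ℤ) ∣ (M : ℤ) * (M : ℤ) * ((b.val : ℤ) - b'.val) := by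
      simp only [ZMod.natCast_val]
      refine dvd_trans (dvd_neg.mpr h') (dvd_of_eq ?_)
      ring
    have e2 : ((p.1 : ℕ) : ℤ) ∣ (b.val : ℤ) - b'.val :=
      (hp.dvd_or_dvd e).resolve_left fun h3 => hpM ((hp.dvd_or_dvd h3).elim id id)
    have e3 := (ZMod.intCast_zmod_eq_zero_iff_dvd _ _).mpr e2
    push_cast at e3
    rwa [ZMod.natCast_zmod_val, ZMod.natCast_zmod_val, sub_eq_zero] at e3

theorem cosetRep_cover {γ : SL(2, ℤ)} (hγ : γ ∈ grpH M Δ) :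
    ∃ i, γ * (cosetRep p i)⁻¹ ∈ grpH (M * (p.1 : ℕ)) (lvlD Δ (p.1 : ℕ)) := by
  have hpM : ((M : ℕ) : ZMod (p.1 : ℕ)) ≠ 0 := fun h =>
    p.2 ((ZMod.natCast_eq_zero_iff _ _).mp h)
  have hM0 : (M : ℤ) ∣ γ 1 0 :=
    (ZMod.intCast_zmod_eq_zero_iff_dvd _ _).mp (Gamma0_mem.mp (grpH_le_Gamma0 hγ))
  have key : ∀ g : SL(2, ℤ), g ∈ grpH M Δ → ((g 1 0 : ℤ) : ZMod (p.1 : ℕ)) = 0 →
      g ∈ grpH (M * (p.1 : ℕ)) (lvlD Δ (p.1 : ℕ)) := fun g hg h0 => by
    refine mem_grpH_lvlD.mpr ⟨?_, hg⟩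
    rw [Gamma0_mem, ZMod.intCast_zmod_eq_zero_iff_dvd, Nat.cast_mul]
    refine IsCoprime.mul_dvd ?_ ((ZMod.intCast_zmod_eq_zero_iff_dvd _ _).mp
      (Gamma0_mem.mp (grpH_le_Gamma0 hg))) ((ZMod.intCast_zmod_eq_zero_iff_dvd _ _).mp h0)
    exact Int.isCoprime_iff_nat_coprime.mpr ((p.1.2.coprime_iff_not_dvd).mpr p.2).symm
  by_cases h0 : ((γ 1 0 : ℤ) : ZMod (p.1 : ℕ)) = 0
  · exact ⟨none, key _ (by simpa [cosetRep] using hγ) (by simpa [cosetRep] using h0)⟩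
  · set A : ZMod (p.1 : ℕ) := ((γ 1 0 : ℤ) : ZMod (p.1 : ℕ))
    set B : ZMod (p.1 : ℕ) := ((γ 1 1 : ℤ) : ZMod (p.1 : ℕ))
    set c : ZMod (p.1 : ℕ) := (B * M - A) / (A * M) with hc
    refine ⟨some (c - (bezX p : ZMod (p.1 : ℕ))), key _
      (mul_mem hγ (inv_mem (cosetRep_mem p _))) ?_⟩
    rw [Matrix.SpecialLinearGroup.coe_mul, Matrix.SpecialLinearGroup.coe_inv,
      Matrix.adjugate_fin_two]
    simp [cosetRep, Matrix.mul_apply, Fin.sum_univ_two]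
    have hv : c * (A * M) = B * M - A := div_mul_cancel₀ _ (mul_ne_zero h0 hpM)
    show A * ((M : ZMod (p.1 : ℕ)) * _ + 1) + -(B * M) = 0
    linear_combination hv

theorem index_lvlD_le :
    (grpH (M * (p.1 : ℕ)) (lvlD Δ (p.1 : ℕ))).index ≤
      ((p.1 : ℕ) + 1) * (grpH M Δ).index := by
  rw [← Subgroup.relIndex_mul_index (grpH_lvlD_le (Δ := Δ) (p.1 : ℕ))]
  refine Nat.mul_le_mul_right _ ?_
  set K := (grpH (M * (p.1 : ℕ)) (lvlD Δ (p.1 : ℕ))).subgroupOf (grpH M Δ)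
  have hsurj : Function.Surjective fun i : Option (ZMod (p.1 : ℕ)) =>
      (QuotientGroup.mk (⟨cosetRep p i, cosetRep_mem p i⟩ : grpH M Δ)⁻¹ : grpH M Δ ⧸ K) := by
    intro q
    induction q using QuotientGroup.induction_on with
    | H g =>
    obtain ⟨i, hi⟩ := cosetRep_cover p (inv_mem g.2)
    refine ⟨i, (QuotientGroup.eq.mpr ?_)⟩
    show _ ∈ K
    rw [inv_inv, Subgroup.mem_subgroupOf]
    have := inv_mem hi
    rw [mul_inv_rev, inv_inv, inv_inv] at this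
    exact this
  calc Nat.card (grpH M Δ ⧸ K) ≤ Nat.card (Option (ZMod (p.1 : ℕ))) :=
        Nat.card_le_card_of_surjective _ hsurj
    _ = (p.1 : ℕ) + 1 := by simp [Nat.card_eq_fintype_card]

/-- the norm along the forgetful map as a product -/
theorem evQ_norm (hΔ : (-1 : (ZMod M)ˣ) ∈ Δ) (f : ↥(FBH M Δ)) :
    letI := algebraAlong (incH Δ (p.1 : ℕ))
    evQ M Δ (Algebra.norm ↥(FBH M Δ) (expandH Δ (p.1 : ℕ) f)) =
      ∏ i, pull (ModularForm.heckeDiagMatrix (p.1 : ℕ) * mapGL ℝ (cosetRep p i))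
        (JTors.det_pos_mul (JTors.det_diag_pos _) (JTors.det_pos_SL _)) (evQ M Δ f) := by
  set L' := ↥(FBH (M * (p.1 : ℕ)) (lvlD Δ (p.1 : ℕ))) with hL'
  have hΔ' := neg_one_mem_lvlD hΔ (p.1 : ℕ)
  haveI := fnFieldQ hΔ
  haveI := fnFieldQ hΔ'
  letI := algebraAlong (incH Δ (p.1 : ℕ))
  haveI := isScalarTower_along (incH Δ (p.1 : ℕ))
  haveI : Module.Finite ↥(FBH M Δ) L' := HeckeJ.finiteAlong (incH Δ (p.1 : ℕ))
  haveI : CharZero ↥(FBH M Δ) :=
    charZero_of_injective_algebraMap (algebraMap Qb ↥(FBH M Δ)).injective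
  haveI : Algebra.IsIntegral ↥(FBH M Δ) L' := Algebra.IsIntegral.of_finite _ _
  haveI : Algebra.IsSeparable ↥(FBH M Δ) L' := inferInstance
  let E := AlgebraicClosure MeroH
  let ι₀ : MeroH →+* E := algebraMap MeroH E
  letI algE : Algebra ↥(FBH M Δ) E := (ι₀.comp (evQ M Δ).toRingHom).toAlgebra
  let ε : Option (ZMod (p.1 : ℕ)) → (L' →ₐ[↥(FBH M Δ)] E) := fun i =>
    { toRingHom := ι₀.comp ((pullSL (cosetRep p i)).toRingHom.comp
        (evQ (M * (p.1 : ℕ)) (lvlD Δ (p.1 : ℕ))).toRingHom)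
      commutes' := fun x => by
        show ι₀ (pullSL (cosetRep p i) (evQ _ _ (incH Δ (p.1 : ℕ) x))) = ι₀ (evQ M Δ x)
        rw [evQ_incH, evQ_invariant (cosetRep_mem p i)] }
  have hε : Function.Injective ε := by
    intro i j e
    refine cosetRep_sep p i j (mem_grpH_lvlD.mp (mem_grpH_of_fix hΔ' fun x => ?_)).1
    have e1 : pullSL (cosetRep p i) (evQ _ _ x) = pullSL (cosetRep p j) (evQ _ _ x) :=
      ι₀.injective (DFunLike.congr_fun e x)
    have e2 := congrArg (pullSL (cosetRep p j)⁻¹) e1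
    simp only [← AlgHom.comp_apply] at e2
    have hm : ∀ (a b : SL(2, ℤ)) (y : MeroH),
        (pullSL b).comp (pullSL a) y = pullSL (a * b) y := fun a b y => by
      rw [AlgHom.comp_apply]
      simp only [pullSL]
      rw [JTors.pull_congr (JTors.det_pos_SL (a * b))
        (JTors.det_pos_mul (JTors.det_pos_SL a) (JTors.det_pos_SL b))
        (map_mul (Matrix.SpecialLinearGroup.mapGL ℝ) a b), JTors.pull_mul]
    rw [hm, hm, mul_inv_cancel] at e2
    rw [e2]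
    obtain ⟨a, b, hb, hab⟩ := JTors.exists_ofH_div (evQ (M * (p.1 : ℕ)) (lvlD Δ (p.1 : ℕ)) x)
    rw [hab, map_div₀, JTors.pullSL_ofH, JTors.pullSL_ofH]
    congr 2 <;> exact Subtype.ext (funext fun τ => by simp)
  have hdeg : Module.finrank ↥(FBH M Δ) L' ≤ Fintype.card (Option (ZMod (p.1 : ℕ))) := by
    have h1 := HeckeJ.ndeg_algebraMap (K := Qb) (F := ↥(FBH M Δ)) (F' := L') (jBarH M Δ)
    rw [show algebraMap ↥(FBH M Δ) L' (jBarH M Δ) = jBarH (M * (p.1 : ℕ)) (lvlD Δ (p.1 : ℕ)) from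
      Subtype.ext rfl, ndeg_jBarH hΔ', ndeg_jBarH hΔ] at h1
    have h2 := index_lvlD_le (Δ := Δ) p
    rw [h1, mul_comm ((grpH M Δ).index)] at h2
    have h3 := Nat.le_of_mul_le_mul_right h2 index_grpH_pos
    simpa using h3
  have hcard : Fintype.card (L' →ₐ[↥(FBH M Δ)] E) = Module.finrank ↥(FBH M Δ) L' :=
    AlgHom.card _ _ _
  have hbij : Function.Bijective ε := (Fintype.bijective_iff_injective_and_card ε).mpr
    ⟨hε, le_antisymm (Fintype.card_le_of_injective ε hε) (hcard ▸ hdeg)⟩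
  refine ι₀.injective ?_
  have hn := Algebra.norm_eq_prod_embeddings ↥(FBH M Δ) (E := E) (expandH Δ (p.1 : ℕ) f)
  change ι₀ (evQ M Δ (Algebra.norm ↥(FBH M Δ) (expandH Δ (p.1 : ℕ) f))) = _ at hn
  rw [hn, map_prod, ← Fintype.prod_bijective ε hbij _ _ fun i => rfl]
  refine Finset.prod_congr rfl fun i _ => ?_
  show ι₀ (pullSL (cosetRep p i) (evQ _ _ (expandH Δ (p.1 : ℕ) f))) = _
  rw [evQ_expandH, JTors.pull_mul]
  rfl

end Reps

end FLTAgent.DS
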