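import Fermat.Agent.DS.Tors
import Fermat.Agent.DS.TorsLevel

/-!
The operators on the lattice become the diamonds and the Hecke correspondences on torsion points.
-/

set_option autoImplicit false
set_option synthInstance.maxHeartbeats 100000
set_option linter.unusedSectionVars false
set_option linter.style.haveILetI false

noncomputable section

open UpperHalfPlane CongruenceSubgroup ModularCurve ModularForm AlgebraicCurve
  Matrix.SpecialLinearGroup
open scoped MatrixGroups Manifold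

namespace FLTAgent.DS

open JTors (HolH MeroH ofH pullSL pull)
open Lat (LamH opLam repsLeft pUnit lift conjH)
open scoped Genus

local notation "Qb" => AlgebraicClosure ℚ

variable {M : ℕ} [NeZero M] {Δ : Subgroup (ZMod M)ˣ} {n : ℕ}

/-! ### diamonds -/

theorem IsTorsH.dia (hΔ : (-1 : (ZMod M)ˣ) ∈ Δ) (d : (ZMod M)ˣ) {φ : LamH M Δ} {x : JH M Δ}
    (hx : IsTorsH n φ x) :
    IsTorsH n (opLam (Sum.inr d) φ) (SemilinearAut.ofAlgAut (diamond hΔ d) • x) := by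
  obtain ⟨f, D, hf, ⟨ψ, hψ, hc⟩, hD, rfl⟩ := hx
  set g := SemilinearAut.ofAlgAut (diamond hΔ d) with hg
  refine ⟨diamond hΔ d f, SemilinearAut.degZeroSMulHom g D, (map_ne_zero _).mpr hf, ?_, fun v => ?_,
    SemilinearAut.pic0_smul_mk g D⟩
  · refine ⟨pullSL ((lift d : Gamma0 M) : SL(2, ℤ)) ψ, ?_, fun γ => ?_⟩
    · rw [← map_pow, hψ, pullSL_evQ hΔ (lift d) f, Lat.dHom_lift]
    · have e : ((lift d : Gamma0 M) : SL(2, ℤ)) * (γ : SL(2, ℤ)) =
          ((conjH (lift d) γ : grpH M Δ) : SL(2, ℤ)) * ((lift d : Gamma0 M) : SL(2, ℤ)) := by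
        rw [Lat.coe_conjH, inv_mul_cancel_right]
      rw [← pullSL_mul, e, pullSL_mul, hc, map_mul, AlgHom.commutes, expH_apply, expH_apply,
        Lat.coe_opLam, Lat.opHom_inr_apply d _ (Lat.dHom_lift d)]
  · obtain ⟨w, rfl⟩ : ∃ w, g • w = v := ⟨g⁻¹ • v, smul_inv_smul g v⟩
    rw [SemilinearAut.coe_degZeroSMulHom, SemilinearAut.divisor_smul_apply_smul, hD,
      ← SemilinearAut.ofAlgAut_smul (K := Qb) (diamond hΔ d) f, ← hg, SemilinearAut.ord_smul]

/-! ### Hecke operators -/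

section Hecke

variable (p : {p : Nat.Primes // ¬ (p : ℕ) ∣ M})

/-- an element with lower right entry `k`, `p k - M x = 1` -/
def bezElt : SL(2, ℤ) :=
  ⟨!![((p.1 : ℕ) : ℤ), bezX p; (M : ℤ), bezK p], by
    rw [Matrix.det_fin_two_of]; linear_combination bez_eq p⟩

/-- representatives of `T_p` adapted to the norm -/
def repsT : LL.Reps (p.1 : ℕ) (Option (ZMod (p.1 : ℕ))) :=
  repsLeft (LL.stdReps (p.1 : ℕ)) fun i =>
    i.elim ((lift (pUnit p) : Gamma0 M) : SL(2, ℤ))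
      fun _ => ((lift (pUnit p) : Gamma0 M) : SL(2, ℤ)) * bezElt p

theorem repsT_rep (i : Option (ZMod (p.1 : ℕ))) :
    (repsT p).rep i = (((lift (pUnit p) : Gamma0 M) : SL(2, ℤ)) : Matrix (Fin 2) (Fin 2) ℤ) *
      (!![((p.1 : ℕ) : ℤ), 0; 0, 1] * (cosetRep p i : Matrix (Fin 2) (Fin 2) ℤ)) := by
  rcases i with _ | b
  · show _ * LL.stdMat (p.1 : ℕ) none = _
    rw [show LL.stdMat (p.1 : ℕ) none = !![((p.1 : ℕ) : ℤ), 0; 0, 1] from rfl, cosetRep,
      Matrix.SpecialLinearGroup.coe_one, mul_one]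
    rfl
  · show ((_ * _ : SL(2, ℤ)) : Matrix (Fin 2) (Fin 2) ℤ) * _ = _
    rw [Matrix.SpecialLinearGroup.coe_mul, mul_assoc]
    refine congrArg _ ?_
    show !![((p.1 : ℕ) : ℤ), bezX p; (M : ℤ), bezK p] * !![1, (b.val : ℤ); 0, ((p.1 : ℕ) : ℤ)] =
      !![((p.1 : ℕ) : ℤ), 0; 0, 1] *
        !![1, (b.val : ℤ) + bezX p; (M : ℤ), (M : ℤ) * ((b.val : ℤ) + bezX p) + 1]
    have := bez_eq p
    ext i j
    fin_cases i <;> fin_cases j <;>
      simp [Matrix.mul_apply, Fin.sum_univ_two, -ZMod.natCast_val] <;>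
      first | ring1 | linear_combination this

theorem repsT_fix (i : Option (ZMod (p.1 : ℕ))) :
    (repsT p).adjRed M i • Lat.base M Δ = Lat.base M Δ := by
  have h10 : ∀ g : Gamma0 M, (((g : SL(2, ℤ)) 1 0 : ℤ) : ZMod M) = 0 := fun g =>
    Gamma0_mem.mp g.2
  have h1 : ((((lift (pUnit p) : Gamma0 M) : SL(2, ℤ)) 1 1 : ℤ) : ZMod M) = (p.1 : ℕ) := by
    rw [← coe_dHom, Lat.dHom_lift, pUnit, ZMod.coe_unitOfCoprime]
  have hd := congrArg (Int.cast : ℤ → ZMod M) ((lift (pUnit p) : Gamma0 M) : SL(2, ℤ)).2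
  rw [Matrix.det_fin_two] at hd
  push_cast at hd
  rw [h10, h1, mul_zero, sub_zero] at hd
  refine Lat.adjRed_smul_base_of _ ((p.1.2.coprime_iff_not_dvd).mpr p.2) i ?_ ?_ <;>
    rw [repsT_rep] <;> rcases i with _ | b <;>
    simp [cosetRep, Matrix.mul_apply, Fin.sum_univ_two, h10]
  all_goals linear_combination hd

/-- the representatives in `GL(2, ℝ)` -/
def repGLT (i : Option (ZMod (p.1 : ℕ))) : GL (Fin 2) ℝ :=
  mapGL ℝ ((lift (pUnit p) : Gamma0 M) : SL(2, ℤ)) *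
    (ModularForm.heckeDiagMatrix (p.1 : ℕ) * mapGL ℝ (cosetRep p i))

theorem det_repGLT_pos (i : Option (ZMod (p.1 : ℕ))) : 0 < (repGLT p i).det.val :=
  JTors.det_pos_mul (JTors.det_pos_SL _)
    (JTors.det_pos_mul (JTors.det_diag_pos _) (JTors.det_pos_SL _))

theorem coe_repGLT (i : Option (ZMod (p.1 : ℕ))) :
    ((repGLT p i : GL (Fin 2) ℝ) : Matrix (Fin 2) (Fin 2) ℝ) =
      ((repsT p).rep i).map (Int.castRingHom ℝ) := by
  rw [repsT_rep, Matrix.map_mul, Matrix.map_mul, repGLT, Units.val_mul, Units.val_mul,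
    mapGL_coe_matrix, mapGL_coe_matrix, ModularForm.val_heckeDiagMatrix (NeZero.ne _)]
  congr 2
  ext i j
  fin_cases i <;> fin_cases j <;> simp

theorem repGLT_mul (γ : SL(2, ℤ)) (i : Option (ZMod (p.1 : ℕ))) :
    repGLT p i * mapGL ℝ γ =
      mapGL ℝ ((repsT p).elt γ i) * repGLT p ((repsT p).idx γ i) := by
  refine Units.ext ?_
  rw [Units.val_mul, Units.val_mul, coe_repGLT, coe_repGLT]
  have h := congrArg (fun A : Matrix (Fin 2) (Fin 2) ℤ => A.map (Int.castRingHom ℝ))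
    ((repsT p).rep_mul γ i)
  simp only [Matrix.map_mul] at h
  exact h

/-- divisors of functions under a correspondence -/
theorem corrDiv_ord {K F F' : Type*} [Field K] [Field F] [Field F'] [Algebra K F] [Algebra K F']
    [HasPrincipalDivisors K F'] (φ ψ : F →ₐ[K] F') (hφ : φ.toRingHom.IsIntegral)
    (hψ : ψ.toRingHom.IsIntegral) (hfin : FiniteAlong K ψ) (hnorm : NormFormulaAlong K ψ hfin)
    {D : Divisor K F} {f : F} (hf : f ≠ 0) (hD : ∀ v, D v = v.ord f) (v : Place K F) :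
    Divisor.correspondence φ ψ hφ hψ D v =
      (letI := algebraAlong ψ
       v.ord (Algebra.norm F (φ f))) := by
  have hE : ∀ w, Divisor.pullbackAlong φ hφ D w = w.ord (φ f) := by
    intro w
    letI := algebraAlong φ
    haveI := isScalarTower_along φ
    haveI := isIntegral_along φ hφ
    exact Divisor.pullback_apply_eq_ord hD w
  letI := algebraAlong ψ
  haveI := isScalarTower_along ψ
  haveI := isIntegral_along ψ hψ
  haveI : Module.Finite F F' := hfin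
  exact hnorm (φ f) ((map_ne_zero _).mpr hf) _ hE v

variable (Δ) in
/-- the pull-back half of `T_p` -/
def pullT (hΔ : (-1 : (ZMod M)ˣ) ∈ Δ) :
    ↥(FBH M Δ) →ₐ[Qb] ↥(FBH (M * (p.1 : ℕ)) (lvlD Δ (p.1 : ℕ))) :=
  (expandH Δ (p.1 : ℕ)).comp (diamond hΔ (pUnit p)).toAlgHom

/-- `φ / n ↦ (T_p φ) / n` under the correspondence -/
theorem IsTorsH.hecke (hΔ : (-1 : (ZMod M)ˣ) ∈ Δ) (hn : 0 < n) {φ : LamH M Δ} {x : JH M Δ}
    (hx : IsTorsH n φ x) [HasPrincipalDivisors Qb ↥(FBH (M * (p.1 : ℕ)) (lvlD Δ (p.1 : ℕ)))]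
    (hβ : (pullT Δ p hΔ).toRingHom.IsIntegral) (hα : (incH Δ (p.1 : ℕ)).toRingHom.IsIntegral)
    (hFI : FundamentalIdentityAlong Qb (pullT Δ p hΔ) hβ)
    (hfin : FiniteAlong Qb (incH Δ (p.1 : ℕ)))
    (hnorm : NormFormulaAlong Qb (incH Δ (p.1 : ℕ)) hfin) :
    IsTorsH n (opLam (Sum.inl p) φ)
      (Pic0.correspondence (pullT Δ p hΔ) (incH Δ (p.1 : ℕ)) hβ hα hFI hfin hnorm x) := by
  obtain ⟨f, D, hf, ⟨ψ, hψ, hc⟩, hD, rfl⟩ := hx
  letI := algebraAlong (incH Δ (p.1 : ℕ))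
  haveI : Module.Finite ↥(FBH M Δ) ↥(FBH (M * (p.1 : ℕ)) (lvlD Δ (p.1 : ℕ))) := hfin
  refine ⟨Algebra.norm ↥(FBH M Δ) (pullT Δ p hΔ f),
    Pic0.degZeroCorrespondence (pullT Δ p hΔ) (incH Δ (p.1 : ℕ)) hβ hα hFI D,
    Algebra.norm_ne_zero_iff.mpr ((map_ne_zero _).mpr hf), ?_, fun v => ?_,
    Pic0.correspondence_mk _ _ hβ hα hFI hfin hnorm D⟩
  rotate_left
  · have hnD : ∀ v, (n • (D : Divisor Qb ↥(FBH M Δ))) v = v.ord f := fun v => by
      rw [Finsupp.coe_smul, Pi.smul_apply, nsmul_eq_mul, hD]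
    rw [← corrDiv_ord _ _ hβ hα hfin hnorm hf hnD v, map_nsmul, Finsupp.coe_smul, Pi.smul_apply,
      nsmul_eq_mul, Pic0.coe_degZeroCorrespondence]
  set A := repGLT p
  set hA := det_repGLT_pos p
  set χ := expH n φ
  refine ⟨∏ i, pull (A i) (hA i) ψ, ?_, fun γ => ?_⟩
  · show _ = evQ M Δ (Algebra.norm ↥(FBH M Δ) (expandH Δ (p.1 : ℕ) (diamond hΔ (pUnit p) f)))
    rw [evQ_norm p hΔ, ← Finset.prod_pow]
    refine Finset.prod_congr rfl fun i _ => ?_
    rw [← map_pow, hψ, ← Lat.dHom_lift (pUnit p), ← pullSL_evQ hΔ, pullSL, ← JTors.pull_mul]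
    rfl
  set σ := (repsT p).perm (γ : SL(2, ℤ)) with hσ
  let u : Option (ZMod (p.1 : ℕ)) → grpH M Δ := fun i => ⟨(repsT p).elt γ i,
    Lat.elt_mem_grpH _ ((p.1.2.coprime_iff_not_dvd).mpr p.2) (repsT_fix p) γ i⟩
  have hmove : ∀ i, pullSL (γ : SL(2, ℤ)) (pull (A i) (hA i) ψ) =
      algebraMap ℂ MeroH (χ (u i)) * pull (A (σ i)) (hA (σ i)) ψ := by
    intro i
    rw [pullSL, ← JTors.pull_mul (hA i) (JTors.det_pos_SL _),
      JTors.pull_congr _ (JTors.det_pos_mul (JTors.det_pos_SL _) (hA (σ i))) (repGLT_mul p γ i),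
      JTors.pull_mul (JTors.det_pos_SL _) (hA (σ i))]
    show pull (A (σ i)) (hA (σ i)) (pullSL (u i : SL(2, ℤ)) ψ) = _
    rw [hc, map_mul, AlgHom.commutes]
  have hchar : ∏ i, χ (u i) = expH n (opLam (Sum.inl p) φ) γ := by
    simp only [χ, expH_apply]
    rw [← Complex.exp_sum, Lat.coe_opLam, Lat.opHom_inl_apply p (repsT p) (repsT_fix p),
      Int.cast_sum, Finset.mul_sum, Finset.sum_div]
  rw [map_prod, Finset.prod_congr rfl fun i _ => hmove i, Finset.prod_mul_distrib,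
    Equiv.prod_comp σ (fun j => pull (A j) (hA j) ψ), ← map_prod, hchar]

theorem torsH_dia (hΔ : (-1 : (ZMod M)ˣ) ∈ Δ) (hn : 0 < n) (d : (ZMod M)ˣ) (φ : LamH M Δ) :
    torsH hΔ n (opLam (Sum.inr d) φ) =
      SemilinearAut.ofAlgAut (diamond hΔ d) • torsH hΔ n φ :=
  ((isTorsH_torsH hΔ hn φ).dia hΔ d).eq_torsH hΔ hn

end Hecke

end FLTAgent.DS
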