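import Fermat.Agent.DS.LamPeriods
import Fermat.Agent.DS.TorsOp
import Fermat.Agent.DS.Red.API

/-!
The lattice, the Jacobian of `X_H` and its Galois action: all the data needed for parcel DS8.
-/

set_option autoImplicit false
set_option synthInstance.maxHeartbeats 200000
set_option linter.unusedSectionVars false
set_option linter.style.haveILetI false

noncomputable section

open ModularCurve AlgebraicCurve CongruenceSubgroup
open scoped MatrixGroups

namespace FLTAgent.DS

open Lat (LamH opLam)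

theorem torsH_opJH (N : Red.Lvl) {n : ℕ} (hn : 0 < n) (i : OpIdx N.M) (φ : LamH N.M N.Δ) :
    torsH N.neg_mem n (opLam i φ) = Red.opJH N i (torsH N.neg_mem n φ) := by
  rcases i with p | d
  · haveI : NeZero (p.1 : ℕ) := ⟨p.1.2.ne_zero⟩
    haveI : RR.FnField (AlgebraicClosure ℚ)
        ↥(FBH (N.M * (p.1 : ℕ)) (lvlD N.Δ (p.1 : ℕ))) := Red.Lvl.fnFieldH (N.up (p.1 : ℕ))
    haveI : HasPrincipalDivisors (AlgebraicClosure ℚ)
        ↥(FBH (N.M * (p.1 : ℕ)) (lvlD N.Δ (p.1 : ℕ))) := RR.hasPrincipalDivisors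
    refine ((isTorsH_torsH N.neg_mem hn φ).hecke p N.neg_mem hn (HeckeJ.isIntegralAlong _)
      (HeckeJ.isIntegralAlong _) (HeckeJ.fundamentalIdentityAlong _ _) (HeckeJ.finiteAlong _)
      (HeckeJ.normFormulaAlong _ _)).eq_torsH N.neg_mem hn |>.trans ?_
    rfl
  · exact torsH_dia N.neg_mem hn d φ

/-- parcels DS6 and DS7 -/
theorem nonempty_jacData (M : ℕ) [NeZero M] (Δ : Subgroup (ZMod M)ˣ)
    (hΔ : (-1 : (ZMod M)ˣ) ∈ Δ) : Nonempty (JacData M Δ) := by
  let N : Red.Lvl := ⟨M, Δ, hΔ⟩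
  haveI := Lat.lamH_finite (M := M) (Δ := Δ)
  exact ⟨{
    Lam := LamH M Δ
    op := opLam
    op_comm := Lat.opLam_comm
    faithful := fun χ hχ g hg P hP => Lat.opLam_faithful χ hχ g hg P hP
    J := JH M Δ
    opJ := Red.opJH N
    act := Red.actH N
    act_op := Red.actH_opJH N
    tors := torsH hΔ
    tors_nsmul := fun n hn v => nsmul_torsH hΔ hn v
    tors_eq_zero := fun n hn v h => torsH_eq_zero hΔ hn h
    tors_op := fun n hn i v => torsH_opJH N hn i v
    exists_level := Red.exists_levelH N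
    inertia := Red.inertiaH N
    frobenius := Red.frobeniusH N }⟩

end FLTAgent.DS
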