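import Fermat.Agent.DS.LamDefs
import Fermat.Agent.Periods.Eis.Hecke
import Fermat.Prelude.Thm_UpperHalfPlane_qCoeff_heckeU
import Fermat.Prelude.Thm_UpperHalfPlane_qCoeff_heckeT

/-!
Periods of weight two cusp forms for `H`: the action of the operators on coefficients is faithful
through the lattice of parabolic homomorphisms.
-/

set_option autoImplicit false
set_option linter.unusedSectionVars false
set_option linter.style.haveILetI false

noncomputable section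

open UpperHalfPlane Complex Metric Filter Topology CongruenceSubgroup
open Matrix.SpecialLinearGroup (mapGL)
open ModularCurve.Period (IsParabolicHom parabolicHoms)
open scoped MatrixGroups Real ModularForm Manifold

local notation "𝕢" => Function.Periodic.qParam

namespace FLTAgent.DS.Lat

open Periods (HasDisc IsNice level_pos qParam_mem_ball hasDerivAt_qParam eq_add_const_of_hasDerivAt
  hasDerivAt_comp_smul hasDerivAt_comp_GL_smul)
open ModFun (qx)

variable {M : ℕ} [NeZero M] {Δ : Subgroup (ZMod M)ˣ}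

/-! ### primitives -/

theorem T_pow_conj_mem_grpH (δ : SL(2, ℤ)) :
    δ * ModularGroup.T ^ (M : ℤ) * δ⁻¹ ∈ grpH M Δ := by
  have h : ModularGroup.T ^ (M : ℤ) ∈ CongruenceSubgroup.Gamma M := by
    simpa using ModularGroup_T_pow_mem_Gamma (M : ℤ) (M : ℤ) dvd_rfl
  have := (Gamma_normal M).conj_mem _ h δ
  rw [Gamma_mem] at this
  refine Gamma1_le_grpH ?_
  rw [Gamma1_mem]
  exact ⟨this.1, this.2.2.2, this.2.2.1⟩

theorem periodic_slashH {g : ℍ → ℂ} (hg : IsMFH M Δ 2 g) (δ : SL(2, ℤ)) :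
    Function.Periodic ((g ∣[(2 : ℤ)] δ) ∘ ofComplex) ((M : ℝ) : ℂ) := by
  have key : (g ∣[(2 : ℤ)] δ) ∣[(2 : ℤ)] (ModularGroup.T ^ (M : ℤ)) = g ∣[(2 : ℤ)] δ := by
    rw [← SlashAction.slash_mul,
      show δ * ModularGroup.T ^ (M : ℤ) = (δ * ModularGroup.T ^ (M : ℤ) * δ⁻¹) * δ by group,
      SlashAction.slash_mul, hg.inv _ (T_pow_conj_mem_grpH δ)]
  intro w
  rcases le_or_gt w.im 0 with hw | hw
  · have : (w + ((M : ℝ) : ℂ)).im ≤ 0 := by simpa using hw
    simp only [Function.comp_apply, ofComplex_apply_of_im_nonpos this,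
      ofComplex_apply_of_im_nonpos hw]
  · have h2 : 0 < (w + ((M : ℝ) : ℂ)).im := by simpa using hw
    simp only [Function.comp_apply, ofComplex_apply_of_im_pos hw, ofComplex_apply_of_im_pos h2]
    have := congrFun key ⟨w, hw⟩
    rw [ModularForm.SL_slash_apply] at this
    have e10 : (ModularGroup.T ^ (M : ℤ) : SL(2, ℤ)) 1 0 = 0 := by
      rw [ModularGroup.coe_T_zpow]; rfl
    have e11 : (ModularGroup.T ^ (M : ℤ) : SL(2, ℤ)) 1 1 = 1 := by
      rw [ModularGroup.coe_T_zpow]; rfl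
    generalize hT : (ModularGroup.T ^ (M : ℤ) : SL(2, ℤ)) = A at e10 e11 ⊢
    have hd : denom A (w : ℂ) = 1 := by
      simp [denom, e10, e11]
    rw [hT, show ((⟨w, hw⟩ : ℍ) : ℂ) = w from rfl, hd, one_zpow, mul_one] at this
    rw [← this, ← hT, modular_T_zpow_smul]
    refine congrArg _ ?_
    apply UpperHalfPlane.ext; simp [add_comm]

theorem exists_disc_primitiveH {χ : (ZMod M)ˣ →* ℂ} {g : ℍ → ℂ} (hg : IsCuspH M Δ χ g)
    (δ : SL(2, ℤ)) :
    ∃ G : ℍ → ℂ, HasDisc M G ∧ Tendsto G atImInfty (𝓝 0) ∧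
      ∀ τ : ℍ, HasDerivAt (G ∘ ofComplex) ((g ∣[(2 : ℤ)] δ) τ) τ := by
  set φ := g ∣[(2 : ℤ)] δ with hφ
  have hper := periodic_slashH hg.form δ
  have hhol : MDiff φ := ModFun.mdiff_slash hg.form.holo 2 δ
  have hzero : IsZeroAtImInfty φ := hg.cusp δ
  have hbdd : IsBoundedAtImInfty φ := hzero.boundedAtFilter
  have hc := differentiableOn_cuspFunction_ball level_pos hper hhol hbdd
  set c := cuspFunction (M : ℝ) φ with hcdef
  have hc0 : c 0 = 0 := by
    rw [hcdef, cuspFunction_apply_zero level_pos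
      (analyticAt_cuspFunction_zero level_pos hper hhol hbdd) hper, hzero.valueAtInfty_eq_zero]
  set k : ℂ := (M : ℂ) / (2 * π * Complex.I) with hk
  have hd : DifferentiableOn ℂ (fun q => k * dslope c 0 q) (ball 0 1) :=
    ((differentiableOn_dslope (ball_mem_nhds 0 one_pos)).mpr hc).const_mul k
  obtain ⟨H, hH⟩ := hd.isExactOn_ball
  refine ⟨fun w => H (𝕢 M w) - H 0, ⟨fun q => H q - H 0, ?_, fun w => rfl⟩, ?_, fun τ => ?_⟩
  · exact fun q hq => ((hH q hq).differentiableAt.sub_const _).differentiableWithinAt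
  · have := ((hH 0 (mem_ball_self one_pos)).continuousAt.tendsto.comp
      (qParam_tendsto_atImInfty (h := (M : ℝ)) level_pos)).sub_const (H 0)
    simpa using! this
  · have h1 := ((hH _ (qParam_mem_ball τ)).comp (τ : ℂ)
      (hasDerivAt_qParam (M : ℝ) τ)).sub_const (H 0)
    refine HasDerivAt.congr_of_eventuallyEq ?_ (f := fun z => H (𝕢 M z) - H 0) ?_
    · convert! h1 using 1
      have hq : 𝕢 (M : ℝ) τ ≠ 0 := Function.Periodic.qParam_ne_zero _
      have hM : (M : ℂ) ≠ 0 := Nat.cast_ne_zero.mpr (NeZero.ne M)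
      beta_reduce
      rw [dslope_of_ne _ hq, slope_def_field, hc0, hcdef, eq_cuspFunction τ level_pos.ne' hper, hk]
      have hpi : (2 * π * Complex.I : ℂ) ≠ 0 := two_pi_I_ne_zero
      push_cast
      field_simp
      ring
    · filter_upwards [isOpen_upperHalfPlaneSet.mem_nhds τ.im_pos] with z hz
      simp [Function.comp, ofComplex_apply_of_im_pos hz]

/-- `P` gives the periods of a primitive of `g` -/
def HasPer (g : ℍ → ℂ) (P : grpH M Δ → ℂ) : Prop :=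
  ∃ F : ℍ → ℂ, (∀ τ : ℍ, HasDerivAt (F ∘ ofComplex) (g τ) τ) ∧
    ∀ (γ : grpH M Δ) (z : ℍ), F ((γ : SL(2, ℤ)) • z) - F z = P γ

theorem exists_niceH {χ : (ZMod M)ˣ →* ℂ} {g : ℍ → ℂ} (hg : IsCuspH M Δ χ g) :
    ∃ F : ℍ → ℂ, (∀ τ : ℍ, HasDerivAt (F ∘ ofComplex) (g τ) τ) ∧ IsNice M F ∧
      ∀ γ : grpH M Δ, ∃ c : ℂ, ∀ z : ℍ, F ((γ : SL(2, ℤ)) • z) - F z = c := by
  obtain ⟨F, hFd, -, hF⟩ := exists_disc_primitiveH hg 1
  simp only [SlashAction.slash_one] at hF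
  refine ⟨F, hF, fun δ => ?_, fun γ => ?_⟩
  · obtain ⟨G, hGd, -, hG⟩ := exists_disc_primitiveH hg δ
    obtain ⟨c, hc⟩ := eq_add_const_of_hasDerivAt (fun τ => hasDerivAt_comp_smul hF δ τ) hG
    have := hGd.add_const c
    simp only [← hc] at this
    exact this
  · obtain ⟨c, hc⟩ := eq_add_const_of_hasDerivAt (fun τ => by
      simpa only [hg.form.inv _ γ.2] using! hasDerivAt_comp_smul hF (γ : SL(2, ℤ)) τ) hF
    exact ⟨c, fun z => by rw [hc z]; ring⟩

/-- a nice function invariant under `H` is constant -/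
theorem deriv_eq_zero_of_invariant {G : ℍ → ℂ} (hG : IsNice M G)
    (hinv : ∀ γ ∈ grpH M Δ, ∀ z : ℍ, G (γ • z) = G z) :
    ∀ τ : ℍ, HasDerivAt (G ∘ ofComplex) 0 τ := by
  haveI : Finite (SL(2, ℤ) ⧸ grpH M Δ) := Subgroup.finite_quotient_of_finiteIndex
  choose H hHd hH using hG
  replace hH : ∀ (δ : SL(2, ℤ)) (w : ℍ), G (δ • w) = H δ (𝕢 M w) := hH
  set X := SL(2, ℤ) ⧸ grpH M Δ
  set r : ℝ := Real.exp (-π / M)
  have hr : r < 1 := Real.exp_lt_one_iff.mpr
    (div_neg_of_neg_of_pos (neg_lt_zero.mpr Real.pi_pos) level_pos)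
  have hmax : ∀ x : X, ∃ q ∈ closedBall (0 : ℂ) r, ∀ p ∈ closedBall (0 : ℂ) r,
      ‖H x.out⁻¹ p‖ ≤ ‖H x.out⁻¹ q‖ := by
    intro x
    obtain ⟨q, hq, hq'⟩ := (isCompact_closedBall (0 : ℂ) r).exists_isMaxOn
      (nonempty_closedBall.mpr (Real.exp_pos _).le)
      (((hHd x.out⁻¹).continuousOn.mono (closedBall_subset_ball hr)).norm)
    exact ⟨q, hq, fun p hp => hq' hp⟩
  choose q hq hqmax using hmax
  obtain ⟨x₀, hx₀⟩ := Finite.exists_max fun x : X => ‖H x.out⁻¹ (q x)‖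
  have hrep : ∀ δ : SL(2, ℤ), ∀ w : ℍ, ∃ x : X, G (δ • w) = G (x.out⁻¹ • w) := by
    intro δ w
    set x : X := QuotientGroup.mk δ⁻¹
    have hmem : x.out⁻¹ * δ⁻¹ ∈ grpH M Δ := QuotientGroup.eq.mp (QuotientGroup.out_eq' x)
    refine ⟨x, ?_⟩
    rw [← hinv _ hmem (δ • w), ← mul_smul]
    simp
  have hall : ∀ z : ℍ, ‖G z‖ ≤ ‖H x₀.out⁻¹ (q x₀)‖ := by
    intro z
    obtain ⟨γ, hγ⟩ := ModularGroup.exists_one_half_le_im_smul z
    obtain ⟨x, hx⟩ := hrep γ⁻¹ (γ • z)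
    rw [inv_smul_smul] at hx
    calc ‖G z‖ = ‖H x.out⁻¹ (𝕢 M ((γ • z : ℍ) : ℂ))‖ := by rw [← hH, hx]
      _ ≤ ‖H x.out⁻¹ (q x)‖ := by
          refine hqmax x _ ?_
          rw [mem_closedBall_zero_iff, Function.Periodic.norm_qParam]
          refine Real.exp_le_exp.mpr ?_
          gcongr
          rw [UpperHalfPlane.coe_im]
          nlinarith [Real.pi_pos]
      _ ≤ _ := hx₀ x
  have hconst := eq_const_of_exists_le (hHd x₀.out⁻¹) (Real.exp_pos _).le hr fun p hp => by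
    refine ⟨q x₀, hq x₀, ?_⟩
    rcases eq_or_ne p 0 with rfl | hp'
    · exact hqmax x₀ 0 (mem_closedBall_self (Real.exp_pos _).le)
    · have him := Function.Periodic.im_invQParam_pos_of_norm_lt_one (level_pos (N := M))
        (mem_ball_zero_iff.mp hp) hp'
      have := hall (x₀.out⁻¹ • (⟨_, him⟩ : ℍ))
      rw [hH] at this
      simpa [Function.Periodic.qParam_right_inv level_pos.ne' hp'] using this
  intro τ
  have hE : ∀ z : ℍ, G z = H x₀.out⁻¹ 0 := fun z => by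
    have := hconst (qParam_mem_ball (N := M) (x₀.out • z))
    simpa [← hH] using this
  simp only [Function.comp_def, hE]
  exact hasDerivAt_const _ _

theorem HasPer.eq_zero {χ : (ZMod M)ˣ →* ℂ} {g : ℍ → ℂ} (hg : IsCuspH M Δ χ g)
    (h : HasPer (Δ := Δ) g 0) : g = 0 := by
  obtain ⟨F, hF, hFγ⟩ := h
  obtain ⟨F', hF', hnice, -⟩ := exists_niceH hg
  obtain ⟨c, hc⟩ := eq_add_const_of_hasDerivAt hF' hF
  have h0 := deriv_eq_zero_of_invariant (Δ := Δ) hnice fun γ hγ z => by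
    have := hFγ ⟨γ, hγ⟩ z
    rw [Pi.zero_apply, sub_eq_zero] at this
    rw [hc, hc, this]
  funext τ
  exact (hF' τ).unique (h0 τ)

/-- combination of lattice elements, as a function on `H` -/
def comb {ι : Type} [Fintype ι] (c : ι → ℂ) (φ : ι → LamH M Δ) (γ : grpH M Δ) : ℂ :=
  ∑ i, c i * (((φ i).1 (Additive.ofMul γ) : ℤ) : ℂ)

theorem exists_hasPer {χ : (ZMod M)ˣ →* ℂ} {g : ℍ → ℂ} (hg : IsCuspH M Δ χ g) :
    ∃ (ι : Type) (_ : Fintype ι) (c : ι → ℂ) (φ : ι → LamH M Δ),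
      HasPer (Δ := Δ) g (comb c φ) := by
  classical
  obtain ⟨F, hF, hnice, hper⟩ := exists_niceH hg
  have hF' : ModularCurve.Period.IsEquivariantPrimitive (grpH M Δ) F := hper
  set Φ := hF'.periodHom
  have hΦ : ∀ γ : grpH M Δ, ((γ : SL(2, ℤ)) : Matrix (Fin 2) (Fin 2) ℤ).trace ^ 2 = 4 →
      Φ (Additive.ofMul γ) = 0 := by
    intro γ hγ
    obtain ⟨δ, m, hm⟩ := Periods.exists_conj_T_zpow hγ
    have hsmul : ∀ z : ℍ, (γ : SL(2, ℤ)) • z = (δ * ModularGroup.T ^ m * δ⁻¹) • z := fun z => by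
      rcases hm with h | h <;> rw [h]
      exact ModularGroup.SL_neg_smul _ z
    obtain ⟨L, hL⟩ := (hnice δ).tendsto
    have ht : Tendsto (fun w : ℍ => ModularGroup.T ^ m • w) atImInfty atImInfty := by
      rw [atImInfty, tendsto_comap_iff]
      refine tendsto_comap.congr fun w => ?_
      rw [Function.comp_apply, modular_T_zpow_smul]
      simp
    have h1 : Tendsto (fun w : ℍ => F ((γ : SL(2, ℤ)) • δ • w) - F (δ • w)) atImInfty
        (𝓝 (L - L)) := by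
      refine Tendsto.sub ?_ hL
      refine (hL.comp ht).congr fun w => ?_
      simp [hsmul, mul_smul]
    simp only [hF'.sub_eq_period γ, sub_self] at h1
    rw [ModularCurve.Period.IsEquivariantPrimitive.periodHom_apply]
    exact tendsto_const_nhds_iff.mp h1
  haveI := groupFG_grpH (M := M) (Δ := Δ)
  set R : Submodule ℤ ℂ := AddSubgroup.toIntSubmodule Φ.range with hR
  haveI : Module.Finite ℤ R := by
    rw [Module.Finite.iff_addGroup_fg]
    exact AddGroup.fg_of_surjective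
      (f := AddMonoidHom.mk' (fun γ : Additive (grpH M Δ) => (⟨Φ γ, ⟨γ, rfl⟩⟩ : R))
        (fun a b => Subtype.ext (map_add Φ a b)))
      (by rintro ⟨_, γ, rfl⟩; exact ⟨γ, rfl⟩)
  haveI : Module.Free ℤ R := Module.free_of_finite_type_torsion_free'
  let β := Module.Free.chooseBasis ℤ R
  refine ⟨Module.Free.ChooseBasisIndex ℤ R, inferInstance, fun i => ((β i : R) : ℂ),
    fun i => ⟨AddMonoidHom.mk' (fun γ => β.repr ⟨Φ γ, ⟨γ, rfl⟩⟩ i) (fun a b => by
        have e : (⟨Φ (a + b), ⟨a + b, rfl⟩⟩ : R) = ⟨Φ a, ⟨a, rfl⟩⟩ + ⟨Φ b, ⟨b, rfl⟩⟩ :=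
          Subtype.ext (map_add Φ a b)
        rw [e, map_add, Finsupp.add_apply]),
      fun γ hγ => by
        have e : (⟨Φ (Additive.ofMul γ), ⟨_, rfl⟩⟩ : R) = 0 := Subtype.ext (hΦ γ hγ)
        show β.repr _ i = 0
        rw [e, map_zero, Finsupp.zero_apply]⟩, F, hF, fun γ z => ?_⟩
  rw [hF'.sub_eq_period γ z]
  have h := congrArg Subtype.val (β.sum_repr ⟨Φ (Additive.ofMul γ), ⟨_, rfl⟩⟩)
  simp only [Submodule.coe_sum, Submodule.coe_smul, zsmul_eq_mul] at h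
  exact h.symm.trans (Finset.sum_congr rfl fun i _ => mul_comm _ _)

/-! ### correspondences -/

section Reps

variable {n : ℕ} {ι : Type} [Fintype ι] (R : LL.Reps n ι)

/-- the representatives as real matrices -/
def repGL (i : ι) : GL (Fin 2) ℝ :=
  Matrix.GeneralLinearGroup.mkOfDetNeZero ((R.rep i).map (Int.cast : ℤ → ℝ)) (by
    have e := (RingHom.map_det (Int.castRingHom ℝ) (R.rep i)).symm
    rw [RingHom.mapMatrix_apply] at e
    rw [show ((R.rep i).map (Int.cast : ℤ → ℝ)).det = _ from e, R.det_rep]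
    simpa using R.pos.ne')

theorem coe_repGL (i : ι) :
    (repGL R i : Matrix (Fin 2) (Fin 2) ℝ) = (R.rep i).map (Int.cast : ℤ → ℝ) := rfl

theorem det_repGL_pos (i : ι) : 0 < (repGL R i).val.det := by
  have e := (RingHom.map_det (Int.castRingHom ℝ) (R.rep i)).symm
  rw [RingHom.mapMatrix_apply] at e
  rw [coe_repGL, show ((R.rep i).map (Int.cast : ℤ → ℝ)).det = _ from e, R.det_rep]
  simpa using R.pos

theorem repGL_mul {ι' : Type} [Fintype ι'] {R' : LL.Reps n ι'} {i : ι} {j : ι'} {γ g : SL(2, ℤ)}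
    (h : R.rep i * (γ : Matrix (Fin 2) (Fin 2) ℤ) = (g : Matrix (Fin 2) (Fin 2) ℤ) * R'.rep j) :
    repGL R i * mapGL ℝ γ = mapGL ℝ g * repGL R' j := by
  apply Units.ext
  have e := congrArg (fun m => (Int.castRingHom ℝ).mapMatrix m) h
  simp only [map_mul, RingHom.mapMatrix_apply] at e
  rw [Units.val_mul, Units.val_mul, coe_repGL, coe_repGL]
  convert! e using 1

theorem slash_mapGL (g : ℍ → ℂ) (γ : SL(2, ℤ)) :
    g ∣[(2 : ℤ)] (mapGL ℝ γ : GL (Fin 2) ℝ) = g ∣[(2 : ℤ)] γ := rfl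

/-- `∑ g | rep` -/
def heckeSum (g : ℍ → ℂ) : ℍ → ℂ := ∑ i, g ∣[(2 : ℤ)] repGL R i

variable {R}

theorem elt_mem_Gamma0 (hn : n.Coprime M) (hR : ∀ i, R.adjRed M i • base M Δ = base M Δ)
    (γ : Gamma0 M) (i : ι) :
    ∃ h : R.elt γ i ∈ Gamma0 M, (dHom M γ)⁻¹ * dHom M ⟨_, h⟩ ∈ Δ := by
  have hA := fun j => mem_borelH.mp (smul_base_eq.mp (hR j))
  obtain ⟨hA0, u, hu, eu⟩ := hA i
  obtain ⟨hB0, v, hv, ev⟩ := hA (R.idx γ i)
  have key := congrArg (fun g : GL (Fin 2) (ZMod M) => (g : Matrix (Fin 2) (Fin 2) (ZMod M)))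
    (R.adjRed_mul hn (γ : SL(2, ℤ)) i)
  have e10 := congrFun₂ key 1 0
  have e11 := congrFun₂ key 1 1
  simp only [Units.val_mul, Matrix.mul_apply, Fin.sum_univ_two, hA0, hB0, ← eu, ← ev,
    LL.coe_red, Matrix.map_apply, Gamma0_mem.mp γ.2, zero_mul, mul_zero, zero_add, add_zero]
    at e10 e11
  have h := Gamma0_mem.mpr ((Units.mul_right_eq_zero u).mp e10)
  refine ⟨h, ?_⟩
  have e : dHom M ⟨_, h⟩ = u⁻¹ * dHom M γ * v := by
    rw [mul_assoc, eq_inv_mul_iff_mul_eq]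
    exact Units.ext (by push_cast [coe_dHom]; exact e11)
  rw [e, show (dHom M γ)⁻¹ * (u⁻¹ * dHom M γ * v) = u⁻¹ * v by
    rw [mul_comm u⁻¹, mul_assoc, inv_mul_cancel_left]]
  exact mul_mem (inv_mem hu) hv

theorem heckeSum_slash {χ : (ZMod M)ˣ →* ℂ} (hχ : ∀ d ∈ Δ, χ d = 1) (hn : n.Coprime M)
    (hR : ∀ i, R.adjRed M i • base M Δ = base M Δ) {g : ℍ → ℂ}
    (hg : ∀ γ : Gamma0 M, g ∣[(2 : ℤ)] (γ : SL(2, ℤ)) = χ (dHom M γ) • g) (γ : Gamma0 M) :
    heckeSum R g ∣[(2 : ℤ)] (γ : SL(2, ℤ)) = χ (dHom M γ) • heckeSum R g := by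
  rw [← slash_mapGL, heckeSum, SlashAction.sum_slash]
  have e : ∀ i, (g ∣[(2 : ℤ)] repGL R i) ∣[(2 : ℤ)] mapGL ℝ (γ : SL(2, ℤ)) =
      χ (dHom M γ) • (g ∣[(2 : ℤ)] repGL R (R.perm γ i)) := by
    intro i
    obtain ⟨h, hd⟩ := elt_mem_Gamma0 hn hR γ i
    rw [← SlashAction.slash_mul, repGL_mul R (R.rep_mul γ i), SlashAction.slash_mul,
      slash_mapGL, hg ⟨_, h⟩]
    have hc : χ (dHom M ⟨_, h⟩) = χ (dHom M γ) := by
      have := hχ _ hd
      rw [map_mul] at this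
      calc χ (dHom M ⟨_, h⟩) = χ (dHom M γ) * (χ (dHom M γ)⁻¹ * χ (dHom M ⟨_, h⟩)) := by
            rw [← mul_assoc, ← map_mul, mul_inv_cancel, map_one, one_mul]
        _ = χ (dHom M γ) := by rw [this, mul_one]
    rw [ModularForm.smul_slash, hc, UpperHalfPlane.σ, if_pos, R.perm_apply]
    · rfl
    · simpa using det_repGL_pos R _
  simp only [e, ← Finset.smul_sum]
  rw [Equiv.sum_comp (R.perm (γ : SL(2, ℤ))) fun i => g ∣[(2 : ℤ)] repGL R i]

theorem heckeSum_isCuspH {χ : (ZMod M)ˣ →* ℂ} (hχ : ∀ d ∈ Δ, χ d = 1) (hn : n.Coprime M)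
    [Fact n.Prime] (hR : ∀ i, R.adjRed M i • base M Δ = base M Δ) {g : ℍ → ℂ}
    (hg : IsCuspH M Δ χ g) : IsCuspH M Δ χ (heckeSum R g) := by
  have hz : ∀ δ : SL(2, ℤ), IsZeroAtImInfty (heckeSum R g ∣[(2 : ℤ)] δ) := by
    intro δ
    rw [← slash_mapGL, heckeSum, SlashAction.sum_slash]
    refine Finset.sum_induction _ IsZeroAtImInfty (fun a b ha hb => ha.add hb)
      (Filter.zero_zeroAtFilter _) fun i _ => ?_
    obtain ⟨j, γ', he⟩ := (LL.stdReps n).exists_rep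
      (R.rep i * (δ : Matrix (Fin 2) (Fin 2) ℤ)) (by rw [Matrix.det_mul, R.det_rep, δ.2, mul_one])
    rw [← SlashAction.slash_mul, repGL_mul R he, SlashAction.slash_mul, slash_mapGL]
    refine IsZeroAtImInfty.slash _ ?_ (hg.cusp γ')
    show ((repGL (LL.stdReps n) j : GL (Fin 2) ℝ) : Matrix (Fin 2) (Fin 2) ℝ) 1 0 = 0
    rw [coe_repGL, Matrix.map_apply]
    cases j <;> simp [LL.stdReps, LL.stdMat]
  have hhol : MDiff (heckeSum R g) :=
    Finset.sum_induction _ (fun f : ℍ → ℂ => MDiff f) (fun a b ha hb => ha.add hb)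
      mdifferentiable_const fun i _ => hg.form.holo.slash 2 _
  refine ⟨⟨hhol, fun γ hγ => ?_, fun δ => (hz δ).boundedAtFilter⟩, hz,
    heckeSum_slash hχ hn hR hg.nebentypus⟩
  obtain ⟨h0, hd⟩ := mem_grpH.mp hγ
  have := heckeSum_slash hχ hn hR hg.nebentypus ⟨γ, h0⟩
  rw [hχ _ hd, one_smul] at this
  exact this

theorem hasPer_heckeSum (hn : n.Coprime M) (hR : ∀ i, R.adjRed M i • base M Δ = base M Δ)
    {g : ℍ → ℂ} {P : grpH M Δ → ℂ} (h : HasPer g P) :
    HasPer (heckeSum R g) fun γ => ∑ i, P ⟨R.elt γ i, elt_mem_grpH R hn hR γ i⟩ := by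
  obtain ⟨F, hF, hFγ⟩ := h
  refine ⟨fun z => ∑ i, F (repGL R i • z), fun τ => ?_, fun γ z => ?_⟩
  · rw [heckeSum, Finset.sum_apply]
    exact HasDerivAt.fun_sum fun i _ => hasDerivAt_comp_GL_smul hF (det_repGL_pos R i) τ
  · have h : ∀ i, F (repGL R i • (γ : SL(2, ℤ)) • z) =
        P ⟨R.elt γ i, elt_mem_grpH R hn hR γ i⟩ + F (repGL R (R.perm γ i) • z) := fun i => by
      rw [← hFγ ⟨R.elt γ i, elt_mem_grpH R hn hR γ i⟩ (repGL R (R.perm γ i) • z), sub_add_cancel]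
      show F (repGL R i • mapGL ℝ (γ : SL(2, ℤ)) • z)
        = F (mapGL ℝ (R.elt γ i) • repGL R (R.perm γ i) • z)
      rw [← mul_smul, repGL_mul R (R.rep_mul γ i), mul_smul, R.perm_apply]
    simp only [h, Finset.sum_add_distrib,
      Equiv.sum_comp (R.perm (γ : SL(2, ℤ))) fun i => F (repGL R i • z)]
    ring

end Reps

/-! ### expansions -/

theorem heckeSum_std (p : {p : Nat.Primes // ¬ (p : ℕ) ∣ M}) {χ : (ZMod M)ˣ →* ℂ} {g : ℍ → ℂ}
    (hg : IsCuspH M Δ χ g) :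
    heckeSum (stdRepsH p) g = ModularForm.heckeU 2 (p.1 : ℕ) g +
      χ (pUnit p) • (g ∣[(2 : ℤ)] ModularForm.heckeDiagMatrix (p.1 : ℕ)) := by
  have hp : ((p.1 : ℕ)) ≠ 0 := p.1.2.ne_zero
  rw [heckeSum, Fintype.sum_option, add_comm, ModularForm.heckeU_def]
  congr 1
  · refine Finset.sum_bij (fun b _ => ZMod.val b) (fun b _ => Finset.mem_range.mpr b.val_lt)
      (fun a _ b _ h => ZMod.val_injective _ h)
      (fun j hj => ⟨(j : ZMod (p.1 : ℕ)), Finset.mem_univ _,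
        ZMod.val_natCast_of_lt (Finset.mem_range.mp hj)⟩) fun b _ => ?_
    congr 1
    apply Units.ext
    rw [coe_repGL, stdRepsH_some, ModularForm.val_heckeMatrix hp]
    ext i j
    fin_cases i <;> fin_cases j <;> simp [-ZMod.natCast_val]
  · have e : repGL (stdRepsH p) none =
        mapGL ℝ ((lift (pUnit p) : Gamma0 M) : SL(2, ℤ)) *
          ModularForm.heckeDiagMatrix (p.1 : ℕ) := by
      apply Units.ext
      rw [coe_repGL, stdRepsH_none, Units.val_mul, ModularForm.val_heckeDiagMatrix hp]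
      ext i j
      fin_cases i <;> fin_cases j <;> simp [Matrix.mul_apply, Fin.sum_univ_two]
    rw [e, SlashAction.slash_mul, slash_mapGL, hg.nebentypus, dHom_lift,
      ModularForm.smul_slash, ModularForm.σ_heckeDiagMatrix, ContinuousAlgEquiv.refl_apply]

theorem coeff_heckeSum_std (p : {p : Nat.Primes // ¬ (p : ℕ) ∣ M}) {χ : (ZMod M)ˣ →* ℂ}
    (hχ : ∀ d ∈ Δ, χ d = 1) {g : ℍ → ℂ} (hg : IsCuspH M Δ χ g) :
    (fun n => (qx (heckeSum (stdRepsH p) g)).coeff n) =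
      seqOp M χ (Sum.inl p) (fun n => (qx g).coeff n) := by
  have hp : ((p.1 : ℕ)) ≠ 0 := p.1.2.ne_zero
  have hG := hg.form.good
  have hn : Nat.Coprime (p.1 : ℕ) M := (p.1.2.coprime_iff_not_dvd).mpr p.2
  have hT := (heckeSum_isCuspH hχ hn (stdRepsH_fix p) hg).form.good
  have hD : ModFun.Good (g ∣[(2 : ℤ)] ModularForm.heckeDiagMatrix (p.1 : ℕ)) := by
    have e : g ∣[(2 : ℤ)] ModularForm.heckeDiagMatrix (p.1 : ℕ) =
        ((p.1 : ℕ) : ℂ) • ModFun.dil (p.1 : ℕ) g := by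
      funext τ
      rw [ModularForm.slash_heckeDiagMatrix_apply 2 hp, Pi.smul_apply, smul_eq_mul, ModFun.dil,
        show ModularForm.heckeDiagMatrix (p.1 : ℕ) • τ = ModFun.scale (p.1 : ℕ) τ from
          UpperHalfPlane.ext (by rw [ModularForm.coe_heckeDiagMatrix_smul hp, ModFun.coe_scale])]
      norm_num
    rw [e]
    exact (ModFun.good_dil hG _).smul _
  have hU : ModFun.Good (ModularForm.heckeU 2 (p.1 : ℕ) g) := by
    have := hT.sub (hD.smul (χ (pUnit p)))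
    rwa [heckeSum_std p hg, add_sub_cancel_right] at this
  funext n
  rw [heckeSum_std p hg, ModFun.Good.qx_add hU (hD.smul _), ModFun.Good.qx_smul _ hD]
  have hU' := UpperHalfPlane.qCoeff_heckeU hG.per hG.holo hG.bdd 2 hp n
  have hT' := UpperHalfPlane.qCoeff_heckeT hG.per hG.holo hG.bdd 2 hp n
  simp only [ModularFormClass.qCoeff, ModularForm.heckeT_eq_heckeU_add,
    ModularForm.coeffHeckeT_eq_coeffHeckeU_add] at hU' hT'
  rw [show qExpansion 1 (ModularForm.heckeU 2 (p.1 : ℕ) g +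
      g ∣[(2 : ℤ)] ModularForm.heckeDiagMatrix (p.1 : ℕ)) = _ from ModFun.Good.qx_add hU hD,
    map_add, hU', add_right_inj] at hT'
  rw [map_add, PowerSeries.coeff_smul, hU', hT', ModularForm.coeffHeckeU_apply]
  show _ = (qx g).coeff ((p.1 : ℕ) * n) + _
  rw [mul_comm n, smul_eq_mul, ModularFormClass.qCoeff]
  congr 1
  show χ (pUnit p) * _ = ((p.1 : ℕ) * χ (pUnit p)) * _
  norm_num
  split_ifs <;> ring

/-! ### faithfulness -/

theorem exists_form_of_word {χ : (ZMod M)ˣ →* ℂ} (hχ : ∀ d ∈ Δ, χ d = 1)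
    (P : FreeAlgebra ℤ (OpIdx M)) : ∀ g : ℍ → ℂ, IsCuspH M Δ χ g → ∀ (ι : Type) [Fintype ι]
      (c : ι → ℂ) (φ : ι → LamH M Δ), HasPer g (comb c φ) →
      ∃ g', IsCuspH M Δ χ g' ∧
        (fun n => (qx g').coeff n) =
          FreeAlgebra.lift ℤ (seqOp M χ) P (fun n => (qx g).coeff n) ∧
        HasPer g' (comb c fun i => FreeAlgebra.lift ℤ (opLam (M := M) (Δ := Δ)) P (φ i)) := by
  induction P using FreeAlgebra.induction with
  | grade0 k =>
    intro g hg ι _ c φ hper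
    obtain ⟨F, hF, hFγ⟩ := hper
    refine ⟨(k : ℂ) • g, ⟨hg.form.smul _, fun γ => ?_, fun γ => ?_⟩, ?_,
      fun z => (k : ℂ) * F z, fun τ => ?_, fun γ z => ?_⟩
    · rw [ModularForm.SL_smul_slash]; exact (hg.cusp γ).smul _
    · rw [ModularForm.SL_smul_slash, hg.nebentypus, smul_comm]
    · funext n
      rw [AlgHom.commutes, ModFun.Good.qx_smul _ hg.form.good, PowerSeries.coeff_smul]
      simp
    · simpa using! (hF τ).const_mul (k : ℂ)
    · rw [← mul_sub, hFγ, comb, comb, Finset.mul_sum]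
      refine Finset.sum_congr rfl fun i _ => ?_
      rw [AlgHom.commutes]
      simp only [Module.algebraMap_end_apply, Submodule.coe_smul, AddMonoidHom.smul_apply,
        smul_eq_mul]
      push_cast
      ring
  | grade1 x =>
    intro g hg ι _ c φ hper
    simp only [FreeAlgebra.lift_ι_apply]
    rcases x with p | d
    · have hn : Nat.Coprime (p.1 : ℕ) M := (p.1.2.coprime_iff_not_dvd).mpr p.2
      refine ⟨heckeSum (stdRepsH p) g, heckeSum_isCuspH hχ hn (stdRepsH_fix p) hg,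
        coeff_heckeSum_std p hχ hg, ?_⟩
      convert hasPer_heckeSum hn (stdRepsH_fix p) hper using 1
      funext γ
      simp only [comb, coe_opLam, opHom_inl_apply p (stdRepsH p) (stdRepsH_fix p), Int.cast_sum,
        Finset.mul_sum]
      exact Finset.sum_comm
    · obtain ⟨F, hF, hFγ⟩ := hper
      refine ⟨χ d • g, ⟨hg.form.smul _, fun γ => ?_, fun γ => ?_⟩, ?_,
        fun z => F ((lift d : Gamma0 M).1 • z), fun τ => ?_, fun γ z => ?_⟩
      · rw [ModularForm.SL_smul_slash]; exact (hg.cusp γ).smul _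
      · rw [ModularForm.SL_smul_slash, hg.nebentypus, smul_comm]
      · funext n
        rw [ModFun.Good.qx_smul _ hg.form.good, PowerSeries.coeff_smul]
        rfl
      · have := hasDerivAt_comp_smul hF ((lift d : Gamma0 M) : SL(2, ℤ)) τ
        rwa [hg.nebentypus, dHom_lift] at this
      · show F (((lift d : Gamma0 M) : SL(2, ℤ)) • (γ : SL(2, ℤ)) • z) -
            F (((lift d : Gamma0 M) : SL(2, ℤ)) • z) = _
        have e : ((lift d : Gamma0 M) : SL(2, ℤ)) • (γ : SL(2, ℤ)) • z =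
            ((conjH (lift d) γ : grpH M Δ) : SL(2, ℤ)) •
              ((lift d : Gamma0 M) : SL(2, ℤ)) • z := by
          rw [coe_conjH, ← mul_smul, ← mul_smul, inv_mul_cancel_right]
        rw [e, hFγ]
        simp only [comb, coe_opLam, opHom_inr_apply d _ (dHom_lift d)]
  | mul a b ha hb =>
    intro g hg ι _ c φ hper
    obtain ⟨g₁, hg₁, e₁, h₁⟩ := hb g hg ι c φ hper
    obtain ⟨g₂, hg₂, e₂, h₂⟩ := ha g₁ hg₁ ι c _ h₁
    refine ⟨g₂, hg₂, ?_, ?_⟩
    · rw [e₂, e₁, map_mul, Module.End.mul_apply]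
    · simp only [map_mul, Module.End.mul_apply]
      exact h₂
  | add a b ha hb =>
    intro g hg ι _ c φ hper
    obtain ⟨g₁, hg₁, e₁, F₁, hF₁, h₁⟩ := ha g hg ι c φ hper
    obtain ⟨g₂, hg₂, e₂, F₂, hF₂, h₂⟩ := hb g hg ι c φ hper
    refine ⟨g₁ + g₂, ⟨hg₁.form.add hg₂.form, fun γ => ?_, fun γ => ?_⟩, ?_, F₁ + F₂, fun τ => ?_,
      fun γ z => ?_⟩
    · rw [SlashAction.add_slash]; exact (hg₁.cusp γ).add (hg₂.cusp γ)
    · rw [SlashAction.add_slash, hg₁.nebentypus, hg₂.nebentypus, smul_add]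
    · rw [map_add, LinearMap.add_apply, ← e₁, ← e₂]
      funext n
      rw [ModFun.Good.qx_add hg₁.form.good hg₂.form.good, map_add, Pi.add_apply]
    · simpa using! (hF₁ τ).add (hF₂ τ)
    · rw [Pi.add_apply, Pi.add_apply, add_sub_add_comm, h₁, h₂, comb, comb, comb,
        ← Finset.sum_add_distrib]
      refine Finset.sum_congr rfl fun i _ => ?_
      simp only [map_add, LinearMap.add_apply, Submodule.coe_add, AddMonoidHom.add_apply]
      push_cast
      ring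

theorem opLam_faithful (χ : (ZMod M)ˣ →* ℂ) (hχ : ∀ d ∈ Δ, χ d = 1) (g : ℍ → ℂ)
    (hg : IsCuspH M Δ χ g) (P : FreeAlgebra ℤ (OpIdx M))
    (hP : FreeAlgebra.lift ℤ (opLam (M := M) (Δ := Δ)) P = 0) :
    FreeAlgebra.lift ℤ (seqOp M χ) P (fun n => (qx g).coeff n) = 0 := by
  obtain ⟨ι, _, c, φ, hper⟩ := exists_hasPer hg
  obtain ⟨g', hg', e, h⟩ := exists_form_of_word hχ P g hg ι c φ hper
  have h0 : (comb c fun i => FreeAlgebra.lift ℤ (opLam (M := M) (Δ := Δ)) P (φ i)) = 0 := by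
    funext γ
    simp [comb, hP]
  rw [← e, HasPer.eq_zero hg' (h0 ▸ h)]
  funext n
  rw [show qx (0 : ℍ → ℂ) = 0 from qExpansion_zero 1, map_zero]
  rfl

end FLTAgent.DS.Lat
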