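import Fermat.Agent.DS.GroupsBasic

/-!
Area DS, parcel DS8: a representation all of whose elements satisfy prescribed quadratic relations
gives a semisimple representation in two variables with these characteristic polynomials.
-/

set_option autoImplicit false
set_option linter.style.haveILetI false
set_option linter.unusedSectionVars false

noncomputable section

open Matrix Module

namespace FLTAgent.DS

variable {k : Type*} [Field k] {G : Type*} [Group G]

section Step

variable {V : Type*} [AddCommGroup V] [Module k V] (R : G →* Module.End k V) (t : G → k)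
  (δ : G →* kˣ)
  (hrel : ∀ g, R g * R g - t g • R g + (δ g : k) • (1 : Module.End k V) = 0)

include hrel in
theorem sub_apply_eq_smul_inv (g : G) :
    t g • (1 : Module.End k V) - R g = (δ g : k) • R g⁻¹ := by
  have h := congrArg (R g⁻¹ * ·) (hrel g)
  simp only [mul_add, mul_sub, mul_smul_comm, mul_zero, mul_one, ← mul_assoc, ← map_mul,
    inv_mul_cancel, map_one, one_mul] at h
  rw [← sub_eq_zero, ← neg_eq_zero, ← h]
  abel

include hrel in
/-- the symmetrised product of two elements is in the span of the two and of `1` -/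
theorem mul_add_mul_eq (g h : G) :
    R g * R h + R h * R g = t h • R g + t g • R h +
      (t (g * h) - t g * t h) • (1 : Module.End k V) := by
  have e : t (g * h) • (1 : Module.End k V) - R (g * h) =
      (t h • 1 - R h) * (t g • 1 - R g) := by
    rw [sub_apply_eq_smul_inv R t δ hrel, sub_apply_eq_smul_inv R t δ hrel,
      sub_apply_eq_smul_inv R t δ hrel, smul_mul_smul_comm, ← map_mul R h⁻¹ g⁻¹, ← _root_.mul_inv_rev,
      map_mul δ, Units.val_mul, mul_comm (δ g : k)]
  simp only [sub_mul, mul_sub, smul_mul_assoc, mul_smul_comm, one_mul, mul_one, smul_sub,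
    map_mul] at e
  rw [sub_eq_iff_eq_add] at e
  rw [sub_smul, e, mul_smul]
  abel

include hrel in
theorem mul_add_mul_of_mem {a b : Module.End k V} (ha : a ∈ Submodule.span k (Set.range R))
    (hb : b ∈ Submodule.span k (Set.range R)) :
    ∃ x y z : k, a * b + b * a = x • a + y • b + z • (1 : Module.End k V) := by
  have h1 : ∀ a ∈ Submodule.span k (Set.range R), ∃ τ : k, ∀ h, ∃ c : k,
      a * R h + R h * a = t h • a + τ • R h + c • (1 : Module.End k V) := by
    intro a ha
    induction ha using Submodule.span_induction with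
    | mem a ha =>
      obtain ⟨g, rfl⟩ := ha
      exact ⟨t g, fun h => ⟨_, mul_add_mul_eq R t δ hrel g h⟩⟩
    | zero => exact ⟨0, fun h => ⟨0, by simp⟩⟩
    | add a a' _ _ iha iha' =>
      obtain ⟨τ, hτ⟩ := iha
      obtain ⟨τ', hτ'⟩ := iha'
      refine ⟨τ + τ', fun h => ?_⟩
      obtain ⟨c, hc⟩ := hτ h
      obtain ⟨c', hc'⟩ := hτ' h
      refine ⟨c + c', ?_⟩
      rw [add_mul, mul_add, add_add_add_comm, hc, hc', smul_add, add_smul, add_smul]
      abel
    | smul r a _ iha =>
      obtain ⟨τ, hτ⟩ := iha
      refine ⟨r * τ, fun h => ?_⟩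
      obtain ⟨c, hc⟩ := hτ h
      refine ⟨r * c, ?_⟩
      rw [smul_mul_assoc, mul_smul_comm, ← smul_add, hc, smul_add, smul_add, smul_smul, smul_smul,
        smul_smul, smul_smul, mul_comm (t h) r]
  obtain ⟨τ, hτ⟩ := h1 a ha
  suffices ∃ x z : k, a * b + b * a = x • a + τ • b + z • (1 : Module.End k V) by
    obtain ⟨x, z, h⟩ := this
    exact ⟨x, τ, z, h⟩
  induction hb using Submodule.span_induction with
  | mem b hb =>
    obtain ⟨h, rfl⟩ := hb
    obtain ⟨c, hc⟩ := hτ h
    exact ⟨t h, c, hc⟩
  | zero => exact ⟨0, 0, by simp⟩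
  | add b b' _ _ ihb ihb' =>
    obtain ⟨x, z, h⟩ := ihb
    obtain ⟨x', z', h'⟩ := ihb'
    refine ⟨x + x', z + z', ?_⟩
    rw [mul_add, add_mul, add_add_add_comm, h, h', smul_add, add_smul, add_smul]
    abel
  | smul r b _ ihb =>
    obtain ⟨x, z, h⟩ := ihb
    refine ⟨r * x, r * z, ?_⟩
    rw [mul_smul_comm, smul_mul_assoc, ← smul_add, h, smul_add, smul_add, smul_smul, smul_smul,
      smul_smul, smul_smul, mul_comm τ r]

/-- Burnside -/
theorem span_range_eq_top_of_irred [IsAlgClosed k] [FiniteDimensional k V] [Nontrivial V]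
    (hirr : ∀ W : Submodule k V, (∀ g, ∀ v ∈ W, R g v ∈ W) → W = ⊥ ∨ W = ⊤) :
    Submodule.span k (Set.range R) = ⊤ := by
  let A : Subalgebra k (Module.End k V) := Algebra.adjoin k (Set.range R)
  have hA : A.toSubmodule = Submodule.span k (Set.range R) := by
    rw [Algebra.adjoin_eq_span]
    congr 1
    rw [← MonoidHom.coe_mrange, Submonoid.closure_eq]
  have hR : ∀ g, R g ∈ A := fun g => Algebra.subset_adjoin ⟨g, rfl⟩
  haveI : IsSimpleModule A V := by
    rw [isSimpleModule_iff]
    refine { eq_bot_or_eq_top := fun W => ?_ }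
    rcases hirr (W.restrictScalars k) fun g v hv => W.smul_mem (⟨R g, hR g⟩ : A) hv with h | h
    · exact Or.inl ((Submodule.restrictScalars_eq_bot_iff _ _ _).1 h)
    · exact Or.inr ((Submodule.restrictScalars_eq_top_iff _ _ _).1 h)
  haveI : Module.Finite (Module.End A V) V := Module.Finite.of_restrictScalars_finite k _ _
  rw [eq_top_iff]
  intro f _
  rw [← hA]
  let f' : Module.End (Module.End A V) V :=
    { toFun := f
      map_add' := map_add f
      map_smul' := fun e v => by
        obtain ⟨c, rfl⟩ := (IsSimpleModule.algebraMap_end_bijective_of_isAlgClosed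
          (A := A) (V := V) k).2 e
        show f (c • v) = c • f v
        exact map_smul f c v }
  obtain ⟨a, ha⟩ := Module.Finite.toModuleEnd_moduleEnd_surjective (R := A) (M := V) f'
  have : (a : Module.End k V) = f := LinearMap.ext fun v => DFunLike.congr_fun ha v
  rw [← this]
  exact a.2

include hrel in
/-- an irreducible such representation has dimension at most two -/
theorem finrank_le_two [IsAlgClosed k] [FiniteDimensional k V] [Nontrivial V]
    (hirr : ∀ W : Submodule k V, (∀ g, ∀ v ∈ W, R g v ∈ W) → W = ⊥ ∨ W = ⊤) :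
    finrank k V ≤ 2 := by
  by_contra h3
  have htop := span_range_eq_top_of_irred R hirr
  let e := finBasis k V
  let i₀ : Fin (finrank k V) := ⟨0, by omega⟩
  let i₁ : Fin (finrank k V) := ⟨1, by omega⟩
  let i₂ : Fin (finrank k V) := ⟨2, by omega⟩
  have h01 : i₀ ≠ i₁ := by simp [i₀, i₁, Fin.ext_iff]
  have h02 : i₀ ≠ i₂ := by simp [i₀, i₂, Fin.ext_iff]
  have h12 : i₁ ≠ i₂ := by simp [i₁, i₂, Fin.ext_iff]
  let a : Module.End k V := e.constr k fun i => if i = i₁ then e i₀ else 0
  let b : Module.End k V := e.constr k fun i => if i = i₀ then e i₁ else 0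
  obtain ⟨x, y, z, h⟩ := mul_add_mul_of_mem R t δ hrel (a := a) (b := b) (htop ▸ trivial)
    (htop ▸ trivial)
  have h0 := congrArg (fun v => e.repr v i₀) (DFunLike.congr_fun h (e i₀))
  have h2 := congrArg (fun v => e.repr v i₂) (DFunLike.congr_fun h (e i₂))
  simp [a, b, h01, h01.symm, h02, h02.symm, h12, h12.symm] at h0 h2
  exact one_ne_zero (h0.trans h2.symm)

end Step

/-- the two characters on the coordinate axes -/
def diagHom (χ χ' : G →* kˣ) : G →* GL (Fin 2) k :=
  ((Matrix.diagonalRingHom (Fin 2) k).toMonoidHom.comp
    ({ toFun := fun g => ![(χ g : k), (χ' g : k)]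
       map_one' := by funext i; fin_cases i <;> simp
       map_mul' := fun g h => by funext i; fin_cases i <;> simp } : G →* (Fin 2 → k))).toHomUnits

theorem mat_diagHom (χ χ' : G →* kˣ) (g : G) :
    mat (diagHom χ χ') g = Matrix.diagonal ![(χ g : k), (χ' g : k)] := rfl

/-- the representation attached to prescribed relations -/
theorem exists_two_dim [IsAlgClosed k] (t : G → k) (δ : G →* kˣ) :
    ∀ (n : ℕ) (V : Type*) [AddCommGroup V] [Module k V] [FiniteDimensional k V] [Nontrivial V]
      (R : G →* Module.End k V), finrank k V = n →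
      (∀ g, R g * R g - t g • R g + (δ g : k) • (1 : Module.End k V) = 0) →
      ∃ ρ : G →* GL (Fin 2) k, IsSS ρ ∧ (∀ g, R g = 1 → δ g = 1 → ρ g = 1) ∧
        ∀ g, (mat ρ g).trace = t g ∧ (mat ρ g).det = (δ g : k) := by
  intro n
  induction n using Nat.strong_induction_on with
  | _ n IH =>
  intro V _ _ _ _ R hn hrel
  by_cases hW : ∃ W : Submodule k V, (∀ g, ∀ v ∈ W, R g v ∈ W) ∧ W ≠ ⊥ ∧ W ≠ ⊤
  · obtain ⟨W, hst, hb, ht⟩ := hW
    haveI : Nontrivial W := Submodule.nontrivial_iff_ne_bot.2 hb
    let R' : G →* Module.End k W :=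
      { toFun := fun g => (R g).restrict (hst g)
        map_one' := LinearMap.ext fun v => Subtype.ext (by simp)
        map_mul' := fun g h => LinearMap.ext fun v => Subtype.ext (by simp) }
    have happ : ∀ g (v : W), ((R' g v : W) : V) = R g v := fun g v => rfl
    obtain ⟨ρ, hss, hker, hρ⟩ := IH (finrank k W) (hn ▸ Submodule.finrank_lt ht) W R' rfl
      (fun g => LinearMap.ext fun v => Subtype.ext (by
        have := DFunLike.congr_fun (hrel g) (v : V)
        simpa [happ] using this))
    exact ⟨ρ, hss, fun g hg => hker g (LinearMap.ext fun v => Subtype.ext (by simp [happ, hg])), hρ⟩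
  · have hirr : ∀ W : Submodule k V, (∀ g, ∀ v ∈ W, R g v ∈ W) → W = ⊥ ∨ W = ⊤ := by
      intro W hst
      by_contra hne
      push Not at hne
      exact hW ⟨W, hst, hne.1, hne.2⟩
    have hle := finrank_le_two R t δ hrel hirr
    have hpos : 0 < finrank k V := Module.finrank_pos
    rcases (show finrank k V = 1 ∨ finrank k V = 2 by omega) with h | h
    · let B := finBasisOfFinrankEq k V h
      let ψ : G →* kˣ :=
        ((LinearMap.det : Module.End k V →* k).comp R).toHomUnits
      have hψ : ∀ g, R g = (ψ g : k) • (1 : Module.End k V) := by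
        intro g
        refine B.ext fun i => ?_
        have e1 : (ψ g : k) = (LinearMap.toMatrix B B (R g)) 0 0 := by
          show LinearMap.det (R g) = _
          rw [← LinearMap.det_toMatrix B, Matrix.det_fin_one]
        rw [e1, LinearMap.toMatrix_apply, Subsingleton.elim i 0]
        conv_lhs => rw [← B.sum_repr (R g (B 0))]
        simp
      refine ⟨diagHom ψ (δ / ψ), ?_, fun g hg hd => ?_, fun g => ?_⟩
      · intro v hv _
        have he : ∀ (i : Fin 2) g, IsEig (diagHom ψ (δ / ψ)) g (Pi.single i 1) := fun i g =>
          ⟨![(ψ g : k), ((δ / ψ) g : kˣ)] i, by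
            rw [mat_diagHom, Matrix.diagonal_mulVec_single, ← Pi.single_smul', smul_eq_mul]⟩
        by_cases h1 : v 1 = 0
        · refine ⟨Pi.single 1 1, he 1, LinearIndependent.pair_iff.2 fun a b hab => ?_⟩
          have h0 : v 0 ≠ 0 := fun h0 => hv (funext fun i => by fin_cases i <;> simp [h0, h1])
          have := congrFun hab 0
          have := congrFun hab 1
          simp_all
        · refine ⟨Pi.single 0 1, he 0, LinearIndependent.pair_iff.2 fun a b hab => ?_⟩
          have := congrFun hab 0
          have := congrFun hab 1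
          simp_all
      · have e : ψ g = 1 := Units.ext (by
          show LinearMap.det (R g) = 1
          rw [hg, map_one])
        refine Units.ext ?_
        show mat (diagHom ψ (δ / ψ)) g = 1
        rw [mat_diagHom, MonoidHom.div_apply, e, hd]
        ext i j
        fin_cases i <;> fin_cases j <;> simp
      · obtain ⟨v, hv⟩ := exists_ne (0 : V)
        have e := DFunLike.congr_fun (hrel g) v
        rw [hψ] at e
        simp only [LinearMap.add_apply, LinearMap.sub_apply, Module.End.mul_apply,
          LinearMap.smul_apply, Module.End.one_apply, smul_smul, LinearMap.zero_apply,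
          ← sub_smul, ← add_smul] at e
        have e' := (smul_eq_zero.1 e).resolve_right hv
        rw [mat_diagHom, MonoidHom.div_apply]
        refine ⟨?_, ?_⟩
        · simp only [Matrix.trace_fin_two, Matrix.diagonal_apply_eq, Matrix.cons_val_zero,
            Matrix.cons_val_one, Units.val_div_eq_div_val]
          field_simp
          linear_combination e'
        · rw [Matrix.det_diagonal, Fin.prod_univ_two]
          simp [Units.val_div_eq_div_val, mul_div_cancel₀]
    · let B := finBasisOfFinrankEq k V h
      let M : G →* Matrix (Fin 2) (Fin 2) k :=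
        (LinearMap.toMatrixAlgEquiv B).toAlgHom.toRingHom.toMonoidHom.comp R
      have hM : ∀ g, M g * M g - t g • M g + (δ g : k) • (1 : Matrix (Fin 2) (Fin 2) k) = 0 := by
        intro g
        have := congrArg (LinearMap.toMatrixAlgEquiv B) (hrel g)
        simpa [M] using this
      have hCH : ∀ A : Matrix (Fin 2) (Fin 2) k,
          A * A - A.trace • A + A.det • (1 : Matrix (Fin 2) (Fin 2) k) = 0 := by
        intro A
        ext i j
        fin_cases i <;> fin_cases j <;>
          simp [Matrix.mul_apply, Fin.sum_univ_two, Matrix.trace_fin_two, Matrix.det_fin_two] <;>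
          ring
      have hns : ∀ g, (∀ c : k, M g ≠ c • 1) → (M g).trace = t g ∧ (M g).det = δ g := by
        intro g hg
        have e : ((M g).trace - t g) • M g =
            ((M g).det - δ g) • (1 : Matrix (Fin 2) (Fin 2) k) := by
          have := sub_eq_zero.2 ((hM g).trans (hCH (M g)).symm)
          rw [← sub_eq_zero, ← this, sub_smul, sub_smul]
          abel
        by_cases ht : (M g).trace = t g
        · refine ⟨ht, sub_eq_zero.1 ?_⟩
          rw [ht, sub_self, zero_smul] at e
          exact (smul_eq_zero.1 e.symm).resolve_right one_ne_zero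
        · refine absurd ?_ (hg (((M g).trace - t g)⁻¹ * ((M g).det - δ g)))
          rw [mul_smul, ← e, inv_smul_smul₀ (sub_ne_zero.2 ht)]
      obtain ⟨h₁, hh₁⟩ : ∃ g, ∀ c : k, M g ≠ c • 1 := by
        by_contra hall
        push Not at hall
        have hst : ∀ g, ∀ v ∈ (k ∙ B 0), R g v ∈ (k ∙ B 0) := by
          intro g v hv
          obtain ⟨c, hc⟩ := hall g
          have : R g = c • (1 : Module.End k V) :=
            (LinearMap.toMatrixAlgEquiv B).injective (by rw [map_smul, map_one]; exact hc)
          rw [this]
          exact Submodule.smul_mem _ c hv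
        rcases hirr _ hst with h' | h'
        · exact B.ne_zero 0 (Submodule.span_singleton_eq_bot.1 h')
        · have := finrank_span_singleton (K := k) (B.ne_zero 0)
          rw [h', finrank_top, h] at this
          omega
      have htd : ∀ g, (M g).trace = t g ∧ (M g).det = δ g := by
        intro g
        by_cases hg : ∀ c : k, M g ≠ c • 1
        · exact hns g hg
        push Not at hg
        obtain ⟨c, hc⟩ := hg
        obtain ⟨e1, e2⟩ := hns h₁ hh₁
        have hc0 : c ≠ 0 := by
          rintro rfl
          have := congrArg (M g⁻¹ * ·) hc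
          simp [← map_mul] at this
        obtain ⟨e3, e4⟩ := hns (g * h₁) fun d hd => hh₁ (c⁻¹ * d) (by
          rw [map_mul, hc, smul_mul_assoc, one_mul] at hd
          rw [mul_smul, ← hd, inv_smul_smul₀ hc0])
        rw [map_mul, hc, smul_mul_assoc, one_mul, Matrix.det_smul, Fintype.card_fin, map_mul,
          Units.val_mul, e2] at e4
        have hδ : c ^ 2 = (δ g : k) := mul_right_cancel₀ (δ h₁).ne_zero e4
        have e5 : (c * c - t g * c + δ g) • (1 : Matrix (Fin 2) (Fin 2) k) = 0 := by
          have := hM g
          rw [hc, smul_mul_smul_comm, one_mul, smul_smul, ← sub_smul, ← add_smul] at this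
          exact this
        have e6 := (smul_eq_zero.1 e5).resolve_right one_ne_zero
        rw [hc, Matrix.trace_smul, Matrix.det_smul, Matrix.trace_one, Matrix.det_one,
          Fintype.card_fin, smul_eq_mul, mul_one]
        refine ⟨mul_left_cancel₀ hc0 ?_, hδ⟩
        push_cast
        linear_combination e6 + hδ
      refine ⟨M.toHomUnits, ?_, fun g hg _ => ?_, fun g => htd g⟩
      · intro v hv hst
        exfalso
        let w : V := B.equivFun.symm v
        have hw : w ≠ 0 := fun h0 => hv (B.equivFun.symm.map_eq_zero_iff.1 h0)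
        have hst' : ∀ g, ∀ u ∈ (k ∙ w), R g u ∈ (k ∙ w) := by
          intro g u hu
          obtain ⟨a, rfl⟩ := Submodule.mem_span_singleton.1 hu
          obtain ⟨c, hc⟩ := hst g
          rw [map_smul]
          refine Submodule.smul_mem _ a (Submodule.mem_span_singleton.2 ⟨c, ?_⟩)
          refine B.equivFun.injective ?_
          have e := LinearMap.toMatrix_mulVec_repr B B (R g) w
          have hwv : (⇑(B.repr w) : Fin 2 → k) = v := B.equivFun.apply_symm_apply v
          rw [hwv] at e
          rw [map_smul]
          exact (congrArg (c • ·) hwv).trans (hc.symm.trans e)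
        rcases hirr _ hst' with h' | h'
        · exact hw (Submodule.span_singleton_eq_bot.1 h')
        · have := finrank_span_singleton (K := k) hw
          rw [h', finrank_top, h] at this
          omega
      · refine Units.ext ?_
        show M g = 1
        show LinearMap.toMatrixAlgEquiv B (R g) = 1
        rw [hg, map_one]

end FLTAgent.DS
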