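import Fermat.Agent.DS.ResidualVec
import Fermat.Agent.DS.RepLemma
import Fermat.Agent.DS.DensityUse
import Fermat.Agent.Good.Main

/-!
Area DS, parcel DS8: the residual representations.
-/

set_option autoImplicit false
set_option linter.style.haveILetI false
set_option linter.unusedSectionVars false
set_option maxHeartbeats 2000000
set_option synthInstance.maxHeartbeats 200000

noncomputable section

open scoped TensorProduct
open FLTAgent.Chebotarev (QBar GalQBar frobAt placeAt)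
open IsLocalRing (ResidueField residue)

namespace FLTAgent.DS

/-- the cyclotomic character as a unit -/
def cycU (n : ℕ) [NeZero n] : GalQBar →* (ZMod n)ˣ :=
  ({ toFun := Attach.cyc n
     map_one' := Attach.cyc_one n
     map_mul' := Attach.cyc_mul n } : GalQBar →* ZMod n).toHomUnits

theorem coe_cycU (n : ℕ) [NeZero n] (σ : GalQBar) : ((cycU n σ : (ZMod n)ˣ) : ZMod n) = Attach.cyc n σ :=
  rfl

/-- the quadratic relation of a power -/
theorem exists_rel_pow {k : Type*} [CommRing k] {S : Type*} [Ring S] [Algebra k S] {r s : S} {a d : k}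
    (hrs : r * s = 1) (hsr : s * r = 1) (h : r * r - a • r + d • (1 : S) = 0) (j : ℕ) :
    ∃ t : k, r ^ j * r ^ j - t • r ^ j + (d ^ j) • (1 : S) = 0 := by
  have ha : a • (1 : S) = r + d • s := by
    have h' := congrArg (· * s) h
    simp only [add_mul, sub_mul, mul_assoc, hrs, mul_one, smul_mul_assoc, one_mul, zero_mul] at h'
    rw [sub_add_eq_add_sub, sub_eq_zero] at h'
    exact h'.symm
  have hex : ∀ i : ℕ, ∃ t : k, t • (1 : S) = r ^ i + d ^ i • s ^ i := by
    intro i
    induction i using Nat.strong_induction_on with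
    | _ i IH =>
    match i with
    | 0 => exact ⟨2, by simp [← one_add_one_eq_two, add_smul]⟩
    | 1 => exact ⟨a, by simpa using ha⟩
    | i + 2 =>
      obtain ⟨u, hu⟩ := IH (i + 1) (by omega)
      obtain ⟨v, hv⟩ := IH i (by omega)
      refine ⟨a * u - d * v, ?_⟩
      have e1 : r * s ^ (i + 1) = s ^ i := by rw [pow_succ', ← mul_assoc, hrs, one_mul]
      have e2 : s * r ^ (i + 1) = r ^ i := by rw [pow_succ', ← mul_assoc, hsr, one_mul]
      rw [sub_smul, mul_smul, mul_smul, ← one_mul (u • (1 : S)), ← smul_mul_assoc, ha, hu, hv]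
      simp only [add_mul, mul_add, smul_mul_assoc, mul_smul_comm, smul_smul, smul_add, e1, e2,
        ← pow_succ']
      show _ = r ^ (i + 1 + 1) + d ^ (i + 1 + 1) • s ^ (i + 1 + 1)
      rw [pow_succ d (i + 1)]
      abel
  obtain ⟨t, ht⟩ := hex j
  refine ⟨t, ?_⟩
  have hpow : ∀ i, r ^ i * s ^ i = 1 := fun i => by
    induction i with
    | zero => simp
    | succ i ih => rw [pow_succ r, pow_succ' s, mul_assoc, ← mul_assoc r s, hrs, one_mul, ih]
  rw [show t • r ^ j = r ^ j * (t • (1 : S)) by rw [mul_smul_comm, mul_one], ht, mul_add,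
    mul_smul_comm, hpow]
  abel

variable {N : ℕ} [NeZero N] {D : EigenInput N} {ℓ : ℕ} {A : ValuationSubring QBar}
  (W : Weight2Input D ℓ A) (JD : JacData W.M W.Δ)

/-- the points killed by `ℓ` and by the kernel of the eigensystem -/
def eigGroup : AddSubgroup JD.J where
  carrier := {y | ℓ • y = 0 ∧ ∀ P, W.theta P = 0 → FreeAlgebra.lift ℤ JD.opJ P y = 0}
  zero_mem' := ⟨smul_zero _, fun P _ => map_zero _⟩
  add_mem' := fun h h' => ⟨by rw [smul_add, h.1, h'.1, add_zero],
    fun P hP => by rw [map_add, h.2 P hP, h'.2 P hP, add_zero]⟩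
  neg_mem' := fun h => ⟨by rw [smul_neg, h.1, neg_zero],
    fun P hP => by rw [map_neg, h.2 P hP, neg_zero]⟩

theorem act_mem_eigGroup (σ : GalQBar) {y : JD.J} (hy : y ∈ eigGroup W JD) :
    JD.act σ y ∈ eigGroup W JD :=
  ⟨by rw [← map_nsmul, hy.1, map_zero], fun P hP => by
    have := DFunLike.congr_fun (JD.act_lift σ P).eq y
    rw [Module.End.mul_apply, Module.End.mul_apply, hy.2 P hP, map_zero] at this
    exact this.symm⟩

theorem lift_mem_eigGroup (P : FreeAlgebra ℤ (OpIdx W.M)) {y : JD.J} (hy : y ∈ eigGroup W JD) :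
    FreeAlgebra.lift ℤ JD.opJ P y ∈ eigGroup W JD :=
  ⟨by rw [← map_nsmul, hy.1, map_zero], fun Q hQ => by
    have := hy.2 (Q * P) (by rw [map_mul, hQ, zero_mul])
    rwa [map_mul, Module.End.mul_apply] at this⟩

theorem exists_normal_fix {M : ℕ} {Δ : Subgroup (ZMod M)ˣ} (JD : JacData M Δ) (x : JD.J) :
    ∃ (L : IntermediateField ℚ QBar) (_ : FiniteDimensional ℚ L) (_ : Normal ℚ L),
      (∀ σ : GalQBar, AlgEquiv.restrictNormalHom L σ = 1 → ∀ τ : GalQBar,
        JD.act σ (JD.act τ x) = JD.act τ x) ∧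
      (Set.range fun σ => JD.act σ x).Finite := by
  obtain ⟨E, hE, hEx⟩ := JD.exists_level x
  haveI := hE
  haveI : IsGalois ℚ QBar := FLTAgent.Alg.qb_isGalois
  haveI : Normal ℚ (IntermediateField.normalClosure ℚ E QBar) := normalClosure.normal ℚ E QBar
  have key : ∀ σ : GalQBar,
      AlgEquiv.restrictNormalHom (IntermediateField.normalClosure ℚ E QBar) σ = 1 →
      JD.act σ x = x := fun σ hσ => hEx σ fun z hz => by
    have h1 := AlgEquiv.restrictNormal_commutes σ (IntermediateField.normalClosure ℚ E QBar)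
      ⟨z, E.le_normalClosure hz⟩
    exact h1.symm.trans (congrArg (algebraMap (IntermediateField.normalClosure ℚ E QBar) QBar)
      (DFunLike.congr_fun hσ ⟨z, E.le_normalClosure hz⟩))
  refine ⟨IntermediateField.normalClosure ℚ E QBar, inferInstance, inferInstance,
    fun σ hσ τ => ?_, ?_⟩
  · have h := congrArg (JD.act τ) (key (τ⁻¹ * σ * τ)
      (by rw [map_mul, map_mul, hσ, map_inv, mul_one, inv_mul_cancel]))
    rw [← Module.End.mul_apply, ← map_mul, show τ * (τ⁻¹ * σ * τ) = σ * τ by group, map_mul,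
      Module.End.mul_apply] at h
    exact h
  · have hrs := AlgEquiv.restrictNormalHom_surjective (F := ℚ)
      (K₁ := IntermediateField.normalClosure ℚ E QBar) QBar
    choose g hg using hrs
    refine (Set.finite_range fun r => JD.act (g r) x).subset ?_
    rintro _ ⟨σ, rfl⟩
    refine ⟨AlgEquiv.restrictNormalHom (IntermediateField.normalClosure ℚ E QBar) σ, ?_⟩
    have h := key ((g (AlgEquiv.restrictNormalHom (IntermediateField.normalClosure ℚ E QBar) σ))⁻¹ * σ)
      (by rw [map_mul, map_inv, hg, inv_mul_cancel])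
    have h' := congrArg
      (JD.act (g (AlgEquiv.restrictNormalHom (IntermediateField.normalClosure ℚ E QBar) σ))) h
    rw [← Module.End.mul_apply, ← map_mul, mul_inv_cancel_left] at h'
    exact h'.symm

include JD in
theorem finite_theta_range (hℓ : ℓ.Prime) (hA : A.LiesOverPrime ℓ) : Finite W.theta.range := by
  classical
  haveI := FLTAgent.Chebotarev.charP_residue hℓ hA
  haveI : NeZero ℓ := ⟨hℓ.ne_zero⟩
  obtain ⟨n, g, hg⟩ := Module.Finite.exists_fin' ℤ JD.Lam
  haveI : Module.Finite ℤ (Module.End ℤ JD.Lam) := Module.Finite.of_injective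
    (LinearMap.lcomp ℤ JD.Lam g : (JD.Lam →ₗ[ℤ] JD.Lam) →ₗ[ℤ] _)
    fun a b h => LinearMap.ext fun v => by
      obtain ⟨w, rfl⟩ := hg v
      exact LinearMap.congr_fun h w
  set φ := FreeAlgebra.lift ℤ JD.op
  haveI : Module.Finite ℤ φ.range := Module.Finite.of_injective φ.range.val.toLinearMap Subtype.val_injective
  obtain ⟨m, u, hu⟩ := Module.Finite.exists_fin' ℤ φ.range
  have hP : ∀ i : Fin m, ∃ P, φ P = (u (Pi.single i 1) : Module.End ℤ JD.Lam) := fun i => (u _).2
  choose P hP using hP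
  refine Finite.of_surjective (fun c : Fin m → ZMod ℓ =>
    (⟨W.theta (∑ i, ((c i).val : ℤ) • P i), ⟨_, rfl⟩⟩ : W.theta.range)) ?_
  rintro ⟨_, Q, rfl⟩
  obtain ⟨c, hc⟩ := hu ⟨φ Q, ⟨Q, rfl⟩⟩
  refine ⟨fun i => (c i : ZMod ℓ), Subtype.ext ?_⟩
  show W.theta (∑ i, (((c i : ZMod ℓ).val : ℕ) : ℤ) • P i) = W.theta Q
  have e : φ (∑ i, c i • P i) = φ Q := by
    have h := congrArg Subtype.val hc
    rw [pi_eq_sum_univ' c, map_sum, AddSubmonoidClass.coe_finset_sum] at h
    rw [map_sum]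
    refine Eq.trans ?_ h
    refine Finset.sum_congr rfl fun i _ => ?_
    rw [map_zsmul, hP, map_zsmul]
    rfl
  have e2 : W.theta (∑ i, c i • P i) = W.theta Q := sub_eq_zero.1
    ((map_sub W.theta _ _).symm.trans (W.theta_eq_zero JD rfl (by rw [map_sub, sub_eq_zero]; exact e)))
  rw [← e2, map_sum, map_sum]
  refine Finset.sum_congr rfl fun i _ => ?_
  rw [map_zsmul, map_zsmul, zsmul_eq_mul, zsmul_eq_mul]
  congr 1
  rw [ZMod.val_intCast, ← map_intCast (ZMod.castHom (dvd_refl ℓ) (ResidueField A)),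
    ← map_intCast (ZMod.castHom (dvd_refl ℓ) (ResidueField A)), ZMod.intCast_mod]

include W JD in
/-- the residual representation -/
theorem exists_residual (hℓ : ℓ.Prime) (hA : A.LiesOverPrime ℓ) :
    ∃ ρ : GalQBar →* GL (Fin 2) (ResidueField A),
      GaloisFactorsThroughFiniteLevel ρ ∧ IsSS ρ ∧
      ∀ p : ℕ, p.Prime → ¬ p ∣ N → p ≠ ℓ → ∀ B : ValuationSubring QBar, B.LiesOverPrime p →
        (∀ σ ∈ B.inertiaSubgroupIn ℚ, ρ σ = 1) ∧
        ∀ σ : GalQBar, B.IsFrobeniusAt σ p →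
          (mat ρ σ).trace = redQ A (D.a p) ∧ (mat ρ σ).det = redQ A (D.e p) := by
  classical
  haveI := FLTAgent.Chebotarev.charP_residue hℓ hA
  haveI := FLTAgent.Good.residueField_isAlgClosed A
  haveI : Fact ℓ.Prime := ⟨hℓ⟩
  haveI : NeZero W.M := ⟨by rw [W.M_eq]; exact mul_ne_zero (NeZero.ne N) hℓ.ne_zero⟩
  obtain ⟨x, hx0, hxℓ, hxker⟩ := W.exists_point JD rfl hℓ hA
  let k := ResidueField A
  let F : Subalgebra ℤ k := W.theta.range
  have hpre : ∀ c : F, ∃ P, W.theta P = (c : k) := fun c => c.2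
  choose pre hpre using hpre
  let G₀ := eigGroup W JD
  have hwd : ∀ {P P'}, W.theta P = W.theta P' → ∀ y : G₀,
      FreeAlgebra.lift ℤ JD.opJ P (y : JD.J) = FreeAlgebra.lift ℤ JD.opJ P' (y : JD.J) :=
    fun {P P'} h y => sub_eq_zero.1 (by
      rw [← LinearMap.sub_apply, ← map_sub]
      exact y.2.2 _ (by rw [map_sub, h, sub_self]))
  let sm : F → G₀ → G₀ := fun c y => ⟨_, lift_mem_eigGroup W JD (pre c) y.2⟩
  have hsm : ∀ (c : F) (y : G₀) (P), W.theta P = (c : k) →
      (sm c y : JD.J) = FreeAlgebra.lift ℤ JD.opJ P (y : JD.J) := fun c y P h =>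
    hwd ((hpre c).trans h.symm) y
  letI : SMul F G₀ := ⟨sm⟩
  letI : Module F G₀ :=
    { one_smul := fun y => Subtype.ext ((hsm 1 y 1 (map_one _)).trans (by rw [map_one]; rfl))
      mul_smul := fun c c' y => Subtype.ext ((hsm (c * c') y (pre c * pre c')
        (by rw [map_mul, hpre, hpre]; rfl)).trans (by rw [map_mul]; rfl))
      smul_zero := fun c => Subtype.ext (map_zero _)
      smul_add := fun c y y' => Subtype.ext (map_add _ _ _)
      zero_smul := fun y => Subtype.ext ((hsm 0 y 0 (map_zero _)).trans (by rw [map_zero]; rfl))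
      add_smul := fun c c' y => Subtype.ext ((hsm (c + c') y (pre c + pre c')
        (by rw [map_add, hpre, hpre]; rfl)).trans (by rw [map_add]; rfl)) }
  let a₀ : GalQBar →* Module.End F G₀ :=
    { toFun := fun σ =>
        { toFun := fun y => ⟨_, act_mem_eigGroup W JD σ y.2⟩
          map_add' := fun y y' => Subtype.ext (map_add _ _ _)
          map_smul' := fun c y => Subtype.ext
            (DFunLike.congr_fun (JD.act_lift σ (pre c)).eq (y : JD.J)) }
      map_one' := LinearMap.ext fun y => Subtype.ext (by simp)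
      map_mul' := fun σ τ => LinearMap.ext fun y => Subtype.ext (by simp) }
  -- a field of definition of the point
  obtain ⟨L, hLf, hLn, hfix, horbJ⟩ := exists_normal_fix JD x
  haveI := hLf
  haveI := hLn
  haveI : IsGalois ℚ QBar := FLTAgent.Alg.qb_isGalois
  let x' : G₀ := ⟨x, hxℓ, hxker⟩
  have horb : (Set.range fun σ => a₀ σ x').Finite := by
    refine Set.Finite.of_finite_image (f := fun y : G₀ => (y : JD.J)) (horbJ.subset ?_)
      Subtype.val_injective.injOn
    rintro _ ⟨_, ⟨σ, rfl⟩, rfl⟩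
    exact ⟨σ, rfl⟩
  let W₁ : Submodule F G₀ := Submodule.span F (Set.range fun σ => a₀ σ x')
  haveI : Module.Finite F W₁ := Module.Finite.iff_fg.2 (Submodule.fg_span horb)
  have hstab : ∀ σ, ∀ y ∈ W₁, a₀ σ y ∈ W₁ := by
    intro σ y hy
    induction hy using Submodule.span_induction with
    | mem y hy =>
      obtain ⟨τ, rfl⟩ := hy
      exact Submodule.subset_span ⟨σ * τ, by simp [map_mul]⟩
    | zero => rw [map_zero]; exact zero_mem _
    | add y y' _ _ h h' => rw [map_add]; exact add_mem h h'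
    | smul c y _ h => rw [map_smul]; exact W₁.smul_mem c h
  haveI : Finite F := finite_theta_range W JD hℓ hA
  letI : Field F := (Finite.isField_of_domain F).toField
  let aW : GalQBar →* Module.End F W₁ :=
    { toFun := fun σ => (a₀ σ).restrict (hstab σ)
      map_one' := LinearMap.ext fun y => Subtype.ext (by simp)
      map_mul' := fun σ τ => LinearMap.ext fun y => Subtype.ext (by simp) }
  letI : Algebra F k := Algebra.ofSubsemiring F.toSubsemiring
  let V := k ⊗[F] W₁
  haveI : Nontrivial W₁ := ⟨⟨x', Submodule.subset_span ⟨1, by simp⟩⟩, 0,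
    fun h => hx0 (congrArg (fun z : W₁ => ((z : G₀) : JD.J)) h)⟩
  haveI : Nontrivial V := by
    have hb := (Module.Free.chooseBasis F W₁).baseChange k
    haveI : Nonempty (Module.Free.ChooseBasisIndex F W₁) :=
      (Module.Free.chooseBasis F W₁).index_nonempty
    exact ⟨hb (Classical.arbitrary _), 0, hb.ne_zero _⟩
  let R : GalQBar →* Module.End k V :=
    { toFun := fun σ => (aW σ).baseChange k
      map_one' := by rw [map_one, LinearMap.baseChange_one]
      map_mul' := fun σ τ => by rw [map_mul, LinearMap.baseChange_mul] }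
  let δ : GalQBar →* kˣ := (W.χres.comp (cycU W.M) *
    ((ZMod.castHom (dvd_refl ℓ) k : ZMod ℓ →* k).comp
      ((Units.coeHom _).comp (cycU ℓ)))).toHomUnits
  have hδ : ∀ σ, (δ σ : k) =
      W.χres (cycU W.M σ) * ZMod.castHom (dvd_refl ℓ) k (Attach.cyc ℓ σ) := fun σ => rfl
  have hM : ∀ p : ℕ, p.Prime → ¬ p ∣ N → p ≠ ℓ → ¬ p ∣ W.M := by
    intro p hp hpN hpℓ hd
    rw [W.M_eq] at hd
    rcases hp.dvd_mul.1 hd with h | h
    · exact hpN h
    · exact hpℓ ((Nat.prime_dvd_prime_iff_eq hp hℓ).1 h)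
  -- inertia
  have hin : ∀ p : ℕ, p.Prime → ¬ p ∣ N → p ≠ ℓ → ∀ B : ValuationSubring QBar, B.LiesOverPrime p →
      ∀ σ ∈ B.inertiaSubgroupIn ℚ, R σ = 1 ∧ δ σ = 1 := by
    intro p hp hpN hpℓ B hB σ hσ
    have hpM := hM p hp hpN hpℓ
    have hpℓ' : ¬ p ∣ ℓ := fun h => hpℓ ((Nat.prime_dvd_prime_iff_eq hp hℓ).1 h)
    refine ⟨?_, Units.ext ?_⟩
    · show (aW σ).baseChange k = 1
      rw [show aW σ = 1 from LinearMap.ext fun y => Subtype.ext (Subtype.ext
        (JD.inertia p ℓ hp hpM hℓ.pos hpℓ' B hB σ hσ _ (y : G₀).2.1)), LinearMap.baseChange_one]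
    · have e : cycU W.M σ = 1 := Units.ext (Attach.cyc_inertia hp hpM hB hσ)
      rw [hδ, e, map_one, one_mul, Attach.cyc_inertia hp hpℓ' hB hσ, map_one]
      rfl
  -- Frobenius
  have hfr : ∀ p : ℕ, p.Prime → ¬ p ∣ N → p ≠ ℓ → ∀ B : ValuationSubring QBar, B.LiesOverPrime p →
      ∀ σ : GalQBar, B.IsFrobeniusAt σ p →
        (δ σ : k) = redQ A (D.e p) ∧
        R σ * R σ - redQ A (D.a p) • R σ + (δ σ : k) • (1 : Module.End k V) = 0 := by
    intro p hp hpN hpℓ B hB σ hσ
    have hpM := hM p hp hpN hpℓ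
    have hpℓ' : ¬ p ∣ ℓ := fun h => hpℓ ((Nat.prime_dvd_prime_iff_eq hp hℓ).1 h)
    let u := ZMod.unitOfCoprime p ((Nat.Prime.coprime_iff_not_dvd hp).2 hpM)
    have hd : (δ σ : k) = redQ A (D.e p) := by
      have e : cycU W.M σ = u := Units.ext (Attach.cyc_frobenius hp hpM hB hσ)
      rw [hδ, e, Attach.cyc_frobenius hp hpℓ' hB hσ, map_natCast, mul_comm]
      exact W.χ_spec p hp hpM
    refine ⟨hd, ?_⟩
    let cT : F := ⟨W.theta (FreeAlgebra.ι ℤ (Sum.inl ⟨⟨p, hp⟩, hpM⟩)), ⟨_, rfl⟩⟩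
    let cD : F := (p : F) * ⟨W.theta (FreeAlgebra.ι ℤ (Sum.inr u)), ⟨_, rfl⟩⟩
    have hcT : algebraMap F k cT = redQ A (D.a p) := by
      show W.theta (FreeAlgebra.ι ℤ _) = _
      rw [Weight2Input.theta, FreeAlgebra.lift_ι_apply]
      exact (W.eigen p hp hpM).1
    have hcD : algebraMap F k cD = (δ σ : k) := by
      rw [map_mul, map_natCast, hd, ← W.χ_spec p hp hpM]
      congr 1
      show W.theta (FreeAlgebra.ι ℤ _) = _
      rw [Weight2Input.theta, FreeAlgebra.lift_ι_apply]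
      rfl
    have hrel : aW σ * aW σ - cT • aW σ + cD • (1 : Module.End F W₁) = 0 := by
      refine LinearMap.ext fun y => Subtype.ext (Subtype.ext ?_)
      have h := JD.frobenius ⟨p, hp⟩ hpM ℓ hℓ.pos hpℓ' B hB σ hσ _ (y : G₀).2.1
      have e1 := hsm cT (a₀ σ (y : G₀)) (FreeAlgebra.ι ℤ (Sum.inl ⟨⟨p, hp⟩, hpM⟩)) rfl
      have e2 := hsm cD (y : G₀) ((p : FreeAlgebra ℤ (OpIdx W.M)) * FreeAlgebra.ι ℤ (Sum.inr u))
        (by rw [map_mul, map_natCast]; rfl)
      rw [FreeAlgebra.lift_ι_apply] at e1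
      rw [map_mul, map_natCast, FreeAlgebra.lift_ι_apply, Module.End.mul_apply,
        Module.End.natCast_apply] at e2
      simp only [LinearMap.add_apply, LinearMap.sub_apply, Module.End.mul_apply, LinearMap.smul_apply,
        Module.End.one_apply, LinearMap.zero_apply, Submodule.coe_add, Submodule.coe_sub,
        Submodule.coe_smul, AddSubgroup.coe_add, AddSubgroup.coe_sub, Submodule.coe_zero,
        AddSubgroup.coe_zero]
      exact (congrArg₂ (fun a b => (JD.act σ) (JD.act σ ((y : G₀) : JD.J)) - a + b) e1 e2).trans h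
    have h2 := congrArg (LinearMap.baseChange k) hrel
    rw [LinearMap.baseChange_add, LinearMap.baseChange_sub, LinearMap.baseChange_mul,
      LinearMap.baseChange_smul, LinearMap.baseChange_smul, LinearMap.baseChange_one,
      LinearMap.baseChange_zero] at h2
    refine Eq.trans ?_ h2
    rw [← hcT, ← hcD]
    erw [algebraMap_smul, algebraMap_smul]
    rfl
  -- every element has a relation
  obtain ⟨E₁, hE₁, hE₁'⟩ := Attach.exists_cyc_level W.M
  obtain ⟨E₂, hE₂, hE₂'⟩ := Attach.exists_cyc_level ℓ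
  haveI := hE₁
  haveI := hE₂
  let E' : IntermediateField ℚ QBar := L ⊔ E₁ ⊔ E₂
  have htriv : ∀ σ : GalQBar, (∀ z ∈ E', σ z = z) → R σ = 1 ∧ δ σ = 1 := by
    intro σ hσ
    have hL : AlgEquiv.restrictNormalHom L σ = 1 := AlgEquiv.ext fun z => Subtype.ext
      ((AlgEquiv.restrictNormal_commutes σ L z).trans
        (hσ _ ((le_sup_left : L ≤ L ⊔ E₁).trans le_sup_left z.2)))
    refine ⟨?_, Units.ext ?_⟩
    · show (aW σ).baseChange k = 1
      have : aW σ = 1 := by
        refine LinearMap.ext fun y => Subtype.ext ?_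
        show a₀ σ (y : G₀) = y
        obtain ⟨y, hy⟩ := y
        induction hy using Submodule.span_induction with
        | mem y hy =>
          obtain ⟨τ, rfl⟩ := hy
          exact Subtype.ext (hfix σ hL τ)
        | zero => exact map_zero _
        | add y y' _ _ h h' => rw [map_add, h, h']
        | smul c y _ h => rw [map_smul, h]
      rw [this, LinearMap.baseChange_one]
    · have e : cycU W.M σ = 1 := Units.ext (hE₁' σ fun z hz => hσ z
        ((le_sup_right : E₁ ≤ L ⊔ E₁).trans le_sup_left hz))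
      rw [hδ, e, map_one, one_mul, hE₂' σ fun z hz => hσ z ((le_sup_right : E₂ ≤ E') hz), map_one]
      rfl
  have hrelall : ∀ σ, ∃ t : k, R σ * R σ - t • R σ + (δ σ : k) • (1 : Module.End k V) = 0 := by
    intro σ
    obtain ⟨p, B, τ, j, hp, hS, hB, hF, hj⟩ := FLTAgent.Chebotarev.exists_frobenius_pow E' σ
      (Finset.range (N + ℓ + 1))
    rw [Finset.mem_range, not_lt] at hS
    have hpN : ¬ p ∣ N := fun hd => by
      have := Nat.le_of_dvd (Nat.pos_of_ne_zero (NeZero.ne N)) hd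
      omega
    obtain ⟨-, hq⟩ := hfr p hp hpN (by omega) B hB τ hF
    have hσ : R σ = R τ ^ j ∧ δ σ = δ τ ^ j := by
      obtain ⟨h1, h2⟩ := htriv ((τ ^ j)⁻¹ * σ) fun z hz => by
        show (τ ^ j)⁻¹ (σ z) = z
        rw [← hj z hz]
        exact (τ ^ j).symm_apply_apply z
      constructor
      · have := congrArg (R (τ ^ j) * ·) h1
        simp only [mul_one, ← map_mul, mul_inv_cancel_left] at this
        rw [this, map_pow]
      · have := congrArg (δ (τ ^ j) * ·) h2
        simp only [mul_one, ← map_mul, mul_inv_cancel_left] at this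
        rw [this, map_pow]
    obtain ⟨t, ht⟩ := exists_rel_pow (r := R τ) (s := R τ⁻¹)
      (by rw [← map_mul, mul_inv_cancel, map_one]) (by rw [← map_mul, inv_mul_cancel, map_one]) hq j
    exact ⟨t, by rw [hσ.1, hσ.2, Units.val_pow_eq_pow_val]; exact ht⟩
  choose t ht using hrelall
  obtain ⟨ρ, hss, hker, hρ⟩ := exists_two_dim t δ _ V R rfl ht
  refine ⟨ρ, ⟨E', inferInstance, fun σ hσ => hker σ (htriv σ hσ).1 (htriv σ hσ).2⟩, hss,
    fun p hp hpN hpℓ B hB => ⟨fun σ hσ => hker σ (hin p hp hpN hpℓ B hB σ hσ).1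
      (hin p hp hpN hpℓ B hB σ hσ).2, fun σ hσ => ?_⟩⟩
  obtain ⟨hd, hq⟩ := hfr p hp hpN hpℓ B hB σ hσ
  refine ⟨(hρ σ).1.trans ?_, (hρ σ).2.trans hd⟩
  have h0 : (t σ - redQ A (D.a p)) • R σ = 0 := by
    refine (sub_smul (t σ) (redQ A (D.a p)) (R σ)).trans ?_
    refine sub_eq_zero.2 (LinearMap.ext fun v => ?_)
    have := LinearMap.congr_fun (hq.trans (ht σ).symm) v
    simp only [LinearMap.add_apply, LinearMap.sub_apply] at this
    rw [add_left_inj, sub_right_inj] at this
    exact this.symm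
  refine sub_eq_zero.1 ((smul_eq_zero.1 h0).resolve_right fun hR => ?_)
  have h1 := congrArg (R σ⁻¹ * ·) hR
  simp only [mul_zero, ← map_mul, inv_mul_cancel, map_one] at h1
  exact one_ne_zero h1

/-- DS8: residual representations from the weight two forms and the Jacobians -/
theorem residualInput (D : EigenInput N)
    (hW : ∃ ℓ₀ : ℕ, ∀ ℓ : ℕ, ℓ.Prime → ℓ₀ < ℓ → ∀ A : ValuationSubring QBar, A.LiesOverPrime ℓ →
      Nonempty (Weight2Input D ℓ A))
    (hJ : ∀ (M : ℕ) [NeZero M] (Δ : Subgroup (ZMod M)ˣ), (-1 : (ZMod M)ˣ) ∈ Δ →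
      Nonempty (JacData M Δ)) :
    ResidualInput D := by
  obtain ⟨ℓ₀, hW⟩ := hW
  refine ⟨ℓ₀, fun ℓ hℓ hlt A hA => ?_⟩
  obtain ⟨W⟩ := hW ℓ hℓ hlt A hA
  haveI : NeZero W.M := ⟨by rw [W.M_eq]; exact mul_ne_zero (NeZero.ne N) hℓ.ne_zero⟩
  obtain ⟨JD⟩ := hJ W.M W.Δ W.neg_mem
  exact exists_residual W JD hℓ hA

end FLTAgent.DS
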