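import Fermat.Agent.DS.Weight1Eisenstein

/-!
Area DS, parcel DS3: conjugate forms.
-/

set_option autoImplicit false
set_option linter.unusedSectionVars false

noncomputable section

open UpperHalfPlane CongruenceSubgroup ModularForm
open scoped MatrixGroups Manifold ModularForm

namespace FLTAgent.DS

open ModFun (Good qx IsCF)

variable {N : ℕ} [NeZero N] {χ : DirichletCharacter ℂ N} {f : ℍ → ℂ}

theorem slash_neg_one_weight_one (f : ℍ → ℂ) : f ∣[(1 : ℤ)] (-1 : SL(2, ℤ)) = -f := by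
  funext τ
  rw [SL_slash_apply, show ((-1 : SL(2, ℤ)) • τ) = τ by rw [ModularGroup.SL_neg_smul, one_smul]]
  simp [denom]

theorem IsW1.odd (hf : IsW1 N χ f) (hf0 : f ≠ 0) : χ.Odd := by
  have h := hf.inv (-1) (by rw [Gamma0_mem]; simp)
  rw [slash_neg_one_weight_one] at h
  have h2 : (χ (-1) + 1) • f = 0 := by
    have hd : (((-1 : SL(2, ℤ)).1 1 1 : ℤ) : ZMod N) = -1 := by simp
    rw [hd] at h
    rw [add_smul, one_smul, ← h, neg_add_cancel]
  rcases smul_eq_zero.1 h2 with h3 | h3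
  · exact eq_neg_of_add_eq_zero_left h3
  · exact absurd h3 hf0

theorem isPrimitive_ringHomComp {L : ℕ} [NeZero L] {ψ : DirichletCharacter ℂ L} (hψ : ψ.IsPrimitive)
    (σ : ℂ →+* ℂ) : DirichletCharacter.IsPrimitive (ψ.ringHomComp σ) := by
  have hset : DirichletCharacter.conductorSet (ψ.ringHomComp σ) =
      DirichletCharacter.conductorSet ψ := by
    ext d
    simp only [DirichletCharacter.mem_conductorSet_iff]
    constructor <;> intro h <;> obtain ⟨hd, _⟩ := id h <;>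
      rw [DirichletCharacter.factorsThrough_iff_ker_unitsMap hd] at h ⊢ <;>
      intro u hu <;> have h1 := h hu <;> simp only [MonoidHom.mem_ker, Units.ext_iff,
        MulChar.coe_toUnitHom, MulChar.ringHomComp_apply, Units.val_one] at h1 ⊢
    · exact σ.injective (h1.trans (map_one σ).symm)
    · rw [h1, map_one]
  rw [DirichletCharacter.isPrimitive_def, DirichletCharacter.conductor, hset]
  exact hψ

theorem eisSeries_map {L : ℕ} [NeZero L] (ψ : DirichletCharacter ℂ L) (σ : ℂ →+* ℂ) :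
    eisSeries (ψ.ringHomComp σ) = (eisSeries ψ).map σ := by
  ext n
  simp only [eisSeries, PowerSeries.coeff_map, PowerSeries.coeff_mk, apply_ite σ, eisC0, map_div₀,
    map_neg, map_sum, map_mul, map_natCast, map_ofNat, MulChar.ringHomComp_apply]

/-- an auxiliary Eisenstein series whose character is inverse to `χ` -/
structure IsAux (χ : DirichletCharacter ℂ N) (F : ℍ → ℂ) : Prop where
  holo : MDiff F
  inv : ∀ γ : SL(2, ℤ), γ ∈ Gamma0 N → χ ((γ.1 1 1 : ℤ) : ZMod N) • F ∣[(1 : ℤ)] γ = F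
  bdd : ∀ γ : SL(2, ℤ), IsBoundedAtImInfty (F ∣[(1 : ℤ)] γ)
  one : (qx F).coeff 1 = 1

theorem isUnit_cls {γ : SL(2, ℤ)} (hγ : γ ∈ Gamma0 N) : IsUnit ((γ.1 1 1 : ℤ) : ZMod N) := by
  have hdet := congrArg (Int.cast : ℤ → ZMod N)
    ((Matrix.det_fin_two (γ.1 : Matrix (Fin 2) (Fin 2) ℤ)).symm.trans γ.2)
  push_cast at hdet
  rw [Gamma0_mem.1 hγ, mul_zero, sub_zero] at hdet
  exact IsUnit.of_mul_eq_one_right _ hdet

theorem Gamma0_le_of_dvd {L : ℕ} (h : L ∣ N) : Gamma0 N ≤ Gamma0 L := fun γ hγ => by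
  rw [Gamma0_mem, ZMod.intCast_zmod_eq_zero_iff_dvd] at hγ ⊢
  exact (Int.natCast_dvd_natCast.mpr h).trans hγ

/-- the roots of unity of order dividing `M`, as an algebra over `ℤ` -/
def muRing (M : ℕ) : Subalgebra ℤ ℂ := Algebra.adjoin ℤ {z : ℂ | z ^ M = 1}

/-- the auxiliary series for an odd character, together with its conjugates -/
theorem exists_aux (hodd : χ.Odd) (σ : ℂ →+* ℂ) :
    ∃ F F' : ℍ → ℂ, IsAux χ F ∧ IsAux (χ.ringHomComp σ) F' ∧ qx F' = (qx F).map σ ∧
      ∀ n, n ≠ 0 → (qx F).coeff n ∈ muRing N.totient := by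
  set ψ := (χ⁻¹).primitiveCharacter
  have hdvd : (χ⁻¹).conductor ∣ N := DirichletCharacter.conductor_dvd_level _
  haveI : NeZero (χ⁻¹).conductor := ⟨ne_zero_of_dvd_ne_zero (NeZero.ne N) hdvd⟩
  have hval : ∀ u : ZMod N, IsUnit u → χ u * ψ (ZMod.castHom hdvd _ u) = 1 := by
    rintro _ ⟨u, rfl⟩
    have h := congrArg (fun φ : DirichletCharacter ℂ N => φ u)
      (DirichletCharacter.changeLevel_primitiveCharacter (χ := χ⁻¹))
    simp only [DirichletCharacter.changeLevel_eq_cast_of_dvd, MulChar.inv_apply_eq_inv'] at h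
    rw [ZMod.castHom_apply, h, mul_inv_cancel₀]
    exact (IsUnit.map χ u.isUnit).ne_zero
  have hψodd : ψ.Odd := by
    have h := hval (-1) isUnit_one.neg
    rw [hodd, map_neg, map_one] at h
    show ψ (-1) = -1
    linear_combination -h
  have hψ'odd : DirichletCharacter.Odd (ψ.ringHomComp σ) := by
    show σ (ψ (-1)) = -1
    rw [hψodd, map_neg, map_one]
  have hprim : ψ.IsPrimitive := DirichletCharacter.primitiveCharacter_isPrimitive _
  obtain ⟨F, hF⟩ := exists_isEis hprim hψodd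
  obtain ⟨F', hF'⟩ := exists_isEis (isPrimitive_ringHomComp hprim σ) hψ'odd
  have hone : ∀ φ : DirichletCharacter ℂ (χ⁻¹).conductor, (eisSeries φ).coeff 1 = 1 := fun φ => by
    simp [eisSeries]
  have hcast : ∀ γ : SL(2, ℤ), ((γ.1 1 1 : ℤ) : ZMod (χ⁻¹).conductor) =
      ZMod.castHom hdvd _ ((γ.1 1 1 : ℤ) : ZMod N) := fun γ => (map_intCast _ _).symm
  refine ⟨F, F', ⟨hF.holo, fun γ hγ => ?_, hF.bdd, by rw [hF.qx_eq, hone]⟩,
    ⟨hF'.holo, fun γ hγ => ?_, hF'.bdd, by rw [hF'.qx_eq, hone]⟩,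
    by rw [hF.qx_eq, hF'.qx_eq, eisSeries_map], fun n hn => ?_⟩
  · rw [hF.inv γ (Gamma0_le_of_dvd hdvd hγ), smul_smul, hcast, hval _ (isUnit_cls hγ), one_smul]
  · rw [hF'.inv γ (Gamma0_le_of_dvd hdvd hγ), smul_smul, hcast, MulChar.ringHomComp_apply,
      MulChar.ringHomComp_apply, ← map_mul, hval _ (isUnit_cls hγ), map_one, one_smul]
  · rw [hF.qx_eq, eisSeries, PowerSeries.coeff_mk, if_neg hn]
    refine Subalgebra.sum_mem _ fun d _ => ?_
    by_cases hd : IsUnit (d : ZMod (χ⁻¹).conductor)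
    · obtain ⟨u, hu⟩ := ZMod.unitsMap_surjective hdvd hd.unit
      have hu' : ZMod.castHom hdvd _ (u : ZMod N) = (d : ZMod (χ⁻¹).conductor) := by
        have := congrArg Units.val hu
        simpa [ZMod.unitsMap_def] using this
      refine Algebra.subset_adjoin ?_
      show ψ _ ^ N.totient = 1
      rw [← hu', ← map_pow, ← map_pow, ← Units.val_pow_eq_pow_val, ZMod.pow_totient,
        Units.val_one, map_one, map_one]
    · rw [MulChar.map_nonunit _ hd]
      exact Subalgebra.zero_mem _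

variable {F : ℍ → ℂ}

theorem IsAux.slash_T (hF : IsAux χ F) : F ∣[(1 : ℤ)] ModularGroup.T = F := by
  have h := hF.inv _ (ModFun.T_mem_Gamma0 N)
  have h1 : ((ModularGroup.T.1 1 1 : ℤ) : ZMod N) = 1 := by simp [ModularGroup.T]
  rwa [h1, map_one, one_smul] at h

theorem IsAux.good (hF : IsAux χ F) : Good F where
  per := periodic_of_slash_T hF.slash_T
  holo := hF.holo
  bdd := by
    have h := hF.bdd 1
    simp only [SlashAction.slash_one] at h
    exact h

theorem IsAux.ne_zero (hF : IsAux χ F) : F ≠ 0 :=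
  Good.ne_zero_of_coeff (n := 1) (by rw [hF.one]; exact one_ne_zero)

/-- the product is a form of weight two for `Γ₀(N)` -/
theorem IsW1.mul_aux (hf : IsW1 N χ f) (hF : IsAux χ F) : IsCF N 2 (f * F) where
  holo := hf.holo.mul hF.holo
  inv γ hγ := by
    rw [show (2 : ℤ) = 1 + 1 from rfl, mul_slash_SL2, hf.inv γ hγ]
    conv_rhs => rw [← hF.inv γ hγ]
    rw [smul_mul_assoc, mul_smul_comm]
  zero γ := by
    rw [show (2 : ℤ) = 1 + 1 from rfl, mul_slash_SL2]
    exact Filter.ZeroAtFilter.mul_boundedAtFilter (hf.zero γ) (hF.bdd γ)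

theorem chi_pow_totient (χ : DirichletCharacter ℂ N) {u : ZMod N} (hu : IsUnit u) :
    χ u ^ N.totient = 1 := by
  obtain ⟨u, rfl⟩ := hu
  rw [← map_pow, ← Units.val_pow_eq_pow_val, ZMod.pow_totient, Units.val_one, map_one]

/-- a power of the form lives on `Γ₀(N)` -/
theorem IsW1.pow_totient (hf : IsW1 N χ f) : IsCF N (N.totient : ℤ) (f ^ N.totient) where
  holo := (hf.good.pow _).holo
  inv γ hγ := by
    have h := ModFun.pow_slash f 1 N.totient γ
    rw [mul_one] at h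
    rw [h, hf.inv γ hγ, smul_pow, chi_pow_totient χ (isUnit_cls hγ), one_smul]
  zero γ := by
    have h := ModFun.pow_slash f 1 N.totient γ
    rw [mul_one] at h
    rw [h]
    have h2 := (hf.zero γ).pow N.totient
    rw [zero_pow (Nat.totient_pos.2 (NeZero.pos N)).ne'] at h2
    exact h2

theorem exists_conj_form (hf : IsW1 N χ f) (σ : ℂ →+* ℂ) :
    ∃ g, IsW1 N (χ.ringHomComp σ) g ∧ qx g = (qx f).map σ := by
  rcases eq_or_ne f 0 with rfl | hf0
  · refine ⟨0, ⟨mdifferentiable_const, fun γ _ => ?_, fun γ => ?_⟩, ?_⟩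
    · rw [SlashAction.zero_slash, smul_zero]
    · rw [SlashAction.zero_slash]; exact Filter.zero_zeroAtFilter _
    · simp [qx, qExpansion_zero]
  set M := N.totient with hM
  have hM0 : M ≠ 0 := (Nat.totient_pos.2 (NeZero.pos N)).ne'
  obtain ⟨F, F', hF, hF', hFq, -⟩ := exists_aux (hf.odd hf0) σ
  obtain ⟨R, hR, hRq⟩ := ModFun.cusp_twist (hf.mul_aux hF) σ
  obtain ⟨P, hP, hPq⟩ := ModFun.cusp_twist hf.pow_totient σ
  have hRg := hR.isMF.good
  have hPg := hP.isMF.good
  have hRP : R ^ M = P * F' ^ M := by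
    refine Good.qx_inj (hRg.pow M) (hPg.mul (hF'.good.pow M)) ?_
    rw [Good.qx_pow hRg, Good.qx_mul hPg (hF'.good.pow M), Good.qx_pow hF'.good, hRq, hPq, hFq,
      Good.qx_mul hf.good hF.good, Good.qx_pow hf.good, map_mul, map_pow, mul_pow]
  obtain ⟨h, hh, hhF⟩ := ModFun.exists_quot hR.holo hF'.holo hF'.ne_zero
    (B := fun τ => ‖P τ‖ + 1) (hP.holo.continuous.norm.add continuous_const) fun τ hτ => by
      have e : (R τ / F' τ) ^ M = P τ := by
        have := congrFun hRP τ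
        simp only [Pi.pow_apply, Pi.mul_apply] at this
        rw [div_pow, this, mul_div_assoc, div_self (pow_ne_zero _ hτ), mul_one]
      rw [← e, norm_pow]
      rcases le_or_gt ‖R τ / F' τ‖ 1 with h1 | h1
      · exact h1.trans (le_add_of_nonneg_left (by positivity))
      · exact (le_self_pow₀ h1.le hM0).trans (le_add_of_nonneg_right zero_le_one)
  have hFM : F' ^ M ≠ 0 := ModFun.pow_ne_zero' hF'.holo hF'.ne_zero M
  have hhM : h ^ M = P := by
    have hhp : MDiff (h ^ M) := by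
      have h1 := hh.pow M
      simpa [Pi.pow_def] using h1
    refine mdiff_mul_right_cancel hhp hP.holo (hF'.good.pow M).holo hFM ?_
    rw [← mul_pow, hhF, hRP]
  have hslash : ∀ γ : SL(2, ℤ), (h ∣[(1 : ℤ)] γ) ^ M = P ∣[(M : ℤ)] γ := fun γ => by
    rw [← ModFun.pow_slash, mul_one, hhM]
  have hinv : ∀ γ : SL(2, ℤ), γ ∈ Gamma0 N →
      h ∣[(1 : ℤ)] γ = (χ.ringHomComp σ) ((γ.1 1 1 : ℤ) : ZMod N) • h := by
    intro γ hγ
    set c := (χ.ringHomComp σ) ((γ.1 1 1 : ℤ) : ZMod N)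
    refine mdiff_mul_right_cancel (ModFun.mdiff_slash hh 1 γ) (hh.const_smul c)
      (ModFun.mdiff_slash hF'.holo 1 γ) ?_ ?_
    · intro h0
      apply hF'.ne_zero
      have := congrArg (fun u => u ∣[(1 : ℤ)] γ⁻¹) h0
      simpa [← SlashAction.slash_mul, SlashAction.zero_slash] using this
    · rw [← mul_slash_SL2, hhF, show (1 : ℤ) + 1 = 2 from rfl, hR.inv γ hγ, smul_mul_assoc, ← mul_smul_comm, hF'.inv γ hγ, hhF]
  have hper : h ∣[(1 : ℤ)] ModularGroup.T = h := by
    have h1 := hinv _ (ModFun.T_mem_Gamma0 N)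
    have h2 : ((ModularGroup.T.1 1 1 : ℤ) : ZMod N) = 1 := by simp [ModularGroup.T]
    rwa [h2, map_one, one_smul] at h1
  have hzero : ∀ γ : SL(2, ℤ), IsZeroAtImInfty (h ∣[(1 : ℤ)] γ) := by
    intro γ
    have h1 : IsZeroAtImInfty (P ∣[(M : ℤ)] γ) := hP.zero γ
    rw [← hslash γ] at h1
    simp only [IsZeroAtImInfty, Filter.ZeroAtFilter] at h1 ⊢
    rw [Metric.tendsto_nhds] at h1 ⊢
    intro ε hε
    filter_upwards [h1 (ε ^ M) (by positivity)] with τ hτ
    simp only [dist_zero_right, Pi.pow_apply, norm_pow] at hτ ⊢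
    exact lt_of_pow_lt_pow_left₀ M hε.le hτ
  have hg : IsW1 N (χ.ringHomComp σ) h := ⟨hh, hinv, hzero⟩
  refine ⟨h, hg, mul_right_cancel₀ (b := qx F') ?_ ?_⟩
  · intro h0
    have := hF'.one
    rw [h0, map_zero] at this
    exact zero_ne_one this
  · rw [← Good.qx_mul hg.good hF'.good, hhF, hRq, Good.qx_mul hf.good hF.good, map_mul, hFq]

end FLTAgent.DS
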