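import Fermat.Agent.DS.Weight1Eisenstein
import Fermat.Agent.DS.JacDefs
import Fermat.Agent.DS.Weight1Twist
import Fermat.Agent.DS.AssemblyLemmas

/-!
Area DS, parcel DS2: the congruent form of weight two.
-/

set_option autoImplicit false
set_option linter.unusedSectionVars false

noncomputable section

open UpperHalfPlane CongruenceSubgroup ModularForm
open scoped MatrixGroups Manifold ModularForm
open FLTAgent.Chebotarev (QBar)
open IsLocalRing (ResidueField residue)

namespace FLTAgent.DS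

open ModFun (qx Good)

variable {N : ℕ} [NeZero N] {χ : DirichletCharacter ℂ N} {g : ℍ → ℂ}

/-- algebraic integers lie in every valuation ring -/
def intToA (A : ValuationSubring QBar) : integralClosure ℤ QBar →+* A where
  toFun r := ⟨(r : QBar), FLTAgent.Chebotarev.coe_mem_valuationSubring r.2⟩
  map_one' := rfl
  map_mul' _ _ := rfl
  map_zero' := rfl
  map_add' _ _ := rfl

theorem residue_intToA (A : ValuationSubring QBar) (r : integralClosure ℤ QBar) :
    residue A (intToA A r) = redQ A r := rfl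

/-- the embedding in `ℂ` -/
def embA (A : ValuationSubring QBar) : A →+* ℂ := Genus.embC.comp A.subtype

theorem embA_injective (A : ValuationSubring QBar) : Function.Injective (embA A) :=
  Genus.embC.injective.comp Subtype.val_injective

/-- the inverse of the character `u ↦ u` of `(ℤ/ℓ)ˣ` lifts to `A` -/
theorem exists_teich {ℓ : ℕ} [Fact ℓ.Prime] (A : ValuationSubring QBar)
    [CharP (ResidueField A) ℓ] :
    ∃ φ : (ZMod ℓ)ˣ →* Aˣ, ∀ u, residue A (φ u : A) *
      ZMod.castHom (dvd_refl ℓ) (ResidueField A) (u : ZMod ℓ) = 1 := by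
  classical
  have hℓ : ℓ.Prime := Fact.out
  obtain ⟨g, hg⟩ := IsCyclic.exists_generator (α := (ZMod ℓ)ˣ)
  set κ := ZMod.castHom (dvd_refl ℓ) (ResidueField A)
  have hm : 0 < ℓ - 1 := Nat.sub_pos_of_lt hℓ.one_lt
  have ht : κ ((g⁻¹ : (ZMod ℓ)ˣ) : ZMod ℓ) ^ (ℓ - 1) = 1 := by
    rw [← map_pow, ← Units.val_pow_eq_pow_val, ← ZMod.card_units ℓ, pow_card_eq_one, Units.val_one,
      map_one]
  obtain ⟨z, hz, hzr⟩ := exists_root_of_unity A hm ht
  let w : Aˣ := Units.ofPowEqOne (intToA A z) (ℓ - 1) (by rw [← map_pow, hz, map_one]) hm.ne'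
  have hord : orderOf w ∣ orderOf g := by
    rw [orderOf_eq_card_of_forall_mem_zpowers hg, Nat.card_eq_fintype_card, ZMod.card_units]
    exact orderOf_dvd_of_pow_eq_one (Units.pow_ofPowEqOne _ _)
  refine ⟨monoidHomOfForallMemZpowers hg hord, fun u => ?_⟩
  obtain ⟨n, rfl⟩ := (mem_powers_iff_mem_zpowers.2 (hg u) : u ∈ Submonoid.powers g)
  rw [map_pow, monoidHomOfForallMemZpowers_apply_gen, Units.val_pow_eq_pow_val,
    Units.val_pow_eq_pow_val, map_pow, map_pow, ← mul_pow,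
    show residue A (w : A) = κ ((g⁻¹ : (ZMod ℓ)ˣ) : ZMod ℓ) from hzr, ← map_mul,
    Units.inv_mul, map_one, one_pow]

/-- a character with values in roots of unity takes its values in `A` -/
theorem exists_lift_char (A : ValuationSubring QBar) (χ : DirichletCharacter ℂ N) :
    ∃ φ : (ZMod N)ˣ →* A, ∀ u, embA A (φ u) = χ (u : ZMod N) := by
  have h : ∀ u : (ZMod N)ˣ, ∃ z : A, embA A z = χ (u : ZMod N) := by
    intro u
    have hpos : 0 < N.totient := Nat.totient_pos.2 (NeZero.pos N)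
    have h1 : IsIntegral ℤ (χ (u : ZMod N)) :=
      ⟨Polynomial.X ^ N.totient - Polynomial.C 1, Polynomial.monic_X_pow_sub_C 1 hpos.ne',
        by simp [chi_pow_totient χ u.isUnit]⟩
    obtain ⟨z, hz⟩ : χ (u : ZMod N) ∈ Set.range Genus.embC := by
      refine Polynomial.Splits.mem_range_of_isRoot (i := Genus.embC)
        (f := (Polynomial.X : Polynomial QBar) ^ N.totient - Polynomial.C 1)
        (IsAlgClosed.splits _) (Polynomial.X_pow_sub_C_ne_zero hpos 1) ?_
      simp [Polynomial.IsRoot.def, chi_pow_totient χ u.isUnit]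
    have h2 : IsIntegral ℤ z :=
      (isIntegral_algHom_iff Genus.embC.toIntAlgHom Genus.embC.injective).1 (show IsIntegral ℤ (Genus.embC z) by rw [hz]; exact h1)
    exact ⟨⟨z, FLTAgent.Chebotarev.coe_mem_valuationSubring h2⟩, hz⟩
  choose φ hφ using h
  exact ⟨{
    toFun := φ
    map_one' := embA_injective A (by rw [hφ, map_one, Units.val_one, map_one])
    map_mul' := fun u v => embA_injective A (by rw [hφ, map_mul, hφ, hφ, Units.val_mul, map_mul]) },
    hφ⟩

theorem nonempty_weight2Input (D : EigenInput N) (hg : IsW1 N χ g)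
    (h : IsEigen N χ (fun n => (qx g).coeff n))
    (hD : ∀ p : ℕ, p.Prime → ¬ p ∣ N → Genus.embC (D.a p : QBar) = (qx g).coeff p ∧
      Genus.embC (D.e p : QBar) = χ (p : ZMod N))
    {m : ℕ} (hm : m ≠ 0) (c : ℕ → integralClosure ℤ QBar)
    (hc : ∀ n, Genus.embC (c n : QBar) = (m : ℂ) * (qx g).coeff n)
    {ℓ : ℕ} (hℓ : ℓ.Prime) (hℓm : ¬ ℓ ∣ m) (hℓN : ¬ ℓ ∣ N) (hℓ2 : ℓ ≠ 2)
    (A : ValuationSubring QBar) (hA : A.LiesOverPrime ℓ) :
    Nonempty (Weight2Input D ℓ A) := by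
  classical
  haveI : Fact ℓ.Prime := ⟨hℓ⟩
  haveI : NeZero ℓ := ⟨hℓ.ne_zero⟩
  haveI := FLTAgent.Chebotarev.charP_residue hℓ hA
  set κ := ZMod.castHom (dvd_refl ℓ) (ResidueField A)
  obtain ⟨φ, hφ⟩ := exists_teich (ℓ := ℓ) A
  obtain ⟨θ, hθ⟩ := exists_lift_char (N := N) A χ
  -- the weight one character mod `ℓ`
  set ψA : MulChar (ZMod ℓ) A := MulChar.ofUnitHom φ
  set ψ : DirichletCharacter ℂ ℓ := ψA.ringHomComp (embA A)
  have hψu : ∀ u : (ZMod ℓ)ˣ, ψA (u : ZMod ℓ) = (φ u : A) := fun u => MulChar.ofUnitHom_coe φ u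
  have hne1 : (-1 : ResidueField A) ≠ 1 := by
    intro e
    have h2 : ((2 : ℕ) : ResidueField A) = 0 := by push_cast; linear_combination -e
    rw [CharP.cast_eq_zero_iff _ ℓ] at h2
    exact hℓ2 ((Nat.prime_dvd_prime_iff_eq hℓ Nat.prime_two).1 h2)
  have hψneg : ψA (-1) = -1 := by
    have h1 : (φ (-1) : A) * (φ (-1) : A) = 1 := by
      rw [← Units.val_mul, ← map_mul, neg_one_mul, neg_neg, map_one, Units.val_one]
    rcases mul_self_eq_one_iff.1 h1 with e | e
    · exfalso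
      have h2 := hφ (-1)
      rw [e, map_one, one_mul, Units.val_neg, Units.val_one, map_neg, map_one] at h2
      exact hne1 h2
    · have := hψu (-1)
      rw [Units.val_neg, Units.val_one] at this
      rw [this, e]
  have hodd : ψ.Odd := by
    show embA A (ψA (-1)) = -1
    rw [hψneg, map_neg, map_one]
  have hprim : ψ.IsPrimitive := by
    rw [DirichletCharacter.isPrimitive_def]
    rcases (Nat.dvd_prime hℓ).1 (DirichletCharacter.conductor_dvd_level ψ) with e | e
    · exfalso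
      have h1 := DirichletCharacter.factorsThrough_conductor ψ
      rw [e, DirichletCharacter.factorsThrough_one_iff] at h1
      have h2 : ψ (-1) = -1 := hodd
      rw [h1, MulChar.one_apply isUnit_one.neg] at h2
      norm_num at h2
    · exact e
  obtain ⟨E, hE⟩ := exists_isEis hprim hodd
  -- the constant term
  set w : A := ∑ k : ZMod ℓ, (k.val : A) * ψA k
  have hw : residue A w = -1 := by
    have h1 : ∀ k : ZMod ℓ, residue A ((k.val : A) * ψA k) = if k = 0 then 0 else 1 := by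
      intro k
      split_ifs with hk
      · subst hk; simp
      · obtain ⟨u, rfl⟩ := Ne.isUnit hk
        rw [map_mul, hψu, map_natCast, mul_comm]
        have h2 := hφ u
        rwa [show (((u : ZMod ℓ)).val : ResidueField A) = κ (u : ZMod ℓ) by
          rw [← map_natCast κ, ZMod.natCast_zmod_val]]
    rw [map_sum, Finset.sum_congr rfl fun k _ => h1 k, Finset.sum_ite, Finset.sum_const_zero,
      zero_add, Finset.sum_const, nsmul_eq_mul, mul_one, Finset.filter_ne',
      Finset.card_erase_of_mem (Finset.mem_univ _), Finset.card_univ, ZMod.card,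
      Nat.cast_sub hℓ.one_lt.le, CharP.cast_eq_zero, Nat.cast_one, zero_sub]
  have hwu : IsUnit w := by
    rw [← IsLocalRing.residue_ne_zero_iff_isUnit, hw]
    exact neg_ne_zero.2 one_ne_zero
  obtain ⟨wu, hwu⟩ := hwu
  have hmu : IsUnit (m : A) := by
    rw [← IsLocalRing.residue_ne_zero_iff_isUnit, map_natCast, Ne, CharP.cast_eq_zero_iff _ ℓ]
    exact hℓm
  obtain ⟨mu, hmu⟩ := hmu
  set cA : ℕ → A := fun n => intToA A (c n) * ((mu⁻¹ : Aˣ) : A)
  have hmuC : embA A ((mu⁻¹ : Aˣ) : A) * (m : ℂ) = 1 := by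
    rw [← map_natCast (embA A), ← map_mul, ← hmu, Units.inv_mul, map_one]
  have hcA : ∀ n, embA A (cA n) = (qx g).coeff n := by
    intro n
    simp only [cA, map_mul]
    show Genus.embC (c n : QBar) * _ = _
    rw [hc n]
    linear_combination (qx g).coeff n * hmuC
  set iv : A := -(2 * (ℓ : A)) * ((wu⁻¹ : Aˣ) : A)
  have hiv : residue A iv = 0 := by
    simp only [iv, map_mul, map_neg, map_natCast, CharP.cast_eq_zero, mul_zero, neg_zero, zero_mul]
  set sA : ℕ → A := fun j => ∑ d ∈ j.divisors, ψA (d : ZMod ℓ)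
  have hsA : ∀ j, j ≠ 0 → embA A (sA j) = (eisSeries ψ).coeff j := fun j hj => by
    simp [sA, eisSeries, hj, ψ]
  have hwC : embA A w = ∑ k : ZMod ℓ, (k.val : ℂ) * ψ k := by
    simp [w, ψ, -ZMod.natCast_val]
  have hw0 : embA A w ≠ 0 := by
    rw [← hwu]; exact (wu.isUnit.map (embA A)).ne_zero
  have hc0ne : eisC0 ψ ≠ 0 := by
    rw [eisC0, ← hwC]
    exact div_ne_zero (neg_ne_zero.2 hw0) (mul_ne_zero two_ne_zero (Nat.cast_ne_zero.2 hℓ.ne_zero))
  have hivC : embA A iv = (eisC0 ψ)⁻¹ := by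
    have e : embA A ((wu⁻¹ : Aˣ) : A) = (embA A w)⁻¹ := by
      refine eq_inv_of_mul_eq_one_left ?_
      rw [← map_mul, ← hwu, Units.inv_mul, map_one]
    simp only [iv, map_mul, map_neg, map_natCast, map_ofNat, e]
    rw [eisC0, ← hwC, inv_div]
    field_simp
  set b : ℕ → A := fun n => cA n + ∑ i ∈ Finset.range n, cA i * (iv * sA (n - i))
  have hb : ∀ n, residue A (b n) = residue A (cA n) := fun n => by
    simp [b, hiv]
  -- the form
  set G : ℍ → ℂ := (eisC0 ψ)⁻¹ • (g * E)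
  have hEgood : Good E := ⟨periodic_of_slash_T (k := 1) (by
    rw [hE.inv _ (ModFun.T_mem_Gamma0 ℓ)]; simp [ModularGroup.T]), hE.holo, by
    have h1 := hE.bdd 1
    simp only [SlashAction.slash_one] at h1
    exact h1⟩
  haveI : NeZero (N * ℓ) := ⟨mul_ne_zero (NeZero.ne N) hℓ.ne_zero⟩
  have hdN : N ∣ N * ℓ := dvd_mul_right _ _
  have hdℓ : ℓ ∣ N * ℓ := dvd_mul_left _ _
  set χA : (ZMod (N * ℓ))ˣ →* A :=
    (θ.comp (ZMod.unitsMap hdN)) * ((Units.coeHom A).comp (φ.comp (ZMod.unitsMap hdℓ)))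
  have hslash : ∀ γ : Gamma0 (N * ℓ), G ∣[(2 : ℤ)] (γ : SL(2, ℤ)) =
      embA A (χA (dHom (N * ℓ) γ)) • G := by
    rintro ⟨γ, hγ⟩
    have hγN : γ ∈ Gamma0 N := Gamma0_le_of_dvd hdN hγ
    have hγℓ : γ ∈ Gamma0 ℓ := Gamma0_le_of_dvd hdℓ hγ
    have e1 : χ ((γ.1 1 1 : ℤ) : ZMod N) =
        embA A (θ (ZMod.unitsMap hdN (dHom (N * ℓ) ⟨γ, hγ⟩))) := by
      rw [hθ]
      congr 1
      simp [ZMod.unitsMap_def, coe_dHom]
    have e2 : ψ ((γ.1 1 1 : ℤ) : ZMod ℓ) =
        embA A (φ (ZMod.unitsMap hdℓ (dHom (N * ℓ) ⟨γ, hγ⟩)) : A) := by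
      rw [← hψu]
      show embA A _ = embA A _
      congr 2
      simp [ZMod.unitsMap_def, coe_dHom]
    show G ∣[(2 : ℤ)] γ = _
    rw [SL_smul_slash, show (2 : ℤ) = 1 + 1 from rfl, mul_slash_SL2, hg.inv γ hγN, hE.inv γ hγℓ,
      smul_mul_assoc, mul_smul_comm, e1, e2]
    show _ = embA A (θ (ZMod.unitsMap hdN (dHom (N * ℓ) ⟨γ, hγ⟩)) *
      (φ (ZMod.unitsMap hdℓ (dHom (N * ℓ) ⟨γ, hγ⟩)) : A)) • ((eisC0 ψ)⁻¹ • (g * E))
    rw [map_mul, smul_smul, smul_smul, smul_smul]
    congr 1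
    ring
  have hGzero : ∀ γ : SL(2, ℤ), IsZeroAtImInfty (G ∣[(2 : ℤ)] γ) := fun γ => by
    rw [SL_smul_slash, show (2 : ℤ) = 1 + 1 from rfl, mul_slash_SL2]
    exact ((hg.zero γ).mul_boundedAtFilter (hE.bdd γ)).smul _
  have hneg1 : χA (-1) = 1 := by
    have h1 : θ (-1) = -1 := embA_injective A (by
      rw [hθ, map_neg, map_one, Units.val_neg, Units.val_one]
      exact hg.odd (IsW1.ne_zero_of_eigen h))
    have h2 : (φ (-1) : A) = -1 := by
      rw [← hψu, Units.val_neg, Units.val_one, hψneg]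
    have h3 : ∀ {d : ℕ} (hd : d ∣ N * ℓ), ZMod.unitsMap hd (-1) = -1 := fun {d} hd =>
      Units.ext (by simp [ZMod.unitsMap_def])
    show θ (ZMod.unitsMap hdN (-1)) * (φ (ZMod.unitsMap hdℓ (-1)) : A) = 1
    rw [h3, h3, h1, h2, neg_one_mul, neg_neg]
  have htriv : ∀ d ∈ Subgroup.zpowers (-1 : (ZMod (N * ℓ))ˣ), χA d = 1 := by
    intro d hd
    obtain ⟨k, rfl⟩ := Subgroup.mem_zpowers_iff.1 hd
    rcases Int.even_or_odd k with hk | hk
    · rw [Even.neg_one_zpow hk, map_one]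
    · rw [Odd.neg_one_zpow hk, hneg1]
  have hMFH : IsMFH (N * ℓ) (Subgroup.zpowers (-1 : (ZMod (N * ℓ))ˣ)) 2 G := by
    refine ⟨(hg.holo.mul hE.holo).const_smul _, fun γ hγ => ?_, fun γ => (hGzero γ).boundedAtFilter⟩
    obtain ⟨h0, hd⟩ := mem_grpH.1 hγ
    rw [hslash ⟨γ, h0⟩, htriv _ hd, map_one, one_smul]
  have hcusp : IsCuspH (N * ℓ) (Subgroup.zpowers (-1 : (ZMod (N * ℓ))ˣ))
      (((Genus.embC.comp A.subtype : A →+* ℂ) : A →* ℂ).comp χA) G :=
    ⟨hMFH, hGzero, hslash⟩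
  have hbspec : ∀ n, Genus.embC (b n : QBar) = (qx G).coeff n := by
    intro n
    show embA A (b n) = _
    rw [Good.qx_smul _ (hg.good.mul hEgood), PowerSeries.coeff_smul, Good.qx_mul hg.good hEgood,
      PowerSeries.coeff_mul, Finset.Nat.sum_antidiagonal_eq_sum_range_succ_mk, smul_eq_mul,
      Finset.sum_range_succ, Nat.sub_self, mul_add, Finset.mul_sum, hE.qx_eq]
    have h0 : (eisSeries ψ).coeff 0 = eisC0 ψ := by simp [eisSeries]
    simp only [b, map_add, map_sum, map_mul, hcA, hivC, h0]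
    rw [add_comm]
    congr 1
    · refine Finset.sum_congr rfl fun i hi => ?_
      rw [hsA _ (Nat.sub_ne_zero_of_lt (Finset.mem_range.1 hi))]
      ring
    · field_simp
  have hDa : ∀ p : ℕ, p.Prime → ¬ p ∣ N → cA p = intToA A (D.a p) ∧
      ∀ n, cA (p * n) + intToA A (D.e p) * (if p ∣ n then cA (n / p) else 0) = cA p * cA n := by
    intro p hp hpN
    refine ⟨embA_injective A ?_, fun n => embA_injective A ?_⟩
    · rw [hcA]; exact (hD p hp hpN).1.symm
    · rw [map_add, map_mul (embA A) (intToA A (D.e p)), map_mul (embA A) (cA p) (cA n),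
        apply_ite (embA A), map_zero, hcA, hcA, hcA, hcA]
      show _ + Genus.embC (D.e p : QBar) * _ = _
      rw [(hD p hp hpN).2]
      exact h.hecke p hp hpN n
  refine ⟨⟨N * ℓ, rfl, Subgroup.zpowers (-1), Subgroup.mem_zpowers _, χA, htriv, G, hcusp, b,
    hbspec, ?_, fun p hp hpM => ?_, fun p hp hpM => ?_⟩⟩
  · have h1 : cA 1 = 1 := embA_injective A (by rw [hcA, map_one]; exact h.one)
    rw [hb, h1, map_one]
  · have hpN : ¬ p ∣ N := fun e => hpM (e.trans hdN)
    obtain ⟨h1, h2⟩ := hDa p hp hpN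
    refine ⟨by rw [hb, h1, residue_intToA], fun n => ?_⟩
    have h3 := congrArg (residue A) (h2 n)
    rw [map_add, map_mul (residue A) (intToA A (D.e p)), map_mul (residue A) (cA p) (cA n),
      apply_ite (residue A), map_zero, residue_intToA] at h3
    simpa only [hb] using h3
  · have hpN : ¬ p ∣ N := fun e => hpM (e.trans hdN)
    set u := ZMod.unitOfCoprime p ((Nat.Prime.coprime_iff_not_dvd hp).2 hpM)
    have h1 : θ (ZMod.unitsMap hdN u) = intToA A (D.e p) := embA_injective A (by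
      rw [hθ, show embA A (intToA A (D.e p)) = Genus.embC (D.e p : QBar) from rfl, (hD p hp hpN).2]
      congr 1
      simp [ZMod.unitsMap_def, u])
    have h2 := hφ (ZMod.unitsMap hdℓ u)
    have h3 : ((ZMod.unitsMap hdℓ u : (ZMod ℓ)ˣ) : ZMod ℓ) = (p : ZMod ℓ) := by
      simp [ZMod.unitsMap_def, u]
    rw [h3, map_natCast] at h2
    show (p : ResidueField A) * residue A (θ (ZMod.unitsMap hdN u) * (φ (ZMod.unitsMap hdℓ u) : A)) = _
    rw [map_mul, h1, residue_intToA]
    linear_combination redQ A (D.e p) * h2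

end FLTAgent.DS
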