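import Fermat.Agent.DS.Weight1Defs
import Fermat.Agent.ModFun.Dilate
import Fermat.Prelude.Def_ModularForm_HeckeOperator

/-!
Area DS, parcel DS1: expansions of dilated functions.
-/

set_option autoImplicit false
set_option linter.unusedSectionVars false

noncomputable section

open UpperHalfPlane CongruenceSubgroup ModularForm Filter
open scoped MatrixGroups Manifold Topology ModularForm

namespace FLTAgent.DS

open ModFun (Good qx dil scale)

theorem qParam_scale_one (m : ℕ) [NeZero m] (τ : ℍ) :
    Function.Periodic.qParam 1 (scale m τ : ℂ) = Function.Periodic.qParam 1 (τ : ℂ) ^ m := by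
  simp only [Function.Periodic.qParam, ModFun.coe_scale, ← Complex.exp_nat_mul]
  congr 1
  push_cast
  ring

theorem dil_good (m : ℕ) [NeZero m] {f : ℍ → ℂ} (hf : Good f) : Good (dil m f) := by
  have hmdiff : MDiff (dil m f) := by
    have h := (UpperHalfPlane.mdifferentiable_iff).1 hf.holo
    rw [UpperHalfPlane.mdifferentiable_iff]
    intro z hz
    have hz' : 0 < z.im := hz
    have him : 0 < ((m : ℂ) * z).im := by
      simp only [Complex.mul_im, Complex.natCast_re, Complex.natCast_im, zero_mul, add_zero]
      exact mul_pos (by exact_mod_cast NeZero.pos m) hz'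
    refine (((h _ him).differentiableAt (isOpen_upperHalfPlaneSet.mem_nhds him)).comp z
      (differentiableAt_id.const_mul (m : ℂ))).congr_of_eventuallyEq ?_ |>.differentiableWithinAt
    filter_upwards [isOpen_upperHalfPlaneSet.mem_nhds hz] with w hw
    have hw' : 0 < w.im := hw
    simp only [Function.comp_apply, id, dil]
    rw [ofComplex_apply_of_im_pos hw']
    refine congrArg f (UpperHalfPlane.ext ?_)
    rw [ModFun.coe_scale, ofComplex_apply_of_im_pos (by
      simp only [Complex.mul_im, Complex.natCast_re, Complex.natCast_im, zero_mul, add_zero]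
      exact mul_pos (by exact_mod_cast NeZero.pos m) hw')]
  have hper : ∀ (k : ℕ) (z : ℂ), (f ∘ ofComplex) (z + k) = (f ∘ ofComplex) z := fun k z => by
    simpa using (hf.per.nsmul k) z
  refine ⟨ModFun.periodic_ofComplex_of fun z hz hz' => ?_, hmdiff,
    hf.bdd.comp_tendsto (ModFun.tendsto_aff m 0 1)⟩
  have e := hper m (scale m (⟨z, hz⟩ : ℍ))
  simp only [Function.comp_apply, ofComplex_apply] at e
  simp only [dil]
  rw [← e]
  have : ((scale m (⟨z + 1, hz'⟩ : ℍ) : ℂ)) = (scale m (⟨z, hz⟩ : ℍ) : ℂ) + m := by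
    simp only [ModFun.coe_scale]
    show (m : ℂ) * (z + 1) = (m : ℂ) * z + m
    ring
  rw [← this, ofComplex_apply]

theorem qx_dil_coeff (m : ℕ) [NeZero m] {f : ℍ → ℂ} (hf : Good f) (n : ℕ) :
    (qx (dil m f)).coeff n = if m ∣ n then (qx f).coeff (n / m) else 0 := by
  refine (UpperHalfPlane.qExpansion_coeff_unique
    (ContinuousMap.mk (dil m f) (dil_good m hf).holo.continuous)
    (c := fun j => if m ∣ j then (qx f).coeff (j / m) else 0) one_pos (dil_good m hf).analytic
    (fun τ => ?_) n).symm
  have h := hasSum_qExpansion one_pos (by simpa using hf.per) hf.holo hf.bdd (scale m τ)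
  have hinj : Function.Injective (fun j : ℕ => m * j) := mul_right_injective₀ (NeZero.ne m)
  refine (hinj.hasSum_iff ?_).1 (h.congr_fun fun j => ?_)
  · intro j hj
    rw [if_neg, zero_smul]
    rintro ⟨i, rfl⟩
    exact hj ⟨i, rfl⟩
  · simp only [Function.comp_apply, dvd_mul_right, if_true, qParam_scale_one, ← pow_mul,
      Nat.mul_div_cancel_left _ (NeZero.pos m)]

theorem slash_heckeDiag_eq_dil {p : ℕ} [NeZero p] (f : ℍ → ℂ) :
    f ∣[(1 : ℤ)] heckeDiagMatrix p = dil p f := by
  funext τ
  rw [slash_heckeDiagMatrix_apply 1 (NeZero.ne p)]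
  simp only [sub_self, zpow_zero, one_mul, dil]
  exact congrArg f (UpperHalfPlane.ext (by
    rw [coe_heckeDiagMatrix_smul (NeZero.ne p), ModFun.coe_scale]))

end FLTAgent.DS
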