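import Fermat.Agent.DS.Weight1Dilate
import Fermat.Prelude.Thm_ModularForm_heckeT_slash_eq_self_of_mem_Gamma0
import Fermat.Prelude.Thm_UpperHalfPlane_qCoeff_heckeU
import Fermat.Prelude.Thm_ModularForm_mdifferentiable_heckeU
import Fermat.Prelude.Thm_ModularForm_periodic_heckeU_comp_ofComplex
import Fermat.Prelude.Thm_ModularForm_isBoundedAtImInfty_heckeU

/-!
Area DS, parcel DS1: the Hecke relations force the character.
-/

set_option autoImplicit false
set_option linter.unusedSectionVars false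
set_option linter.style.haveILetI false

noncomputable section

open UpperHalfPlane CongruenceSubgroup ModularForm Matrix.SpecialLinearGroup
open scoped MatrixGroups Manifold ModularForm OnePoint
open P2MW.S_ModularForm_heckeT_slash_eq_self_of_mem_Gamma0.ModularForm.HeckeSlashInvariance

namespace FLTAgent.DS

open ModFun (Good qx dil)

variable {N : ℕ}

/-- a matrix in `Γ₀(N)` from its four entries -/
def mkSL (a b c d : ℤ) (h : a * d - b * c = 1) : SL(2, ℤ) :=
  ⟨!![a, b; c, d], by rw [Matrix.det_fin_two_of]; exact h⟩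

theorem mkSL_mem_Gamma0 {a b c d : ℤ} (h : a * d - b * c = 1) (hc : (N : ℤ) ∣ c) :
    mkSL a b c d h ∈ Gamma0 N := by
  rw [Gamma0_mem, ZMod.intCast_zmod_eq_zero_iff_dvd]
  exact hc

theorem mem_Gamma1_iff' {γ : SL(2, ℤ)} :
    γ ∈ Gamma1 N ↔ γ ∈ Gamma0 N ∧ ((γ.1 1 1 : ℤ) : ZMod N) = 1 := by
  rw [Gamma1_mem, Gamma0_mem]
  refine ⟨fun h => ⟨h.2.2, h.2.1⟩, fun h => ⟨?_, h.2, h.1⟩⟩
  have hd := congrArg (Int.cast : ℤ → ZMod N)
    ((Matrix.det_fin_two (γ.1 : Matrix (Fin 2) (Fin 2) ℤ)).symm.trans γ.2)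
  push_cast at hd
  rw [h.1, h.2, mul_one, mul_zero, sub_zero] at hd
  exact hd

/-- the class of the lower right entry is multiplicative on `Γ₀(N)` -/
theorem cls_mul {γ δ : SL(2, ℤ)} (hγ : γ ∈ Gamma0 N) :
    (((γ * δ).1 1 1 : ℤ) : ZMod N) = ((γ.1 1 1 : ℤ) : ZMod N) * ((δ.1 1 1 : ℤ) : ZMod N) := by
  rw [Gamma0_mem] at hγ
  rw [Matrix.SpecialLinearGroup.coe_mul, Matrix.mul_apply, Fin.sum_univ_two]
  push_cast
  rw [hγ]
  ring

theorem cls_one : (((1 : SL(2, ℤ)).1 1 1 : ℤ) : ZMod N) = 1 := by simp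

theorem slash_eq_of_cls {f : ℍ → ℂ} (hf : IsLevel1 N f) {γ δ : SL(2, ℤ)} (hγ : γ ∈ Gamma0 N)
    (hδ : δ ∈ Gamma0 N) (h : ((γ.1 1 1 : ℤ) : ZMod N) = ((δ.1 1 1 : ℤ) : ZMod N)) :
    f ∣[(1 : ℤ)] γ = f ∣[(1 : ℤ)] δ := by
  have h1 : γ * δ⁻¹ ∈ Gamma1 N := by
    refine mem_Gamma1_iff'.2 ⟨mul_mem hγ (inv_mem hδ), ?_⟩
    rw [cls_mul hγ, h, ← cls_mul hδ, mul_inv_cancel, cls_one]
  conv_lhs => rw [← inv_mul_cancel_right γ δ, SlashAction.slash_mul, hf.inv _ h1]

theorem IsLevel1.slash {f : ℍ → ℂ} (hf : IsLevel1 N f) {σ : SL(2, ℤ)} (hσ : σ ∈ Gamma0 N) :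
    IsLevel1 N (f ∣[(1 : ℤ)] σ) where
  holo := ModFun.mdiff_slash hf.holo 1 σ
  inv γ hγ := by
    rw [← SlashAction.slash_mul]
    have h := mem_Gamma1_iff'.1 hγ
    exact slash_eq_of_cls hf (mul_mem hσ h.1) hσ (by rw [cls_mul hσ, h.2, mul_one])
  zero γ := by rw [← SlashAction.slash_mul]; exact hf.zero _

theorem IsLevel1.sub_smul {f g : ℍ → ℂ} (hf : IsLevel1 N f) (hg : IsLevel1 N g) (c : ℂ) :
    IsLevel1 N (f - c • g) where
  holo := hf.holo.sub (hg.holo.const_smul c)
  inv γ hγ := by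
    rw [sub_eq_add_neg, SlashAction.add_slash, SlashAction.neg_slash, SL_smul_slash,
      hf.inv γ hγ, hg.inv γ hγ]
  zero γ := by
    rw [sub_eq_add_neg, SlashAction.add_slash, SlashAction.neg_slash, SL_smul_slash]
    have h := Filter.Tendsto.sub (hf.zero γ) ((hg.zero γ).const_smul c)
    rw [smul_zero, sub_zero] at h
    exact h.congr fun τ => sub_eq_add_neg _ _

/-- coercion of a slash by an element of `SL(2, ℤ)` -/
theorem slash_SL_def (k : ℤ) (f : ℍ → ℂ) (γ : SL(2, ℤ)) : f ∣[k] γ = f ∣[k] mapGL ℝ γ := rfl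

variable {p : ℕ}

/-- no form of level `N` stays of level `N` after `τ ↦ pτ` -/
theorem eq_zero_of_dil_level [NeZero p] (hp : p.Prime) (hpN : ¬ p ∣ N) {u : ℍ → ℂ}
    (hu : IsLevel1 N u)
    (hA : ∀ γ : SL(2, ℤ), γ ∈ Gamma1 N → dil p u ∣[(1 : ℤ)] γ = dil p u) : u = 0 := by
  suffices hz : ∀ n (v : ℍ → ℂ), IsLevel1 N v →
      (∀ γ : SL(2, ℤ), γ ∈ Gamma1 N → dil p v ∣[(1 : ℤ)] γ = dil p v) →
      (qx v).coeff n = 0 by
    refine Good.qx_inj hu.good Good.zero (PowerSeries.ext fun n => ?_)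
    rw [hz n u hu hA]
    simp [qx, qExpansion_zero]
  intro n
  induction n using Nat.strong_induction_on with
  | _ n ih =>
    intro v hv hvA
    rcases Nat.eq_zero_or_pos n with rfl | hn
    · have h0 := hv.zero 1
      simp only [SlashAction.slash_one] at h0
      exact hv.good.isZero_iff.1 h0
    have hcop : Nat.Coprime p N := (Nat.Prime.coprime_iff_not_dvd hp).2 hpN
    -- the element of class `p`
    obtain ⟨a, b, hab⟩ : ∃ a b : ℤ, (p : ℤ) * a - b * N = 1 := by
      refine ⟨Nat.gcdA p N, -Nat.gcdB p N, ?_⟩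
      have h := Nat.gcd_eq_gcd_ab p N
      rw [Nat.Coprime.gcd_eq_one hcop] at h
      push_cast at h
      linear_combination -h
    obtain ⟨a', b', hab'⟩ : ∃ a b : ℤ, (p + N : ℤ) * a - b * (p * N) = 1 := by
      have h2 : Nat.Coprime (p + N) (p * N) :=
        Nat.Coprime.mul_right (Nat.coprime_self_add_left.2 hcop.symm)
          (Nat.coprime_add_self_left.2 hcop)
      refine ⟨Nat.gcdA (p + N) (p * N), -Nat.gcdB (p + N) (p * N), ?_⟩
      have h := Nat.gcd_eq_gcd_ab (p + N) (p * N)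
      rw [Nat.Coprime.gcd_eq_one h2] at h
      push_cast at h
      linear_combination -h
    let σ := mkSL a b N p (by linear_combination hab)
    let σ' := mkSL a' (p * b') N (p + N) (by linear_combination hab')
    let σ'' := mkSL a' b' (p * N) (p + N) (by linear_combination hab')
    let γ := mkSL 1 (-b) (-N) (p * a) (by linear_combination hab)
    have hσ : σ ∈ Gamma0 N := mkSL_mem_Gamma0 _ dvd_rfl
    have hσ' : σ' ∈ Gamma0 N := mkSL_mem_Gamma0 _ dvd_rfl
    have hσ'' : σ'' ∈ Gamma0 N := mkSL_mem_Gamma0 _ (dvd_mul_left _ _)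
    have hγ : γ ∈ Gamma1 N := by
      refine mem_Gamma1_iff'.2 ⟨mkSL_mem_Gamma0 _ (dvd_neg.2 dvd_rfl), ?_⟩
      have h := congrArg (Int.cast : ℤ → ZMod N) hab
      push_cast at h
      rw [ZMod.natCast_self, mul_zero, sub_zero] at h
      show (((p : ℤ) * a : ℤ) : ZMod N) = 1
      push_cast
      exact h
    set w := v ∣[(1 : ℤ)] σ with hw
    have hw' : w = v ∣[(1 : ℤ)] σ' := slash_eq_of_cls hv hσ hσ' (by
      show (((p : ℤ)) : ZMod N) = (((p + N : ℤ)) : ZMod N)
      push_cast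
      rw [ZMod.natCast_self, add_zero])
    have hwA : dil p w = dil p v ∣[(1 : ℤ)] σ'' := by
      rw [← slash_heckeDiag_eq_dil, ← slash_heckeDiag_eq_dil, hw', slash_SL_def, slash_SL_def,
        ← SlashAction.slash_mul, ← SlashAction.slash_mul]
      congr 1
      ext i j
      fin_cases i <;> fin_cases j <;>
        simp [Matrix.mul_apply, Fin.sum_univ_two, σ', σ'', mkSL, NeZero.ne p] <;> ring
    have hwA' : ∀ δ : SL(2, ℤ), δ ∈ Gamma1 N → dil p w ∣[(1 : ℤ)] δ = dil p w := by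
      intro δ hδ
      have hδ' := mem_Gamma1_iff'.1 hδ
      have h1 : σ'' * δ * σ''⁻¹ ∈ Gamma1 N := by
        refine mem_Gamma1_iff'.2 ⟨mul_mem (mul_mem hσ'' hδ'.1) (inv_mem hσ''), ?_⟩
        rw [cls_mul (mul_mem hσ'' hδ'.1), cls_mul hσ'', hδ'.2, mul_one, ← cls_mul hσ'',
          mul_inv_cancel, cls_one]
      rw [hwA, ← SlashAction.slash_mul, ← inv_mul_cancel_right (σ'' * δ) σ'',
        SlashAction.slash_mul, hvA _ h1]
    -- comparison of the two dilations
    have hkey : ∀ τ : ℍ, (p : ℂ)⁻¹ * v (heckeMatrix p 0 • τ) = dil p w τ := by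
      intro τ
      rw [← slash_heckeMatrix_apply 1 (NeZero.ne p)]
      have hM : heckeMatrix p 0 = mapGL ℝ σ * heckeDiagMatrix p * mapGL ℝ γ := by
        ext i j
        have hab' := congrArg (Int.cast : ℤ → ℝ) hab
        push_cast at hab'
        fin_cases i <;> fin_cases j <;>
          simp [Matrix.mul_apply, Fin.sum_univ_two, σ, γ, mkSL, NeZero.ne p]
        all_goals first
          | ring1
          | linear_combination hab'
          | linear_combination -hab'
          | linear_combination (p : ℝ) * hab'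
          | linear_combination -(p : ℝ) * hab'
      rw [hM, SlashAction.slash_mul, SlashAction.slash_mul, ← slash_SL_def, ← slash_SL_def,
        slash_heckeDiag_eq_dil, hwA' γ hγ]
    have hv' : v = (p : ℂ) • dil (p * p) w := by
      funext τ
      have h := hkey (ModFun.scale p τ)
      rw [show heckeMatrix p 0 • ModFun.scale p τ = τ from UpperHalfPlane.ext (by
          rw [coe_heckeMatrix_smul (NeZero.ne p), ModFun.coe_scale]
          push_cast
          rw [add_zero, mul_div_cancel_left₀ _ (Nat.cast_ne_zero.2 (NeZero.ne p))]),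
        inv_mul_eq_iff_eq_mul₀ (Nat.cast_ne_zero.2 (NeZero.ne p))] at h
      rw [h, Pi.smul_apply, smul_eq_mul]
      congr 1
      simp only [dil]
      refine congrArg w (UpperHalfPlane.ext ?_)
      simp only [ModFun.coe_scale]
      push_cast
      ring
    haveI : NeZero (p * p) := ⟨mul_ne_zero (NeZero.ne p) (NeZero.ne p)⟩
    rw [hv', Good.qx_smul _ (dil_good _ (hv.slash hσ).good), PowerSeries.coeff_smul,
      qx_dil_coeff _ (hv.slash hσ).good]
    split_ifs with hd
    · rw [ih _ (Nat.div_lt_self hn (by nlinarith [hp.two_le])) w (hv.slash hσ) hwA', smul_zero]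
    · exact smul_zero _

/-- `T_p` of a form of level `N` -/
theorem heckeT_level (hp : p.Prime) (hpN : ¬ p ∣ N) [NeZero p] {f : ℍ → ℂ} (hf : IsLevel1 N f)
    {σ : SL(2, ℤ)} (hσ : σ ∈ Gamma0 N) (hσp : ((σ.1 1 1 : ℤ) : ZMod N) = (p : ZMod N))
    {g : SL(2, ℤ)} (hg : g ∈ Gamma1 N) :
    (heckeU 1 p f + dil p (f ∣[(1 : ℤ)] σ)) ∣[(1 : ℤ)] g =
      heckeU 1 p f + dil p (f ∣[(1 : ℤ)] σ) := by
  haveI : Fact p.Prime := ⟨hp⟩
  let H : OnePoint (ZMod p) → ℍ → ℂ := fun x => x.elim (f ∣[(1 : ℤ)] σ) fun _ => f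
  have hT : heckeU 1 p f + dil p (f ∣[(1 : ℤ)] σ) =
      ∑ x : OnePoint (ZMod p), H x ∣[(1 : ℤ)] heckeRep p x := by
    rw [heckeU_eq_sum_zmod, add_comm, ← slash_heckeDiag_eq_dil]
    exact (Fintype.sum_option (fun x : OnePoint (ZMod p) => H x ∣[(1 : ℤ)] heckeRep p x)).symm
  have hg' := mem_Gamma1_iff'.1 hg
  have hgN : (N : ℤ) ∣ g.1 1 0 :=
    (ZMod.intCast_zmod_eq_zero_iff_dvd _ _).1 (Gamma0_mem.1 hg'.1)
  rw [hT, SlashAction.sum_slash]
  calc ∑ x : OnePoint (ZMod p), (H x ∣[(1 : ℤ)] heckeRep p x) ∣[(1 : ℤ)] g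
      = ∑ x : OnePoint (ZMod p), H (redMatrix p g • x) ∣[(1 : ℤ)]
          heckeRep p (redMatrix p g • x) := by
        refine Finset.sum_congr rfl fun x _ => ?_
        obtain ⟨g₁, hg₁, hmul⟩ := heckeRep_mul hpN g hgN x
        have hg₁0 : g₁ ∈ Gamma0 N :=
          Gamma0_mem.2 ((ZMod.intCast_zmod_eq_zero_iff_dvd _ _).2 hg₁)
        suffices hH : H x ∣[(1 : ℤ)] g₁ = H (redMatrix p g • x) by
          rw [slash_SL_def, ← SlashAction.slash_mul, hmul, SlashAction.slash_mul, ← slash_SL_def,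
            hH]
        generalize redMatrix p g • x = y at hmul ⊢
        have hc : ((g₁.1 1 0 : ℤ) : ZMod N) = 0 := Gamma0_mem.1 hg₁0
        have hd := hg'.2
        have hc0 : ((g.1 1 0 : ℤ) : ZMod N) = 0 := Gamma0_mem.1 hg'.1
        have e := congrArg (fun M : GL (Fin 2) ℝ => (M : Matrix (Fin 2) (Fin 2) ℝ) 1 1) hmul
        have hunit : IsUnit (p : ZMod N) :=
          (ZMod.isUnit_iff_coprime p N).2 ((Nat.Prime.coprime_iff_not_dvd hp).2 hpN)
        induction x using OnePoint.rec with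
        | infty =>
          induction y using OnePoint.rec with
          | infty =>
            simp [Matrix.mul_apply, Fin.sum_univ_two, NeZero.ne p, -ZMod.natCast_val] at e
            have e' := congrArg (Int.cast : ℤ → ZMod N) e
            show (f ∣[(1 : ℤ)] σ) ∣[(1 : ℤ)] g₁ = f ∣[(1 : ℤ)] σ
            rw [← SlashAction.slash_mul]
            refine slash_eq_of_cls hf (mul_mem hσ hg₁0) hσ ?_
            rw [cls_mul hσ, ← e', hd, mul_one]
          | coe j =>
            simp [Matrix.mul_apply, Fin.sum_univ_two, NeZero.ne p, -ZMod.natCast_val] at e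
            have e' : ((g.1 1 1 : ℤ) : ZMod N) =
                ((g₁.1 1 0 * j.val + g₁.1 1 1 * p : ℤ) : ZMod N) := congrArg _ (by exact_mod_cast e)
            show (f ∣[(1 : ℤ)] σ) ∣[(1 : ℤ)] g₁ = f
            rw [← SlashAction.slash_mul]
            refine (slash_eq_of_cls hf (mul_mem hσ hg₁0) (one_mem _) ?_).trans
              (SlashAction.slash_one _ _)
            push_cast at e'
            rw [cls_mul hσ, hσp, cls_one, ← hd, e', hc]
            ring
        | coe i =>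
          induction y using OnePoint.rec with
          | infty =>
            simp [Matrix.mul_apply, Fin.sum_univ_two, NeZero.ne p, -ZMod.natCast_val] at e
            have e' : (((p : ℤ) * g.1 1 1 : ℤ) : ZMod N) = ((g₁.1 1 1 : ℤ) : ZMod N) :=
              congrArg _ (by exact_mod_cast e)
            show f ∣[(1 : ℤ)] g₁ = f ∣[(1 : ℤ)] σ
            refine slash_eq_of_cls hf hg₁0 hσ ?_
            push_cast at e'
            rw [hσp, ← e', hd, mul_one]
          | coe j =>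
            simp [Matrix.mul_apply, Fin.sum_univ_two, NeZero.ne p, -ZMod.natCast_val] at e
            have e' : (((p : ℤ) * g.1 1 1 : ℤ) : ZMod N) =
                ((g₁.1 1 0 * j.val + g₁.1 1 1 * p : ℤ) : ZMod N) := congrArg _ (by exact_mod_cast e)
            show f ∣[(1 : ℤ)] g₁ = f
            refine (slash_eq_of_cls hf hg₁0 (one_mem _) ?_).trans (SlashAction.slash_one _ _)
            push_cast at e'
            rw [hc, zero_mul, zero_add, hd, mul_one] at e'
            rw [cls_one]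
            exact hunit.mul_right_cancel (e'.symm.trans (one_mul _).symm)
    _ = ∑ x : OnePoint (ZMod p), H x ∣[(1 : ℤ)] heckeRep p x :=
        Equiv.sum_comp (MulAction.toPerm (redMatrix p g)) fun x => H x ∣[(1 : ℤ)] heckeRep p x

variable [NeZero N] {ε : DirichletCharacter ℂ N} {f : ℍ → ℂ}

/-- the diamond at a good prime -/
theorem slash_prime (hp : p.Prime) (hpN : ¬ p ∣ N) (hf : IsLevel1 N f)
    (h : IsEigen N ε (fun n => (qx f).coeff n)) {σ : SL(2, ℤ)} (hσ : σ ∈ Gamma0 N)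
    (hσp : ((σ.1 1 1 : ℤ) : ZMod N) = (p : ZMod N)) :
    f ∣[(1 : ℤ)] σ = ε (p : ZMod N) • f := by
  haveI : NeZero p := ⟨hp.ne_zero⟩
  set a := (qx f).coeff p
  set e := ε (p : ZMod N)
  have hU : Good (heckeU 1 p f) :=
    ⟨periodic_heckeU_comp_ofComplex hf.good.per 1 p, mdifferentiable_heckeU hf.holo 1 p,
      isBoundedAtImInfty_heckeU hf.good.bdd 1 p⟩
  have hrel : heckeU 1 p f + e • dil p f = a • f := by
    refine Good.qx_inj (hU.add ((dil_good p hf.good).smul e)) (hf.good.smul a)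
      (PowerSeries.ext fun n => ?_)
    rw [Good.qx_add hU ((dil_good p hf.good).smul e), Good.qx_smul _ (dil_good p hf.good),
      Good.qx_smul _ hf.good, map_add, PowerSeries.coeff_smul, PowerSeries.coeff_smul,
      qx_dil_coeff p hf.good]
    have hq : (qx (heckeU 1 p f)).coeff n = (qx f).coeff (p * n) := by
      rw [mul_comm]
      exact UpperHalfPlane.qCoeff_heckeU hf.good.per hf.holo hf.good.bdd 1 hp.ne_zero n
    rw [hq, smul_eq_mul, smul_eq_mul]
    exact h.hecke p hp hpN n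
  have hg : f ∣[(1 : ℤ)] σ - e • f = 0 := by
    refine eq_zero_of_dil_level hp hpN ((hf.slash hσ).sub_smul hf e) fun γ hγ => ?_
    have e1 : dil p (f ∣[(1 : ℤ)] σ - e • f) =
        (heckeU 1 p f + dil p (f ∣[(1 : ℤ)] σ)) - a • f := by
      rw [← hrel]
      funext τ
      simp only [dil, Pi.sub_apply, Pi.smul_apply, Pi.add_apply]
      ring
    rw [e1, sub_eq_add_neg, SlashAction.add_slash, SlashAction.neg_slash, SL_smul_slash,
      heckeT_level hp hpN hf hσ hσp hγ, hf.inv γ hγ]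
  exact sub_eq_zero.1 hg

theorem isW1_of_isLevel1 (hf : IsLevel1 N f) (h : IsEigen N ε (fun n => (qx f).coeff n)) :
    IsW1 N ε f := by
  have key : ∀ n : ℕ, 0 < n → Nat.Coprime n N → ∀ γ : SL(2, ℤ), γ ∈ Gamma0 N →
      ((γ.1 1 1 : ℤ) : ZMod N) = (n : ZMod N) → f ∣[(1 : ℤ)] γ = ε (n : ZMod N) • f := by
    intro n
    induction n using induction_on_primes with
    | zero => intro h0; exact absurd h0 (lt_irrefl 0)
    | one =>
      intro _ _ γ hγ hcls
      rw [Nat.cast_one] at hcls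
      rw [hf.inv γ (mem_Gamma1_iff'.2 ⟨hγ, hcls⟩), Nat.cast_one, map_one, one_smul]
    | prime_mul p n hp ih =>
      intro hpos hcop γ hγ hcls
      have hpN : ¬ p ∣ N := (Nat.Prime.coprime_iff_not_dvd hp).1 (Nat.Coprime.coprime_mul_right hcop)
      have hn : 0 < n := Nat.pos_of_mul_pos_left hpos
      have hnN : Nat.Coprime n N := Nat.Coprime.coprime_mul_left hcop
      obtain ⟨a, b, hab⟩ : ∃ a b : ℤ, (p : ℤ) * a - b * N = 1 := by
        refine ⟨Nat.gcdA p N, -Nat.gcdB p N, ?_⟩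
        have h := Nat.gcd_eq_gcd_ab p N
        rw [Nat.Coprime.gcd_eq_one ((Nat.Prime.coprime_iff_not_dvd hp).2 hpN)] at h
        push_cast at h
        linear_combination -h
      let σ := mkSL a b N p (by linear_combination hab)
      have hσ : σ ∈ Gamma0 N := mkSL_mem_Gamma0 _ dvd_rfl
      have hσp : ((σ.1 1 1 : ℤ) : ZMod N) = (p : ZMod N) := by
        show (((p : ℤ)) : ZMod N) = _
        push_cast
        rfl
      have h2 : σ⁻¹ * γ ∈ Gamma0 N := mul_mem (inv_mem hσ) hγ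
      have hcls2 : (((σ⁻¹ * γ).1 1 1 : ℤ) : ZMod N) = (n : ZMod N) := by
        have h3 := cls_mul (δ := σ⁻¹ * γ) hσ
        rw [mul_inv_cancel_left, hcls, hσp, Nat.cast_mul] at h3
        exact ((ZMod.isUnit_iff_coprime p N).2
          ((Nat.Prime.coprime_iff_not_dvd hp).2 hpN)).mul_left_cancel h3.symm
      rw [← mul_inv_cancel_left σ γ, SlashAction.slash_mul, slash_prime hp hpN hf h hσ hσp,
        SL_smul_slash, ih hn hnN _ h2 hcls2, smul_smul, Nat.cast_mul, map_mul]
  refine ⟨hf.holo, fun γ hγ => ?_, hf.zero⟩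
  set d : ZMod N := ((γ.1 1 1 : ℤ) : ZMod N) with hd
  have hu : IsUnit d := by
    have hdet := congrArg (Int.cast : ℤ → ZMod N)
      ((Matrix.det_fin_two (γ.1 : Matrix (Fin 2) (Fin 2) ℤ)).symm.trans γ.2)
    push_cast at hdet
    rw [Gamma0_mem.1 hγ, mul_zero, sub_zero] at hdet
    exact IsUnit.of_mul_eq_one_right _ hdet
  have hcast : ((d.val + N : ℕ) : ZMod N) = d := by simp
  have hcop : Nat.Coprime (d.val + N) N :=
    (ZMod.isUnit_iff_coprime _ N).1 (by rw [hcast]; exact hu)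
  rw [key (d.val + N) (Nat.add_pos_right _ (NeZero.pos N)) hcop γ hγ hcast.symm, hcast]

end FLTAgent.DS
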