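import Fermat.Agent.DS.Weight1Twist
import Fermat.Agent.DS.Weight1Nebentypus
import Fermat.Agent.DS.Weight1Dilate
import Fermat.Agent.DS.AssemblyDefs
import Fermat.Agent.JTors.DescentAux

/-!
Area DS, parcel DS3: algebraicity and integrality.
-/

set_option autoImplicit false
set_option linter.unusedSectionVars false

noncomputable section

open UpperHalfPlane CongruenceSubgroup ModularForm
open scoped MatrixGroups Manifold ModularForm
open FLTAgent.Chebotarev (QBar)

namespace FLTAgent.DS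

open ModFun (qx Good IsCF dil scale aff)

variable {N : ℕ} [NeZero N] {χ : DirichletCharacter ℂ N} {f : ℍ → ℂ}

theorem mem_range_of_isIntegral {x : ℂ} (h : IsIntegral ℚ x) :
    x ∈ Set.range Genus.embC := by
  refine Polynomial.Splits.mem_range_of_isRoot (i := Genus.embC)
    (f := (minpoly ℚ x).map (algebraMap ℚ QBar)) (IsAlgClosed.splits _)
    ((Polynomial.map_ne_zero_iff (algebraMap ℚ QBar).injective).mpr (minpoly.ne_zero h)) ?_
  rw [Polynomial.map_map,
    Subsingleton.elim (Genus.embC.comp (algebraMap ℚ QBar)) (algebraMap ℚ ℂ),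
    Polynomial.IsRoot.def, Polynomial.eval_map_algebraMap]
  exact minpoly.aeval ℚ x

theorem isIntegral_of_embC {y : QBar} (h : IsIntegral ℤ (Genus.embC y)) : IsIntegral ℤ y :=
  (isIntegral_algHom_iff Genus.embC.toIntAlgHom Genus.embC.injective).1 h

theorem chi_mem_muRing (χ : DirichletCharacter ℂ N) (u : ZMod N) : χ u ∈ muRing N.totient := by
  by_cases hu : IsUnit u
  · exact Algebra.subset_adjoin (chi_pow_totient χ hu)
  · rw [MulChar.map_nonunit _ hu]
    exact Subalgebra.zero_mem _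

theorem muRing_fg (M : ℕ) (hM : 0 < M) : (Subalgebra.toSubmodule (muRing M)).FG := by
  refine fg_adjoin_of_finite ?_ fun z hz =>
    ⟨Polynomial.X ^ M - Polynomial.C 1, Polynomial.monic_X_pow_sub_C 1 hM.ne',
      by simp [show z ^ M = 1 from hz]⟩
  refine ((Polynomial.nthRoots M (1 : ℂ)).toFinset.finite_toSet).subset fun z hz => ?_
  rw [Finset.mem_coe, Multiset.mem_toFinset, Polynomial.mem_nthRoots hM]
  exact hz

variable {F : ℍ → ℂ}

/-- the difference of the auxiliary series and its dilation -/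
def auxG (F : ℍ → ℂ) : ℍ → ℂ := F - dil 2 F

theorem dil_two_slash_inv (hF : IsAux χ F) {γ : SL(2, ℤ)} (hγ : γ ∈ Gamma0 (2 * N)) :
    χ ((γ.1 1 1 : ℤ) : ZMod N) • dil 2 F ∣[(1 : ℤ)] γ = dil 2 F := by
  rw [Gamma0_mem, ZMod.intCast_zmod_eq_zero_iff_dvd] at hγ
  obtain ⟨k, hk⟩ := hγ
  push_cast at hk
  have hdet := (Matrix.det_fin_two (γ.1 : Matrix (Fin 2) (Fin 2) ℤ)).symm.trans γ.2
  let δ := mkSL (γ.1 0 0) (2 * γ.1 0 1) (N * k) (γ.1 1 1) (by
    linear_combination hdet + (γ.1 0 1) * hk)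
  have hδ : δ ∈ Gamma0 N := mkSL_mem_Gamma0 _ (dvd_mul_right _ _)
  have hM : heckeDiagMatrix 2 * Matrix.SpecialLinearGroup.mapGL ℝ γ =
      Matrix.SpecialLinearGroup.mapGL ℝ δ * heckeDiagMatrix 2 := by
    have hk' := congrArg (Int.cast : ℤ → ℝ) hk
    push_cast at hk'
    ext i j
    fin_cases i <;> fin_cases j <;>
      simp [Matrix.mul_apply, Fin.sum_univ_two, δ, mkSL]
    all_goals first
      | ring1
      | linear_combination hk'
      | linear_combination -hk'
      | linear_combination 2 * hk'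
  rw [← slash_heckeDiag_eq_dil (p := 2), slash_SL_def, ← SlashAction.slash_mul, hM,
    SlashAction.slash_mul, ← slash_SL_def]
  conv_rhs => rw [← hF.inv δ hδ]
  rw [ModularForm.smul_slash, σ_heckeDiagMatrix]
  rfl

theorem dil_two_bdd (hF : IsAux χ F) (γ : SL(2, ℤ)) :
    IsBoundedAtImInfty (dil 2 F ∣[(1 : ℤ)] γ) := by
  obtain ⟨γ', A, B, D, hA, hD, -, -, h00, h01, h10, h11⟩ := ModFun.exists_hermite 2 γ
  have e : dil 2 F ∣[(1 : ℤ)] γ = fun τ =>
      (D : ℂ) ^ (-(1 : ℤ)) * (F ∣[(1 : ℤ)] γ') (aff A B D τ) := by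
    funext τ
    obtain ⟨e1, e2⟩ := ModFun.scale_smul_eq 2 γ γ' A B D h00 h01 h10 h11 τ
    rw [SL_slash_apply, SL_slash_apply, dil, e1, e2, mul_zpow]
    ring
  rw [e]
  exact ((hF.bdd γ').comp_tendsto (ModFun.tendsto_aff A B D)).const_mul_left _

theorem auxG_good (hF : IsAux χ F) : Good (auxG F) := hF.good.sub (dil_good 2 hF.good)

theorem auxG_coeff (hF : IsAux χ F) (hFc : ∀ n, n ≠ 0 → (qx F).coeff n ∈ muRing N.totient) :
    (qx (auxG F)).coeff 0 = 0 ∧ (qx (auxG F)).coeff 1 = 1 ∧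
      ∀ n, (qx (auxG F)).coeff n ∈ muRing N.totient := by
  have e : ∀ n, (qx (auxG F)).coeff n =
      (qx F).coeff n - if 2 ∣ n then (qx F).coeff (n / 2) else 0 := fun n => by
    rw [auxG, Good.qx_sub hF.good (dil_good 2 hF.good), map_sub, qx_dil_coeff 2 hF.good]
  refine ⟨by simp [e], by simp [e, hF.one], fun n => ?_⟩
  rcases Nat.eq_zero_or_pos n with rfl | hn
  · simp [e]
  rw [e]
  refine Subalgebra.sub_mem _ (hFc n hn.ne') ?_
  split_ifs with h2
  · obtain ⟨k, rfl⟩ := h2
    exact hFc _ (by simp; omega)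
  · exact Subalgebra.zero_mem _

theorem mul_auxG_isCF (hf : IsW1 N χ f) (hF : IsAux χ F) : IsCF (2 * N) 2 (f * auxG F) where
  holo := hf.holo.mul (auxG_good hF).holo
  inv γ hγ := by
    have hγN : γ ∈ Gamma0 N := Gamma0_le_of_dvd (N := 2 * N) (dvd_mul_left N 2) hγ
    rw [show (2 : ℤ) = 1 + 1 from rfl, mul_slash_SL2, hf.inv γ hγN, auxG, sub_eq_add_neg,
      SlashAction.add_slash, SlashAction.neg_slash]
    rw [smul_mul_assoc, ← mul_smul_comm, smul_add, smul_neg, hF.inv γ hγN,
      dil_two_slash_inv hF hγ]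
  zero γ := by
    rw [show (2 : ℤ) = 1 + 1 from rfl, mul_slash_SL2, auxG, sub_eq_add_neg, SlashAction.add_slash,
      SlashAction.neg_slash]
    exact Filter.ZeroAtFilter.mul_boundedAtFilter (hf.zero γ)
      ((hF.bdd γ).add (dil_two_bdd hF γ).neg)

/-- all coefficients lie in one finitely generated group stable under the values of the character -/
theorem exists_coeff_module (hf : IsW1 N χ f) (hodd : χ.Odd) :
    ∃ M : Submodule ℤ ℂ, M.FG ∧ ∀ r ∈ muRing N.totient, ∀ n, r * (qx f).coeff n ∈ M := by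
  obtain ⟨F, -, hF, -, -, hFc⟩ := exists_aux hodd (RingHom.id ℂ)
  obtain ⟨hG0, hG1, hGc⟩ := auxG_coeff hF hFc
  set R := muRing N.totient
  have hcf := mul_auxG_isCF hf hF
  haveI : NeZero (2 * N) := ⟨mul_ne_zero two_ne_zero (NeZero.ne N)⟩
  have hmem : hcf.toForm ∈ Submodule.span ℂ
      ((CuspForm.intLattice (2 * N) 2 : Submodule ℤ (CuspForm (Gamma0 (2 * N)) 2)) :
        Set (CuspForm (Gamma0 (2 * N)) 2)) := by
    rw [ModFun.hasIntegralStructure (2 * N) 2]
    exact Submodule.mem_top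
  obtain ⟨k, c, b, hb⟩ := Submodule.mem_span_set'.1 hmem
  have hint : ∀ (i : Fin k) n,
      ∃ z : ℤ, (qx ((b i : CuspForm (Gamma0 (2 * N)) 2) : ℍ → ℂ)).coeff n = z := by
    intro i n
    suffices H : ∀ g ∈ CuspForm.intLattice (2 * N) 2, ∃ z : ℤ, (qx (g : ℍ → ℂ)).coeff n = z from
      H _ (b i).2
    intro g hg
    induction hg using Submodule.span_induction with
    | mem x hx => exact hx n
    | zero => exact ⟨0, by simp [qx, qExpansion_zero]⟩
    | add x y _ _ hx hy =>
      obtain ⟨u, hu⟩ := hx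
      obtain ⟨v, hv⟩ := hy
      refine ⟨u + v, ?_⟩
      rw [CuspForm.coe_add, Good.qx_add (ModFun.isCF_of_form x).isMF.good
        (ModFun.isCF_of_form y).isMF.good, map_add, hu, hv, Int.cast_add]
    | smul a x _ hx =>
      obtain ⟨u, hu⟩ := hx
      refine ⟨a * u, ?_⟩
      have e : ((a • x : CuspForm (Gamma0 (2 * N)) 2) : ℍ → ℂ) = (a : ℂ) • (x : ℍ → ℂ) := by
        funext τ; simp [zsmul_eq_mul]
      rw [e, Good.qx_smul _ (ModFun.isCF_of_form x).isMF.good, PowerSeries.coeff_smul, hu,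
        smul_eq_mul, Int.cast_mul]
  obtain ⟨S, hS⟩ := muRing_fg N.totient (Nat.totient_pos.2 (NeZero.pos N))
  set M : Submodule ℤ ℂ :=
    ⨆ i : Fin k, (Subalgebra.toSubmodule R).map (LinearMap.mulLeft ℤ (c i)) with hMdef
  have hMmul : ∀ r ∈ R, ∀ x ∈ M, r * x ∈ M := by
    intro r hr x hx
    induction hx using Submodule.iSup_induction' with
    | mem i x hx =>
      obtain ⟨y, hy, rfl⟩ := hx
      refine Submodule.mem_iSup_of_mem i ⟨r * y, R.mul_mem hr hy, ?_⟩
      simp only [LinearMap.mulLeft_apply]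
      ring
    | zero => rw [mul_zero]; exact zero_mem _
    | add x y _ _ hx hy => rw [mul_add]; exact add_mem hx hy
  have hg : ∀ n, (qx (f * (auxG F))).coeff n ∈ M := by
    intro n
    have hgood : ∀ i : Fin k, Good (((b i : CuspForm (Gamma0 (2 * N)) 2) : ℍ → ℂ)) := fun i =>
      (ModFun.isCF_of_form _).isMF.good
    have e : f * (auxG F) = ∑ i, c i • ((b i : CuspForm (Gamma0 (2 * N)) 2) : ℍ → ℂ) := by
      have h1 := congrArg (fun u : CuspForm (Gamma0 (2 * N)) 2 => (u : ℍ → ℂ)) hb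
      simp only [ModFun.IsCF.coe_toForm] at h1
      rw [← h1]
      funext τ
      simp
    rw [e, Good.qx_sum _ fun i _ => (hgood i).smul _, map_sum]
    refine sum_mem fun i _ => ?_
    obtain ⟨z, hz⟩ := hint i n
    rw [Good.qx_smul _ (hgood i), PowerSeries.coeff_smul, hz, smul_eq_mul]
    exact Submodule.mem_iSup_of_mem i ⟨(z : ℂ), intCast_mem R z, rfl⟩
  have hPQ : ∀ n, (qx (f * (auxG F))).coeff (n + 1) = (qx f).coeff n +
      ∑ i ∈ Finset.range n, (qx f).coeff i * (qx (auxG F)).coeff (n + 1 - i) := by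
    intro n
    rw [Good.qx_mul hf.good (auxG_good hF), PowerSeries.coeff_mul,
      Finset.Nat.sum_antidiagonal_eq_sum_range_succ_mk, Finset.sum_range_succ, Finset.sum_range_succ]
    simp only [Nat.sub_self, hG0, mul_zero, add_zero, show n + 1 - n = 1 by omega, hG1, mul_one]
    ring
  refine ⟨M, Submodule.fg_iSup _ fun i => Submodule.FG.map _ ⟨S, hS⟩, fun r hr n =>
    hMmul r hr _ ?_⟩
  induction n using Nat.strong_induction_on with
  | _ n ih =>
    have h1 : (qx f).coeff n = (qx (f * (auxG F))).coeff (n + 1) -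
        ∑ i ∈ Finset.range n, (qx f).coeff i * (qx (auxG F)).coeff (n + 1 - i) := by
      rw [hPQ n]; ring
    rw [h1]
    refine sub_mem (hg _) (sum_mem fun i hi => ?_)
    rw [mul_comm]
    exact hMmul _ (hGc _) _ (ih i (Finset.mem_range.1 hi))

theorem odd_of_eigen (hf : IsW1 N χ f) (h : IsEigen N χ (fun n => (qx f).coeff n)) : χ.Odd :=
  hf.odd (IsW1.ne_zero_of_eigen h)

/-- the ring generated by the good eigenvalues is finite over `ℤ` -/
theorem exists_hecke_ring (hf : IsW1 N χ f) (h : IsEigen N χ (fun n => (qx f).coeff n)) :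
    ∃ A : Subalgebra ℤ ℂ, (Subalgebra.toSubmodule A).FG ∧
      ∀ p : ℕ, p.Prime → ¬ p ∣ N → (qx f).coeff p ∈ A := by
  obtain ⟨M, hM, hMc⟩ := exists_coeff_module hf (odd_of_eigen hf h)
  set R := muRing N.totient
  set a : ℕ → ℂ := fun n => (qx f).coeff n
  set X : Submodule ℤ ℂ := Submodule.span ℤ {x | ∃ r ∈ R, ∃ n, Nat.Coprime n N ∧ x = r * a n}
  let A : Subalgebra ℤ ℂ :=
    { carrier := {z | ∀ x ∈ X, z * x ∈ X}
      mul_mem' := fun {y z} hy hz x hx => by rw [mul_assoc]; exact hy _ (hz x hx)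
      add_mem' := fun {y z} hy hz x hx => by rw [add_mul]; exact add_mem (hy x hx) (hz x hx)
      one_mem' := fun x hx => by rwa [one_mul]
      zero_mem' := fun x _ => by rw [zero_mul]; exact zero_mem _
      algebraMap_mem' := fun m x hx => by
        rw [eq_intCast, ← zsmul_eq_mul]; exact zsmul_mem hx m }
  have hAX : Subalgebra.toSubmodule A ≤ X := fun z hz => by
    have h1 : (1 : ℂ) ∈ X := Submodule.subset_span
      ⟨1, Subalgebra.one_mem _, 1, Nat.coprime_one_left N, by rw [one_mul]; exact h.one.symm⟩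
    simpa using hz 1 h1
  have hXM : X ≤ M := Submodule.span_le.2 fun x hx => by
    obtain ⟨r, hr, n, -, rfl⟩ := hx
    exact hMc r hr n
  refine ⟨A, ?_, fun p hp hpN x hx => ?_⟩
  · haveI : Module.Finite ℤ M := Module.Finite.iff_fg.2 hM
    haveI : IsNoetherian ℤ M := isNoetherian_of_isNoetherianRing_of_finite ℤ M
    exact isNoetherian_submodule.1 inferInstance _ (hAX.trans hXM)
  · induction hx using Submodule.span_induction with
    | mem x hx =>
      obtain ⟨r, hr, n, hn, rfl⟩ := hx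
      have e : (qx f).coeff p * (r * a n) =
          r * a (p * n) + r * χ (p : ZMod N) * (if p ∣ n then a (n / p) else 0) := by
        have h1 : a (p * n) + χ (p : ZMod N) * (if p ∣ n then a (n / p) else 0) =
          (qx f).coeff p * a n := h.hecke p hp hpN n
        linear_combination -r * h1
      rw [e]
      refine add_mem (Submodule.subset_span ⟨r, hr, p * n,
        Nat.Coprime.mul_left ((Nat.Prime.coprime_iff_not_dvd hp).2 hpN) hn, rfl⟩) ?_
      split_ifs with hd
      · exact Submodule.subset_span ⟨r * χ (p : ZMod N), Subalgebra.mul_mem _ hr (chi_mem_muRing χ _),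
          n / p, hn.coprime_dvd_left (Nat.div_dvd_of_dvd hd), rfl⟩
      · rw [mul_zero]; exact zero_mem _
    | zero => rw [mul_zero]; exact zero_mem _
    | add x y _ _ hx hy => rw [mul_add]; exact add_mem hx hy
    | smul m x _ hx => rw [mul_smul_comm]; exact zsmul_mem hx m

/-- good coefficients are algebraic integers in a fixed number field -/
theorem exists_field (hf : IsW1 N χ f) (h : IsEigen N χ (fun n => (qx f).coeff n)) :
    ∃ (K : IntermediateField ℚ QBar) (a : ℕ → integralClosure ℤ QBar), FiniteDimensional ℚ K ∧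
      ∀ p : ℕ, p.Prime → ¬ p ∣ N →
        (a p : QBar) ∈ K ∧ Genus.embC (a p : QBar) = (qx f).coeff p := by
  classical
  obtain ⟨A, hA, hAp⟩ := exists_hecke_ring hf h
  obtain ⟨S, hS⟩ := hA
  have hint : ∀ x ∈ A, IsIntegral ℤ x := fun x hx => IsIntegral.of_mem_of_fg A ⟨S, hS⟩ x hx
  have hSA : ∀ x ∈ S, x ∈ A := fun x hx => by
    have : x ∈ Subalgebra.toSubmodule A := hS ▸ Submodule.subset_span hx
    exact this
  have hpre : ∀ x ∈ A, ∃ y : integralClosure ℤ QBar, Genus.embC (y : QBar) = x := fun x hx => by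
    obtain ⟨y, hy⟩ := mem_range_of_isIntegral (hint x hx).tower_top
    exact ⟨⟨y, isIntegral_of_embC (hy ▸ hint x hx)⟩, hy⟩
  choose! g hg using hpre
  set K := IntermediateField.adjoin ℚ ((fun x => (g x : QBar)) '' (S : Set ℂ))
  haveI : Algebra.IsAlgebraic ℚ QBar := AlgebraicClosure.isAlgebraic ℚ
  refine ⟨K, fun p => g ((qx f).coeff p), IntermediateField.finiteDimensional_adjoin
    fun x _ => (Algebra.IsAlgebraic.isAlgebraic x).isIntegral, fun p hp hpN => ⟨?_, hg _ (hAp p hp hpN)⟩⟩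
  suffices H : ∀ x ∈ Submodule.span ℤ (S : Set ℂ), x ∈ K.toSubfield.map Genus.embC by
    obtain ⟨y, hy, hy'⟩ := H _ (by rw [hS]; exact hAp p hp hpN)
    rwa [← Genus.embC.injective (hy'.trans (hg _ (hAp p hp hpN)).symm)]
  intro x hx
  induction hx using Submodule.span_induction with
  | mem x hx => exact ⟨_, IntermediateField.subset_adjoin _ _ ⟨x, hx, rfl⟩, hg x (hSA x hx)⟩
  | zero => exact zero_mem _
  | add x y _ _ hx hy => exact add_mem hx hy
  | smul m x _ hx => exact zsmul_mem hx m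

/-- the form satisfies the relations of the system `a` -/
def IsSys (χ : DirichletCharacter ℂ N) (a : ℕ → ℂ) (g : ℍ → ℂ) : Prop :=
  IsW1 N χ g ∧ ∀ p : ℕ, p.Prime → ¬ p ∣ N → ∀ n : ℕ,
    (qx g).coeff (p * n) + χ (p : ZMod N) * (if p ∣ n then (qx g).coeff (n / p) else 0) =
      a p * (qx g).coeff n

theorem IsW1.sub_smul {g : ℍ → ℂ} (hf : IsW1 N χ f) (hg : IsW1 N χ g) (c : ℂ) :
    IsW1 N χ (f - c • g) where
  holo := hf.holo.sub (hg.holo.const_smul c)
  inv γ hγ := by
    rw [sub_eq_add_neg, SlashAction.add_slash, SlashAction.neg_slash, SL_smul_slash,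
      hf.inv γ hγ, hg.inv γ hγ, ← sub_eq_add_neg, ← sub_eq_add_neg, smul_sub, smul_comm]
  zero γ := (hf.isLevel1.sub_smul hg.isLevel1 c).zero γ

theorem IsSys.sub_smul {a : ℕ → ℂ} {g g' : ℍ → ℂ} (hg : IsSys χ a g) (hg' : IsSys χ a g') (c : ℂ) :
    IsSys χ a (g - c • g') ∧
      ∀ n, (qx (g - c • g')).coeff n = (qx g).coeff n - c * (qx g').coeff n := by
  have e : ∀ n, (qx (g - c • g')).coeff n = (qx g).coeff n - c * (qx g').coeff n := fun n => by
    rw [Good.qx_sub hg.1.good (hg'.1.good.smul c), Good.qx_smul _ hg'.1.good, map_sub,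
      PowerSeries.coeff_smul, smul_eq_mul]
  refine ⟨⟨hg.1.sub_smul hg'.1 c, fun p hp hpN n => ?_⟩, e⟩
  have h1 := hg.2 p hp hpN n
  have h2 := hg'.2 p hp hpN n
  simp only [e]
  split_ifs at h1 h2 ⊢ <;> linear_combination h1 - c * h2

/-- finitely many coefficients determine a form -/
theorem exists_det_bound (hodd : χ.Odd) :
    ∃ B : ℕ, ∀ g, IsW1 N χ g → (∀ n < B, (qx g).coeff n = 0) → ∀ n, (qx g).coeff n = 0 := by
  obtain ⟨F, -, hF, -, -, -⟩ := exists_aux hodd (RingHom.id ℂ)
  refine ⟨((2 : ℤ) * (Gamma0 N).index).toNat / 12 + 1, fun g hg h n => ?_⟩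
  have hcf := hg.mul_aux hF
  have h0 : ModFun.truncC N 2 hcf.toForm = 0 := funext fun i => by
    show (qx (g * F)).coeff (i : ℕ) = 0
    rw [Good.qx_mul hg.good hF.good, PowerSeries.coeff_mul]
    refine Finset.sum_eq_zero fun ij hij => ?_
    rw [Finset.HasAntidiagonal.mem_antidiagonal] at hij
    rw [h _ (by have := i.2; omega), zero_mul]
  have h1 : hcf.toForm = 0 := ModFun.truncC_injective N 2 (h0.trans (map_zero _).symm)
  have h2 : g * F = 0 := by
    have := congrArg (fun u : CuspForm (Gamma0 N) 2 => (u : ℍ → ℂ)) h1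
    simpa using this
  rcases mdiff_eq_zero_or hg.holo hF.holo h2 with h3 | h3
  · simp [h3, qx, qExpansion_zero]
  · exact absurd h3 hF.ne_zero

/-- a form with the same eigensystem and algebraic coefficients with bounded denominators -/
theorem exists_algebraic_form (hf : IsW1 N χ f) (h : IsEigen N χ (fun n => (qx f).coeff n)) :
    ∃ (g : ℍ → ℂ) (D : ℕ) (c : ℕ → integralClosure ℤ QBar), D ≠ 0 ∧ IsW1 N χ g ∧
      IsEigen N χ (fun n => (qx g).coeff n) ∧
      (∀ p : ℕ, p.Prime → ¬ p ∣ N → (qx g).coeff p = (qx f).coeff p) ∧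
      ∀ n, Genus.embC (c n : QBar) = (D : ℂ) * (qx g).coeff n := by
  classical
  set a : ℕ → ℂ := fun n => (qx f).coeff n with ha
  have hodd := odd_of_eigen hf h
  obtain ⟨K, a', -, ha'⟩ := exists_field hf h
  obtain ⟨B₀, hB₀⟩ := exists_det_bound hodd
  set B := B₀ + 2
  let supp : (ℍ → ℂ) → Finset ℕ := fun g => (Finset.range B).filter fun n => (qx g).coeff n ≠ 0
  have hex : ∃ m, ∃ g, IsSys χ a g ∧ (qx g).coeff 1 = 1 ∧ (supp g).card = m :=
    ⟨_, f, ⟨hf, h.hecke⟩, h.one, rfl⟩
  obtain ⟨g, hg, hg1, hgm⟩ := Nat.find_spec hex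
  -- its coefficients are fixed by all automorphisms fixing the algebraic numbers
  have hfix : ∀ σ : ℂ ≃+* ℂ, (∀ z, σ (Genus.embC z) = Genus.embC z) →
      ∀ n, σ ((qx g).coeff n) = (qx g).coeff n := by
    intro σ hσ n
    have hχ : χ.ringHomComp σ.toRingHom = χ := by
      refine MulChar.ext' fun u => ?_
      show σ (χ u) = χ u
      by_cases hu : IsUnit u
      · have hpos : 0 < N.totient := Nat.totient_pos.2 (NeZero.pos N)
        obtain ⟨z, hz⟩ := mem_range_of_isIntegral (x := χ u)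
          ⟨Polynomial.X ^ N.totient - Polynomial.C 1, Polynomial.monic_X_pow_sub_C 1 hpos.ne',
            by simp [chi_pow_totient χ hu]⟩
        rw [← hz, hσ]
      · rw [MulChar.map_nonunit _ hu, map_zero]
    obtain ⟨g', hg', hg'q⟩ := exists_conj_form hg.1 σ.toRingHom
    rw [hχ] at hg'
    have hco : ∀ j, (qx g').coeff j = σ ((qx g).coeff j) := fun j => by
      rw [hg'q, PowerSeries.coeff_map]; rfl
    have hsys : IsSys χ a g' := by
      refine ⟨hg', fun p hp hpN j => ?_⟩
      have h1 := congrArg σ (hg.2 p hp hpN j)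
      rw [map_add, map_mul, map_mul, apply_ite σ, map_zero] at h1
      have h2 : σ (χ (p : ZMod N)) = χ (p : ZMod N) :=
        congrArg (fun φ : DirichletCharacter ℂ N => φ (p : ZMod N)) hχ
      have h3 : σ (a p) = a p := by
        show σ ((qx f).coeff p) = (qx f).coeff p
        rw [← (ha' p hp hpN).2, hσ]
      simp only [hco]
      rw [h2, h3] at h1
      exact h1
    obtain ⟨hd, hdc⟩ := hg.sub_smul hsys 1
    set e := g - (1 : ℂ) • g'
    by_contra hne
    obtain ⟨i, hi, hie⟩ : ∃ i < B, (qx e).coeff i ≠ 0 := by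
      by_contra hall
      push Not at hall
      have := hB₀ e hd.1 (fun j hj => hall j (by omega)) n
      rw [hdc, hco, one_mul, sub_eq_zero] at this
      exact hne this.symm
    have hgi : (qx g).coeff i ≠ 0 := fun h0 => hie (by rw [hdc, hco, h0, map_zero]; ring)
    obtain ⟨h2, h2c⟩ := hg.sub_smul hd ((qx g).coeff i / (qx e).coeff i)
    have hone : (qx (g - ((qx g).coeff i / (qx e).coeff i) • e)).coeff 1 = 1 := by
      rw [h2c, hdc 1, hco 1, hg1, map_one]; ring
    refine Nat.find_min hex (m := (supp (g - ((qx g).coeff i / (qx e).coeff i) • e)).card) ?_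
      ⟨_, h2, hone, rfl⟩
    refine lt_of_lt_of_eq (Finset.card_lt_card ?_) hgm
    refine Finset.ssubset_iff_subset_ne.mpr ⟨fun j hj => ?_, fun heq => ?_⟩
    · simp only [supp, Finset.mem_filter] at hj ⊢
      refine ⟨hj.1, fun h0 => hj.2 ?_⟩
      rw [h2c, hdc j, hco j, h0, map_zero]; ring
    · have h4 : i ∈ supp (g - ((qx g).coeff i / (qx e).coeff i) • e) := by
        rw [heq]; simp [supp, hi, hgi]
      simp only [supp, Finset.mem_filter] at h4
      exact h4.2 (by rw [h2c, div_mul_cancel₀ _ hie, sub_self])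
  have hrange : ∀ n, (qx g).coeff n ∈ Set.range Genus.embC := fun n => by
    refine JTors.mem_range_embC_of_finite_orbit
      ((Set.finite_singleton ((qx g).coeff n)).subset ?_)
    rintro y ⟨σ, hσ, rfl⟩
    exact hfix σ hσ n
  have hgE : IsEigen N χ (fun n => (qx g).coeff n) := by
    refine ⟨hg1, fun p hp hpN n => ?_⟩
    have h1 := hg.2 p hp hpN 1
    rw [mul_one, if_neg hp.not_dvd_one, mul_zero, add_zero, hg1, mul_one] at h1
    have h2 := hg.2 p hp hpN n
    rw [← h1] at h2
    exact h2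
  have hgp : ∀ p : ℕ, p.Prime → ¬ p ∣ N → (qx g).coeff p = (qx f).coeff p := fun p hp hpN => by
    have h1 := hg.2 p hp hpN 1
    rw [mul_one, if_neg hp.not_dvd_one, mul_zero, add_zero, hg1, mul_one] at h1
    exact h1
  -- denominators
  obtain ⟨M, hM, hMc⟩ := exists_coeff_module hg.1 hodd
  let φ : QBar →ₗ[ℤ] ℂ := Genus.embC.toIntAlgHom.toLinearMap
  have hfg : (M.comap φ).FG := by
    refine Submodule.fg_of_fg_map_injective φ Genus.embC.injective ?_
    haveI : Module.Finite ℤ M := Module.Finite.iff_fg.2 hM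
    haveI : IsNoetherian ℤ M := isNoetherian_of_isNoetherianRing_of_finite ℤ M
    exact isNoetherian_submodule.1 inferInstance _ (Submodule.map_comap_le _ _)
  obtain ⟨T, hT⟩ := hfg
  haveI : Algebra.IsAlgebraic ℚ QBar := AlgebraicClosure.isAlgebraic ℚ
  haveI : Algebra.IsAlgebraic ℤ QBar :=
    ⟨fun x => (IsFractionRing.isAlgebraic_iff ℤ ℚ QBar).mpr (Algebra.IsAlgebraic.isAlgebraic x)⟩
  have hDs : ∀ T : Finset QBar, ∃ D : ℤ, D ≠ 0 ∧ ∀ t ∈ T, IsIntegral ℤ (D • t) := by
    intro T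
    induction T using Finset.induction_on with
    | empty => exact ⟨1, one_ne_zero, by simp⟩
    | insert x T hx ih =>
      obtain ⟨D, hD, hDt⟩ := ih
      obtain ⟨y, hy, hyx⟩ := (Algebra.IsAlgebraic.isAlgebraic (R := ℤ) x).exists_integral_multiple
      refine ⟨y * D, mul_ne_zero hy hD, fun t ht => ?_⟩
      rcases Finset.mem_insert.1 ht with rfl | ht
      · rw [mul_comm, mul_smul]; exact hyx.smul D
      · rw [mul_smul]; exact (hDt t ht).smul y
  obtain ⟨D, hD, hDT⟩ := hDs T
  choose c₀ hc₀ using hrange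
  have hc : ∀ n, IsIntegral ℤ ((D.natAbs : QBar) * c₀ n) := by
    intro n
    have h1 : c₀ n ∈ M.comap φ := by
      show Genus.embC (c₀ n) ∈ M
      rw [hc₀]
      simpa using hMc 1 (Subalgebra.one_mem _) n
    rw [← hT] at h1
    have h2 : IsIntegral ℤ (D • c₀ n) := by
      generalize c₀ n = z at h1 ⊢
      induction h1 using Submodule.span_induction with
      | mem x hx => exact hDT x hx
      | zero => rw [smul_zero]; exact isIntegral_zero
      | add x y _ _ hx hy => rw [smul_add]; exact hx.add hy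
      | smul m x _ hx => rw [smul_comm]; exact hx.smul m
    rw [zsmul_eq_mul] at h2
    rcases Int.natAbs_eq D with e | e
    · have e' : (D : QBar) = (D.natAbs : QBar) := by conv_lhs => rw [e, Int.cast_natCast]
      rwa [e'] at h2
    · have e' : (D : QBar) = -(D.natAbs : QBar) := by
        conv_lhs => rw [e, Int.cast_neg, Int.cast_natCast]
      rw [e', neg_mul] at h2
      simpa using h2.neg
  refine ⟨g, D.natAbs, fun n => ⟨_, hc n⟩, Int.natAbs_ne_zero.2 hD, hg.1, hgE, hgp, fun n => ?_⟩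
  show Genus.embC ((D.natAbs : QBar) * c₀ n) = _
  rw [map_mul, map_natCast, hc₀]

end FLTAgent.DS
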