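import Fermat.Agent.DS.Weight1Bound
import Fermat.Agent.DS.Weight1Congr
import Fermat.Agent.DS.Weight1Integral

/-!
Area DS, parcels DS1-DS3: what the hypotheses of S48 give.
-/

set_option autoImplicit false
set_option linter.unusedSectionVars false

noncomputable section

open UpperHalfPlane CongruenceSubgroup ModularForm Filter
open scoped MatrixGroups Manifold ModularForm
open FLTAgent.Chebotarev (QBar GalQBar)

namespace FLTAgent.DS

open ModFun (qx)

theorem exists_eigenInput (N : ℕ) [NeZero N] (ε : DirichletCharacter ℂ N)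
    (f : CuspForm (Gamma1 N) 1) (hf₁ : ModularFormClass.qCoeff f 1 = 1)
    (hT : ∀ p : ℕ, p.Prime → ¬ p ∣ N → ∀ n : ℕ,
        ModularFormClass.qCoeff f (p * n) +
            ε (p : ZMod N) * (if p ∣ n then ModularFormClass.qCoeff f (n / p) else 0) =
          ModularFormClass.qCoeff f p * ModularFormClass.qCoeff f n) :
    ∃ D : EigenInput N,
      (∀ p : ℕ, p.Prime → ¬ p ∣ N → Genus.embC (D.a p : QBar) = ModularFormClass.qCoeff f p ∧
        Genus.embC (D.e p : QBar) = ε (p : ZMod N)) ∧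
      ∃ ℓ₀ : ℕ, ∀ ℓ : ℕ, ℓ.Prime → ℓ₀ < ℓ → ∀ A : ValuationSubring QBar, A.LiesOverPrime ℓ →
        Nonempty (Weight2Input D ℓ A) := by
  classical
  have h : IsEigen N ε (fun n => (qx f).coeff n) := ⟨hf₁, hT⟩
  have hf := isW1_of_isLevel1 (isLevel1_of_form f) h
  obtain ⟨K, a, hK, ha⟩ := exists_field hf h
  obtain ⟨g, m, c, hm, hg, hgE, hgp, hc⟩ := exists_algebraic_form hf h
  -- the character as algebraic integers
  have he : ∀ p : ℕ, ∃ e : integralClosure ℤ QBar, (p.Prime → ¬ p ∣ N →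
      e ^ N.totient = 1 ∧ Genus.embC (e : QBar) = ε (p : ZMod N)) := by
    intro p
    by_cases hp : p.Prime ∧ ¬ p ∣ N
    · obtain ⟨u, hu⟩ := ((ZMod.isUnit_iff_coprime p N).2
        ((Nat.Prime.coprime_iff_not_dvd hp.1).2 hp.2))
      have h1 : ε (p : ZMod N) ^ N.totient = 1 := by
        rw [← map_pow, ← hu, ← Units.val_pow_eq_pow_val, ZMod.pow_totient, Units.val_one, map_one]
      have hpos : 0 < N.totient := Nat.totient_pos.2 (NeZero.pos N)
      haveI : NeZero ((N.totient : ℕ) : QBar) := ⟨Nat.cast_ne_zero.2 hpos.ne'⟩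
      obtain ⟨z, hz⟩ := HasEnoughRootsOfUnity.exists_primitiveRoot QBar N.totient
      haveI : NeZero N.totient := ⟨hpos.ne'⟩
      obtain ⟨i, _, hi⟩ := (hz.map_of_injective Genus.embC.injective).eq_pow_of_pow_eq_one h1
      have hzi : (z ^ i) ^ N.totient = 1 := by
        rw [← pow_mul, mul_comm, pow_mul, hz.pow_eq_one, one_pow]
      refine ⟨⟨z ^ i, Polynomial.X ^ N.totient - Polynomial.C 1,
        Polynomial.monic_X_pow_sub_C 1 hpos.ne', by simp [hzi]⟩, fun _ _ =>
          ⟨Subtype.ext hzi, by rw [← hi]; exact map_pow _ _ _⟩⟩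
    · exact ⟨0, fun h1 h2 => absurd ⟨h1, h2⟩ hp⟩
  choose e he using he
  refine ⟨⟨a, e, K, hK, fun p hp hpN => (ha p hp hpN).1, fun p hp hpN => (he p hp hpN).1, ?_⟩,
    fun p hp hpN => ⟨(ha p hp hpN).2, (he p hp hpN).2⟩, max (max m N) 2, ?_⟩
  · intro σ b δ hδ
    haveI : Algebra.IsAlgebraic ℚ QBar := AlgebraicClosure.isAlgebraic ℚ
    letI : Algebra QBar ℂ := Genus.embC.toAlgebra
    obtain ⟨ι, v, hv⟩ := exists_isTranscendenceBasis' QBar ℂ
    obtain ⟨τ, hτ⟩ := ModFun.exists_extend hv (MvPolynomial.mapEquiv _ σ.toRingEquiv)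
    obtain ⟨g', hg', hg'q⟩ := exists_conj_form hf τ
    filter_upwards [primeW_le_log hg'.isLevel1 (h.map τ g' hg'q) b δ hδ] with s hs
    refine le_of_eq_of_le ?_ hs
    refine congrArg (fun u => primeW u s) (funext fun p => ?_)
    by_cases hpN : (p : ℕ) ∣ N
    · rw [if_pos hpN, if_pos hpN]
    · rw [if_neg hpN, if_neg hpN, hg'q, PowerSeries.coeff_map, ← (ha p p.2 hpN).2]
      have := hτ (MvPolynomial.C (a p : QBar))
      simp only [MvPolynomial.aeval_C, MvPolynomial.mapEquiv_apply, MvPolynomial.map_C] at this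
      rw [show τ (Genus.embC (a p : QBar)) = Genus.embC (σ (a p : QBar)) from this]
  · intro ℓ hℓ hℓ0 A hA
    refine nonempty_weight2Input _ hg hgE (fun p hp hpN => ⟨?_, (he p hp hpN).2⟩) hm c hc hℓ
      (Nat.not_dvd_of_pos_of_lt (Nat.pos_of_ne_zero hm) (by omega))
      (Nat.not_dvd_of_pos_of_lt (NeZero.pos N) (by omega)) (by omega) A hA
    rw [hgp p hp hpN]
    exact (ha p hp hpN).2

end FLTAgent.DS
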