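import Fermat.Agent.DS.Assembly
import Fermat.Agent.DS.Residual
import Fermat.Agent.DS.Density
import Fermat.Agent.DS.Weight1

/-!
Area DS: the theorem of Deligne and Serre, given the Jacobians of the curves `X_H`.
-/

set_option autoImplicit false
set_option linter.style.haveILetI false

noncomputable section

open CongruenceSubgroup Filter Topology
open scoped MatrixGroups
open FLTAgent.Chebotarev (QBar GalQBar frobRes)

namespace FLTAgent.DS

theorem densityThm : DensityThm := by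
  intro L _ _ φ hconj hinv
  have h := tendsto_symm_density (L := L) φ
    (fun x g => by simpa using hconj x⁻¹ g) hinv
  rw [Nat.card_eq_fintype_card] at h
  exact h

theorem exists_rep_of_jac
    (hJ : ∀ (M : ℕ) [NeZero M] (Δ : Subgroup (ZMod M)ˣ), (-1 : (ZMod M)ˣ) ∈ Δ →
      Nonempty (JacData M Δ))
    (N : ℕ) [NeZero N] (ε : DirichletCharacter ℂ N) (f : CuspForm (Gamma1 N) 1)
    (hf₁ : ModularFormClass.qCoeff f 1 = 1)
    (hT : ∀ p : ℕ, p.Prime → ¬ p ∣ N → ∀ n : ℕ,
        ModularFormClass.qCoeff f (p * n) +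
            ε (p : ZMod N) * (if p ∣ n then ModularFormClass.qCoeff f (n / p) else 0) =
          ModularFormClass.qCoeff f p * ModularFormClass.qCoeff f n) :
    ∃ ρ : GalQBar →* GL (Fin 2) ℂ, GaloisFactorsThroughFiniteLevel ρ ∧
      (Deformation.matrixRepresentation ρ).IsIrreducible ∧
      ∀ p : ℕ, p.Prime → ¬ p ∣ N →
        ∀ A : ValuationSubring QBar, A.LiesOverPrime p →
          (∀ σ ∈ A.inertiaSubgroupIn ℚ, ρ σ = 1) ∧
          ∀ σ : GalQBar, A.IsFrobeniusAt σ p →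
            ((ρ σ : GL (Fin 2) ℂ) : Matrix (Fin 2) (Fin 2) ℂ).trace = ModularFormClass.qCoeff f p ∧
            ((ρ σ : GL (Fin 2) ℂ) : Matrix (Fin 2) (Fin 2) ℂ).det = ε (p : ZMod N) := by
  obtain ⟨D, hD, hW⟩ := exists_eigenInput N ε f hf₁ hT
  obtain ⟨τ, hfin, hirr, hτ⟩ := exists_artin D densityThm (residualInput D hW hJ)
  refine ⟨τ, hfin, hirr, fun p hp hpN A hA => ⟨(hτ p hp hpN A hA).1, fun σ hσ => ?_⟩⟩
  obtain ⟨h1, h2⟩ := (hτ p hp hpN A hA).2 σ hσ
  exact ⟨h1.trans (hD p hp hpN).1, h2.trans (hD p hp hpN).2⟩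

end FLTAgent.DS
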