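import Fermat.Agent.DS.CurveAPI
import Fermat.Agent.JTors.Forms
import Fermat.Agent.JTors.TwistOrd
import Fermat.Agent.AJ.Main

/-!
The function field of `X_H` over `ℂ` as quotients of forms, realised in meromorphic functions on
`ℍ` and as an extension of the constants of `ℚ̄(X_H)`.
-/

set_option autoImplicit false
set_option synthInstance.maxHeartbeats 100000
set_option linter.unusedSectionVars false
set_option linter.style.haveILetI false

noncomputable section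

open UpperHalfPlane CongruenceSubgroup ModularCurve ModularForm AlgebraicCurve
open scoped MatrixGroups Manifold

namespace FLTAgent.DS

open Genus (embC)
open ModFun (qx Good jFun)
open JTors (HolH MeroH ofH pullSL)
open scoped Genus

local notation "Qb" => AlgebraicClosure ℚ

variable (M : ℕ) [NeZero M] (Δ : Subgroup (ZMod M)ˣ)

/-- `ℂ(X_H)` -/
def FC : IntermediateField ℂ (LaurentSeries ℂ) where
  carrier := {X | ∃ w F G, IsQuotC M Δ X w F G}
  mul_mem' := fun ⟨_, _, _, h⟩ ⟨_, _, _, h'⟩ => ⟨_, _, _, h.mul h'⟩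
  one_mem' := ⟨_, _, _, by
    rw [← map_one (algebraMap ℂ (LaurentSeries ℂ))]; exact IsQuotC.const 1⟩
  add_mem' := fun ⟨_, _, _, h⟩ ⟨_, _, _, h'⟩ => ⟨_, _, _, h.add h'⟩
  zero_mem' := ⟨_, _, _, by
    rw [← map_zero (algebraMap ℂ (LaurentSeries ℂ))]; exact IsQuotC.const 0⟩
  algebraMap_mem' r := ⟨_, _, _, IsQuotC.const r⟩
  inv_mem' X := fun ⟨w, F, G, h⟩ => by
    rcases eq_or_ne X 0 with rfl | hX
    · rw [inv_zero]; exact ⟨w, F, G, h⟩
    · exact ⟨_, _, _, h.inv hX⟩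

variable {M Δ}

theorem mem_FC {X : LaurentSeries ℂ} : X ∈ FC M Δ ↔ ∃ w F G, IsQuotC M Δ X w F G := Iff.rfl

instance algQbFC : Algebra Qb ↥(FC M Δ) := ((algebraMap ℂ ↥(FC M Δ)).comp embC).toAlgebra

instance towerQbFC : IsScalarTower Qb ℂ ↥(FC M Δ) := IsScalarTower.of_algebraMap_eq' rfl

/-- a realisation of forms in a field, compatible with sums and products -/
structure Realisation (M : ℕ) (Δ : Subgroup (ZMod M)ˣ) (L : Type*) [Field L] [Algebra ℂ L] where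
  θ : ℤ → (ℍ → ℂ) → L
  mul : ∀ {w w' : ℤ} {F G : ℍ → ℂ}, IsMFH M Δ w F → IsMFH M Δ w' G →
    θ (w + w') (F * G) = θ w F * θ w' G
  add : ∀ {w : ℤ} {F G : ℍ → ℂ}, IsMFH M Δ w F → IsMFH M Δ w G →
    θ w (F + G) = θ w F + θ w G
  ne_zero : ∀ {w : ℤ} {F : ℍ → ℂ}, IsMFH M Δ w F → F ≠ 0 → θ w F ≠ 0
  const : ∀ c : ℂ, θ 0 (c • (1 : ℍ → ℂ)) = algebraMap ℂ L c

namespace Realisation

variable {L : Type*} [Field L] [Algebra ℂ L] (R : Realisation M Δ L)

/-- the value at a quotient -/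
def val (X : ↥(FC M Δ)) : L :=
  R.θ (mem_FC.mp X.2).choose (mem_FC.mp X.2).choose_spec.choose /
    R.θ (mem_FC.mp X.2).choose (mem_FC.mp X.2).choose_spec.choose_spec.choose

theorem θ_one : R.θ 0 (1 : ℍ → ℂ) = 1 := by
  have h := R.const 1
  rwa [one_smul, map_one] at h

theorem quot_eq {X : LaurentSeries ℂ} {w w' : ℤ} {F G F' G' : ℍ → ℂ}
    (h : IsQuotC M Δ X w F G) (h' : IsQuotC M Δ X w' F' G') :
    R.θ w F / R.θ w G = R.θ w' F' / R.θ w' G' := by
  rw [div_eq_div_iff (R.ne_zero h.den h.den_ne) (R.ne_zero h'.den h'.den_ne), ← R.mul h.num h'.den,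
    ← R.mul h'.num h.den, add_comm w' w]
  congr 1
  refine ModFun.Good.qx_inj (h.num.mul h'.den).good (h'.num.mul h.den).good
    (HahnSeries.ofPowerSeries_injective (Γ := ℤ) ?_)
  rw [ModFun.Good.qx_mul h.num.good h'.den.good, ModFun.Good.qx_mul h'.num.good h.den.good, map_mul,
    map_mul, ← h.eq, ← h'.eq]
  ring

theorem val_eq {X : ↥(FC M Δ)} {w : ℤ} {F G : ℍ → ℂ}
    (h : IsQuotC M Δ (X : LaurentSeries ℂ) w F G) : R.val X = R.θ w F / R.θ w G :=
  R.quot_eq (mem_FC.mp X.2).choose_spec.choose_spec.choose_spec h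

theorem val_const (c : ℂ) : R.val (algebraMap ℂ ↥(FC M Δ) c) = algebraMap ℂ L c := by
  rw [R.val_eq (IsQuotC.const (M := M) (Δ := Δ) c), R.const, R.θ_one, div_one]

/-- a realisation as a homomorphism of the function field -/
def hom : ↥(FC M Δ) →ₐ[ℂ] L where
  toFun := R.val
  map_one' := by rw [← map_one (algebraMap ℂ ↥(FC M Δ)), R.val_const, map_one]
  map_mul' X Y := by
    obtain ⟨w, F, G, h⟩ := mem_FC.mp X.2
    obtain ⟨w', F', G', h'⟩ := mem_FC.mp Y.2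
    rw [R.val_eq h, R.val_eq h',
      R.val_eq (X := X * Y) (show IsQuotC M Δ ((X * Y : ↥(FC M Δ)) : LaurentSeries ℂ) _ _ _ from
        h.mul h'), R.mul h.num h'.num, R.mul h.den h'.den, div_mul_div_comm]
  map_zero' := by rw [← map_zero (algebraMap ℂ ↥(FC M Δ)), R.val_const, map_zero]
  map_add' X Y := by
    obtain ⟨w, F, G, h⟩ := mem_FC.mp X.2
    obtain ⟨w', F', G', h'⟩ := mem_FC.mp Y.2
    rw [R.val_eq h, R.val_eq h',
      R.val_eq (X := X + Y) (show IsQuotC M Δ ((X + Y : ↥(FC M Δ)) : LaurentSeries ℂ) _ _ _ from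
        h.add h'), R.add (h.num.mul h'.den) (h.den.mul h'.num), R.mul h.num h'.den,
      R.mul h.den h'.num, R.mul h.den h'.den,
      div_add_div _ _ (R.ne_zero h.den h.den_ne) (R.ne_zero h'.den h'.den_ne)]
  commutes' := R.val_const

theorem hom_eq {X : ↥(FC M Δ)} {w : ℤ} {F G : ℍ → ℂ}
    (h : IsQuotC M Δ (X : LaurentSeries ℂ) w F G) : R.hom X = R.θ w F / R.θ w G := R.val_eq h

end Realisation

/-! ### meromorphic functions -/

open Classical in
/-- a function as a meromorphic function (junk `0` if not holomorphic) -/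
def mkH (F : ℍ → ℂ) : MeroH := if h : MDiff F then ofH ⟨F, h⟩ else 0

theorem mkH_of {F : ℍ → ℂ} (h : MDiff F) : mkH F = ofH ⟨F, h⟩ := dif_pos h

variable (M Δ) in
/-- forms as holomorphic functions -/
def realH : Realisation M Δ MeroH where
  θ _ F := mkH F
  mul hF hG := by
    rw [mkH_of hF.holo, mkH_of hG.holo, mkH_of (hF.mul hG).holo, ← map_mul]
    rfl
  add hF hG := by
    rw [mkH_of hF.holo, mkH_of hG.holo, mkH_of (hF.add hG).holo, ← map_add]
    rfl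
  ne_zero hF h0 := by
    rw [mkH_of hF.holo]
    exact JTors.ofH_ne_zero fun e => h0 (congrArg Subtype.val e)
  const c := by
    rw [mkH_of (show MDiff (c • (1 : ℍ → ℂ)) from mdifferentiable_const.const_smul c), ← AlgHom.commutes ofH]
    refine congrArg ofH (Subtype.ext (funext fun τ => ?_))
    simp

/-- the function field as meromorphic functions -/
def evC : ↥(FC M Δ) →ₐ[ℂ] MeroH := (realH M Δ).hom

theorem evC_eq {X : ↥(FC M Δ)} {w : ℤ} {F G : ℍ → ℂ}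
    (h : IsQuotC M Δ (X : LaurentSeries ℂ) w F G) :
    evC X = ofH ⟨F, h.num.holo⟩ / ofH ⟨G, h.den.holo⟩ := by
  rw [evC, (realH M Δ).hom_eq h]
  show mkH F / mkH G = _
  rw [mkH_of h.num.holo, mkH_of h.den.holo]

/-- pull-back of a quotient through the slash action -/
theorem pullSL_div (γ : SL(2, ℤ)) (w : ℤ) (F G : HolH) (hG : G ≠ 0) :
    pullSL γ (ofH F / ofH G) =
      ofH ⟨(F : ℍ → ℂ) ∣[w] γ, ModFun.mdiff_slash F.2 w γ⟩ /
        ofH ⟨(G : ℍ → ℂ) ∣[w] γ, ModFun.mdiff_slash G.2 w γ⟩ := by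
  have hG' : (⟨(G : ℍ → ℂ) ∣[w] γ, ModFun.mdiff_slash G.2 w γ⟩ : HolH) ≠ 0 := fun e => by
    refine hG (Subtype.ext ?_)
    have h := congrArg (fun f : ℍ → ℂ => f ∣[w] γ⁻¹) (congrArg Subtype.val e)
    simp only [← SlashAction.slash_mul, mul_inv_cancel, SlashAction.slash_one] at h
    rw [h]
    exact SlashAction.zero_slash w γ⁻¹
  rw [map_div₀, div_eq_div_iff ((map_ne_zero _).mpr (JTors.ofH_ne_zero hG))
    (JTors.ofH_ne_zero hG'), JTors.pullSL_ofH, JTors.pullSL_ofH, ← map_mul, ← map_mul]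
  refine congrArg ofH (Subtype.ext (funext fun τ => ?_))
  show (F : ℍ → ℂ) (γ • τ) * (((G : ℍ → ℂ) ∣[w] γ) τ) =
    ((F : ℍ → ℂ) ∣[w] γ) τ * (G : ℍ → ℂ) (γ • τ)
  rw [SL_slash_apply, SL_slash_apply]
  ring

theorem evC_invariant {γ : SL(2, ℤ)} (hγ : γ ∈ grpH M Δ) (X : ↥(FC M Δ)) :
    pullSL γ (evC X) = evC X := by
  obtain ⟨w, F, G, h⟩ := mem_FC.mp X.2
  rw [evC_eq h, pullSL_div γ w _ _ fun e => h.den_ne (congrArg Subtype.val e)]
  simp only [h.num.inv γ hγ, h.den.inv γ hγ]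

/-! ### `ℚ̄(X_H)` inside -/

variable (M Δ) in
/-- extension of the constants -/
def toC : ↥(FBH M Δ) →ₐ[Qb] ↥(FC M Δ) where
  toFun x := ⟨coeffMap embC (x : LaurentSeries Qb), exists_isQuotH x.2⟩
  map_one' := Subtype.ext (map_one (coeffMap embC))
  map_mul' _ _ := Subtype.ext (map_mul (coeffMap embC) _ _)
  map_zero' := Subtype.ext (map_zero (coeffMap embC))
  map_add' _ _ := Subtype.ext (map_add (coeffMap embC) _ _)
  commutes' a := Subtype.ext (coeffMap_embC_algebraMap a)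

theorem coe_toC (x : ↥(FBH M Δ)) :
    (toC M Δ x : LaurentSeries ℂ) = coeffMap embC (x : LaurentSeries Qb) := rfl

variable (M Δ) in
/-- `ℚ̄(X_H)` as meromorphic functions -/
def evQ : ↥(FBH M Δ) →ₐ[Qb] MeroH := ((evC (M := M) (Δ := Δ)).restrictScalars Qb).comp (toC M Δ)

theorem evQ_apply (x : ↥(FBH M Δ)) : evQ M Δ x = evC (toC M Δ x) := rfl

theorem evQ_invariant {γ : SL(2, ℤ)} (hγ : γ ∈ grpH M Δ) (x : ↥(FBH M Δ)) :
    pullSL γ (evQ M Δ x) = evQ M Δ x := evC_invariant hγ _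

theorem pullSL_evQ (hΔ : (-1 : (ZMod M)ˣ) ∈ Δ) (γ : Gamma0 M) (x : ↥(FBH M Δ)) :
    pullSL (γ : SL(2, ℤ)) (evQ M Δ x) = evQ M Δ (diamond hΔ (dHom M γ) x) := by
  obtain ⟨w, F, G, h⟩ := exists_isQuotH x.2
  have h' := isQuotH_diamond hΔ γ x w F G h
  rw [evQ_apply, evQ_apply, evC_eq (X := toC M Δ x) h,
    evC_eq (X := toC M Δ (diamond hΔ (dHom M γ) x)) h',
    pullSL_div _ w _ _ fun e => h.den_ne (congrArg Subtype.val e)]

variable (M Δ) in
/-- `j` over `ℂ` -/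
def jC : ↥(FC M Δ) := toC M Δ (jBarH M Δ)

theorem coe_jC : (jC M Δ : LaurentSeries ℂ) = coeffEmb ℂ jq := by
  rw [jC, coe_toC]
  exact ModFun.coeffMap_coeffEmb_comp embC jq

/-- `j` as a function -/
def jH : HolH := ⟨jFun, ModFun.mdiff_jFun⟩

theorem isQuotC_jC : IsQuotC M Δ (jC M Δ : LaurentSeries ℂ) 12
    ((ModularForm.E₄ : ℍ → ℂ) ^ 3) discriminant := by
  rw [coe_jC]
  refine ⟨((ModFun.isMF_E4.pow 3).cast (by norm_num)).levelOne |> IsMFH.of_isMF,
    IsMFH.of_isMF ModFun.isMF_delta.levelOne,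
    fun h => ModularForm.discriminant_ne_zero UpperHalfPlane.I (congrFun h _), ?_⟩
  rw [← ModFun.lx_good ModFun.isMF_delta.good, ← ModFun.lx_jM, ← map_mul,
    ← ModFun.lx_good (ModFun.isMF_E4.good.pow 3)]
  exact congrArg ModFun.lx (Subtype.ext ModFun.jFun_mul_delta)

theorem evC_jC : evC (jC M Δ) = ofH jH := by
  rw [evC_eq isQuotC_jC, div_eq_iff (JTors.ofH_ne_zero fun e =>
    (isQuotC_jC (M := M) (Δ := Δ)).den_ne (congrArg Subtype.val e)), ← map_mul]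
  exact congrArg ofH (Subtype.ext ModFun.jFun_mul_delta.symm)

theorem transcendental_jC : Transcendental ℂ (jC M Δ) := by
  rw [transcendental_iff]
  intro P hP
  by_contra h0
  have h1 : Polynomial.aeval ((jC M Δ : ↥(FC M Δ)) : LaurentSeries ℂ) P = 0 :=
    (Polynomial.aeval_algHom_apply (FC M Δ).val (jC M Δ) P).trans (by rw [hP, map_zero])
  rw [coe_jC, coeffEmb, ← jqModC_rat, ModularCurve.coeffMap_jqModC] at h1
  exact Good.aeval_jq_ne_zero ℂ h0 h1


variable (hΔ : (-1 : (ZMod M)ˣ) ∈ Δ)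

include hΔ in
theorem fnFieldQ : RR.FnField Qb ↥(FBH M Δ) :=
  ⟨jBarH M Δ, transcendental_jBarH, finite_FBH hΔ⟩

/-- `w` over `ℂ` -/
def wCC : ↥(FC M Δ) :=
  ⟨coeffEmb ℂ (wSer hΔ 1), mem_FC.mpr ⟨_, _, _, isQuotC_wSer hΔ 1⟩⟩

theorem evC_wCC : evC (wCC hΔ) = ofH ⟨wFun hΔ 1, mdiff_wFun hΔ 1⟩ := by
  have h := isQuotC_wSer hΔ (1 : (ZMod M)ˣ)
  rw [evC_eq (X := wCC hΔ) h, div_eq_iff (JTors.ofH_ne_zero fun e =>
    h.den_ne (congrArg Subtype.val e)), ← map_mul]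
  exact congrArg ofH (Subtype.ext (wFun_mul_delta hΔ 1).symm)

include hΔ in
theorem exists_constExt :
    ∃ e : AJ.ConstExt Qb ℂ ↥(FBH M Δ) ↥(FC M Δ), e.i = (toC M Δ).toRingHom := by
  haveI := fnFieldQ hΔ
  refine AJ.nonempty_constExt (toC M Δ)
    (AJ.mulMap_injective _ transcendental_jBarH transcendental_jC) fun f => ?_
  obtain ⟨w, F, G, h⟩ := mem_FC.mp f.2
  have hq := quot_mem_polyH_field hΔ h
  rw [IntermediateField.mem_adjoin_iff_div] at hq
  obtain ⟨r, hr, s, hs, hrs⟩ := hq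
  set Φ : TensorProduct Qb ℂ ↥(FBH M Δ) →ₐ[ℂ] LaurentSeries ℂ :=
    (FC M Δ).val.comp (AJ.mulMap (L := ℂ) (toC M Δ)) with hΦ
  have hle : Algebra.adjoin ℂ ({coeffEmb ℂ jq, coeffEmb ℂ (wSer hΔ 1)} : Set (LaurentSeries ℂ)) ≤
      Φ.range := by
    rw [Algebra.adjoin_le_iff]
    have key : ∀ x : ↥(FBH M Δ), coeffMap embC (x : LaurentSeries Qb) ∈ Φ.range := fun x =>
      ⟨(1 : ℂ) ⊗ₜ[Qb] x, by simp [hΦ, coe_toC]⟩
    rintro _ (rfl | rfl)
    · rw [← ModFun.coeffMap_coeffEmb_comp embC jq]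
      exact key (jBarH M Δ)
    · rw [← ModFun.coeffMap_coeffEmb_comp embC (wSer hΔ 1)]
      exact key ⟨_, coeffEmb_mem_laurentBaseChange _ (wSer_mem_F0H hΔ 1)⟩
  obtain ⟨a, ha⟩ := hle hr
  obtain ⟨b, hb⟩ := hle hs
  refine ⟨a, b, Subtype.ext ?_⟩
  rw [← ha, ← hb] at hrs
  exact hrs

/-- the extension of constants -/
def extC : AJ.ConstExt Qb ℂ ↥(FBH M Δ) ↥(FC M Δ) := (exists_constExt hΔ).choose

theorem extC_i (x : ↥(FBH M Δ)) : (extC hΔ).i x = toC M Δ x := by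
  rw [extC, (exists_constExt hΔ).choose_spec]
  rfl

include hΔ in
theorem fnFieldC : RR.FnField ℂ ↥(FC M Δ) :=
  haveI := fnFieldQ hΔ
  (extC hΔ).fnField

include hΔ in
theorem ndeg_jC : RR.ndeg ℂ (jC M Δ) = (grpH M Δ).index := by
  classical
  haveI := fnFieldQ hΔ
  haveI := fnFieldC hΔ
  set e := extC hΔ
  obtain ⟨D, hD⟩ := RR.exists_divisor (K := Qb) (f := jBarH M Δ)
    fun h => transcendental_jBarH (M := M) (Δ := Δ) (by rw [h]; exact isAlgebraic_zero)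
  set s := D.support.filter fun v => v.ord (jBarH M Δ) < 0
  have hs : ∀ v, v ∈ s ↔ v.ord (jBarH M Δ) < 0 := fun v => by
    refine ⟨fun h => (Finset.mem_filter.mp h).2, fun h => Finset.mem_filter.mpr ⟨?_, h⟩⟩
    rw [Finsupp.mem_support_iff, hD]
    omega
  have hs' : ∀ w, w ∈ s.image e.lift ↔ w.ord (jC M Δ) < 0 := by
    intro w
    by_cases hw : ∃ v, e.lift v = w
    · obtain ⟨v, rfl⟩ := hw
      rw [jC, ← extC_i hΔ, e.ord_lift, ← hs]
      exact ⟨fun h => by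
        obtain ⟨v', hv', e'⟩ := Finset.mem_image.mp h
        rwa [← e.lift_injective e'], fun h => Finset.mem_image_of_mem _ h⟩
    · push Not at hw
      rw [jC, ← extC_i hΔ, e.ord_i_eq_zero hw]
      simp only [lt_self_iff_false, iff_false]
      exact fun h => by
        obtain ⟨v', -, e'⟩ := Finset.mem_image.mp h
        exact hw v' e'
  have h1 := RR.sum_ord_poles (K := Qb) transcendental_jBarH s hs
  have h2 := RR.sum_ord_poles (K := ℂ) (transcendental_jC (M := M) (Δ := Δ)) _ hs'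
  rw [Finset.sum_image fun a _ b _ h => e.lift_injective h] at h2
  have h3 : ∀ v, (e.lift v).ord (jC M Δ) = v.ord (jBarH M Δ) := fun v => by
    rw [jC, ← extC_i hΔ, e.ord_lift]
  simp only [h3, h1, ndeg_jBarH hΔ] at h2
  exact_mod_cast h2.symm

end FLTAgent.DS
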