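import Fermat.Agent.DS.CuspVal
import Fermat.Agent.JTors.Monodromy
import Fermat.Agent.JTors.Conj

/-!
The places of `ℂ(X_H)`: every place is the order at a point of `ℍ` or at a cusp, up to the
ramification index of that point or cusp.
-/

set_option autoImplicit false
set_option synthInstance.maxHeartbeats 100000
set_option linter.unusedSectionVars false

noncomputable section

open UpperHalfPlane CongruenceSubgroup ModularCurve ModularForm AlgebraicCurve
open scoped MatrixGroups Manifold WithZero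

namespace FLTAgent.DS

open Genus (vlog)
open ModFun (qx Good dil jFun isMF_delta isMF_E4)
open JTors (HolH MeroH ofH pullSL ordAt valAt HasEllType)
open scoped Genus

/-! ### generalities -/

theorem pullSL_mul (a b : SL(2, ℤ)) (x : MeroH) :
    pullSL (a * b) x = pullSL b (pullSL a x) := by
  simp only [pullSL]
  rw [JTors.pull_congr _ (JTors.det_pos_mul (JTors.det_pos_SL a) (JTors.det_pos_SL b))
    (map_mul (Matrix.SpecialLinearGroup.mapGL ℝ) a b), JTors.pull_mul]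

theorem pullSL_one (x : MeroH) : pullSL 1 x = x := by
  obtain ⟨a, b, hb, rfl⟩ := JTors.exists_ofH_div x
  simp only [map_div₀, JTors.pullSL_ofH]
  congr 2 <;> exact Subtype.ext (funext fun τ => by simp)

theorem pullSL_inv_cancel (a : SL(2, ℤ)) (x : MeroH) : pullSL a⁻¹ (pullSL a x) = x := by
  rw [← pullSL_mul, mul_inv_cancel, pullSL_one]

theorem HasEllType_pow {τ : ℍ} {γ : SL(2, ℤ)} {k : ℕ} (h : HasEllType τ γ k) :
    γ ^ k = -1 := by
  rcases h with ⟨δ, -, rfl, rfl⟩ | ⟨δ, -, rfl, rfl⟩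
  · rw [conj_pow, show ModularGroup.S ^ 2 = (-1 : SL(2, ℤ)) by decide]
    simp
  · rw [conj_pow, show (ModularGroup.S * ModularGroup.T) ^ 3 = (-1 : SL(2, ℤ)) by decide]
    simp

theorem HasEllType_conj {τ : ℍ} {γ : SL(2, ℤ)} {k : ℕ} (g : SL(2, ℤ)) (h : HasEllType τ γ k) :
    HasEllType (g • τ) (g * γ * g⁻¹) k := by
  rcases h with ⟨δ, rfl, rfl, rfl⟩ | ⟨δ, rfl, rfl, rfl⟩
  · exact Or.inl ⟨g * δ, by rw [mul_smul], by group, rfl⟩
  · exact Or.inr ⟨g * δ, by rw [mul_smul], by group, rfl⟩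

/-- an invariant function has order divisible by the order of the rotation -/
theorem ell_dvd {τ : ℍ} {γ : SL(2, ℤ)} {k : ℕ} (h : HasEllType τ γ k) {y : MeroH} (hy : y ≠ 0)
    (hinv : pullSL γ⁻¹ y = y) : (k : ℤ) ∣ ordAt τ y := by
  have := JTors.multiplier_fix hy h.smul_eq (c := 1) (by rw [hinv, map_one, one_mul])
  rw [← h.orderOf_eq]
  exact ((IsPrimitiveRoot.orderOf _).zpow_eq_one_iff_dvd _).mp this.symm

variable {M : ℕ} [NeZero M] {Δ : Subgroup (ZMod M)ˣ}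

theorem neg_one_smul_cosH (hΔ : (-1 : (ZMod M)ˣ) ∈ Δ) (i : CosH M Δ) :
    (-1 : SL(2, ℤ)) • i = i := by
  induction i using QuotientGroup.induction_on with
  | _ g =>
    rw [MulAction.Quotient.smul_mk, QuotientGroup.eq]
    have : (((-1 : SL(2, ℤ)) • g)⁻¹ * g) = -1 := by
      rw [smul_eq_mul, mul_inv_rev]
      apply Matrix.SpecialLinearGroup.ext
      intro i j
      fin_cases i <;> fin_cases j <;>
        simp [Matrix.adjugate_fin_two, Matrix.mul_apply, Fin.sum_univ_two] <;>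
        linarith [Matrix.det_fin_two (g : Matrix (Fin 2) (Fin 2) ℤ), g.prop]
    rw [this]
    exact neg_one_mem_grpH hΔ

theorem out_smul (γ : SL(2, ℤ)) (i : CosH M Δ) :
    ∃ h ∈ grpH M Δ, (γ • i).out = γ * i.out * h := by
  conv => enter [1, h, 2, 1]; rw [← QuotientGroup.out_eq' i]
  rw [MulAction.Quotient.smul_mk]
  obtain ⟨h, hh⟩ := QuotientGroup.mk_out_eq_mul (grpH M Δ) (γ * i.out)
  exact ⟨h, h.2, hh⟩

theorem smul_eq_self_iff (γ : SL(2, ℤ)) (i : CosH M Δ) :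
    γ • i = i ↔ i.out⁻¹ * γ * i.out ∈ grpH M Δ := by
  conv_lhs => rw [← QuotientGroup.out_eq' i, MulAction.Quotient.smul_mk, QuotientGroup.eq]
  rw [← inv_mem_iff]
  simp [smul_eq_mul, mul_assoc]

/-! ### interior points -/

/-- the conjugates of the function field in meromorphic functions -/
def σI (q : CosH M Δ) : ↥(FC M Δ) →ₐ[ℂ] MeroH := (pullSL q.out⁻¹).comp evC

theorem σI_apply (q : CosH M Δ) (x : ↥(FC M Δ)) : σI q x = pullSL q.out⁻¹ (evC x) := rfl

theorem σI_smul (γ : SL(2, ℤ)) (q : CosH M Δ) (x : ↥(FC M Δ)) :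
    σI (γ • q) x = pullSL γ⁻¹ (σI q x) := by
  obtain ⟨h, hh, e⟩ := out_smul γ q
  rw [σI_apply, σI_apply, e, mul_inv_rev, mul_inv_rev, pullSL_mul,
    evC_invariant (inv_mem hh), pullSL_mul]

theorem σI_injective (hΔ : (-1 : (ZMod M)ˣ) ∈ Δ) :
    Function.Injective (σI : CosH M Δ → ↥(FC M Δ) →ₐ[ℂ] MeroH) := by
  intro q r h
  refine wC_injective hΔ (funext fun τ => ?_)
  have := DFunLike.congr_fun h (wCC hΔ)
  rw [σI_apply, σI_apply, evC_wCC, JTors.pullSL_ofH, JTors.pullSL_ofH,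
    JTors.ofH_injective.eq_iff, Subtype.ext_iff] at this
  have h2 := congrFun this τ
  simpa [wC, cjH, SL_slash_apply] using h2

theorem ndeg_jC_sub (hΔ : (-1 : (ZMod M)ˣ) ∈ Δ) (c : ℂ) :
    RR.ndeg ℂ (jC M Δ - algebraMap ℂ ↥(FC M Δ) c) = (grpH M Δ).index := by
  rw [RR.ndeg_congr (RR.KK_sub_const _ c), ndeg_jC hΔ]

theorem card_cosH' : Nat.card (CosH M Δ) = (grpH M Δ).index := by
  rw [Nat.card_eq_fintype_card, card_cosH]

theorem pullSL_jH (γ : SL(2, ℤ)) : pullSL γ (ofH jH) = ofH jH := by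
  rw [JTors.pullSL_ofH]
  exact congrArg ofH (Subtype.ext (funext fun τ => ModFun.jFun_smul γ τ))

theorem valAt_pullSL {γ : SL(2, ℤ)} {τ : ℍ} (h : γ • τ = τ) (y : MeroH) :
    valAt τ (pullSL γ y) = valAt τ y := by
  rcases eq_or_ne y 0 with rfl | hy
  · rw [map_zero]
  · rw [JTors.valAt_eq_exp τ ((map_ne_zero _).mpr hy), JTors.valAt_eq_exp τ hy,
      JTors.ordAt_pullSL γ τ hy, h]

/-- a place over a finite value of `j` is the order at a point of `ℍ` -/
theorem exists_interior (hΔ : (-1 : (ZMod M)ˣ) ∈ Δ) (v : Place ℂ ↥(FC M Δ)) (c : ℂ)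
    (hv : 0 < v.ord (jC M Δ - algebraMap ℂ ↥(FC M Δ) c)) :
    ∃ (τ : ℍ) (b : ℕ), 0 < b ∧
      (∀ f : ↥(FC M Δ), f ≠ 0 → ordAt τ (evC f) = b * v.ord f) ∧
        (b = 1 ∨ ∃ γ, HasEllType τ γ b ∧ γ ∈ grpH M Δ) := by
  classical
  haveI := fnFieldC hΔ
  obtain ⟨τ, rfl⟩ := ModFun.jFun_surjective c
  obtain ⟨k, γ, hk0, hk, hfix, hγk, hell⟩ :
      ∃ (k : ℕ) (γ : SL(2, ℤ)), 0 < k ∧
        analyticOrderAt (fun z => jFun (ofComplex z) - jFun τ) (τ : ℂ) = k ∧
        γ • τ = τ ∧ (∀ i : CosH M Δ, γ ^ k • i = i) ∧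
        (k = 1 ∨ k.Prime ∧ HasEllType τ γ k) := by
    rcases JTors.ellType_cases 1 τ with h | ⟨γ, k, hγ, hp, -, h⟩
    · exact ⟨1, 1, one_pos, by exact_mod_cast h, one_smul _ _,
        fun i => by rw [pow_one, one_smul], Or.inl rfl⟩
    · exact ⟨k, γ, hp.pos, h, hγ.smul_eq, fun i => by
        rw [HasEllType_pow hγ, neg_one_smul_cosH hΔ], Or.inr ⟨hp, hγ⟩⟩
  set U : MeroH := ofH (jH - algebraMap ℂ HolH (jFun τ)) with hUdef
  have hU : ∀ i, σI i (jC M Δ - algebraMap ℂ ↥(FC M Δ) (jFun τ)) = U := fun i => by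
    rw [map_sub, AlgHom.commutes, σI_apply, evC_jC, pullSL_jH, hUdef, map_sub, AlgHom.commutes]
  have hne : jH - algebraMap ℂ HolH (jFun τ) ≠ 0 := fun e => by
    have h := hU (cos₁ M Δ)
    rw [hUdef, e, map_zero] at h
    exact RR.sub_const_ne_zero (transcendental_jC (M := M) (Δ := Δ)) (jFun τ)
      ((map_eq_zero (σI (cos₁ M Δ))).mp h)
  have hUv : vlog (valAt τ) U = k := by
    obtain ⟨m, hm, he⟩ := JTors.ordAt_ofH τ hne
    show ordAt τ U = k
    rw [hUdef, he]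
    have : (m : ℕ∞) = (k : ℕ∞) := by
      rw [← hk, ← hm]
      rfl
    exact_mod_cast this
  obtain ⟨-, h2⟩ := JTors.fibre_exact (K := ℂ)
    (RR.transcendental_sub_const (transcendental_jC (M := M) (Δ := Δ)) (jFun τ)) (valAt τ)
    (fun d hd => JTors.valAt_const τ hd) σI (σI_injective hΔ)
    (by rw [card_cosH', ndeg_jC_sub hΔ]) hU hUv hk0
    (MulAction.orbitRel (Subgroup.zpowers γ) (CosH M Δ))
    (fun i i' h x => by
      obtain ⟨⟨g, m, rfl⟩, hg⟩ := h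
      change γ ^ m • i' = i at hg
      rw [← hg, σI_smul, valAt_pullSL]
      rw [← zpow_neg]
      exact MulAction.mem_fixedBy_zpow (g := γ) hfix (-m))
    (fun i x hx => by
      erw [Genus.card_class]
      rcases hell with rfl | ⟨hp, hγ⟩
      · simp
      rcases hp.eq_one_or_self_of_dvd _ (Genus.minimalPeriod_dvd hγk i) with h1 | h1
      · rw [h1, Nat.cast_one, one_mul]
        have hi : γ • i = i := Function.minimalPeriod_eq_one_iff_isFixedPt.mp h1
        exact ell_dvd hγ ((map_ne_zero _).mpr hx) (by rw [← σI_smul, hi])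
      · rw [h1]
        exact dvd_mul_right _ _)
  obtain ⟨i, -, hwf⟩ := h2 v hv
  erw [Genus.card_class] at hwf
  set a := Function.minimalPeriod (fun y => γ • y) i with hadef
  have ha : a ∣ k := Genus.minimalPeriod_dvd hγk i
  obtain ⟨b, hb⟩ := ha
  have hb0 : 0 < b := Nat.pos_of_ne_zero fun h0 => by simp [h0] at hb; omega
  have ha0 : (a : ℤ) ≠ 0 := by
    intro h0
    have : a = 0 := by exact_mod_cast h0
    simp [this] at hb; omega
  have hord : ∀ f : ↥(FC M Δ), f ≠ 0 → ordAt (i.out⁻¹ • τ) (evC f) = b * v.ord f := by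
    intro f hf
    have h3 := hwf f hf
    have e : vlog (valAt τ) (σI i f) = ordAt (i.out⁻¹ • τ) (evC f) := by
      show ordAt τ (σI i f) = _
      rw [σI_apply, JTors.ordAt_pullSL _ _ ((map_ne_zero _).mpr hf)]
    rw [e] at h3
    refine mul_left_cancel₀ ha0 (h3.trans ?_)
    rw [hb]; push_cast; ring
  refine ⟨i.out⁻¹ • τ, b, hb0, hord, ?_⟩
  rcases hell with rfl | ⟨hp, hγ⟩
  · exact Or.inl (Nat.eq_one_of_dvd_one ⟨a, by rw [hb, mul_comm]⟩)
  rcases hp.eq_one_or_self_of_dvd b ⟨a, by rw [hb, mul_comm]⟩ with h1 | h1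
  · exact Or.inl h1
  · refine Or.inr ⟨i.out⁻¹ * γ * i.out, ?_, ?_⟩
    · have := HasEllType_conj i.out⁻¹ hγ
      rwa [inv_inv, ← h1] at this
    · rw [← smul_eq_self_iff]
      refine Function.minimalPeriod_eq_one_iff_isFixedPt.mp ?_
      show a = 1
      have : a * k = 1 * k := by rw [one_mul]; nth_rw 1 [← h1]; exact hb.symm
      exact Nat.eq_of_mul_eq_mul_right hp.pos this

/-! ### cusps -/

/-- the conjugates of the function field at the cusps -/
def σC (q : CosH M Δ) : ↥(FC M Δ) →ₐ[ℂ] LaurentSeries ℂ := (realC M Δ q.out⁻¹).hom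

theorem θ_grpH_mul {w : ℤ} {F : ℍ → ℂ} (hF : IsMFH M Δ w F) {h : SL(2, ℤ)} (hh : h ∈ grpH M Δ)
    (δ : SL(2, ℤ)) : (realC M Δ (h * δ)).θ w F = (realC M Δ δ).θ w F := by
  rw [realC_θ, realC_θ, SlashAction.slash_mul, hF.inv h hh]

theorem vX_θ_mul_T {w : ℤ} {F : ℍ → ℂ} (hF : IsMFH M Δ w F) (h0 : F ≠ 0) (δ : SL(2, ℤ)) (m : ℤ) :
    vX ((realC M Δ (δ * ModularGroup.T ^ m)).θ w F) = vX ((realC M Δ δ).θ w F) := by
  have key : ∀ x : LaurentSeries ℂ, x ≠ 0 → vX x = WithZero.exp (-vlog vX x) := fun x hx => by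
    rw [vlog, neg_neg, WithZero.exp_log ((Valuation.ne_zero_iff _).mpr hx)]
  rw [key _ ((realC M Δ _).ne_zero hF h0), key _ ((realC M Δ _).ne_zero hF h0),
    vlog_realC_mul_T hF δ m]

theorem vX_hom_mul_T {h : SL(2, ℤ)} (hh : h ∈ grpH M Δ) (δ : SL(2, ℤ)) (m : ℤ)
    (x : ↥(FC M Δ)) :
    vX ((realC M Δ (h * (δ * ModularGroup.T ^ m))).hom x) = vX ((realC M Δ δ).hom x) := by
  obtain ⟨w, F, G, hq⟩ := mem_FC.mp x.2
  rw [Realisation.hom_eq _ hq, Realisation.hom_eq _ hq, map_div₀, map_div₀,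
    θ_grpH_mul hq.num hh, θ_grpH_mul hq.den hh, vX_θ_mul_T hq.den hq.den_ne]
  refine congrArg (· / _) ?_
  rcases eq_or_ne F 0 with e | hF
  · rw [realC_θ, realC_θ, e, SlashAction.zero_slash, SlashAction.zero_slash]
  · exact vX_θ_mul_T hq.num hF _ _

theorem σC_smul_T (m : ℤ) (q : CosH M Δ) (x : ↥(FC M Δ)) :
    vX (σC (ModularGroup.T ^ m • q) x) = vX (σC q x) := by
  obtain ⟨h, hh, e⟩ := out_smul (ModularGroup.T ^ m) q
  have key := vX_hom_mul_T (inv_mem hh) q.out⁻¹ (-m) x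
  have e' : (ModularGroup.T ^ m • q).out⁻¹ = h⁻¹ * (q.out⁻¹ * ModularGroup.T ^ (-m)) := by
    rw [e, mul_inv_rev, mul_inv_rev, zpow_neg]
  unfold σC
  rw [e']
  exact key

theorem vX_const {c : ℂ} (hc : c ≠ 0) : vX (algebraMap ℂ (LaurentSeries ℂ) c) = 1 := by
  have hne : algebraMap ℂ (LaurentSeries ℂ) c ≠ 0 := (map_ne_zero _).mpr hc
  have h : vlog vX (algebraMap ℂ (LaurentSeries ℂ) c) = 0 := by
    refine vlog_eq_of_coeff (fun i hi => ?_) ?_
    · rw [algebraMap_laurentSeries_eq_single, HahnSeries.coeff_single_of_ne (by omega)]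
    · rw [algebraMap_laurentSeries_eq_single, HahnSeries.coeff_single_same]
      exact hc
  rw [vlog, neg_eq_zero] at h
  rw [← WithZero.exp_log ((Valuation.ne_zero_iff vX).mpr hne), h, WithZero.exp_zero]

theorem θ_levelOne {w : ℤ} {F : ℍ → ℂ} (hF : ModFun.IsMF 1 w F) (δ : SL(2, ℤ)) :
    (realC M Δ δ).θ w F = qExpand ℂ M (HahnSeries.ofPowerSeries ℤ ℂ (qx F)) := by
  rw [realC_θ, hF.inv δ (ModFun.mem_Gamma0_one δ), qx_dil_series hF.good]

theorem vlog_qx_delta :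
    vlog vX (HahnSeries.ofPowerSeries ℤ ℂ (qx ModularForm.discriminant)) = (1 : ℕ) := by
  refine vlog_ofPowerSeries (fun i hi => ?_) ?_
  · refine PowerSeries.coeff_of_lt_order i ?_
    rw [qx, ModularForm.discriminant_qExpansion_order]
    exact_mod_cast hi
  · rw [qx, ModularForm.discriminant_qExpansion_coeff_one]
    exact one_ne_zero

theorem vlog_qx_E4 :
    vlog vX (HahnSeries.ofPowerSeries ℤ ℂ (qx ((ModularForm.E₄ : ℍ → ℂ) ^ 3))) = (0 : ℕ) := by
  refine vlog_ofPowerSeries (fun i hi => absurd hi (Nat.not_lt_zero i)) ?_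
  rw [ModFun.Good.qx_pow isMF_E4.good, PowerSeries.coeff_zero_eq_constantCoeff, map_pow,
    ModFun.qx_E4, ← PowerSeries.coeff_zero_eq_constantCoeff_apply, PowerSeries.coeff_map]
  simp [eisenstein4]

theorem isMF_E4_cube : ModFun.IsMF 1 12 ((ModularForm.E₄ : ℍ → ℂ) ^ 3) :=
  (isMF_E4.pow 3).cast (by norm_num)

theorem σC_jC (q : CosH M Δ) : σC q (jC M Δ) =
    qExpand ℂ M (HahnSeries.ofPowerSeries ℤ ℂ (qx ((ModularForm.E₄ : ℍ → ℂ) ^ 3))) /
      qExpand ℂ M (HahnSeries.ofPowerSeries ℤ ℂ (qx ModularForm.discriminant)) := by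
  rw [σC, Realisation.hom_eq _ isQuotC_jC, θ_levelOne isMF_E4_cube, θ_levelOne isMF_delta]

theorem σC_injective (hΔ : (-1 : (ZMod M)ˣ) ∈ Δ) :
    Function.Injective (σC : CosH M Δ → ↥(FC M Δ) →ₐ[ℂ] LaurentSeries ℂ) := by
  intro q r h
  have hw := isQuotC_wSer hΔ (1 : (ZMod M)ˣ)
  have e : ∀ s : CosH M Δ, σC s (wCC hΔ) =
      (realC M Δ s.out⁻¹).θ (genWt Δ) (numW hΔ 1) /
        qExpand ℂ M (HahnSeries.ofPowerSeries ℤ ℂ (qx (discriminant ^ expN Δ))) := fun s => by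
    rw [σC, Realisation.hom_eq _ (X := wCC hΔ) hw,
      θ_levelOne ((isMF_delta.pow (expN Δ)).cast (w' := genWt Δ) rfl)]
  have h1 := DFunLike.congr_fun h (wCC hΔ)
  rw [e, e] at h1
  have hD : qExpand ℂ M (HahnSeries.ofPowerSeries ℤ ℂ (qx (discriminant ^ expN Δ))) ≠ 0 := by
    rw [← θ_levelOne (M := M) (Δ := Δ) ((isMF_delta.pow (expN Δ)).cast (w' := genWt Δ) rfl) 1]
    exact (realC M Δ 1).ne_zero hw.den hw.den_ne
  rw [div_eq_div_iff hD hD, mul_left_inj' hD, realC_θ, realC_θ,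
    HahnSeries.ofPowerSeries_injective.eq_iff] at h1
  have h2 := dil_injective M (Good.qx_inj (hw.num.good_cusp _) (hw.num.good_cusp _) h1)
  have hmem : q.out⁻¹ * r.out ∈ grpH M Δ := by
    refine numW_stab hΔ ?_
    show numW hΔ 1 ∣[genWt Δ] (q.out⁻¹ * r.out) = _
    rw [SlashAction.slash_mul, h2, ← SlashAction.slash_mul, inv_mul_cancel, SlashAction.slash_one]
  rw [← QuotientGroup.out_eq' q, ← QuotientGroup.out_eq' r, QuotientGroup.eq]
  exact hmem

/-- a place over `j = ∞` is the order at a cusp -/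
theorem exists_cusp (hΔ : (-1 : (ZMod M)ˣ) ∈ Δ) (v : Place ℂ ↥(FC M Δ))
    (hv : v.ord (jC M Δ) < 0) :
    ∃ (δ : SL(2, ℤ)) (a b : ℕ), a * b = M ∧ 0 < a ∧
      δ * ModularGroup.T ^ (a : ℤ) * δ⁻¹ ∈ grpH M Δ ∧
        ∀ f : ↥(FC M Δ), f ≠ 0 → vlog vX ((realC M Δ δ).hom f) = b * v.ord f := by
  classical
  haveI := fnFieldC hΔ
  set U : LaurentSeries ℂ :=
    (qExpand ℂ M (HahnSeries.ofPowerSeries ℤ ℂ (qx ((ModularForm.E₄ : ℍ → ℂ) ^ 3))) /
      qExpand ℂ M (HahnSeries.ofPowerSeries ℤ ℂ (qx ModularForm.discriminant)))⁻¹ with hUdef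
  have hU : ∀ i, σC i (jC M Δ)⁻¹ = U := fun i => by rw [map_inv₀, σC_jC, hUdef]
  have hE0 : HahnSeries.ofPowerSeries ℤ ℂ (qx ((ModularForm.E₄ : ℍ → ℂ) ^ 3)) ≠ 0 :=
    (isQuotC_jC (M := M) (Δ := Δ)).num.qx_ne_zero fun e => by
      have := vlog_qx_E4
      have h0 : HahnSeries.ofPowerSeries ℤ ℂ (qx ((ModularForm.E₄ : ℍ → ℂ) ^ 3)) = 0 := by
        rw [e, show qx (0 : ℍ → ℂ) = 0 from qExpansion_zero 1, map_zero]
      have h1 : σC (cos₁ M Δ) (jC M Δ) = 0 := by rw [σC_jC, h0, map_zero, zero_div]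
      exact transcendental_jC (M := M) (Δ := Δ) (by
        rw [(map_eq_zero _).mp h1]; exact isAlgebraic_zero)
  have hD0 : HahnSeries.ofPowerSeries ℤ ℂ (qx ModularForm.discriminant) ≠ 0 :=
    (isQuotC_jC (M := M) (Δ := Δ)).den.qx_ne_zero (isQuotC_jC (M := M) (Δ := Δ)).den_ne
  have hUv : vlog vX U = M := by
    rw [hUdef, Genus.vlog_inv, div_eq_mul_inv, Genus.vlog_mul _ ((map_ne_zero _).mpr hE0)
      (inv_ne_zero ((map_ne_zero _).mpr hD0)), Genus.vlog_inv, vlog_qExpand M hE0,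
      vlog_qExpand M hD0, vlog_qx_E4, vlog_qx_delta]
    simp
  have hper : ∀ i : CosH M Δ, ModularGroup.T ^ M • i = i := fun i => by
    rw [smul_eq_self_iff, ← zpow_natCast]
    simpa [mul_assoc] using T_pow_level_conj (M := M) (Δ := Δ) i.out⁻¹
  have hconj : ∀ i : CosH M Δ, ∀ a : ℕ, Function.minimalPeriod (fun y => ModularGroup.T • y) i = a →
      i.out⁻¹ * ModularGroup.T ^ (a : ℤ) * i.out⁻¹⁻¹ ∈ grpH M Δ := fun i a ha => by
    rw [inv_inv, ← smul_eq_self_iff, zpow_natCast, ← ha]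
    exact Genus.smul_pow_minimalPeriod _ i
  obtain ⟨-, h2⟩ := JTors.fibre_exact (K := ℂ)
    (RR.transcendental_inv (transcendental_jC (M := M) (Δ := Δ))) vX
    (fun d hd => vX_const hd) σC (σC_injective hΔ)
    (by rw [card_cosH', RR.ndeg_congr (RR.KK_inv _), ndeg_jC hΔ]) hU hUv
    (Nat.pos_of_ne_zero (NeZero.ne M))
    (MulAction.orbitRel (Subgroup.zpowers ModularGroup.T) (CosH M Δ))
    (fun i i' h x => by
      obtain ⟨⟨g, m, rfl⟩, hg⟩ := h
      change ModularGroup.T ^ m • i' = i at hg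
      rw [← hg, σC_smul_T])
    (fun i x hx => by
      erw [Genus.card_class]
      set a := Function.minimalPeriod (fun y => ModularGroup.T • y) i with ha
      obtain ⟨b, hb⟩ := Genus.minimalPeriod_dvd hper i
      rw [← ha] at hb
      haveI : NeZero a := ⟨fun h => NeZero.ne M (by rw [hb, h, zero_mul])⟩
      haveI : NeZero b := ⟨fun h => NeZero.ne M (by rw [hb, h, mul_zero])⟩
      obtain ⟨w, F, G, hq⟩ := mem_FC.mp x.2
      have hF0 : F ≠ 0 := fun e => by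
        refine hx ((map_eq_zero (σC i)).mp ?_)
        rw [σC, Realisation.hom_eq _ hq, realC_θ, e, SlashAction.zero_slash,
          show qx (dil M (0 : ℍ → ℂ)) = 0 from qExpansion_zero 1, map_zero, zero_div]
      have key : ∀ {H : ℍ → ℂ}, IsMFH M Δ w H →
          (b : ℤ) ∣ vlog vX ((realC M Δ i.out⁻¹).θ w H) := fun {H} hH => by
        rw [realC_θ]
        exact vlog_dil_dvd a b M hb.symm (ModFun.mdiff_slash hH.holo w _) (hH.bdd _)
          (slash_slash_T_zpow (hH.inv _ (hconj i a rfl)))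
      have := dvd_sub (key hq.num) (key hq.den)
      rw [σC, Realisation.hom_eq _ hq, div_eq_mul_inv,
        Genus.vlog_mul _ ((realC M Δ _).ne_zero hq.num hF0)
          (inv_ne_zero ((realC M Δ _).ne_zero hq.den hq.den_ne)), Genus.vlog_inv,
        ← sub_eq_add_neg]
      conv_lhs => rw [hb, Nat.cast_mul]
      exact mul_dvd_mul_left _ this)
  obtain ⟨i, -, hwf⟩ := h2 v (by rw [Place.ord_inv]; omega)
  erw [Genus.card_class] at hwf
  set a := Function.minimalPeriod (fun y => ModularGroup.T • y) i with ha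
  obtain ⟨b, hb⟩ := Genus.minimalPeriod_dvd hper i
  rw [← ha] at hb
  have ha0 : 0 < a := Nat.pos_of_ne_zero fun h => NeZero.ne M (by rw [hb, h, zero_mul])
  refine ⟨i.out⁻¹, a, b, hb.symm, ha0, hconj i a rfl, fun f hf => ?_⟩
  refine mul_left_cancel₀ (by exact_mod_cast ha0.ne' : (a : ℤ) ≠ 0) ((hwf f hf).trans ?_)
  have hbz : (M : ℤ) = a * b := by exact_mod_cast hb
  rw [hbz]; ring

/-- every place is of one of the two kinds -/
theorem place_cases (hΔ : (-1 : (ZMod M)ˣ) ∈ Δ) (v : Place ℂ ↥(FC M Δ)) :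
    v.ord (jC M Δ) < 0 ∨ ∃ c : ℂ, 0 < v.ord (jC M Δ - algebraMap ℂ ↥(FC M Δ) c) := by
  haveI := fnFieldC hΔ
  by_cases h : RR.Bd v (jC M Δ) 0
  · exact Or.inr ⟨_, RR.ord_res_pos transcendental_jC h⟩
  · exact Or.inl (RR.ord_neg_of_not_bd h)

end FLTAgent.DS
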