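import Fermat.Agent.DS.JacDefs

/-!
Area DS, parcel DS8: the residual eigensystem and a torsion point on which it is realised.
-/

set_option autoImplicit false
set_option linter.style.haveILetI false

noncomputable section

open UpperHalfPlane CongruenceSubgroup
open scoped MatrixGroups ModularForm
open FLTAgent.Chebotarev (QBar GalQBar)
open IsLocalRing (ResidueField residue)

namespace FLTAgent.DS

/-- mapping coefficients commutes with the operators -/
theorem seqOp_map {R S : Type*} [CommRing R] [CommRing S] (f : R →+* S) (M : ℕ)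
    (χ : (ZMod M)ˣ →* R) (χ' : (ZMod M)ˣ →* S) (hχ : ∀ d, f (χ d) = χ' d) (i : OpIdx M)
    (s : ℕ → R) : seqOp M χ' i (fun n => f (s n)) = fun n => f (seqOp M χ i s n) := by
  funext n
  cases i with
  | inl p =>
    simp only [seqOp, seqT, AddMonoidHom.coe_toIntLinearMap, AddMonoidHom.mk'_apply, map_add,
      map_mul, map_natCast, hχ, apply_ite f, map_zero]
  | inr d =>
    simp only [seqOp, AddMonoidHom.coe_toIntLinearMap, AddMonoidHom.mk'_apply, map_mul, hχ]

theorem lift_seqOp_map {R S : Type*} [CommRing R] [CommRing S] (f : R →+* S) (M : ℕ)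
    (χ : (ZMod M)ˣ →* R) (χ' : (ZMod M)ˣ →* S) (hχ : ∀ d, f (χ d) = χ' d)
    (P : FreeAlgebra ℤ (OpIdx M)) :
    ∀ s : ℕ → R, FreeAlgebra.lift ℤ (seqOp M χ') P (fun n => f (s n)) =
      fun n => f (FreeAlgebra.lift ℤ (seqOp M χ) P s n) := by
  induction P using FreeAlgebra.induction with
  | grade0 r => intro s; funext n; simp
  | grade1 i =>
    intro s
    rw [FreeAlgebra.lift_ι_apply, FreeAlgebra.lift_ι_apply, seqOp_map f M χ χ' hχ]
  | mul a b ha hb =>
    intro s
    rw [map_mul, map_mul, Module.End.mul_apply, Module.End.mul_apply, hb, ha]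
  | add a b ha hb =>
    intro s
    funext n
    simp [ha, hb]

/-- an eigenvector of all operators is one of every polynomial in them -/
theorem lift_apply_eigen {V : Type*} [AddCommGroup V] {k : Type*} [CommRing k] [Module k V] {ι : Type*}
    (u : ι → Module.End ℤ V) (hu : ∀ i (c : k) v, u i (c • v) = c • u i v) (lam : ι → k) (v : V)
    (h : ∀ i, u i v = lam i • v) (P : FreeAlgebra ℤ ι) :
    FreeAlgebra.lift ℤ u P v = FreeAlgebra.lift ℤ lam P • v := by
  suffices ∀ c : k, FreeAlgebra.lift ℤ u P (c • v) = (c * FreeAlgebra.lift ℤ lam P) • v by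
    simpa using this 1
  induction P using FreeAlgebra.induction with
  | grade0 r =>
    intro c
    rw [AlgHom.commutes, AlgHom.commutes, Algebra.algebraMap_eq_smul_one,
      Algebra.algebraMap_eq_smul_one, LinearMap.smul_apply, Module.End.one_apply, mul_smul_comm,
      mul_one, smul_assoc]
  | grade1 i =>
    intro c
    rw [FreeAlgebra.lift_ι_apply, FreeAlgebra.lift_ι_apply, hu, h, smul_smul]
  | mul a b ha hb =>
    intro c
    rw [map_mul, Module.End.mul_apply, hb, ha, map_mul, mul_assoc, mul_comm (FreeAlgebra.lift ℤ lam b)]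
  | add a b ha hb =>
    intro c
    rw [map_add, LinearMap.add_apply, ha, hb, map_add, mul_add, add_smul]

variable {N : ℕ} {D : EigenInput N} {ℓ : ℕ} {A : ValuationSubring QBar} (W : Weight2Input D ℓ A)

/-- the character modulo the place -/
def Weight2Input.χres : (ZMod W.M)ˣ →* ResidueField A := (residue A : A →* ResidueField A).comp W.χ

/-- the eigenvalues of the operators modulo the place -/
def Weight2Input.lam : OpIdx W.M → ResidueField A
  | Sum.inl p => residue A (W.b (p.1 : ℕ))
  | Sum.inr d => W.χres d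

/-- the residual eigensystem -/
def Weight2Input.theta : FreeAlgebra ℤ (OpIdx W.M) →ₐ[ℤ] ResidueField A := FreeAlgebra.lift ℤ W.lam

/-- the residual eigensystem factors through the lattice -/
theorem Weight2Input.theta_eq_zero {Δ : Subgroup (ZMod W.M)ˣ} (JD : JacData W.M Δ) (hΔ : Δ = W.Δ)
    {P : FreeAlgebra ℤ (OpIdx W.M)} (hP : FreeAlgebra.lift ℤ JD.op P = 0) : W.theta P = 0 := by
  subst hΔ
  let f : A →+* ℂ := Genus.embC.comp A.subtype
  have hf : Function.Injective f := Genus.embC.injective.comp A.subtype_injective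
  have h0 := JD.faithful ((f : A →* ℂ).comp W.χ)
    (fun d hd => by rw [MonoidHom.comp_apply, W.χ_triv d hd, map_one]) W.g W.cusp P hP
  have hb : (fun n => (ModFun.qx W.g).coeff n) = fun n => f (W.b n) :=
    funext fun n => (W.b_spec n).symm
  rw [hb, lift_seqOp_map f W.M W.χ _ (fun d => rfl)] at h0
  have h1 : ∀ n, FreeAlgebra.lift ℤ (seqOp W.M W.χ) P W.b n = 0 := fun n =>
    hf ((congrFun h0 n).trans (map_zero f).symm)
  have h2 := lift_seqOp_map (residue A) W.M W.χ W.χres (fun d => rfl) P W.b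
  have heig : ∀ i, seqOp W.M W.χres i (fun n => residue A (W.b n)) =
      W.lam i • fun n => residue A (W.b n) := by
    intro i
    funext n
    cases i with
    | inl p =>
      obtain ⟨-, h4⟩ := W.eigen (p.1 : ℕ) p.1.2 p.2
      have e : ((p.1 : ℕ) : ResidueField A) * W.χres (ZMod.unitOfCoprime (p.1 : ℕ)
          ((Nat.Prime.coprime_iff_not_dvd p.1.2).2 p.2)) = redQ A (D.e (p.1 : ℕ)) :=
        W.χ_spec (p.1 : ℕ) p.1.2 p.2
      simp only [seqOp, seqT, AddMonoidHom.coe_toIntLinearMap, AddMonoidHom.mk'_apply, e]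
      exact h4 n
    | inr d => rfl
  rw [lift_apply_eigen (seqOp W.M W.χres) (fun i c v => by
      funext n
      cases i with
      | inl p =>
        simp only [seqOp, seqT, AddMonoidHom.coe_toIntLinearMap, AddMonoidHom.mk'_apply,
          Pi.smul_apply, smul_eq_mul]
        split_ifs <;> ring
      | inr d =>
        simp only [seqOp, AddMonoidHom.coe_toIntLinearMap, AddMonoidHom.mk'_apply, Pi.smul_apply,
          smul_eq_mul]
        ring) W.lam _ heig P] at h2
  have h3 := congrFun h2 1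
  simp only [Pi.smul_apply, smul_eq_mul, W.b_one, mul_one, h1, map_zero] at h3
  exact h3

theorem JacData.tors_lift {M : ℕ} {Δ : Subgroup (ZMod M)ˣ} (JD : JacData M Δ) {n : ℕ} (hn : 0 < n)
    (P : FreeAlgebra ℤ (OpIdx M)) : ∀ v, JD.tors n (FreeAlgebra.lift ℤ JD.op P v) =
      FreeAlgebra.lift ℤ JD.opJ P (JD.tors n v) := by
  induction P using FreeAlgebra.induction with
  | grade0 r => intro v; simp [map_zsmul]
  | grade1 i => intro v; rw [FreeAlgebra.lift_ι_apply, FreeAlgebra.lift_ι_apply, JD.tors_op n hn]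
  | mul a b ha hb =>
    intro v
    rw [map_mul, Module.End.mul_apply, ha, hb, map_mul, Module.End.mul_apply]
  | add a b ha hb =>
    intro v
    rw [map_add, LinearMap.add_apply, map_add, ha, hb, map_add, LinearMap.add_apply]

theorem JacData.act_lift {M : ℕ} {Δ : Subgroup (ZMod M)ˣ} (JD : JacData M Δ) (σ : GalQBar)
    (P : FreeAlgebra ℤ (OpIdx M)) : Commute (JD.act σ) (FreeAlgebra.lift ℤ JD.opJ P) := by
  induction P using FreeAlgebra.induction with
  | grade0 r => rw [AlgHom.commutes]; exact (Algebra.commutes r _).symm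
  | grade1 i => rw [FreeAlgebra.lift_ι_apply]; exact JD.act_op σ i
  | mul a b ha hb => rw [map_mul]; exact ha.mul_right hb
  | add a b ha hb => rw [map_add]; exact ha.add_right hb

/-- a torsion point on which all operators act by the residual eigensystem -/
theorem Weight2Input.exists_point {Δ : Subgroup (ZMod W.M)ˣ} (JD : JacData W.M Δ) (hΔ : Δ = W.Δ)
    (hℓ : ℓ.Prime) (hA : A.LiesOverPrime ℓ) :
    ∃ x : JD.J, x ≠ 0 ∧ ℓ • x = 0 ∧
      ∀ P, W.theta P = 0 → FreeAlgebra.lift ℤ JD.opJ P x = 0 := by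
  classical
  haveI := FLTAgent.Chebotarev.charP_residue hℓ hA
  set φ := FreeAlgebra.lift ℤ JD.op with hφ
  let T : Subalgebra ℤ (Module.End ℤ JD.Lam) := Algebra.adjoin ℤ (Set.range JD.op)
  have hT : T = φ.range := Algebra.adjoin_range_eq_range_freeAlgebra_lift ℤ (OpIdx W.M) JD.op
  haveI : IsMulCommutative T := Algebra.isMulCommutative_adjoin ℤ fun _ ha _ hb => by
    obtain ⟨i, rfl⟩ := ha
    obtain ⟨j, rfl⟩ := hb
    exact JD.op_comm i j
  letI : CommRing T :=
    { (inferInstance : Ring T) with mul_comm := fun a b => mul_comm' a b }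
  have hpre : ∀ t : T, ∃ P, φ P = (t : Module.End ℤ JD.Lam) := fun t => by
    obtain ⟨u, hu⟩ := t
    rw [hT] at hu
    exact hu
  choose pre hpre using hpre
  have hwd : ∀ P P', φ P = φ P' → W.theta P = W.theta P' := fun P P' h =>
    sub_eq_zero.1 ((map_sub W.theta P P').symm.trans
      (W.theta_eq_zero JD hΔ (by rw [map_sub, sub_eq_zero]; exact h)))
  let θ : T →+* ResidueField A :=
    { toFun := fun t => W.theta (pre t)
      map_one' := (hwd _ 1 (by rw [hpre, map_one]; rfl)).trans (map_one _)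
      map_mul' := fun a b => (hwd _ (pre a * pre b)
        (by rw [hpre, map_mul, hpre, hpre]; rfl)).trans (map_mul _ _ _)
      map_zero' := (hwd _ 0 (by rw [hpre, map_zero]; rfl)).trans (map_zero _)
      map_add' := fun a b => (hwd _ (pre a + pre b)
        (by rw [hpre, map_add, hpre, hpre]; rfl)).trans (map_add _ _ _) }
  set 𝔪 : Ideal T := RingHom.ker θ with h𝔪
  haveI hEnd : Module.Finite ℤ (Module.End ℤ JD.Lam) := by
    obtain ⟨n, g, hg⟩ := Module.Finite.exists_fin' ℤ JD.Lam
    exact Module.Finite.of_injective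
      (LinearMap.lcomp ℤ JD.Lam g : (JD.Lam →ₗ[ℤ] JD.Lam) →ₗ[ℤ] _)
      fun a b h => LinearMap.ext fun v => by
        obtain ⟨w, rfl⟩ := hg v
        exact LinearMap.congr_fun h w
  haveI hTfin : Module.Finite ℤ T := Module.Finite.of_injective T.val.toLinearMap Subtype.val_injective
  haveI : IsNoetherianRing T := isNoetherian_of_tower ℤ (isNoetherian_of_isNoetherianRing_of_finite ℤ T)
  haveI : Module.Finite T JD.Lam := Module.Finite.of_restrictScalars_finite ℤ T JD.Lam
  let I : Ideal T := Ideal.span {(ℓ : T)}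
  let M0 := JD.Lam ⧸ (I • (⊤ : Submodule T JD.Lam))
  have hℓk : (ℓ : ResidueField A) = 0 := CharP.cast_eq_zero _ ℓ
  have hann : Module.annihilator T M0 ≤ 𝔪 := by
    intro t ht
    have hr : LinearMap.range ((t : Module.End ℤ JD.Lam)) ≤ (Ideal.span {(ℓ : ℤ)}) • ⊤ := by
      rintro _ ⟨v, rfl⟩
      have := Module.mem_annihilator.1 ht (Submodule.Quotient.mk v)
      rw [← Submodule.Quotient.mk_smul, Submodule.Quotient.mk_eq_zero, Submodule.ideal_span_singleton_smul,
        Submodule.mem_smul_pointwise_iff_exists] at this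
      obtain ⟨w, -, hw⟩ := this
      rw [Submodule.ideal_span_singleton_smul, Submodule.mem_smul_pointwise_iff_exists]
      refine ⟨w, trivial, ?_⟩
      show (ℓ : ℤ) • w = t • v
      rw [← hw, natCast_zsmul, Nat.cast_smul_eq_nsmul]
    obtain ⟨p, hpm, -, hpc, hp0⟩ :=
      LinearMap.exists_monic_and_natDegree_eq_and_coeff_mem_pow_and_aeval_eq_zero ℤ
        (t : Module.End ℤ JD.Lam) _ hr
    have h0 : Polynomial.aeval t p = 0 := Subtype.val_injective (by
      rw [← Subalgebra.coe_val, ← Polynomial.aeval_algHom_apply]; exact hp0)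
    have h1 : Polynomial.aeval (θ t) p = 0 := by
      have := congrArg θ h0
      rw [map_zero] at this
      rw [← this]
      exact Polynomial.aeval_algHom_apply θ.toIntAlgHom t p
    have h2 : Polynomial.aeval (θ t) p = θ t ^ p.natDegree := by
      rw [Polynomial.aeval_def, Polynomial.eval₂_eq_sum_range, Finset.sum_range_succ,
        hpm.coeff_natDegree, map_one, one_mul, add_eq_right]
      refine Finset.sum_eq_zero fun i hi => ?_
      have hle : (Ideal.span {(ℓ : ℤ)}) ^ (p.natDegree - i) ≤ Ideal.span {(ℓ : ℤ)} :=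
        Ideal.pow_le_self (by have := Finset.mem_range.1 hi; omega)
      obtain ⟨c, hc⟩ := Ideal.mem_span_singleton'.1 (hle (hpc i))
      rw [← hc, map_mul, map_natCast, hℓk, mul_zero, zero_mul]
    rw [h1] at h2
    exact RingHom.mem_ker.2 (pow_eq_zero_iff'.1 h2.symm).1
  haveI hmp : 𝔪.IsPrime := RingHom.ker_isPrime θ
  have hℓann : (ℓ : T) ∈ Module.annihilator T M0 := by
    refine Module.mem_annihilator.2 fun v => ?_
    induction v using Submodule.Quotient.induction_on with
    | H v =>
      rw [← Submodule.Quotient.mk_smul, Submodule.Quotient.mk_eq_zero]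
      exact Submodule.smul_mem_smul (Ideal.mem_span_singleton_self _) trivial
  obtain ⟨q, hq, hqm⟩ := Ideal.exists_minimalPrimes_le hann
  haveI := hq.1.1
  have hqmax : q.IsMaximal := by
    have hℓq : (ℓ : T) ∈ q := hq.1.2 hℓann
    obtain ⟨n, g, hg⟩ := Module.Finite.exists_fin' ℤ T
    have hs : Function.Surjective fun c : Fin n → Fin ℓ =>
        Ideal.Quotient.mk q (g fun i => ((c i : ℕ) : ℤ)) := by
      intro y
      obtain ⟨t, rfl⟩ := Ideal.Quotient.mk_surjective y
      obtain ⟨c, rfl⟩ := hg t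
      refine ⟨fun i => ⟨((c i) % ℓ).toNat, by
        have h1 := Int.emod_lt_of_pos (c i) (by exact_mod_cast hℓ.pos : (0 : ℤ) < ℓ)
        have h2 := Int.emod_nonneg (c i) (by exact_mod_cast hℓ.ne_zero : (ℓ : ℤ) ≠ 0)
        omega⟩, ?_⟩
      rw [eq_comm, ← sub_eq_zero, ← map_sub, Ideal.Quotient.eq_zero_iff_mem, ← map_sub]
      have : (c - fun i => ((((c i) % ℓ).toNat : ℕ) : ℤ)) = (ℓ : ℤ) • fun i => c i / ℓ := by
        funext i
        rw [Pi.sub_apply, Pi.smul_apply, smul_eq_mul,
          Int.toNat_of_nonneg (Int.emod_nonneg _ (by exact_mod_cast hℓ.ne_zero))]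
        linarith [Int.emod_add_mul_ediv (c i) ℓ]
      rw [this, map_zsmul, zsmul_eq_mul, Int.cast_natCast]
      exact q.mul_mem_right _ hℓq
    haveI : Finite (T ⧸ q) := Finite.of_surjective _ hs
    exact Ideal.Quotient.maximal_of_isField _ (Finite.isField_of_domain _)
  have hqeq : q = 𝔪 := hqmax.eq_of_le hmp.ne_top hqm
  have hass : IsAssociatedPrime 𝔪 M0 :=
    hqeq ▸ Module.associatedPrimes.minimalPrimes_annihilator_subset_associatedPrimes T M0 hq
  obtain ⟨-, y, hy⟩ := isAssociatedPrime_iff.1 hass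
  obtain ⟨v, rfl⟩ := Submodule.Quotient.mk_surjective _ y
  have hmem : ∀ t : T, t ∈ 𝔪 → ∃ w, (t : Module.End ℤ JD.Lam) v = (ℓ : ℤ) • w := by
    intro t ht
    rw [hy, Submodule.mem_colon_singleton, Submodule.mem_bot, ← Submodule.Quotient.mk_smul,
      Submodule.Quotient.mk_eq_zero, Submodule.ideal_span_singleton_smul,
      Submodule.mem_smul_pointwise_iff_exists] at ht
    obtain ⟨w, -, hw⟩ := ht
    refine ⟨w, ?_⟩
    show t • v = _
    rw [← hw, natCast_zsmul, Nat.cast_smul_eq_nsmul]
  refine ⟨JD.tors ℓ v, fun h0 => ?_, JD.tors_nsmul ℓ hℓ.pos v, fun P hP => ?_⟩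
  · obtain ⟨w, hw⟩ := JD.tors_eq_zero ℓ hℓ.pos v h0
    have hmk : (Submodule.Quotient.mk v : M0) = 0 := by
      rw [Submodule.Quotient.mk_eq_zero, Submodule.ideal_span_singleton_smul,
        Submodule.mem_smul_pointwise_iff_exists]
      exact ⟨w, trivial, by rw [hw, natCast_zsmul, Nat.cast_smul_eq_nsmul]⟩
    rw [hmk] at hy
    exact hmp.ne_top (hy.trans (eq_top_iff.2 fun t _ => Submodule.mem_colon_singleton.2
      (by rw [smul_zero]; exact Submodule.zero_mem _)))
  · have hPT : φ P ∈ T := by rw [hT]; exact ⟨P, rfl⟩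
    obtain ⟨w, hw⟩ := hmem ⟨φ P, hPT⟩ (RingHom.mem_ker.2
      ((hwd _ P (hpre ⟨φ P, hPT⟩)).trans hP))
    rw [← JD.tors_lift hℓ.pos, show φ P v = (ℓ : ℤ) • w from hw, map_zsmul, natCast_zsmul,
      JD.tors_nsmul ℓ hℓ.pos]

end FLTAgent.DS
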