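import Fermat.Agent.DS.PlacesC
import Fermat.Agent.DS.LamDefs
import Fermat.Agent.JTors.DescentAux
import Fermat.Agent.JTors.Monodromy
import Fermat.Agent.JTors.PoincareSeries

/-!
The torsion of the Jacobian of `X_H` is parametrised by the lattice: `φ` goes to the class of
`div (f) / n`, where `f` has an `n`-th root on `ℍ` with multiplier `exp (2πi φ / n)`.
-/

set_option autoImplicit false
set_option synthInstance.maxHeartbeats 100000
set_option linter.unusedSectionVars false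
set_option linter.style.haveILetI false

noncomputable section

open UpperHalfPlane CongruenceSubgroup ModularCurve ModularForm AlgebraicCurve
open scoped MatrixGroups Manifold WithZero

namespace FLTAgent.DS

open Genus (vlog)
open ModFun (qx Good dil)
open JTors (HolH MeroH ofH pullSL ordAt deltaH)
open Lat (LamH)
open scoped Genus

local notation "Qb" => AlgebraicClosure ℚ

variable {M : ℕ} [NeZero M] {Δ : Subgroup (ZMod M)ˣ} {n : ℕ}

/-! ### characters of the lattice -/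

/-- the character attached to a lattice element -/
def expH (n : ℕ) (φ : LamH M Δ) : grpH M Δ →* ℂ where
  toFun γ := Complex.exp (2 * Real.pi * Complex.I * ((φ.1 (Additive.ofMul γ) : ℤ) : ℂ) / n)
  map_one' := by simp
  map_mul' γ δ := by
    rw [ofMul_mul, map_add, Int.cast_add, ← Complex.exp_add]
    ring_nf

theorem expH_apply (n : ℕ) (φ : LamH M Δ) (γ : grpH M Δ) :
    expH n φ γ = Complex.exp (2 * Real.pi * Complex.I * ((φ.1 (Additive.ofMul γ) : ℤ) : ℂ) / n) :=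
  rfl

theorem expH_eq_one_of_eq_zero (n : ℕ) (φ : LamH M Δ) {γ : grpH M Δ}
    (h : φ.1 (Additive.ofMul γ) = 0) : expH n φ γ = 1 := by simp [expH_apply, h]

theorem expH_of_finOrder (n : ℕ) (φ : LamH M Δ) {γ : grpH M Δ} {k : ℕ} (hk : 0 < k)
    (h : γ ^ k = 1) : expH n φ γ = 1 := by
  refine expH_eq_one_of_eq_zero n φ ?_
  have : k • φ.1 (Additive.ofMul γ) = 0 := by
    rw [← map_nsmul, ← ofMul_pow, h, ofMul_one, map_zero]
  simpa [hk.ne'] using this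

theorem expH_conj_T (n : ℕ) (φ : LamH M Δ) (δ : SL(2, ℤ)) (m : ℤ)
    (h : δ * ModularGroup.T ^ m * δ⁻¹ ∈ grpH M Δ) : expH n φ ⟨_, h⟩ = 1 := by
  refine expH_eq_one_of_eq_zero n φ (φ.2 _ ?_)
  rw [Matrix.SpecialLinearGroup.coe_mul, Matrix.trace_mul_comm,
    ← Matrix.SpecialLinearGroup.coe_mul,
    inv_mul_cancel_left, ModularGroup.coe_T_zpow, Matrix.trace_fin_two]
  norm_num

theorem expH_add (n : ℕ) (φ ψ : LamH M Δ) : expH n (φ + ψ) = expH n φ * expH n ψ := by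
  refine MonoidHom.ext fun γ => ?_
  rw [MonoidHom.mul_apply, expH_apply, expH_apply, expH_apply, ← Complex.exp_add]
  congr 1
  simp only [Submodule.coe_add, AddMonoidHom.add_apply, Int.cast_add]
  ring

theorem expH_zero (n : ℕ) : expH n (0 : LamH M Δ) = 1 :=
  MonoidHom.ext fun γ => by simp [expH_apply]

theorem expH_pow_eq_one (hn : 0 < n) (φ : LamH M Δ) (γ : grpH M Δ) : expH n φ γ ^ n = 1 := by
  rw [expH_apply, ← Complex.exp_nat_mul, mul_div_cancel₀ _ (Nat.cast_ne_zero.mpr hn.ne'),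
    Complex.exp_eq_one_iff]
  exact ⟨φ.1 (Additive.ofMul γ), by ring⟩

theorem exists_smul_of_expH_eq_one (hn : 0 < n) {φ : LamH M Δ} (h : expH n φ = 1) :
    ∃ w : LamH M Δ, φ = (n : ℤ) • w := by
  have hd : ∀ γ, (n : ℤ) ∣ φ.1 γ := fun γ => (JTors.exp_eq_one_iff_dvd hn _).mp (by
    have := DFunLike.congr_fun h (Additive.toMul γ)
    rwa [expH_apply, ofMul_toMul, MonoidHom.one_apply] at this)
  refine ⟨⟨AddMonoidHom.mk' (fun γ => φ.1 γ / n) (fun a b => ?_), fun γ hγ => ?_⟩, ?_⟩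
  · rw [map_add, Int.add_ediv_of_dvd_left (hd a)]
  · show φ.1 _ / (n : ℤ) = 0
    rw [φ.2 γ hγ, Int.zero_ediv]
  · refine Subtype.ext (AddMonoidHom.ext fun γ => ?_)
    show φ.1 γ = _
    rw [SetLike.val_smul, AddMonoidHom.smul_apply, smul_eq_mul]
    exact (Int.mul_ediv_cancel' (hd γ)).symm

/-! ### roots with a multiplier -/

/-- `f` has an `n`-th root on `ℍ` with multiplier `χ` -/
def DatumH (n : ℕ) (χ : grpH M Δ →* ℂ) (f : ↥(FBH M Δ)) : Prop :=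
  ∃ ψ : MeroH, ψ ^ n = evQ M Δ f ∧
    ∀ γ : grpH M Δ, pullSL (γ : SL(2, ℤ)) ψ = algebraMap ℂ MeroH (χ γ) * ψ

theorem DatumH.mul {χ χ' : grpH M Δ →* ℂ} {f f' : ↥(FBH M Δ)} (h : DatumH n χ f)
    (h' : DatumH n χ' f') : DatumH n (χ * χ') (f * f') := by
  obtain ⟨ψ, hψ, hc⟩ := h
  obtain ⟨ψ', hψ', hc'⟩ := h'
  refine ⟨ψ * ψ', by rw [mul_pow, hψ, hψ', map_mul], fun γ => ?_⟩
  rw [map_mul, hc, hc', MonoidHom.mul_apply, map_mul]
  ring

theorem DatumH.inv {χ χ' : grpH M Δ →* ℂ} {f : ↥(FBH M Δ)} (h : DatumH n χ f)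
    (hχ : ∀ γ, χ γ * χ' γ = 1) : DatumH n χ' f⁻¹ := by
  obtain ⟨ψ, hψ, hc⟩ := h
  refine ⟨ψ⁻¹, by rw [inv_pow, hψ, map_inv₀], fun γ => ?_⟩
  rw [map_inv₀, hc, mul_inv, ← map_inv₀, inv_eq_of_mul_eq_one_right (hχ γ)]

theorem DatumH.pow_self (g : ↥(FBH M Δ)) : DatumH n 1 (g ^ n) :=
  ⟨evQ M Δ g, (map_pow _ _ _).symm, fun γ => by
    rw [evQ_invariant γ.2, MonoidHom.one_apply, map_one, one_mul]⟩

theorem DatumH.const_mul (hn : 0 < n) {χ : grpH M Δ →* ℂ} {f : ↥(FBH M Δ)} (h : DatumH n χ f)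
    (a : Qb) : DatumH n χ (algebraMap Qb ↥(FBH M Δ) a * f) := by
  obtain ⟨b, rfl⟩ := IsAlgClosed.exists_pow_nat_eq a hn
  have h1 := (DatumH.pow_self (n := n) (algebraMap Qb ↥(FBH M Δ) b)).mul h
  rwa [one_mul, ← map_pow] at h1

theorem DatumH.unique (hn : 0 < n) {χ χ' : grpH M Δ →* ℂ} {f : ↥(FBH M Δ)} (hf : f ≠ 0)
    (h : DatumH n χ f) (h' : DatumH n χ' f) : χ = χ' := by
  obtain ⟨ψ, hψ, hc⟩ := h
  obtain ⟨ψ', hψ', hc'⟩ := h'
  have hne : ∀ {y : MeroH}, y ^ n = evQ M Δ f → y ≠ 0 := fun {y} hy e => by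
    rw [e, zero_pow hn.ne', eq_comm, map_eq_zero] at hy
    exact hf hy
  obtain ⟨a, ha, hae⟩ := JTors.exists_const_of_pow_eq hn (c := 1) (y := ψ' / ψ)
    (by rw [div_pow, hψ, hψ', div_self ((map_ne_zero _).mpr hf), map_one])
  rw [div_eq_iff (hne hψ)] at hae
  refine MonoidHom.ext fun γ => JTors.algC_cancel (hne hψ') ?_
  rw [← hc', hae, map_mul, AlgHom.commutes, hc]
  ring

/-! ### construction -/

theorem pic_mk_eq_zero_iff {K F : Type*} [Field K] [Field F] [Algebra K F]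
    (D : Divisor.degZero (K := K) (F := F)) :
    Pic0.mk D = 0 ↔ ∃ g : F, g ≠ 0 ∧ ∀ v, (D : Divisor K F) v = v.ord g :=
  QuotientAddGroup.eq_zero_iff D

theorem boundedAtImInfty_pow {f : ℍ → ℂ} (h : IsBoundedAtImInfty f) :
    ∀ m : ℕ, IsBoundedAtImInfty (f ^ m)
  | 0 => by rw [pow_zero]; exact Filter.const_boundedAtFilter _ (1 : ℂ)
  | m + 1 => by rw [pow_succ]; exact (boundedAtImInfty_pow h m).mul h

theorem neg_one_sq : (-1 : SL(2, ℤ)) ^ 2 = 1 := by simp [neg_sq]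

/-- a witness that `x` is the torsion point attached to `φ` -/
def IsTorsH (n : ℕ) (φ : LamH M Δ) (x : JH M Δ) : Prop :=
  ∃ (f : ↥(FBH M Δ)) (D : Divisor.degZero (K := Qb) (F := ↥(FBH M Δ))), f ≠ 0 ∧
    DatumH n (expH n φ) f ∧
      (∀ v, (n : ℤ) * (D : Divisor Qb ↥(FBH M Δ)) v = v.ord f) ∧ x = Pic0.mk D

/-- a form of weight 36 with a multiplier, as an element of the function field -/
theorem exists_rootC (hΔ : (-1 : (ZMod M)ˣ) ∈ Δ) (hn : 0 < n) (φ : LamH M Δ) :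
    ∃ (X : ↥(FC M Δ)) (ψ : MeroH), X ≠ 0 ∧ ψ ^ n = evC X ∧
      (∀ γ : grpH M Δ, pullSL (γ : SL(2, ℤ)) ψ = algebraMap ℂ MeroH (expH n φ γ) * ψ) ∧
        ∀ v : Place ℂ ↥(FC M Δ), (n : ℤ) ∣ v.ord X := by
  have hneg : (-1 : SL(2, ℤ)) ∈ grpH M Δ := neg_one_mem_grpH hΔ
  obtain ⟨G, hd, hG, hs, hz⟩ := JTors.Poincare.exists_form (grpH M Δ) hneg (expH n φ)
    (fun γ => Complex.norm_eq_one_of_pow_eq_one (expH_pow_eq_one hn φ γ) hn.ne')
    (expH_of_finOrder n φ two_pos (Subtype.ext (by rw [Subgroup.coe_pow]; exact neg_one_sq)))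
  set χ := expH n φ with hχdef
  have hbd : ∀ δ : SL(2, ℤ), IsBoundedAtImInfty (G ∣[(36 : ℤ)] δ) := fun δ =>
    (hz δ).boundedAtFilter
  have hnum : IsMFH M Δ ((n : ℤ) * 36) (G ^ n) := by
    refine ⟨hd.pow n, fun γ hγ => ?_, fun δ => ?_⟩
    · rw [ModFun.pow_slash, hs ⟨γ, hγ⟩]
      funext τ
      simp only [Pi.pow_apply, Pi.smul_apply, smul_eq_mul, mul_pow]
      rw [expH_pow_eq_one hn φ, one_mul]
    · rw [ModFun.pow_slash]
      exact boundedAtImInfty_pow (hbd δ) n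
  have hden : IsMFH M Δ ((n : ℤ) * 36) (discriminant ^ (3 * n)) :=
    IsMFH.of_isMF ((JTors.isMF_delta_pow (3 * n)).cast (by push_cast; ring))
  have hDne : discriminant ^ (3 * n) ≠ 0 := fun e =>
    JTors.deltaH_pow_ne (3 * n) (Subtype.ext e)
  set X : LaurentSeries ℂ := HahnSeries.ofPowerSeries ℤ ℂ (qx (G ^ n)) /
    HahnSeries.ofPowerSeries ℤ ℂ (qx (discriminant ^ (3 * n))) with hX
  have hq : IsQuotC M Δ X ((n : ℤ) * 36) (G ^ n) (discriminant ^ (3 * n)) :=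
    ⟨hnum, hden, hDne, div_mul_cancel₀ _ (hden.qx_ne_zero hDne)⟩
  let GH : HolH := ⟨G, hd⟩
  have hGH : GH ≠ 0 := fun e => hG (congrArg Subtype.val e)
  have hGn : G ^ n ≠ 0 := fun e => pow_ne_zero n hGH (Subtype.ext e)
  set Xc : ↥(FC M Δ) := ⟨X, mem_FC.mpr ⟨_, _, _, hq⟩⟩
  set ψ : MeroH := ofH GH / ofH (deltaH ^ 3) with hψdef
  have hψ0 : ψ ≠ 0 :=
    div_ne_zero (JTors.ofH_ne_zero hGH) (JTors.ofH_ne_zero (JTors.deltaH_pow_ne 3))
  have hψn : ψ ^ n = evC Xc := by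
    rw [evC_eq (X := Xc) hq, hψdef, div_pow, ← map_pow, ← map_pow, ← pow_mul]
    rfl
  have hmult : ∀ γ : grpH M Δ,
      pullSL (γ : SL(2, ℤ)) ψ = algebraMap ℂ MeroH (χ γ) * ψ := fun γ => by
    rw [hψdef, JTors.pullSL_quot_iff, show ((12 * 3 : ℕ) : ℤ) = 36 by norm_num]
    exact hs γ
  have hX0 : Xc ≠ 0 := fun e => by
    rw [e, map_zero] at hψn
    exact pow_ne_zero n hψ0 hψn
  refine ⟨Xc, ψ, hX0, hψn, hmult, fun v => ?_⟩
  rcases place_cases hΔ v with hv | ⟨c, hc⟩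
  · obtain ⟨δ, a, b, hab, ha, hmem, hord⟩ := exists_cusp hΔ v hv
    have h1 := hord Xc hX0
    haveI : NeZero a := ⟨ha.ne'⟩
    haveI : NeZero b := ⟨fun h => NeZero.ne M (by rw [← hab, h, mul_zero])⟩
    have hT : (G ∣[(36 : ℤ)] δ) ∣[(36 : ℤ)] (ModularGroup.T ^ (a : ℤ)) = G ∣[(36 : ℤ)] δ :=
      slash_slash_T_zpow (by
        rw [hs ⟨_, hmem⟩, hχdef, expH_conj_T, one_smul])
    have hgood : Good (dil M (G ∣[(36 : ℤ)] δ)) := by
      refine good_dil_of_slash (w := 36) M (ModFun.mdiff_slash hd 36 δ) (hbd δ) ?_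
      refine slash_slash_T_zpow ?_
      rw [hs ⟨_, T_pow_level_conj δ⟩, hχdef, expH_conj_T, one_smul]
    obtain ⟨t, ht⟩ := vlog_dil_dvd a b M hab (ModFun.mdiff_slash hd 36 δ) (hbd δ) hT
    have e1 : (realC M Δ δ).θ ((n : ℤ) * 36) (G ^ n) =
        HahnSeries.ofPowerSeries ℤ ℂ (qx (dil M (G ∣[(36 : ℤ)] δ))) ^ n := by
      rw [realC_θ, ModFun.pow_slash, ← map_pow, ← Good.qx_pow hgood]
      rfl
    have e2 : (realC M Δ δ).θ ((n : ℤ) * 36) (discriminant ^ (3 * n)) =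
        qExpand ℂ M (HahnSeries.ofPowerSeries ℤ ℂ (qx ModularForm.discriminant)) ^ (3 * n) := by
      rw [θ_levelOne ((JTors.isMF_delta_pow (N := 1) (3 * n)).cast (by push_cast; ring)) δ,
        Good.qx_pow ModFun.isMF_delta.good, map_pow, map_pow]
    have hD0 : qExpand ℂ M (HahnSeries.ofPowerSeries ℤ ℂ (qx ModularForm.discriminant)) ≠ 0 := by
      intro e
      refine (realC M Δ δ).ne_zero hden hDne ?_
      rw [e2, e, zero_pow (by omega)]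
    rw [Realisation.hom_eq _ (X := Xc) hq, div_eq_mul_inv,
      Genus.vlog_mul _ ((realC M Δ δ).ne_zero hnum hGn)
        (inv_ne_zero ((realC M Δ δ).ne_zero hden hDne)), Genus.vlog_inv, e1, e2, Genus.vlog_pow,
      Genus.vlog_pow, ht, vlog_qExpand M ((map_ne_zero _).mp hD0), vlog_qx_delta] at h1
    refine ⟨t - 3 * a, mul_left_cancel₀ (by exact_mod_cast NeZero.ne b : (b : ℤ) ≠ 0) ?_⟩
    have hM : (M : ℤ) = a * b := by exact_mod_cast hab.symm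
    rw [← h1, hM]
    push_cast
    ring
  · obtain ⟨τ, b, hb, hord, hell⟩ := exists_interior hΔ v c hc
    have h1 := hord Xc hX0
    rw [← hψn, JTors.ordAt_pow] at h1
    obtain ⟨t, ht⟩ : (b : ℤ) ∣ ordAt τ ψ := by
      rcases hell with rfl | ⟨γ, hγ, hmem⟩
      · simp
      refine ell_dvd hγ hψ0 ?_
      have hk : (⟨γ⁻¹, inv_mem hmem⟩ : grpH M Δ) ^ (b * 2) = 1 := Subtype.ext (by
        rw [Subgroup.coe_pow, pow_mul, inv_pow, HasEllType_pow hγ, inv_pow, neg_one_sq, inv_one,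
          Subgroup.coe_one])
      rw [hmult ⟨γ⁻¹, inv_mem hmem⟩, hχdef, expH_of_finOrder n φ (by positivity) hk, map_one,
        one_mul]
    refine ⟨t, mul_left_cancel₀ (by exact_mod_cast hb.ne' : (b : ℤ) ≠ 0) ?_⟩
    rw [← h1, ht]
    ring

theorem exists_isTorsH (hΔ : (-1 : (ZMod M)ˣ) ∈ Δ) (hn : 0 < n) (φ : LamH M Δ) :
    ∃ x, IsTorsH n φ x := by
  classical
  haveI := fnFieldQ hΔ
  haveI := fnFieldC hΔ
  obtain ⟨X, ψ, hX, hψ, hmult, hdiv⟩ := exists_rootC hΔ hn φ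
  set e := extC hΔ
  -- the divisor of `X` divided by `n`
  obtain ⟨P, hP⟩ := RR.exists_divisor (K := ℂ) hX
  set DC : Divisor ℂ ↥(FC M Δ) := P.mapRange (fun a => a / (n : ℤ)) (Int.zero_ediv _) with hDC
  have hDCn : ∀ w, (n : ℤ) * DC w = w.ord X := fun w => by
    rw [hDC, Finsupp.mapRange_apply, hP]
    exact Int.mul_ediv_cancel' (hdiv w)
  have hnD : n • DC = P := Finsupp.ext fun w => by
    rw [Finsupp.coe_smul, Pi.smul_apply, nsmul_eq_mul, hDCn, hP]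
  have hdeg : Divisor.degree DC = 0 := by
    have h := congrArg Divisor.degree hnD
    rw [map_nsmul, RR.degree_divisor hX hP, smul_eq_zero] at h
    exact h.resolve_left hn.ne'
  set c : Pic0 ℂ ↥(FC M Δ) := Pic0.mk ⟨DC, hdeg⟩ with hc
  have hct : c ∈ Pic0.torsion ℂ ↥(FC M Δ) n := by
    rw [Pic0.mem_torsion, natCast_zsmul, hc]
    show Pic0.mk (n • ⟨DC, hdeg⟩ : Divisor.degZero (K := ℂ) (F := ↥(FC M Δ))) = 0
    refine (pic_mk_eq_zero_iff _).mpr ⟨X, hX, fun w => ?_⟩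
    rw [AddSubgroup.coe_nsmul, hnD, hP]
  -- descend to `ℚ̄`
  haveI : Finite (Pic0.torsion ℂ ↥(FC M Δ) n) := Nat.finite_of_card_ne_zero
    (by rw [AJ.natCard_torsion n hn]; exact pow_ne_zero _ hn.ne')
  obtain ⟨c₀, hc₀⟩ := e.mem_range_toPic_of_finite_orbit c
    ((Set.toFinite (Pic0.torsion ℂ ↥(FC M Δ) n : Set (Pic0 ℂ ↥(FC M Δ)))).subset (by
      rintro _ ⟨σ, rfl⟩
      exact SemilinearAut.smul_mem_torsion _ hct))
  obtain ⟨D₀, rfl⟩ := Pic0.mk_surjective c₀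
  obtain ⟨f, hf, hfD⟩ : ∃ f : ↥(FBH M Δ), f ≠ 0 ∧
      ∀ v, (n : ℤ) * (D₀ : Divisor Qb ↥(FBH M Δ)) v = v.ord f := by
    have h0 : Pic0.mk (n • D₀) = 0 := by
      refine e.toPic_injective ?_
      show e.toPic (n • Pic0.mk D₀) = e.toPic 0
      rw [map_nsmul, hc₀, map_zero, ← natCast_zsmul]
      exact Pic0.mem_torsion.mp hct
    obtain ⟨f, hf, hfD⟩ := (pic_mk_eq_zero_iff _).mp h0
    exact ⟨f, hf, fun v => by
      rw [← hfD v, AddSubgroup.coe_nsmul, Finsupp.coe_smul, Pi.smul_apply, nsmul_eq_mul]⟩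
  -- compare over `ℂ`
  have hdeg' : Divisor.degree (e.liftDiv (D₀ : Divisor Qb ↥(FBH M Δ))) = 0 :=
    (e.degree_liftDiv _).trans D₀.2
  have hsub : Divisor.degree (e.liftDiv (D₀ : Divisor Qb ↥(FBH M Δ)) - DC) = 0 := by
    rw [map_sub, hdeg', hdeg, sub_zero]
  obtain ⟨g, hg, hgD⟩ : (e.liftDiv (D₀ : Divisor Qb ↥(FBH M Δ)) - DC).IsPrincipal := by
    rw [← AJ.cls_eq_zero_iff hsub, AJ.cls_of_deg hsub]
    rw [e.toPic_mk, AJ.cls_of_deg hdeg'] at hc₀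
    show Pic0.mk (⟨_, hdeg'⟩ - ⟨DC, hdeg⟩) = 0
    exact sub_eq_zero.mpr hc₀
  have hlift : ∀ w, (n : ℤ) * e.liftDiv (D₀ : Divisor Qb ↥(FBH M Δ)) w = w.ord (e.i f) := by
    intro w
    by_cases hw : ∃ v, e.lift v = w
    · obtain ⟨v, rfl⟩ := hw
      rw [e.liftDiv_apply_lift, e.ord_lift, hfD]
    · push Not at hw
      rw [e.ord_i_eq_zero hw, e.liftDiv_apply_of_ne _ hw, mul_zero]
  have hif : e.i f ≠ 0 := (map_ne_zero e.i).mpr hf
  obtain ⟨a, ha⟩ : ∃ a : ℂ, e.i f / (X * g ^ n) = algebraMap ℂ ↥(FC M Δ) a := by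
    rcases RR.exists_const_or_transcendental (K := ℂ) (e.i f / (X * g ^ n)) with ⟨a, ha⟩ | htr
    · exact ⟨a, ha.symm⟩
    · exfalso
      have h0 : ∀ w : Place ℂ ↥(FC M Δ), w.ord (e.i f / (X * g ^ n)) = 0 := fun w => by
        rw [div_eq_mul_inv, w.ord_mul hif (inv_ne_zero (mul_ne_zero hX (pow_ne_zero n hg))),
          w.ord_inv, w.ord_mul hX (pow_ne_zero n hg), RR.ord_pow, ← hDCn, ← hlift, ← hgD,
          Finsupp.sub_apply]
        ring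
      have h1 := RR.sum_ord_poles (K := ℂ) htr ∅ fun v => by simp [h0 v]
      haveI := RR.finiteDimensional_adjoin (K := ℂ) htr
      have h2 : 0 < RR.ndeg ℂ (e.i f / (X * g ^ n)) := Module.finrank_pos
      simp at h1
      omega
  obtain ⟨b, hb⟩ := IsAlgClosed.exists_pow_nat_eq a hn
  rw [div_eq_iff (mul_ne_zero hX (pow_ne_zero n hg)), ← hb, map_pow] at ha
  refine ⟨_, f, D₀, hf, ⟨ψ * evC (algebraMap ℂ ↥(FC M Δ) b * g), ?_, fun γ => ?_⟩, hfD, rfl⟩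
  · rw [mul_pow, hψ, ← map_pow, ← map_mul, evQ_apply, ← extC_i hΔ, ha]
    congr 1
    ring
  · rw [map_mul, hmult, evC_invariant γ.2]
    ring

/-! ### uniqueness -/

/-- a root with trivial multiplier is a function -/
theorem exists_root_of_datum_one (hn : 0 < n) {f : ↥(FBH M Δ)} (hf : f ≠ 0)
    (h : DatumH n (1 : grpH M Δ →* ℂ) f) : ∃ Y : ↥(FC M Δ), Y ^ n = toC M Δ f := by
  obtain ⟨ψ, hψ, hinv⟩ := h
  obtain ⟨w, F, G, hq⟩ := exists_isQuotH f.2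
  change IsQuotC M Δ (toC M Δ f : LaurentSeries ℂ) w F G at hq
  set FH : HolH := ⟨F, hq.num.holo⟩
  set GH : HolH := ⟨G, hq.den.holo⟩
  have hG0 : GH ≠ 0 := fun e => hq.den_ne (congrArg Subtype.val e)
  have hev : evQ M Δ f = ofH FH / ofH GH := by rw [evQ_apply, evC_eq hq]
  have hF0 : FH ≠ 0 := fun e => by
    rw [e, map_zero, zero_div, map_eq_zero] at hev
    exact hf hev
  have hW : (ψ * ofH GH) ^ n = ofH (FH * GH ^ (n - 1)) := by
    rw [mul_pow, hψ, hev, map_mul, map_pow,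
      show ofH GH ^ n = ofH GH * ofH GH ^ (n - 1) by rw [← pow_succ', Nat.sub_add_cancel hn],
      ← mul_assoc, div_mul_cancel₀ _ (JTors.ofH_ne_zero hG0)]
  obtain ⟨H, hH⟩ := JTors.exists_hol_of_pow hn (mul_ne_zero hF0 (pow_ne_zero _ hG0)) hW
  have hψe : ψ = ofH H / ofH GH := by
    rw [← hH, mul_div_cancel_right₀ _ (JTors.ofH_ne_zero hG0)]
  rw [hH, ← map_pow, JTors.ofH_injective.eq_iff] at hW
  have hHn : (H : ℍ → ℂ) ^ n = F * G ^ (n - 1) := congrArg Subtype.val hW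
  have hHm : IsMFH M Δ w (H : ℍ → ℂ) := by
    refine ⟨H.2, fun γ hγ => ?_, fun δ => JTors.isBoundedAtImInfty_of_pow hn ?_⟩
    · have h1 := hinv ⟨γ, hγ⟩
      rw [MonoidHom.one_apply, map_one, one_mul, hψe, pullSL_div γ w H GH hG0] at h1
      simp only [GH, hq.den.inv γ hγ] at h1
      rw [div_left_inj' (JTors.ofH_ne_zero hG0), JTors.ofH_injective.eq_iff] at h1
      exact congrArg Subtype.val h1
    · rw [← ModFun.pow_slash, hHn,
        show (n : ℤ) * w = w + ((n - 1 : ℕ) : ℤ) * w by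
          rw [Nat.cast_sub (Nat.one_le_iff_ne_zero.mpr hn.ne')]; ring,
        mul_slash_SL2, ModFun.pow_slash]
      exact (hq.num.bdd δ).mul (boundedAtImInfty_pow (hq.den.bdd δ) _)
  set Y : LaurentSeries ℂ := HahnSeries.ofPowerSeries ℤ ℂ (qx (H : ℍ → ℂ)) /
    HahnSeries.ofPowerSeries ℤ ℂ (qx G)
  have hYq : IsQuotC M Δ Y w (H : ℍ → ℂ) G :=
    ⟨hHm, hq.den, hq.den_ne, div_mul_cancel₀ _ (hq.den.qx_ne_zero hq.den_ne)⟩
  refine ⟨⟨Y, mem_FC.mpr ⟨_, _, _, hYq⟩⟩, (evC (M := M) (Δ := Δ)).injective ?_⟩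
  show evC _ = evC _
  rw [map_pow, evC_eq hYq, ← evQ_apply, ← hψ, hψe]

theorem mk_eq_zero_of_datum_one (hΔ : (-1 : (ZMod M)ˣ) ∈ Δ) (hn : 0 < n) {f : ↥(FBH M Δ)}
    (hf : f ≠ 0) (h : DatumH n (1 : grpH M Δ →* ℂ) f)
    (D : Divisor.degZero (K := Qb) (F := ↥(FBH M Δ)))
    (hD : ∀ v, (n : ℤ) * (D : Divisor Qb ↥(FBH M Δ)) v = v.ord f) : Pic0.mk D = 0 := by
  haveI := fnFieldQ hΔ
  haveI := fnFieldC hΔ
  obtain ⟨Y, hY⟩ := exists_root_of_datum_one hn hf h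
  set e := extC hΔ
  rw [← extC_i hΔ] at hY
  have hY0 : Y ≠ 0 := fun h0 => by
    rw [h0, zero_pow hn.ne', eq_comm, map_eq_zero] at hY
    exact hf hY
  refine e.toPic_injective ?_
  rw [map_zero, e.toPic_mk, AJ.cls_eq_zero_iff ((e.degree_liftDiv _).trans D.2)]
  refine ⟨Y, hY0, fun w => mul_left_cancel₀ (Int.natCast_ne_zero.mpr hn.ne') ?_⟩
  rw [← RR.ord_pow, hY]
  by_cases hw : ∃ v, e.lift v = w
  · obtain ⟨v, rfl⟩ := hw
    rw [e.liftDiv_apply_lift, e.ord_lift, hD]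
  · push Not at hw
    rw [e.ord_i_eq_zero hw, e.liftDiv_apply_of_ne _ hw, mul_zero]

theorem IsTorsH.add {φ φ' : LamH M Δ} {x x' : JH M Δ} (h : IsTorsH n φ x)
    (h' : IsTorsH n φ' x') : IsTorsH n (φ + φ') (x + x') := by
  obtain ⟨f, D, hf, hd, hD, rfl⟩ := h
  obtain ⟨f', D', hf', hd', hD', rfl⟩ := h'
  refine ⟨f * f', D + D', mul_ne_zero hf hf', ?_, fun v => ?_, (Pic0.mk_add D D').symm⟩
  · rw [expH_add]; exact hd.mul hd'
  · rw [AddSubgroup.coe_add, Finsupp.add_apply, mul_add, hD, hD', v.ord_mul hf hf']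

theorem IsTorsH.unique (hΔ : (-1 : (ZMod M)ˣ) ∈ Δ) (hn : 0 < n) {φ : LamH M Δ} {x x' : JH M Δ}
    (h : IsTorsH n φ x) (h' : IsTorsH n φ x') : x = x' := by
  obtain ⟨f, D, hf, hd, hD, rfl⟩ := h
  obtain ⟨f', D', hf', hd', hD', rfl⟩ := h'
  have hinv : DatumH n (expH n (-φ)) f'⁻¹ := hd'.inv fun γ => by
    rw [← MonoidHom.mul_apply, ← expH_add, add_neg_cancel, expH_zero, MonoidHom.one_apply]
  have hd'' := hd.mul hinv
  rw [← expH_add, add_neg_cancel, expH_zero] at hd''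
  rw [← sub_eq_zero]
  show Pic0.mk (D - D') = 0
  refine mk_eq_zero_of_datum_one hΔ hn (mul_ne_zero hf (inv_ne_zero hf')) hd'' _ fun v => ?_
  rw [v.ord_mul hf (inv_ne_zero hf'), v.ord_inv, ← hD, ← hD', AddSubgroup.coe_sub,
    Finsupp.sub_apply]
  ring

/-- `φ ↦ φ/n` -/
def torsH (hΔ : (-1 : (ZMod M)ˣ) ∈ Δ) (n : ℕ) : LamH M Δ →+ JH M Δ :=
  if hn : 0 < n then
    AddMonoidHom.mk' (fun φ => (exists_isTorsH hΔ hn φ).choose) fun φ φ' =>
      (exists_isTorsH hΔ hn (φ + φ')).choose_spec.unique hΔ hn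
        ((exists_isTorsH hΔ hn φ).choose_spec.add (exists_isTorsH hΔ hn φ').choose_spec)
  else 0

theorem isTorsH_torsH (hΔ : (-1 : (ZMod M)ˣ) ∈ Δ) (hn : 0 < n) (φ : LamH M Δ) :
    IsTorsH n φ (torsH hΔ n φ) := by
  rw [torsH, dif_pos hn]
  exact (exists_isTorsH hΔ hn φ).choose_spec

theorem IsTorsH.eq_torsH (hΔ : (-1 : (ZMod M)ˣ) ∈ Δ) (hn : 0 < n) {φ : LamH M Δ} {x : JH M Δ}
    (h : IsTorsH n φ x) : torsH hΔ n φ = x :=
  (isTorsH_torsH hΔ hn φ).unique hΔ hn h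

theorem nsmul_torsH (hΔ : (-1 : (ZMod M)ˣ) ∈ Δ) (hn : 0 < n) (φ : LamH M Δ) :
    n • torsH hΔ n φ = 0 := by
  obtain ⟨f, D, hf, -, hD, e⟩ := isTorsH_torsH hΔ hn φ
  rw [e]
  show Pic0.mk (n • D) = 0
  refine (pic_mk_eq_zero_iff _).mpr ⟨f, hf, fun v => ?_⟩
  rw [AddSubgroup.coe_nsmul, Finsupp.coe_smul, Pi.smul_apply, nsmul_eq_mul, hD]

theorem torsH_eq_zero (hΔ : (-1 : (ZMod M)ˣ) ∈ Δ) (hn : 0 < n) {φ : LamH M Δ}
    (h : torsH hΔ n φ = 0) : ∃ w, φ = (n : ℤ) • w := by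
  haveI := fnFieldQ hΔ
  refine exists_smul_of_expH_eq_one hn ?_
  obtain ⟨f, D, hf, hd, hD, e⟩ := isTorsH_torsH hΔ hn φ
  rw [h] at e
  obtain ⟨g, hg, hgD⟩ := (pic_mk_eq_zero_iff _).mp e.symm
  have hgn : g ^ n ≠ 0 := pow_ne_zero n hg
  obtain ⟨a, ha⟩ : ∃ a : Qb, f * (g ^ n)⁻¹ = algebraMap Qb ↥(FBH M Δ) a := by
    rcases RR.exists_const_or_transcendental (K := Qb) (f * (g ^ n)⁻¹) with ⟨a, ha⟩ | htr
    · exact ⟨a, ha.symm⟩
    · exfalso
      have h0 : ∀ v : Place Qb ↥(FBH M Δ), v.ord (f * (g ^ n)⁻¹) = 0 := fun v => by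
        rw [v.ord_mul hf (inv_ne_zero hgn), v.ord_inv, RR.ord_pow, ← hD, hgD]
        ring
      have h1 := RR.sum_ord_poles (K := Qb) htr ∅ fun v => by simp [h0 v]
      haveI := RR.finiteDimensional_adjoin (K := Qb) htr
      have h2 : 0 < RR.ndeg Qb (f * (g ^ n)⁻¹) := Module.finrank_pos
      simp at h1
      omega
  have hfe : f = algebraMap Qb ↥(FBH M Δ) a * g ^ n := by
    rw [← ha, mul_assoc, inv_mul_cancel₀ hgn, mul_one]
  have h1 := (DatumH.pow_self (n := n) g).const_mul hn a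
  rw [← hfe] at h1
  exact hd.unique hn hf h1

end FLTAgent.DS
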