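import Fermat.Agent.DS.Weight1Defs
import Fermat.Agent.DS.AssemblyDefs

/-!
Area DS, parcel DS1: the bound on the mean square of the coefficients at primes.
-/

set_option autoImplicit false
set_option linter.unusedSectionVars false

noncomputable section

open UpperHalfPlane CongruenceSubgroup ModularForm Filter Topology
open scoped MatrixGroups Manifold ModularForm ComplexConjugate

namespace FLTAgent.DS

open ModFun (qx Good)

variable {N : ℕ} [NeZero N] {χ : DirichletCharacter ℂ N} {f : ℍ → ℂ}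

/-- the form as a cusp form for `Γ₁(N)` -/
def IsLevel1.toForm (hf : IsLevel1 N f) : CuspForm (Gamma1 N) (1 : ℤ) where
  toFun := f
  slash_action_eq' g hg := by
    obtain ⟨γ, hγ, rfl⟩ := hg
    exact hf.inv γ hγ
  holo' := hf.holo
  zero_at_cusps' hc := by
    rw [Subgroup.IsArithmetic.isCusp_iff_isCusp_SL2Z] at hc
    exact (OnePoint.isZeroAt_iff_forall_SL2Z hc).mpr fun γ _ => hf.zero γ

theorem exists_norm_le (hf : IsLevel1 N f) :
    ∃ C, 0 ≤ C ∧ ∀ τ : ℍ, ‖f τ‖ ^ 2 * τ.im ≤ C := by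
  obtain ⟨C, hC⟩ := CuspFormClass.exists_bound hf.toForm
  refine ⟨C ^ 2, sq_nonneg C, fun τ => ?_⟩
  have h1 : ‖f τ‖ ≤ C / τ.im ^ ((1 : ℤ) / 2 : ℝ) := hC τ
  have h2 : τ.im ^ (((1 : ℤ) : ℝ) / 2) = Real.sqrt τ.im := by
    rw [Real.sqrt_eq_rpow]; norm_num
  rw [h2, le_div_iff₀ (Real.sqrt_pos.2 τ.im_pos)] at h1
  calc ‖f τ‖ ^ 2 * τ.im = (‖f τ‖ * Real.sqrt τ.im) ^ 2 := by
        rw [mul_pow, Real.sq_sqrt τ.im_pos.le]
    _ ≤ C ^ 2 := pow_le_pow_left₀ (by positivity) h1 2

theorem sum_stdAddChar_sub (M : ℕ) [NeZero M] (m n : ℕ) :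
    ∑ j : ZMod M, ZMod.stdAddChar ((m : ZMod M) * j) * conj (ZMod.stdAddChar ((n : ZMod M) * j)) =
      if (m : ZMod M) = (n : ZMod M) then (M : ℂ) else 0 := by
  have h : ∀ j : ZMod M, ZMod.stdAddChar ((m : ZMod M) * j) * conj (ZMod.stdAddChar ((n : ZMod M) * j)) =
      ZMod.stdAddChar (j * ((m : ZMod M) - (n : ZMod M))) := fun j => by
    rw [← AddChar.map_neg_eq_conj, ← AddChar.map_add_eq_mul]
    congr 1
    ring
  simp only [h]
  rw [AddChar.sum_mulShift _ (ZMod.isPrimitive_stdAddChar M)]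
  simp [sub_eq_zero, ZMod.card]

/-- the mean square of the coefficients on a horizontal line -/
theorem sum_sq_le_of_bound {u : ℕ → ℂ} (hu : Summable fun n => ‖u n‖) {B : ℝ}
    (hB : ∀ (M : ℕ) [NeZero M] (j : ZMod M),
      ‖∑' n, u n * ZMod.stdAddChar ((n : ZMod M) * j)‖ ^ 2 ≤ B) (X : ℕ) :
    ∑ n ∈ Finset.range X, ‖u n‖ ^ 2 ≤ B := by
  set S := ∑ n ∈ Finset.range X, ‖u n‖ ^ 2
  set U := ∑ n ∈ Finset.range X, ‖u n‖
  have hU : 0 ≤ U := Finset.sum_nonneg fun _ _ => norm_nonneg _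
  have key : ∀ M : ℕ, X ≤ M → M ≠ 0 → S ≤ B + 2 * (U * ∑' m, ‖u (m + M)‖) := by
    intro M hXM hM0
    haveI : NeZero M := ⟨hM0⟩
    let e : ℕ → ZMod M → ℂ := fun n j => ZMod.stdAddChar ((n : ZMod M) * j)
    have hn : ∀ n j, ‖e n j‖ = 1 := fun n j => AddChar.norm_apply _ _
    let P : ZMod M → ℂ := fun j => ∑ n ∈ Finset.range X, u n * e n j
    let F : ZMod M → ℂ := fun j => ∑' n, u n * e n j
    let c : ℕ → ℂ := fun m =>
      ∑ n ∈ Finset.range X, if (m : ZMod M) = (n : ZMod M) then conj (u n) else 0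
    have hc : ∀ m, ‖c m‖ ≤ U := fun m => (norm_sum_le _ _).trans (Finset.sum_le_sum fun n _ => by
      split_ifs <;> simp)
    have hsum : ∀ j, Summable fun n => u n * e n j := fun j =>
      Summable.of_norm (hu.congr fun n => by rw [norm_mul, hn, mul_one])
    have hinner : ∀ m, ∑ j : ZMod M, u m * e m j * conj (P j) = (M : ℂ) * (u m * c m) := by
      intro m
      simp only [P, map_sum, map_mul, Finset.mul_sum]
      rw [Finset.sum_comm]
      simp only [c, Finset.mul_sum]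
      refine Finset.sum_congr rfl fun n _ => ?_
      rw [show ∑ j : ZMod M, u m * e m j * (conj (u n) * conj (e n j)) =
        u m * conj (u n) * ∑ j : ZMod M, e m j * conj (e n j) by
          rw [Finset.mul_sum]; exact Finset.sum_congr rfl fun j _ => by ring,
        sum_stdAddChar_sub]
      split_ifs <;> ring
    have hdiag : ∀ m < M, u m * c m = if m < X then ((‖u m‖ ^ 2 : ℝ) : ℂ) else 0 := by
      intro m hm
      have hcast : ∀ n ∈ Finset.range X, ((m : ZMod M) = (n : ZMod M) ↔ m = n) := fun n hn => by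
        rw [ZMod.natCast_eq_natCast_iff', Nat.mod_eq_of_lt hm,
          Nat.mod_eq_of_lt (lt_of_lt_of_le (Finset.mem_range.1 hn) hXM)]
      have e1 : c m = ∑ n ∈ Finset.range X, if m = n then conj (u n) else 0 :=
        Finset.sum_congr rfl fun n hn => if_congr (hcast n hn) rfl rfl
      rw [e1, Finset.sum_ite_eq, mul_ite, mul_zero]
      simp only [Finset.mem_range]
      refine if_congr Iff.rfl ?_ rfl
      rw [Complex.mul_conj, Complex.normSq_eq_norm_sq]
    -- the average of `F * conj P`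
    have h1 : HasSum (fun m => (M : ℂ) * (u m * c m)) (∑ j, F j * conj (P j)) :=
      (hasSum_sum fun j _ => (hsum j).hasSum.mul_right _).congr_fun fun m => (hinner m).symm
    have hs : Summable fun m => u m * c m := by
      refine Summable.of_norm_bounded (hu.mul_right U) fun m => ?_
      rw [norm_mul]; exact mul_le_mul_of_nonneg_left (hc m) (norm_nonneg _)
    have hMC : (M : ℂ) ≠ 0 := Nat.cast_ne_zero.2 hM0
    have hV : ∑ j, F j * conj (P j) = (M : ℂ) * ((S : ℂ) + ∑' m, u (m + M) * c (m + M)) := by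
      rw [h1.unique (hs.hasSum.mul_left _), ← hs.sum_add_tsum_nat_add M]
      congr 2
      rw [Finset.sum_congr rfl fun m hm => hdiag m (Finset.mem_range.1 hm), Finset.sum_ite,
        Finset.sum_const_zero, add_zero, Complex.ofReal_sum]
      refine Finset.sum_congr ?_ fun _ _ => rfl
      ext m
      simp only [Finset.mem_filter, Finset.mem_range]
      omega
    -- the average of `P * conj P`
    have hP : ∑ j, ‖P j‖ ^ 2 = (M : ℝ) * S := by
      have e1 : ((∑ j, ‖P j‖ ^ 2 : ℝ) : ℂ) = ∑ j, P j * conj (P j) := by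
        rw [Complex.ofReal_sum]
        exact Finset.sum_congr rfl fun j _ => by rw [Complex.mul_conj, Complex.normSq_eq_norm_sq]
      have e2 : ∑ j, P j * conj (P j) = ∑ m ∈ Finset.range X, (M : ℂ) * (u m * c m) := by
        conv_lhs => enter [2, j, 1]; simp only [P]
        simp only [Finset.sum_mul]
        rw [Finset.sum_comm]
        exact Finset.sum_congr rfl fun m _ => hinner m
      have : ((∑ j, ‖P j‖ ^ 2 : ℝ) : ℂ) = (((M : ℝ) * S : ℝ) : ℂ) := by
        rw [e1, e2, ← Finset.mul_sum, Complex.ofReal_mul, Complex.ofReal_sum]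
        push_cast
        congr 1
        refine Finset.sum_congr rfl fun m hm => ?_
        rw [hdiag m (lt_of_lt_of_le (Finset.mem_range.1 hm) hXM),
          if_pos (Finset.mem_range.1 hm)]
        push_cast
        rfl
      exact_mod_cast this
    have hR : (∑ j, F j * conj (P j)).re ≤ (M : ℝ) * ((B + S) / 2) := by
      rw [Complex.re_sum]
      calc ∑ j, (F j * conj (P j)).re ≤ ∑ j : ZMod M, (‖F j‖ ^ 2 + ‖P j‖ ^ 2) / 2 := by
            refine Finset.sum_le_sum fun j _ => (Complex.re_le_norm _).trans ?_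
            rw [norm_mul, Complex.norm_conj]
            nlinarith [sq_nonneg (‖F j‖ - ‖P j‖)]
        _ ≤ ∑ j : ZMod M, (B + ‖P j‖ ^ 2) / 2 := by
            refine Finset.sum_le_sum fun j _ => ?_
            have hBj := hB M j
            change ‖F j‖ ^ 2 ≤ B at hBj
            linarith
        _ = (M : ℝ) * ((B + S) / 2) := by
            rw [← Finset.sum_div, Finset.sum_add_distrib, hP, Finset.sum_const, Finset.card_univ,
              ZMod.card, nsmul_eq_mul]
            ring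
    rw [hV, ← Complex.ofReal_natCast, Complex.re_ofReal_mul, Complex.add_re, Complex.ofReal_re] at hR
    have hR' := le_of_mul_le_mul_left hR (by exact_mod_cast Nat.pos_of_ne_zero hM0)
    have htail : ‖∑' m, u (m + M) * c (m + M)‖ ≤ U * ∑' m, ‖u (m + M)‖ := by
      refine tsum_of_norm_bounded (((summable_nat_add_iff M).2 hu).hasSum.mul_left U) fun m => ?_
      rw [norm_mul, mul_comm]
      exact mul_le_mul_of_nonneg_right (hc _) (norm_nonneg _)
    have := (abs_le.1 ((Complex.abs_re_le_norm _).trans htail)).1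
    linarith
  have hlim : Tendsto (fun M => B + 2 * (U * ∑' m, ‖u (m + M)‖)) atTop (𝓝 B) := by
    simpa using (((_root_.tendsto_sum_nat_add fun m => ‖u m‖).const_mul U).const_mul 2).const_add B
  refine ge_of_tendsto hlim ?_
  filter_upwards [eventually_ge_atTop (max X 1)] with M hM
  exact key M (le_of_max_le_left hM) (by omega)

/-- partial sums of the squares of the coefficients grow linearly -/
theorem exists_sum_sq_le (hf : IsLevel1 N f) :
    ∃ K, 0 ≤ K ∧ ∀ X : ℕ, 0 < X → ∑ n ∈ Finset.range X, ‖(qx f).coeff n‖ ^ 2 ≤ K * X := by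
  obtain ⟨C, hC0, hC⟩ := exists_norm_le hf
  refine ⟨C * Real.exp (4 * Real.pi), by positivity, fun X hX => ?_⟩
  set y : ℝ := 1 / X with hy
  have hy0 : 0 < y := by positivity
  set τ₀ : ℍ := ⟨(y : ℂ) * Complex.I, by simp [hy0]⟩
  set q₀ : ℂ := Function.Periodic.qParam 1 (τ₀ : ℂ) with hq
  set u : ℕ → ℂ := fun n => (qx f).coeff n * q₀ ^ n
  have hu : Summable fun n => ‖u n‖ := summable_norm_iff.2
    (hasSum_qExpansion one_pos (by simpa using hf.good.per) hf.holo hf.good.bdd τ₀).summable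
  have hB : ∀ (M : ℕ) [NeZero M] (j : ZMod M),
      ‖∑' n, u n * ZMod.stdAddChar ((n : ZMod M) * j)‖ ^ 2 ≤ C * X := by
    intro M _ j
    set τ : ℍ := ⟨((j.val : ℝ) / M : ℝ) + (y : ℂ) * Complex.I, by simp [hy0]⟩
    have hτ : τ.im = y := by simp [τ, ← UpperHalfPlane.coe_im]
    have hs := hasSum_qExpansion one_pos (by simpa using hf.good.per) hf.holo hf.good.bdd τ
    have he : Function.Periodic.qParam 1 (τ : ℂ) = q₀ * ZMod.stdAddChar j := by
      have h1 := ZMod.stdAddChar_coe (N := M) (j.val : ℤ)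
      rw [show ((j.val : ℤ) : ZMod M) = j by simp] at h1
      rw [h1, hq, Function.Periodic.qParam, Function.Periodic.qParam, ← Complex.exp_add]
      congr 1
      simp only [τ, τ₀, UpperHalfPlane.coe_mk]
      push_cast
      ring
    have ht : ∑' n, u n * ZMod.stdAddChar ((n : ZMod M) * j) = f τ := by
      refine (hs.congr_fun fun n => ?_).tsum_eq
      rw [smul_eq_mul, he, mul_pow, ← AddChar.map_nsmul_eq_pow, nsmul_eq_mul]
      simp only [u]
      ring
    rw [ht]
    have h2 := hC τ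
    rw [hτ] at h2
    calc ‖f τ‖ ^ 2 = ‖f τ‖ ^ 2 * y * X := by
          rw [hy, mul_assoc, one_div_mul_cancel (by positivity), mul_one]
      _ ≤ C * X := mul_le_mul_of_nonneg_right h2 (by positivity)
  have h := sum_sq_le_of_bound hu hB X
  have hterm : ∀ n ∈ Finset.range X,
      ‖(qx f).coeff n‖ ^ 2 ≤ Real.exp (4 * Real.pi) * ‖u n‖ ^ 2 := by
    intro n hn
    have hq1 : ‖q₀‖ = Real.exp (-(2 * Real.pi * y)) := by
      rw [hq, Function.Periodic.norm_qParam]
      simp [τ₀]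
    rw [show ‖u n‖ ^ 2 = ‖(qx f).coeff n‖ ^ 2 * ‖q₀‖ ^ (2 * n) by
        simp only [u, norm_mul, norm_pow]; rw [mul_pow, ← pow_mul, mul_comm n 2],
      hq1, ← Real.exp_nat_mul, mul_left_comm, ← Real.exp_add]
    refine le_mul_of_one_le_right (sq_nonneg _) (Real.one_le_exp ?_)
    have hnX : (n : ℝ) ≤ X := by exact_mod_cast (Finset.mem_range.1 hn).le
    have hny : (n : ℝ) * y ≤ 1 := by
      rw [hy, mul_one_div, div_le_one (by positivity)]; exact hnX
    push_cast
    nlinarith [Real.pi_pos]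
  calc ∑ n ∈ Finset.range X, ‖(qx f).coeff n‖ ^ 2
      ≤ Real.exp (4 * Real.pi) * ∑ n ∈ Finset.range X, ‖u n‖ ^ 2 := by
        rw [Finset.mul_sum]; exact Finset.sum_le_sum hterm
    _ ≤ Real.exp (4 * Real.pi) * (C * X) := mul_le_mul_of_nonneg_left h (Real.exp_pos _).le
    _ = _ := by ring

/-- the Dirichlet series of the squares has at most a simple pole at `1` -/
theorem exists_sum_rpow_le {a : ℕ → ℝ} (ha : ∀ n, 0 ≤ a n) {K : ℝ} (hK : 0 ≤ K)
    (h : ∀ X : ℕ, 0 < X → ∑ n ∈ Finset.range X, a n ≤ K * X) :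
    ∃ C, 0 < C ∧ ∀ s : ℝ, 1 < s → s ≤ 2 → ∀ T : Finset ℕ, 0 ∉ T →
      ∑ n ∈ T, a n * (n : ℝ) ^ (-s) ≤ C / (s - 1) := by
  have hl2 : 0 < Real.log 2 := Real.log_pos one_lt_two
  refine ⟨4 * K / Real.log 2 + 1, by positivity, fun s hs hs2 T hT => ?_⟩
  set δ := s - 1 with hδ
  have hδ0 : 0 < δ := by linarith
  set r : ℝ := (2 : ℝ) ^ (-δ) with hr
  have hr0 : 0 < r := Real.rpow_pos_of_pos two_pos _
  have hr1 : r < 1 := Real.rpow_lt_one_of_one_lt_of_neg one_lt_two (by linarith)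
  have hfib : ∀ k : ℕ, ∑ n ∈ T with Nat.log 2 n = k, a n * (n : ℝ) ^ (-s) ≤ 2 * K * r ^ k := by
    intro k
    calc ∑ n ∈ T with Nat.log 2 n = k, a n * (n : ℝ) ^ (-s)
        ≤ ∑ n ∈ T with Nat.log 2 n = k, a n * ((2 : ℝ) ^ k) ^ (-s) := by
          refine Finset.sum_le_sum fun n hn => mul_le_mul_of_nonneg_left ?_ (ha n)
          obtain ⟨hnT, hk⟩ := Finset.mem_filter.1 hn
          have h1 : 2 ^ k ≤ n := by rw [← hk]; exact Nat.pow_log_le_self 2 fun e => hT (e ▸ hnT)
          exact Real.rpow_le_rpow_of_nonpos (by positivity) (by exact_mod_cast h1) (by linarith)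
      _ ≤ (∑ n ∈ Finset.range (2 ^ (k + 1)), a n) * ((2 : ℝ) ^ k) ^ (-s) := by
          rw [← Finset.sum_mul]
          refine mul_le_mul_of_nonneg_right (Finset.sum_le_sum_of_subset_of_nonneg (fun n hn => ?_)
            fun n _ _ => ha n) (by positivity)
          obtain ⟨_, hk⟩ := Finset.mem_filter.1 hn
          rw [Finset.mem_range, ← hk]
          exact Nat.lt_pow_succ_log_self one_lt_two n
      _ ≤ K * (2 : ℝ) ^ (k + 1) * ((2 : ℝ) ^ k) ^ (-s) := by
          refine mul_le_mul_of_nonneg_right ((h _ (by positivity)).trans_eq ?_) (by positivity)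
          push_cast; rfl
      _ = 2 * K * r ^ k := by
          rw [pow_succ, hr, ← Real.rpow_natCast ((2 : ℝ) ^ (-δ)) k, ← Real.rpow_natCast (2 : ℝ) k,
            ← Real.rpow_mul two_pos.le, ← Real.rpow_mul two_pos.le, hδ,
            show -(s - 1) * (k : ℝ) = (k : ℝ) + (k : ℝ) * -s by ring, Real.rpow_add two_pos]
          ring
  rw [← Finset.sum_fiberwise_of_maps_to (t := T.image (Nat.log 2)) (g := Nat.log 2)
    (fun n hn => Finset.mem_image_of_mem _ hn)]
  have hgeom := summable_geometric_of_lt_one hr0.le hr1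
  calc ∑ k ∈ T.image (Nat.log 2), ∑ n ∈ T with Nat.log 2 n = k, a n * (n : ℝ) ^ (-s)
      ≤ ∑ k ∈ T.image (Nat.log 2), 2 * K * r ^ k := Finset.sum_le_sum fun k _ => hfib k
    _ ≤ 2 * K * (1 - r)⁻¹ := by
        rw [← Finset.mul_sum, ← tsum_geometric_of_lt_one hr0.le hr1]
        exact mul_le_mul_of_nonneg_left (hgeom.sum_le_tsum _ fun k _ => by positivity) (by linarith)
    _ ≤ (4 * K / Real.log 2 + 1) / δ := by
        set x := δ * Real.log 2 with hx
        have hx0 : 0 < x := by positivity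
        have h1 : r * (1 + x) ≤ 1 := by
          rw [hr, Real.rpow_def_of_pos two_pos]
          calc Real.exp (Real.log 2 * -δ) * (1 + x) ≤ Real.exp (Real.log 2 * -δ) * Real.exp x :=
                mul_le_mul_of_nonneg_left (by linarith [Real.add_one_le_exp x]) (Real.exp_pos _).le
            _ = 1 := by rw [← Real.exp_add, hx]; ring_nf; exact Real.exp_zero
        have h2 : (1 - r)⁻¹ ≤ (1 + x) / x := by
          rw [inv_le_iff_one_le_mul₀ (by linarith), div_mul_eq_mul_div, le_div_iff₀ hx0]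
          nlinarith
        have hx1 : x ≤ 1 := by
          have := Real.log_le_sub_one_of_pos (x := 2) two_pos
          nlinarith
        calc 2 * K * (1 - r)⁻¹ ≤ 2 * K * ((1 + x) / x) :=
              mul_le_mul_of_nonneg_left h2 (by linarith)
          _ ≤ 2 * K * (2 / x) := by gcongr; linarith
          _ = (4 * K / Real.log 2) / δ := by rw [hx]; field_simp; ring
          _ ≤ _ := by gcongr; linarith

theorem IsEigen.prod_primes {a : ℕ → ℂ} (h : IsEigen N χ a) (T : Finset ℕ)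
    (hT : ∀ p ∈ T, p.Prime ∧ ¬ p ∣ N) : a (∏ p ∈ T, p) = ∏ p ∈ T, a p := by
  induction T using Finset.induction_on with
  | empty => simpa using h.one
  | insert p T hp ih =>
    have hpp := hT p (Finset.mem_insert_self _ _)
    have hnd : ¬ p ∣ ∏ q ∈ T, q := fun hd => by
      obtain ⟨q, hq, hpq⟩ := (Prime.dvd_finsetProd_iff hpp.1.prime _).1 hd
      exact hp ((Nat.prime_dvd_prime_iff_eq hpp.1 (hT q (Finset.mem_insert_of_mem hq)).1).1 hpq ▸ hq)
    have h1 := h.hecke p hpp.1 hpp.2 (∏ q ∈ T, q)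
    rw [if_neg hnd, mul_zero, add_zero] at h1
    rw [Finset.prod_insert hp, Finset.prod_insert hp, h1,
      ih fun q hq => hT q (Finset.mem_insert_of_mem hq)]

theorem primeW_le_log (hf : IsLevel1 N f) (h : IsEigen N χ (fun n => (qx f).coeff n)) (c ε : ℝ)
    (hε : 0 < ε) : ∀ᶠ s in 𝓝[>] (1 : ℝ),
      primeW (fun p => if (p : ℕ) ∣ N then 0 else min (‖(qx f).coeff (p : ℕ)‖ ^ 2) (c ^ 2)) s ≤
        (1 + ε) * (-Real.log (s - 1)) := by
  obtain ⟨K, hK, hKX⟩ := exists_sum_sq_le hf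
  obtain ⟨C, hC, hCs⟩ := exists_sum_rpow_le (a := fun n => ‖(qx f).coeff n‖ ^ 2)
    (fun n => sq_nonneg _) hK hKX
  set Z := ∑' n : ℕ, (n : ℝ) ^ (-(2 : ℝ))
  have hZ : Summable fun n : ℕ => (n : ℝ) ^ (-(2 : ℝ)) := Real.summable_nat_rpow.2 (by norm_num)
  set C0 := |Real.log C| + c ^ 4 / 2 * Z with hC0
  have hC00 : 0 ≤ C0 := add_nonneg (abs_nonneg _)
    (mul_nonneg (by positivity) (tsum_nonneg fun n => by positivity))
  have hev : ∀ᶠ s in 𝓝[>] (1 : ℝ), 1 < s ∧ s ≤ 2 ∧ C0 ≤ ε * (-Real.log (s - 1)) := by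
    have h1 : ∀ᶠ s in 𝓝[>] (1 : ℝ), 1 < s := self_mem_nhdsWithin
    have h2 : ∀ᶠ s in 𝓝[>] (1 : ℝ), s ≤ 2 :=
      nhdsWithin_le_nhds (Iic_mem_nhds one_lt_two)
    have h3 : Tendsto (fun s : ℝ => s - 1) (𝓝[>] 1) (𝓝[>] 0) := by
      refine tendsto_nhdsWithin_iff.2 ⟨?_, ?_⟩
      · simpa using ((continuous_sub_right (1 : ℝ)).tendsto 1).mono_left nhdsWithin_le_nhds
      · filter_upwards [h1] with s hs
        exact sub_pos.2 hs
    have h4 := (tendsto_neg_atBot_atTop.comp (Real.tendsto_log_nhdsGT_zero.comp h3)).const_mul_atTop hε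
    filter_upwards [h1, h2, h4.eventually_ge_atTop C0] with s a b c using ⟨a, b, c⟩
  filter_upwards [hev] with s ⟨hs, hs2, hsC⟩
  have hlog : 0 ≤ -Real.log (s - 1) := neg_nonneg.2 (Real.log_nonpos (by linarith) (by linarith))
  have hnn : ∀ p : Nat.Primes, 0 ≤ (if (p : ℕ) ∣ N then (0 : ℝ)
      else min (‖(qx f).coeff (p : ℕ)‖ ^ 2) (c ^ 2)) * ((p : ℕ) : ℝ) ^ (-s) := fun p =>
    mul_nonneg (by split_ifs <;> positivity) (by positivity)
  refine (Real.tsum_le_of_sum_le (c := C0 + -Real.log (s - 1)) hnn fun S => ?_).trans (by linarith)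
  -- finitely many primes
  set T : Finset ℕ := (S.filter fun p : Nat.Primes => ¬ (p : ℕ) ∣ N).map ⟨Subtype.val, Subtype.val_injective⟩
  have hT : ∀ p ∈ T, p.Prime ∧ ¬ p ∣ N := by
    intro p hp
    obtain ⟨q, hq, rfl⟩ := Finset.mem_map.1 hp
    exact ⟨q.2, (Finset.mem_filter.1 hq).2⟩
  have e1 : ∑ p ∈ S, (if (p : ℕ) ∣ N then (0 : ℝ) else min (‖(qx f).coeff (p : ℕ)‖ ^ 2) (c ^ 2)) *
      ((p : ℕ) : ℝ) ^ (-s) =
      ∑ p ∈ T, min (‖(qx f).coeff p‖ ^ 2) (c ^ 2) * (p : ℝ) ^ (-s) := by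
    rw [Finset.sum_map]
    simp only [Function.Embedding.coeFn_mk]
    refine Eq.trans ?_ (Finset.sum_filter _ _).symm
    exact Finset.sum_congr rfl fun p _ => by split_ifs <;> simp
  refine e1.trans_le ?_
  set y : ℕ → ℝ := fun p => min (‖(qx f).coeff p‖ ^ 2) (c ^ 2) * (p : ℝ) ^ (-s)
  have hy0 : ∀ p, 0 ≤ y p := fun p => by positivity
  have hprod : ∏ p ∈ T, (1 + ‖(qx f).coeff p‖ ^ 2 * (p : ℝ) ^ (-s)) ≤ C / (s - 1) := by
    rw [Finset.prod_one_add]
    have hterm : ∀ U ∈ T.powerset, ∏ p ∈ U, ‖(qx f).coeff p‖ ^ 2 * (p : ℝ) ^ (-s) =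
        ‖(qx f).coeff (∏ p ∈ U, p)‖ ^ 2 * ((∏ p ∈ U, p : ℕ) : ℝ) ^ (-s) := by
      intro U hU
      have hU' : ∀ p ∈ U, p.Prime ∧ ¬ p ∣ N := fun p hp => hT p (Finset.mem_powerset.1 hU hp)
      rw [h.prod_primes U hU', norm_prod, ← Finset.prod_pow, Nat.cast_prod,
        ← Real.finsetProd_rpow _ _ (fun p _ => by positivity), Finset.prod_mul_distrib]
    rw [Finset.sum_congr rfl hterm]
    have hinj : Set.InjOn (fun U : Finset ℕ => ∏ p ∈ U, p) T.powerset := fun U hU V hV e => by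
      have h1 := congrArg Nat.primeFactors e
      simp only at h1
      rwa [Nat.primeFactors_prod fun p hp => (hT p (Finset.mem_powerset.1 hU hp)).1,
        Nat.primeFactors_prod fun p hp => (hT p (Finset.mem_powerset.1 hV hp)).1] at h1
    rw [← Finset.sum_image (f := fun n : ℕ => ‖(qx f).coeff n‖ ^ 2 * (n : ℝ) ^ (-s)) hinj]
    refine hCs s hs hs2 _ fun h0 => ?_
    obtain ⟨U, hU, h1⟩ := Finset.mem_image.1 h0
    exact Finset.prod_ne_zero_iff.2 (fun p hp => (hT p (Finset.mem_powerset.1 hU hp)).1.ne_zero) h1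
  have hle : ∑ p ∈ T, (y p - y p ^ 2 / 2) ≤
      Real.log (∏ p ∈ T, (1 + ‖(qx f).coeff p‖ ^ 2 * (p : ℝ) ^ (-s))) := by
    rw [Real.log_prod (fun p _ => by positivity)]
    refine Finset.sum_le_sum fun p _ => ?_
    calc y p - y p ^ 2 / 2 ≤ 2 * y p / (y p + 2) := by
          rw [le_div_iff₀ (by linarith [hy0 p])]
          nlinarith [hy0 p, pow_nonneg (hy0 p) 3]
      _ ≤ Real.log (1 + y p) := Real.le_log_one_add_of_nonneg (hy0 p)
      _ ≤ _ := Real.log_le_log (by linarith [hy0 p]) (by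
          have : y p ≤ ‖(qx f).coeff p‖ ^ 2 * (p : ℝ) ^ (-s) :=
            mul_le_mul_of_nonneg_right (min_le_left _ _) (by positivity)
          linarith)
  have hsq : ∑ p ∈ T, y p ^ 2 / 2 ≤ c ^ 4 / 2 * Z := by
    calc ∑ p ∈ T, y p ^ 2 / 2 ≤ ∑ p ∈ T, c ^ 4 / 2 * (p : ℝ) ^ (-(2 : ℝ)) := by
          refine Finset.sum_le_sum fun p hp => ?_
          have hp1 : (1 : ℝ) ≤ p := by exact_mod_cast (hT p hp).1.one_lt.le
          have h1 : y p ≤ c ^ 2 * (p : ℝ) ^ (-(1 : ℝ)) :=
            mul_le_mul (min_le_right _ _) (Real.rpow_le_rpow_of_exponent_le hp1 (by linarith))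
              (by positivity) (sq_nonneg c)
          have h2 := pow_le_pow_left₀ (hy0 p) h1 2
          have h3 : (c ^ 2 * (p : ℝ) ^ (-(1 : ℝ))) ^ 2 = c ^ 4 * (p : ℝ) ^ (-(2 : ℝ)) := by
            rw [mul_pow, ← pow_mul, ← Real.rpow_natCast ((p : ℝ) ^ (-(1 : ℝ))) 2,
              ← Real.rpow_mul (by positivity)]
            norm_num
          rw [h3] at h2
          linarith
      _ ≤ c ^ 4 / 2 * Z := by
          rw [← Finset.mul_sum]
          exact mul_le_mul_of_nonneg_left (hZ.sum_le_tsum _ fun n _ => by positivity) (by positivity)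
  have hlogle : Real.log (∏ p ∈ T, (1 + ‖(qx f).coeff p‖ ^ 2 * (p : ℝ) ^ (-s))) ≤
      |Real.log C| + -Real.log (s - 1) := by
    refine (Real.log_le_log (Finset.prod_pos fun p _ => by positivity) hprod).trans ?_
    rw [Real.log_div hC.ne' (by linarith), sub_eq_add_neg]
    exact add_le_add (le_abs_self _) le_rfl
  rw [Finset.sum_sub_distrib] at hle
  show ∑ p ∈ T, y p ≤ _
  rw [hC0]
  linarith

end FLTAgent.DS
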