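import Fermat.Agent.ModFun.Integral
import Fermat.Agent.ModFun.Mero
import Fermat.Prelude.Def_FLTPrelim_Modularity

/-!
Area DS, parcels DS1-DS3: cusp forms of weight one with a character.
-/

set_option autoImplicit false
set_option linter.unusedSectionVars false

noncomputable section

open UpperHalfPlane CongruenceSubgroup ModularForm Filter
open scoped MatrixGroups Manifold Topology ModularForm

namespace FLTAgent.DS

open ModFun (Good qx IsCF)

/-- cusp forms of weight one on `Γ₀(N)` with character `χ` -/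
structure IsW1 (N : ℕ) (χ : DirichletCharacter ℂ N) (f : ℍ → ℂ) : Prop where
  holo : MDiff f
  inv : ∀ γ : SL(2, ℤ), γ ∈ Gamma0 N → f ∣[(1 : ℤ)] γ = χ ((γ.1 1 1 : ℤ) : ZMod N) • f
  zero : ∀ γ : SL(2, ℤ), IsZeroAtImInfty (f ∣[(1 : ℤ)] γ)

theorem periodic_of_slash_T {f : ℍ → ℂ} {k : ℤ} (h : f ∣[k] ModularGroup.T = f) :
    Function.Periodic (f ∘ ofComplex) 1 :=
  ModFun.periodic_ofComplex_of fun z hz hz' => by
    have e : (⟨z + 1, hz'⟩ : ℍ) = ModularGroup.T • (⟨z, hz⟩ : ℍ) := by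
      ext
      rw [UpperHalfPlane.modular_T_smul]
      simp [add_comm]
    have h' := congrFun h ⟨z, hz⟩
    rw [SL_slash_apply, ← e] at h'
    have hd : denom (ModularGroup.T : GL (Fin 2) ℝ) ((⟨z, hz⟩ : ℍ) : ℂ) = 1 := by
      rw [ModularGroup.denom_apply]; simp [ModularGroup.T]
    rw [hd, one_zpow, mul_one] at h'
    exact h'

variable {N : ℕ} {χ : DirichletCharacter ℂ N} {f g : ℍ → ℂ}

theorem IsW1.slash_T (hf : IsW1 N χ f) : f ∣[(1 : ℤ)] ModularGroup.T = f := by
  rw [hf.inv _ (ModFun.T_mem_Gamma0 N)]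
  simp [ModularGroup.T]

theorem IsW1.good (hf : IsW1 N χ f) : Good f where
  per := periodic_of_slash_T hf.slash_T
  holo := hf.holo
  bdd := by
    have h := (hf.zero 1).boundedAtFilter
    simp only [SlashAction.slash_one] at h
    exact h

/-- the analytic and algebraic hypotheses on an eigensystem -/
structure IsEigen (N : ℕ) (χ : DirichletCharacter ℂ N) (a : ℕ → ℂ) : Prop where
  one : a 1 = 1
  hecke : ∀ p : ℕ, p.Prime → ¬ p ∣ N → ∀ n : ℕ,
    a (p * n) + χ (p : ZMod N) * (if p ∣ n then a (n / p) else 0) = a p * a n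

theorem IsEigen.map (h : IsEigen N χ (fun n => (qx f).coeff n)) (σ : ℂ →+* ℂ) (g : ℍ → ℂ)
    (hg : qx g = (qx f).map σ) :
    IsEigen N (χ.ringHomComp σ) (fun n => (qx g).coeff n) where
  one := by
    have h1 : (qx f).coeff 1 = 1 := h.one
    simp [hg, h1]
  hecke p hp hpN n := by
    have h2 := congrArg σ (h.hecke p hp hpN n)
    simp only [map_add, map_mul, apply_ite σ, map_zero] at h2
    simpa [hg] using h2

/-- the diamond at `p` moved past the dilation: a form on `Γ₁(N)` -/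
structure IsLevel1 (N : ℕ) (f : ℍ → ℂ) : Prop where
  holo : MDiff f
  inv : ∀ γ : SL(2, ℤ), γ ∈ Gamma1 N → f ∣[(1 : ℤ)] γ = f
  zero : ∀ γ : SL(2, ℤ), IsZeroAtImInfty (f ∣[(1 : ℤ)] γ)

theorem T_mem_Gamma1 (N : ℕ) : ModularGroup.T ∈ Gamma1 N := by
  rw [Gamma1_mem]; simp [ModularGroup.T]

theorem IsLevel1.good (hf : IsLevel1 N f) : Good f where
  per := periodic_of_slash_T (hf.inv _ (T_mem_Gamma1 N))
  holo := hf.holo
  bdd := by
    have h := (hf.zero 1).boundedAtFilter
    simp only [SlashAction.slash_one] at h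
    exact h

theorem IsW1.isLevel1 (hf : IsW1 N χ f) : IsLevel1 N f where
  holo := hf.holo
  inv γ hγ := by
    rw [Gamma1_mem] at hγ
    rw [hf.inv γ (Gamma0_mem.mpr hγ.2.2), hγ.2.1, map_one, one_smul]
  zero := hf.zero

theorem isLevel1_of_form [NeZero N] (f : CuspForm (Gamma1 N) (1 : ℤ)) : IsLevel1 N f where
  holo := CuspFormClass.holo f
  inv γ hγ := SlashInvariantFormClass.slash_action_eq f _ (Subgroup.mem_map_of_mem _ hγ)
  zero γ := CuspFormClass.zero_at_cusps f (by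
    rw [Subgroup.IsArithmetic.isCusp_iff_isCusp_SL2Z, isCusp_SL2Z_iff']
    exact ⟨γ, rfl⟩) _ rfl

theorem mdiff_eq_zero_or {f g : ℍ → ℂ} (hf : MDiff f) (hg : MDiff g) (h : f * g = 0) :
    f = 0 ∨ g = 0 := by
  rw [UpperHalfPlane.mdifferentiable_iff] at hf hg
  have hU : IsOpen upperHalfPlaneSet := isOpen_upperHalfPlaneSet
  rcases AnalyticOnNhd.eq_zero_or_eq_zero_of_mul_eq_zero (hf.analyticOnNhd hU)
      (hg.analyticOnNhd hU) (fun z _ => congrFun h (ofComplex z))
      (Convex.isPreconnected (convex_halfSpace_im_gt 0)) with h1 | h1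
  · exact Or.inl (funext fun τ => by simpa [ofComplex_apply] using h1 τ τ.im_pos)
  · exact Or.inr (funext fun τ => by simpa [ofComplex_apply] using h1 τ τ.im_pos)

theorem mdiff_mul_right_cancel {f g d : ℍ → ℂ} (hf : MDiff f) (hg : MDiff g) (hd : MDiff d)
    (hd0 : d ≠ 0) (h : f * d = g * d) : f = g := by
  rcases mdiff_eq_zero_or (hf.sub hg) hd (by rw [sub_mul, h, sub_self]) with h1 | h1
  · exact sub_eq_zero.mp h1
  · exact absurd h1 hd0

theorem Good.ne_zero_of_coeff {f : ℍ → ℂ} {n : ℕ} (h : (qx f).coeff n ≠ 0) : f ≠ 0 := by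
  rintro rfl
  exact h (by simp [qx, qExpansion_zero])

theorem IsW1.ne_zero_of_eigen (h : IsEigen N χ (fun n => (qx f).coeff n)) : f ≠ 0 :=
  Good.ne_zero_of_coeff (n := 1) (by rw [h.one]; exact one_ne_zero)

end FLTAgent.DS
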