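import Fermat.Agent.Good.LevelSeries
import Fermat.Agent.EIS.UniformAdd

/-!
Area DS, parcel DS2: the series of cotangents and the quotient `℘'' / ℘'`.
-/

set_option autoImplicit false
set_option linter.unusedSectionVars false

noncomputable section

open UpperHalfPlane Complex Filter
open scoped Topology Real MatrixGroups

namespace FLTAgent.DS

open Good (periodPairAt rowVal mem_lattice_periodPairAt)

/-- `exp (2πix)` -/
def expC (x : ℂ) : ℂ := Complex.exp (2 * π * Complex.I * x)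

/-- one row of the series -/
def gRow (x : ℂ) : ℂ := 2 * π * Complex.I * (expC x / (expC x - 1))

/-- the rows far from the origin -/
def gTail (τ x : ℂ) : ℂ := ∑' m : ℕ, gRow ((m + 2) * τ + x)

/-- the odd series whose derivative is `-℘` up to a constant -/
def zRow (τ z : ℂ) : ℂ :=
  gRow z - π * Complex.I + (gRow (τ + z) - gRow (τ - z)) + (gTail τ z - gTail τ (-z))

theorem norm_expC (x : ℂ) : ‖expC x‖ = Real.exp (-(2 * π * x.im)) := by
  simp [expC, Complex.norm_exp, mul_assoc]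

theorem expC_ne_one {x : ℂ} (hx : ∀ n : ℤ, x ≠ n) : expC x ≠ 1 := by
  intro h
  obtain ⟨n, hn⟩ := Complex.exp_eq_one_iff.mp h
  exact hx n (mul_left_cancel₀ Complex.two_pi_I_ne_zero (hn.trans (mul_comm _ _)))

theorem ne_int_of_im_pos {x : ℂ} (hx : 0 < x.im) (n : ℤ) : x ≠ n := by
  rintro rfl
  simp at hx

theorem hasDerivAt_expC (x : ℂ) : HasDerivAt expC (2 * π * Complex.I * expC x) x := by
  have h := ((hasDerivAt_id x).const_mul (2 * π * Complex.I)).cexp
  simp only [id, mul_one] at h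
  rw [mul_comm]
  exact h

theorem hasDerivAt_gRow {x : ℂ} (hx : ∀ n : ℤ, x ≠ n) :
    HasDerivAt gRow (-(2 * π * Complex.I) ^ 2 * rowVal x) x := by
  have h0 := sub_ne_zero.mpr (expC_ne_one hx)
  have h := ((hasDerivAt_expC x).div ((hasDerivAt_expC x).sub_const 1) h0).const_mul
    (2 * π * Complex.I)
  refine h.congr_deriv ?_
  show _ = _ * (expC x / (1 - expC x) ^ 2)
  rw [show (1 - expC x) ^ 2 = (expC x - 1) ^ 2 by ring]
  field_simp
  ring

theorem gRow_neg {x : ℂ} (hx : ∀ n : ℤ, x ≠ n) : gRow (-x) = 2 * π * Complex.I - gRow x := by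
  have h0 := sub_ne_zero.mpr (expC_ne_one hx)
  have he : expC x ≠ 0 := Complex.exp_ne_zero _
  have h1 : expC (-x) = (expC x)⁻¹ := by rw [expC, expC, ← Complex.exp_neg, mul_neg]
  have h2 : (1 : ℂ) - expC x ≠ 0 := sub_ne_zero.mpr (expC_ne_one hx).symm
  simp only [gRow, h1]
  field_simp
  ring

theorem gRow_add_int (x : ℂ) (n : ℤ) : gRow (x + n) = gRow x := by
  have : expC (x + n) = expC x := by
    rw [expC, mul_add, Complex.exp_add, show 2 * (π : ℂ) * Complex.I * n = n * (2 * π * Complex.I) by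
      ring, Complex.exp_int_mul_two_pi_mul_I, mul_one, expC]
  simp only [gRow, this]

theorem norm_gRow_le {x : ℂ} {r : ℝ} (h : ‖expC x‖ ≤ r) (hr : r < 1) :
    ‖gRow x‖ ≤ 2 * π * (r / (1 - r)) := by
  have h1 : 1 - r ≤ ‖expC x - 1‖ := by
    have := norm_sub_norm_le (1 : ℂ) (expC x)
    rw [norm_one, norm_sub_rev] at this
    linarith
  rw [gRow, norm_mul, norm_div]
  refine mul_le_mul (le_of_eq ?_) ?_ (by positivity) (by positivity)
  · simp [Real.pi_pos.le, abs_of_nonneg]
  · exact div_le_div₀ ((norm_nonneg _).trans h) h (by linarith) h1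

/-- the majorant of the far rows -/
def tailBound (y δ : ℝ) (m : ℕ) : ℝ :=
  2 * π * (Real.exp (-(2 * π * δ)) / (1 - Real.exp (-(2 * π * δ)))) * Real.exp (-(2 * π * y)) ^ m

theorem summable_tailBound {y : ℝ} (hy : 0 < y) (δ : ℝ) : Summable (tailBound y δ) :=
  (summable_geometric_of_lt_one (Real.exp_pos _).le
    (Real.exp_lt_one_iff.mpr (by nlinarith [Real.pi_pos]))).mul_left _

theorem im_tail (τ x : ℂ) (m : ℕ) : ((m + 2) * τ + x).im = (m + 2) * τ.im + x.im := by
  simp

theorem norm_tail_term_le {y δ : ℝ} (hy : 0 < y) (hδ : 0 < δ) {τ x : ℂ} (hτ : y ≤ τ.im)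
    (hx : δ - 2 * y ≤ x.im) (m : ℕ) : ‖gRow ((m + 2) * τ + x)‖ ≤ tailBound y δ m := by
  set r := Real.exp (-(2 * π * δ))
  set ρ := Real.exp (-(2 * π * y))
  have hr : r < 1 := Real.exp_lt_one_iff.mpr (by nlinarith [Real.pi_pos])
  have hρ : ρ ≤ 1 := Real.exp_le_one_iff.mpr (by nlinarith [Real.pi_pos])
  have he : ‖expC ((m + 2) * τ + x)‖ ≤ r * ρ ^ m := by
    rw [norm_expC, im_tail, ← Real.exp_nat_mul, ← Real.exp_add, Real.exp_le_exp]
    have : 0 ≤ 2 * π * ((m + 2) * τ.im + x.im - (δ + m * y)) := by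
      refine mul_nonneg (by positivity) ?_
      nlinarith
    nlinarith
  have hr0 : r * ρ ^ m ≤ r :=
    mul_le_of_le_one_right (Real.exp_pos _).le (pow_le_one₀ (Real.exp_pos _).le hρ)
  refine (norm_gRow_le he (hr0.trans_lt hr)).trans ?_
  rw [tailBound, mul_assoc (2 * π)]
  refine mul_le_mul_of_nonneg_left ?_ (by positivity)
  rw [div_mul_eq_mul_div]
  exact div_le_div_of_nonneg_left (by positivity) (by linarith) (by linarith)

theorem summable_gTail {τ x : ℂ} (hτ : 0 < τ.im) (hx : -2 * τ.im < x.im) :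
    Summable fun m : ℕ => gRow ((m + 2) * τ + x) :=
  Summable.of_norm_bounded (summable_tailBound hτ (x.im + 2 * τ.im))
    (norm_tail_term_le hτ (by linarith) le_rfl (by linarith))

theorem hasSum_deriv_gTail {τ x : ℂ} (hτ : 0 < τ.im) (hx : -2 * τ.im < x.im) :
    DifferentiableAt ℂ (gTail τ) x ∧
      HasSum (fun m : ℕ => -(2 * π * Complex.I) ^ 2 * rowVal ((m + 2) * τ + x))
        (deriv (gTail τ) x) := by
  set δ := (x.im + 2 * τ.im) / 2 with hδ
  set U : Set ℂ := {w | δ - 2 * τ.im < w.im}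
  have hU : IsOpen U := isOpen_lt continuous_const Complex.continuous_im
  have hxU : x ∈ U := by show δ - 2 * τ.im < x.im; linarith
  have hpos : ∀ (m : ℕ), ∀ w ∈ U, 0 < ((m + 2) * τ + w).im := fun m w hw => by
    rw [im_tail]
    have : δ - 2 * τ.im < w.im := hw
    nlinarith [mul_nonneg (Nat.cast_nonneg (α := ℝ) m) hτ.le]
  have hd : ∀ (m : ℕ), ∀ w ∈ U, HasDerivAt (fun u : ℂ => gRow ((m + 2) * τ + u))
      (-(2 * π * Complex.I) ^ 2 * rowVal ((m + 2) * τ + w)) w := fun m w hw =>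
    (hasDerivAt_gRow (ne_int_of_im_pos (hpos m w hw))).comp_const_add _ _
  have hb : ∀ (m : ℕ), ∀ w ∈ U, ‖gRow ((m + 2) * τ + w)‖ ≤ tailBound τ.im δ m := fun m w hw =>
    norm_tail_term_le hτ (by linarith) le_rfl (le_of_lt hw) m
  have hf : ∀ m : ℕ, DifferentiableOn ℂ (fun u : ℂ => gRow ((m + 2) * τ + u)) U :=
    fun m w hw => (hd m w hw).differentiableAt.differentiableWithinAt
  refine ⟨(differentiableOn_tsum_of_summable_norm (summable_tailBound hτ δ) hf hU
    hb).differentiableAt (hU.mem_nhds hxU), ?_⟩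
  exact (hasSum_deriv_of_summable_norm (summable_tailBound hτ δ) hf hU hb hxU).congr_fun
    fun m => ((hd m x hxU).deriv).symm

theorem sub_mul_ne_int {τ : ℍ} {z : ℂ} (hz : z ∉ (periodPairAt τ).lattice) (m n : ℤ) :
    z - m * (τ : ℂ) ≠ n := fun h =>
  hz ((mem_lattice_periodPairAt).mpr ⟨m, n, by rw [← h]; ring⟩)

theorem ne_int_of_notMem {τ : ℍ} {z : ℂ} (hz : z ∉ (periodPairAt τ).lattice) (n : ℤ) : z ≠ n := by
  simpa using sub_mul_ne_int hz 0 n

theorem exists_hasDerivAt_zRow (τ : ℍ) {z : ℂ} (h1 : -2 * τ.im < z.im) (h2 : z.im < 2 * τ.im)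
    (hz : z ∉ (periodPairAt τ).lattice) :
    ∃ D : ℂ, HasDerivAt (zRow τ) D z ∧
      HasSum (fun m : ℤ => -(2 * π * Complex.I) ^ 2 * rowVal (z - m * (τ : ℂ))) D := by
  set K : ℂ := (2 * π * Complex.I) ^ 2
  obtain ⟨d1, s1⟩ := hasSum_deriv_gTail (x := z) τ.im_pos h1
  obtain ⟨d2, s2⟩ := hasSum_deriv_gTail (x := -z) τ.im_pos
    (by simp only [Complex.neg_im]; show -2 * τ.im < _; linarith)
  have hp : ∀ n : ℤ, (τ : ℂ) + z ≠ n := fun n h =>
    sub_mul_ne_int hz (-1) n (by rw [← h]; push_cast; ring)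
  have hm : ∀ n : ℤ, (τ : ℂ) - z ≠ n := fun n h =>
    sub_mul_ne_int hz 1 (-n) (by push_cast; rw [← h]; ring)
  refine ⟨-K * rowVal z + (-K * rowVal (τ + z) + -K * rowVal (τ - z)) +
    (deriv (gTail τ) z + deriv (gTail τ) (-z)), ?_, ?_⟩
  · have e1 := ((hasDerivAt_gRow (ne_int_of_notMem hz)).sub_const (π * Complex.I)).add
      (((hasDerivAt_gRow hp).comp_const_add _ _).sub ((hasDerivAt_gRow hm).comp_const_sub _ _))
    have e2 := d1.hasDerivAt.sub (d2.hasDerivAt.comp z (hasDerivAt_neg z))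
    refine (e1.add e2).congr_deriv ?_
    ring
  · set f : ℤ → ℂ := fun m => -K * rowVal (z - m * (τ : ℂ))
    have hpos : HasSum (fun n : ℕ => f n) (deriv (gTail τ) (-z) + ∑ i ∈ Finset.range 2, f i) := by
      refine (hasSum_nat_add_iff (f := fun n : ℕ => f n) 2).1 (s2.congr_fun fun n => ?_)
      show -K * rowVal (z - ((n + 2 : ℕ) : ℤ) * (τ : ℂ)) = _
      rw [← Good.rowVal_neg (x := ((n : ℂ) + 2) * τ + -z)]
      push_cast
      simp only [K]
      ring_nf
    have hneg : HasSum (fun n : ℕ => f (-((n : ℤ) + 1))) (f (-1) + deriv (gTail τ) z) := by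
      have h0 : f (-(((0 : ℕ) : ℤ) + 1)) = f (-1) := by norm_num
      rw [← h0]
      refine HasSum.zero_add (f := fun n : ℕ => f (-((n : ℤ) + 1))) (s1.congr_fun fun n => ?_)
      show -K * rowVal (z - ((-(((n + 1 : ℕ) : ℤ) + 1) : ℤ) : ℂ) * (τ : ℂ)) = _
      push_cast
      simp only [K]
      ring_nf
    refine (congrArg (HasSum f) ?_).mp (HasSum.of_nat_of_neg_add_one hpos hneg)
    simp only [f, Finset.sum_range_succ, Finset.sum_range_zero, zero_add, Nat.cast_zero,
      Nat.cast_one, Int.cast_zero, Int.cast_one, Int.cast_neg, zero_mul, sub_zero]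
    rw [show rowVal ((τ : ℂ) - z) = rowVal (z - 1 * (τ : ℂ)) by
      rw [← Good.rowVal_neg (x := (τ : ℂ) - z)]; ring_nf, show (τ : ℂ) + z = z - -1 * (τ : ℂ) by ring]
    ring

theorem hasSum_wP_sub {τ : ℍ} {z w : ℂ} (hz : z ∉ (periodPairAt τ).lattice)
    (hw : w ∉ (periodPairAt τ).lattice) :
    HasSum (fun m : ℤ => (2 * π * Complex.I) ^ 2 * rowVal (z - m * (τ : ℂ)) -
        (2 * π * Complex.I) ^ 2 * rowVal (w - m * (τ : ℂ)))
      (PeriodPair.weierstrassP (periodPairAt τ) z - PeriodPair.weierstrassP (periodPairAt τ) w) := by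
  set L := periodPairAt τ with hL
  have h1 : HasSum (fun l : L.lattice => 1 / (z - l) ^ 2 - 1 / (w - l) ^ 2)
      (PeriodPair.weierstrassP L z - PeriodPair.weierstrassP L w) := by
    refine ((L.hasSum_weierstrassP z).sub (L.hasSum_weierstrassP w)).congr_fun fun l => ?_
    ring
  have h2 := L.latticeEquivProd.symm.toEquiv.hasSum_iff.mpr h1
  have h3 : HasSum (fun p : ℤ × ℤ =>
      1 / ((z - p.1 * (τ : ℂ)) - p.2) ^ 2 - 1 / ((w - p.1 * (τ : ℂ)) - p.2) ^ 2)
      (PeriodPair.weierstrassP L z - PeriodPair.weierstrassP L w) := by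
    refine h2.congr_fun fun p => ?_
    simp only [Function.comp_apply, LinearEquiv.coe_toEquiv, PeriodPair.latticeEquiv_symm_apply]
    simp only [hL, periodPairAt, mul_one]
    ring
  have h4 := h3.prod_fiberwise (fun m =>
    (Good.hasSum_row (x := z - m * (τ : ℂ)) (sub_mul_ne_int hz m)).sub
      (Good.hasSum_row (x := w - m * (τ : ℂ)) (sub_mul_ne_int hw m)))
  exact h4

theorem zRow_neg {τ : ℍ} {z : ℂ} (hz : z ∉ (periodPairAt τ).lattice) :
    zRow τ (-z) = -zRow τ z := by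
  simp only [zRow, gRow_neg (ne_int_of_notMem hz), sub_neg_eq_add, neg_neg, ← sub_eq_add_neg]
  ring

/-- `℘'' / ℘'` -/
def ellQ (L : PeriodPair) (z : ℂ) : ℂ :=
  deriv (PeriodPair.derivWeierstrassP L) z / PeriodPair.derivWeierstrassP L z

section Elliptic

variable (L : PeriodPair)

open PeriodPair

theorem notMem_of_two_mul {z : ℂ} (h : 2 * z ∉ L.lattice) : z ∉ L.lattice := fun hh =>
  h (by rw [two_mul]; exact add_mem hh hh)

theorem neg_notMem {z : ℂ} (h : z ∉ L.lattice) : -z ∉ L.lattice := fun hh =>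
  h (by simpa using neg_mem hh)

theorem derivP_ne_zero {z : ℂ} (h2 : 2 * z ∉ L.lattice) : ℘'[L] z ≠ 0 := by
  intro h
  have hz := notMem_of_two_mul L h2
  have hu := neg_notMem L hz
  set d := 2 * z with hd
  have ha : AnalyticAt ℂ (fun x => ℘[L] (x + d)) (-z) :=
    (L.analyticOnNhd_weierstrassP z hz).comp_of_eq (analyticAt_id.add analyticAt_const)
      (by simp [d]; ring)
  have htop : analyticOrderAt (fun x => ℘[L] (x + d) - ℘[L] x) (-z) = ⊤ := by
    rw [ENat.eq_top_iff_forall_ge]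
    intro n
    rw [natCast_le_analyticOrderAt_iff_iteratedDeriv_eq_zero
      (f := fun x => ℘[L] (x + d) - ℘[L] x) (ha.sub (L.analyticOnNhd_weierstrassP (-z) hu))]
    intro i _
    rw [iteratedDeriv_fun_sub ha.contDiffAt (L.analyticOnNhd_weierstrassP (-z) hu).contDiffAt,
      iteratedDeriv_comp_add_const]
    simp only
    rw [show -z + d = z by simp [d]; ring, sub_eq_zero]
    exact Good.iteratedDeriv_weierstrassP_congr L hz hu (L.weierstrassP_neg z).symm
      (by rw [L.derivWeierstrassP_neg, h, neg_zero]) i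
  set S : Set ℂ := (L.lattice : Set ℂ) ∪ (fun x => x - d) '' (L.lattice : Set ℂ)
  have hS : S.Countable := (Good.countable_lattice L).union ((Good.countable_lattice L).image _)
  have hmem : ∀ x, x ∈ Sᶜ ↔ x ∉ L.lattice ∧ x + d ∉ L.lattice := by
    intro x
    simp only [S, Set.mem_compl_iff, Set.mem_union, Set.mem_image, SetLike.mem_coe, not_or]
    refine and_congr_right fun _ => ⟨fun hh hx => hh ⟨x + d, hx, by ring⟩, ?_⟩
    rintro hh ⟨y, hy, rfl⟩
    exact hh (by simpa using hy)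
  have han : AnalyticOnNhd ℂ (fun x => ℘[L] (x + d) - ℘[L] x) Sᶜ := fun x hx =>
    ((L.analyticOnNhd_weierstrassP (x + d) ((hmem x).1 hx).2).comp_of_eq
      (analyticAt_id.add analyticAt_const) rfl).sub
      (L.analyticOnNhd_weierstrassP x ((hmem x).1 hx).1)
  have hzero := han.eqOn_zero_of_preconnected_of_eventuallyEq_zero
    (Good.isPreconnected_compl_countable hS)
    ((hmem (-z)).2 ⟨hu, by rw [show -z + d = z by simp [d]; ring]; exact hz⟩)
    (analyticOrderAt_eq_top.mp htop)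
  have hd0 : (fun x : ℂ => x + d) ⁻¹' (L.lattice : Set ℂ)ᶜ ∈ 𝓝[≠] (0 : ℂ) := by
    refine mem_nhdsWithin_of_mem_nhds ((L.isClosed_lattice.isOpen_compl.preimage
      (by fun_prop)).mem_nhds ?_)
    simpa using h2
  refine Good.not_eventuallyEq_weierstrassP L (g := fun x => ℘[L] (x + d)) ?_ ?_
  · exact (L.analyticOnNhd_weierstrassP d h2).comp_of_eq (analyticAt_id.add analyticAt_const)
      (by simp)
  · filter_upwards [Good.compl_mem_punctured L, hd0] with x hx hx'
    have := hzero ((hmem x).2 ⟨hx, hx'⟩)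
    exact (sub_eq_zero.mp this).symm

theorem deriv_derivP_neg {z : ℂ} (hz : z ∉ L.lattice) :
    deriv ℘'[L] (-z) = deriv ℘'[L] z := by
  rw [Good.deriv_derivWeierstrassP L hz, Good.deriv_derivWeierstrassP L (neg_notMem L hz),
    L.weierstrassP_neg]

theorem ellQ_neg {z : ℂ} (hz : z ∉ L.lattice) : ellQ L (-z) = -ellQ L z := by
  rw [ellQ, ellQ, deriv_derivP_neg L hz, L.derivWeierstrassP_neg, div_neg]

theorem ellQ_add_period {l : ℂ} (hl : l ∈ L.lattice) (z : ℂ) : ellQ L (z + l) = ellQ L z := by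
  have hp : (fun x => ℘'[L] (x + l)) = ℘'[L] := funext fun x => L.derivWeierstrassP_add_coe x ⟨l, hl⟩
  rw [ellQ, ellQ, ← deriv_comp_add_const, hp, congrFun hp z]

/-- the duplication formula -/
theorem wP_two_mul {z : ℂ} (h2 : 2 * z ∉ L.lattice) :
    ℘[L] (2 * z) = ellQ L z ^ 2 / 4 - 2 * ℘[L] z := by
  have hz := notMem_of_two_mul L h2
  have hu := neg_notMem L hz
  have dA : HasDerivAt ℘'[L] (deriv ℘'[L] (-z)) (-z) :=
    (L.analyticOnNhd_derivWeierstrassP (-z) hu).differentiableAt.hasDerivAt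
  have dB := EIS.hasDerivAt_wP L hu
  have hne : ℘'[L] (-z) ≠ 0 := by rw [L.derivWeierstrassP_neg]; exact neg_ne_zero.2 (derivP_ne_zero L h2)
  have hslope := (hasDerivAt_iff_tendsto_slope.1 dA).div (hasDerivAt_iff_tendsto_slope.1 dB) hne
  rw [deriv_derivP_neg L hz, L.derivWeierstrassP_neg, div_neg] at hslope
  have hid : Tendsto (fun t : ℂ => t) (𝓝[≠] (-z)) (𝓝 (-z)) := nhdsWithin_le_nhds
  have hP : Tendsto (fun t => ℘[L] t) (𝓝[≠] (-z)) (𝓝 (℘[L] (-z))) :=
    (L.analyticOnNhd_weierstrassP (-z) hu).continuousAt.tendsto.comp hid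
  have hX : Tendsto (fun t => EIS.chordX L z (t - z)) (𝓝[≠] (-z))
      (𝓝 (ellQ L z ^ 2 / 4 - ℘[L] z - ℘[L] z)) := by
    have := (((hslope.pow 2).div_const 4).sub hP).sub_const (℘[L] z)
    rw [L.weierstrassP_neg] at this
    rw [show ellQ L z ^ 2 = (-(deriv ℘'[L] z / ℘'[L] z)) ^ 2 by rw [ellQ, neg_sq]]
    refine this.congr' ?_
    filter_upwards [self_mem_nhdsWithin] with t (ht : t ≠ -z)
    have h0 : t + z ≠ 0 := fun e => ht (eq_neg_of_add_eq_zero_left e)
    simp only [EIS.chordX, EIS.chord, Pi.div_apply, slope_def_field, L.weierstrassP_neg,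
      L.derivWeierstrassP_neg, sub_neg_eq_add, add_sub_cancel]
    rw [div_div_div_cancel_right₀ h0]
  have h2' : -z - z ∉ L.lattice := by
    intro hh; exact h2 (by simpa [two_mul, sub_eq_add_neg] using neg_mem hh)
  have hshift : Tendsto (fun t : ℂ => t - z) (𝓝[≠] (-z)) (𝓝 (-z - z)) := hid.sub_const z
  have hW : Tendsto (fun t => ℘[L] (t - z)) (𝓝[≠] (-z)) (𝓝 (℘[L] (-z - z))) :=
    (L.analyticOnNhd_weierstrassP _ h2').continuousAt.tendsto.comp hshift
  have ho : IsOpen (L.lattice : Set ℂ)ᶜ := L.isClosed_lattice.isOpen_compl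
  have hev : (fun t => EIS.chordX L z (t - z)) =ᶠ[𝓝[≠] (-z)] fun t => ℘[L] (t - z) := by
    have h0 : Tendsto (fun t : ℂ => t + z) (𝓝[≠] (-z)) (𝓝[≠] 0) := by
      refine tendsto_nhdsWithin_iff.2 ⟨?_, ?_⟩
      · simpa using hid.add_const z
      · filter_upwards [self_mem_nhdsWithin] with t (ht : t ≠ -z)
        exact fun e => ht (eq_neg_of_add_eq_zero_left e)
    filter_upwards [hid.eventually (ho.mem_nhds hu), hshift.eventually (ho.mem_nhds h2'),
      h0.eventually (Good.compl_mem_punctured L)] with t h1 h3 h4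
    refine EIS.chordX_eq L hz h3 ?_ ?_
    · rw [add_sub_cancel]; exact h1
    · rw [show 2 * z + (t - z) = t + z by ring]; exact h4
  have := tendsto_nhds_unique hW (hX.congr' hev)
  rw [show -z - z = -(2 * z) by ring, L.weierstrassP_neg] at this
  rw [this]
  ring

theorem hasDerivAt_ellQ {z : ℂ} (h2 : 2 * z ∉ L.lattice) :
    HasDerivAt (ellQ L) (4 * ℘[L] z - 4 * ℘[L] (2 * z)) z := by
  have hz := notMem_of_two_mul L h2
  have ho : IsOpen (L.lattice : Set ℂ)ᶜ := L.isClosed_lattice.isOpen_compl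
  have e : deriv ℘'[L] =ᶠ[𝓝 z] fun t => 6 * ℘[L] t ^ 2 - L.g₂ / 2 := by
    filter_upwards [ho.mem_nhds hz] with t ht using Good.deriv_derivWeierstrassP L ht
  have d1 : HasDerivAt (deriv ℘'[L]) (12 * ℘[L] z * ℘'[L] z) z := by
    refine HasDerivAt.congr_of_eventuallyEq ?_ e
    refine (((EIS.hasDerivAt_wP L hz).fun_pow 2).const_mul 6 |>.sub_const _).congr_deriv ?_
    ring
  have d2 : HasDerivAt ℘'[L] (deriv ℘'[L] z) z :=
    (L.analyticOnNhd_derivWeierstrassP z hz).differentiableAt.hasDerivAt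
  have hne := derivP_ne_zero L h2
  refine (d1.div d2 hne).congr_deriv ?_
  rw [wP_two_mul L h2, ellQ]
  field_simp
  ring

end Elliptic

/-- the same quotient from the series -/
def zDup (τ z : ℂ) : ℂ := 2 * (zRow τ (2 * z) - 2 * zRow τ z)

theorem hasDerivAt_zDup (τ : ℍ) {z : ℂ} (h1 : -τ.im < z.im) (h1' : z.im < τ.im)
    (h2 : 2 * z ∉ (periodPairAt τ).lattice) :
    HasDerivAt (zDup τ) (4 * PeriodPair.weierstrassP (periodPairAt τ) z -
      4 * PeriodPair.weierstrassP (periodPairAt τ) (2 * z)) z := by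
  have him : (2 * z).im = 2 * z.im := by simp
  have hy := τ.im_pos
  obtain ⟨D, hD, sD⟩ := exists_hasDerivAt_zRow τ (z := z) (by linarith) (by linarith)
    (notMem_of_two_mul _ h2)
  obtain ⟨D', hD', sD'⟩ := exists_hasDerivAt_zRow τ (z := 2 * z) (by rw [him]; linarith)
    (by rw [him]; linarith) h2
  have hdiff : D' - D = PeriodPair.weierstrassP (periodPairAt τ) z -
      PeriodPair.weierstrassP (periodPairAt τ) (2 * z) := by
    refine (sD'.sub sD).unique ((hasSum_wP_sub (notMem_of_two_mul _ h2) h2).congr_fun fun m => ?_)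
    ring
  refine (((hD'.comp z ((hasDerivAt_id z).const_mul 2)).sub (hD.const_mul 2)).const_mul
    (2 : ℂ)).congr_deriv ?_
  linear_combination 4 * hdiff

theorem zDup_neg {τ : ℍ} {z : ℂ} (h2 : 2 * z ∉ (periodPairAt τ).lattice) :
    zDup τ (-z) = -zDup τ z := by
  simp only [zDup, mul_neg, zRow_neg h2, zRow_neg (notMem_of_two_mul _ h2)]
  ring

/-- the comparison -/
theorem ellQ_eq_zDup {τ : ℍ} {z : ℂ} (h0 : 0 ≤ z.im) (hy : z.im ≤ τ.im / 2)
    (h2 : 2 * z ∉ (periodPairAt τ).lattice) : ellQ (periodPairAt τ) z = zDup τ z := by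
  set L := periodPairAt τ
  have hpos := τ.im_pos
  set V : Set ℂ := {w | 0 < w.im} ∩ {w | w.im < τ.im / 2}
  have hV : IsOpen V := (isOpen_lt continuous_const Complex.continuous_im).inter
    (isOpen_lt Complex.continuous_im continuous_const)
  have hVc : IsPreconnected V :=
    ((convex_halfSpace_im_gt 0).inter (convex_halfSpace_im_lt _)).isPreconnected
  set φ : ℂ → ℂ := fun w => ellQ L w - zDup τ w
  have hd : ∀ w, -τ.im < w.im → w.im < τ.im → 2 * w ∉ L.lattice → HasDerivAt φ 0 w :=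
    fun w h1 h1' h2 => ((hasDerivAt_ellQ L h2).sub (hasDerivAt_zDup τ h1 h1' h2)).congr_deriv
      (sub_self _)
  have hVmem : ∀ w ∈ V, 2 * w ∉ L.lattice := by
    rintro w ⟨hw0, hw1⟩ hh
    obtain ⟨a, b, hab⟩ := (mem_lattice_periodPairAt).mp hh
    have hi := congrArg Complex.im hab
    simp only [Complex.add_im, Complex.mul_im, Complex.intCast_re, Complex.intCast_im, zero_mul,
      add_zero, Complex.re_ofNat, Complex.im_ofNat, UpperHalfPlane.coe_im] at hi
    rcases lt_trichotomy a 0 with ha | ha | ha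
    · have : (a : ℝ) ≤ -1 := by exact_mod_cast Int.le_sub_one_of_lt ha
      have : (0 : ℝ) < w.im := hw0
      nlinarith
    · subst ha; have : (0 : ℝ) < w.im := hw0; simp at hi; linarith
    · have : (1 : ℝ) ≤ a := by exact_mod_cast ha
      have : w.im < τ.im / 2 := hw1
      nlinarith
  have hdV : ∀ w ∈ V, HasDerivAt φ 0 w := fun w hw => by
    have h1 : 0 < w.im := hw.1
    have h1' : w.im < τ.im / 2 := hw.2
    exact hd w (by linarith) (by linarith) (hVmem w hw)
  set p0 : ℂ := ((τ.im / 4 : ℝ) : ℂ) * Complex.I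
  have hp0 : p0 ∈ V := by
    constructor <;>
      simp only [p0, Set.mem_ofPred_eq, Complex.mul_im, Complex.ofReal_re, Complex.ofReal_im,
        Complex.I_re, Complex.I_im] <;>
      linarith
  have hconst : ∀ w ∈ V, φ w = φ p0 := fun w hw => hV.is_const_of_deriv_eq_zero hVc
    (fun t ht => (hdV t ht).differentiableAt.differentiableWithinAt)
    (fun t ht => (hdV t ht).deriv) hw hp0
  have hext : ∀ w : ℂ, 0 ≤ w.im → w.im ≤ τ.im / 2 → 2 * w ∉ L.lattice → φ w = φ p0 := by
    intro w hw0 hw1 hw2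
    let u : ℕ → ℂ := fun k => w + ((1 / ((k : ℝ) + 2) : ℝ) : ℂ) * (((τ.im / 4 - w.im : ℝ) : ℂ) *
      Complex.I)
    have hu : ∀ k, u k ∈ V := by
      intro k
      have hk : 0 < 1 / ((k : ℝ) + 2) := by positivity
      have hk1 : 1 / ((k : ℝ) + 2) < 1 := by
        rw [div_lt_one (by positivity)]; linarith [Nat.cast_nonneg (α := ℝ) k]
      have him : (u k).im = w.im + 1 / ((k : ℝ) + 2) * (τ.im / 4 - w.im) := by
        simp only [u, Complex.add_im, Complex.mul_im, Complex.ofReal_re, Complex.ofReal_im,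
          Complex.I_re, Complex.I_im]
        ring
      refine ⟨?_, ?_⟩ <;> simp only [Set.mem_ofPred_eq, him] <;>
        nlinarith
    have hlim : Tendsto u atTop (𝓝 w) := by
      have h0 : Tendsto (fun k : ℕ => ((1 / ((k : ℝ) + 2) : ℝ) : ℂ)) atTop (𝓝 0) := by
        have h := (tendsto_one_div_add_atTop_nhds_zero_nat (𝕜 := ℝ)).comp (tendsto_add_atTop_nat 1)
        have h' : Tendsto (fun k : ℕ => (1 / ((k : ℝ) + 2) : ℝ)) atTop (𝓝 0) := by
          refine h.congr fun k => ?_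
          simp only [Function.comp_apply, Nat.cast_add, Nat.cast_one]
          ring_nf
        simpa [Function.comp_def] using (Complex.continuous_ofReal.tendsto 0).comp h'
      simpa [u] using (h0.mul_const (((τ.im / 4 - w.im : ℝ) : ℂ) * Complex.I)).const_add w
    have hc : ContinuousAt φ w := (hd w (by linarith) (by linarith) hw2).continuousAt
    exact tendsto_nhds_unique (hc.tendsto.comp hlim)
      (tendsto_const_nhds.congr fun k => (hconst _ (hu k)).symm)
  have hq : ∀ s : ℂ, (s = 1 / 2 ∨ s = -(1 / 2)) → s ∉ L.lattice := by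
    intro s hs hh
    obtain ⟨a, b, hab⟩ := (mem_lattice_periodPairAt).mp hh
    have hi := congrArg Complex.im hab
    have hre := congrArg Complex.re hab
    rcases hs with rfl | rfl <;> simp [τ.im_ne_zero] at hi <;> subst hi <;> simp at hre
    · have h2b : (2 * b : ℤ) = 1 := by exact_mod_cast (by linarith : (2 * b : ℝ) = 1)
      omega
    · have h2b : (2 * b : ℤ) = -1 := by exact_mod_cast (by linarith : (2 * b : ℝ) = -1)
      omega
  have hq1 : 2 * (1 / 4 : ℂ) ∉ L.lattice := hq _ (Or.inl (by norm_num))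
  have hq2 : 2 * (-(1 / 4) : ℂ) ∉ L.lattice := hq _ (Or.inr (by norm_num))
  have hA := hext (1 / 4) (by simp) (by simp; linarith) hq1
  have hB := hext (-(1 / 4)) (by simp) (by simp; linarith) hq2
  have hodd : φ (-(1 / 4)) = -φ (1 / 4) := by
    simp only [φ, ellQ_neg L (notMem_of_two_mul L hq1), zDup_neg hq1]
    ring
  rw [hodd, hA] at hB
  have hzero : φ p0 = 0 := by linear_combination (-1 / 2 : ℂ) * hB
  exact sub_eq_zero.mp ((hext z h0 hy h2).trans hzero)

end FLTAgent.DS
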