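import Fermat.Agent.DS.Weight1Defs
import Fermat.Agent.DS.Weight1Zeta
import Fermat.Agent.Good.LevelAPI
import Fermat.Agent.ModFun.Dilate

/-!
Area DS, parcel DS2: Eisenstein series of weight one.
-/

set_option autoImplicit false
set_option linter.unusedSectionVars false

noncomputable section

open UpperHalfPlane CongruenceSubgroup ModularForm Filter
open scoped MatrixGroups Manifold Topology ModularForm Real

namespace FLTAgent.DS

open ModFun (qx Good)
open FLTAgent.Good (Lbl periodPairAt torsPt lblAct)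

variable {L : ℕ} [NeZero L]

/-- the constant term -/
def eisC0 (χ : DirichletCharacter ℂ L) : ℂ :=
  -(∑ k : ZMod L, (k.val : ℂ) * χ k) / (2 * (L : ℂ))

/-- the expansion of the Eisenstein series -/
def eisSeries (χ : DirichletCharacter ℂ L) : PowerSeries ℂ :=
  PowerSeries.mk fun n => if n = 0 then eisC0 χ else ∑ d ∈ n.divisors, χ (d : ZMod L)

/-- the properties of the Eisenstein series -/
structure IsEis (χ : DirichletCharacter ℂ L) (F : ℍ → ℂ) : Prop where
  holo : MDiff F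
  inv : ∀ γ : SL(2, ℤ), γ ∈ Gamma0 L → F ∣[(1 : ℤ)] γ = χ ((γ.1 1 1 : ℤ) : ZMod L) • F
  bdd : ∀ γ : SL(2, ℤ), IsBoundedAtImInfty (F ∣[(1 : ℤ)] γ)
  qx_eq : qx F = eisSeries χ

theorem ellQ_scale (L₁ L₂ : PeriodPair) {c : ℂ} (hc : c ≠ 0)
    (h : ∀ x, x ∈ L₁.lattice ↔ c * x ∈ L₂.lattice) (z : ℂ) :
    ellQ L₂ (c * z) = c⁻¹ * ellQ L₁ z := by
  have h0 : (fun x => PeriodPair.weierstrassP L₂ (c * x)) =
      fun x => (c ^ 2)⁻¹ * PeriodPair.weierstrassP L₁ x :=
    funext fun x => Good.weierstrassP_scale L₁ L₂ hc h x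
  have h1 : ∀ x, c * PeriodPair.derivWeierstrassP L₂ (c * x) =
      (c ^ 2)⁻¹ * PeriodPair.derivWeierstrassP L₁ x := fun x => by
    have := congrArg (fun f => deriv f x) h0
    simp only [deriv_comp_mul_left, deriv_const_mul_field, smul_eq_mul,
      PeriodPair.deriv_weierstrassP] at this
    exact this
  have h2 : c * (c * deriv (PeriodPair.derivWeierstrassP L₂) (c * z)) =
      (c ^ 2)⁻¹ * deriv (PeriodPair.derivWeierstrassP L₁) z := by
    have := congrArg (fun f => deriv f z) (funext h1)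
    simp only [deriv_comp_mul_left, deriv_const_mul_field, smul_eq_mul] at this
    exact this
  have e1 : PeriodPair.derivWeierstrassP L₂ (c * z) =
      (c ^ 3)⁻¹ * PeriodPair.derivWeierstrassP L₁ z := by
    refine mul_left_cancel₀ hc ?_
    rw [h1]; field_simp
  have e2 : deriv (PeriodPair.derivWeierstrassP L₂) (c * z) =
      (c ^ 4)⁻¹ * deriv (PeriodPair.derivWeierstrassP L₁) z := by
    refine mul_left_cancel₀ (mul_ne_zero hc hc) ?_
    rw [mul_assoc, h2]; field_simp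
  simp only [ellQ, e1, e2]
  rw [mul_div_mul_comm]
  congr 1
  field_simp

/-- the quotient at a torsion point -/
def phiL (v : Lbl L) (τ : ℍ) : ℂ := ellQ (periodPairAt τ) (torsPt L v τ)

theorem phiL_congr (A B : ℤ) (τ : ℍ) :
    ellQ (periodPairAt τ) (((A : ℂ) * (τ : ℂ) + B) / L) =
      phiL ((A : ZMod L), (B : ZMod L)) τ := by
  have h := ellQ_add_period (periodPairAt τ) (Good.torsPt_congr L A B τ)
    (torsPt L ((A : ZMod L), (B : ZMod L)) τ)
  rw [add_sub_cancel] at h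
  exact h

theorem phiL_slash (v : Lbl L) (γ : SL(2, ℤ)) :
    phiL v ∣[(1 : ℤ)] γ = phiL (lblAct L v γ) := by
  funext τ
  set D : ℂ := denom (γ : GL (Fin 2) ℝ) τ with hD
  have hD0 : D ≠ 0 := denom_ne_zero _ τ
  have hD' : D = (γ.1 1 0 : ℂ) * (τ : ℂ) + (γ.1 1 1 : ℂ) := ModFun.denom_SL γ τ
  have hcoe : ((γ • τ : ℍ) : ℂ) = ((γ.1 0 0 : ℂ) * (τ : ℂ) + (γ.1 0 1 : ℂ)) / D := by
    rw [UpperHalfPlane.coe_specialLinearGroup_apply, hD']
    simp
  have hdet : (γ.1 0 0 : ℂ) * γ.1 1 1 - (γ.1 0 1 : ℂ) * γ.1 1 0 = 1 := by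
    have := (Matrix.det_fin_two (γ.1 : Matrix (Fin 2) (Fin 2) ℤ)).symm.trans γ.2
    exact_mod_cast this
  have hmem : ∀ x, x ∈ (periodPairAt (γ • τ)).lattice ↔ D * x ∈ (periodPairAt τ).lattice := by
    intro x
    rw [Good.mem_lattice_periodPairAt, Good.mem_lattice_periodPairAt]
    constructor
    · rintro ⟨m, n, rfl⟩
      refine ⟨m * γ.1 0 0 + n * γ.1 1 0, m * γ.1 0 1 + n * γ.1 1 1, ?_⟩
      rw [hcoe]; push_cast; field_simp; rw [hD']; ring
    · rintro ⟨m, n, h⟩
      refine ⟨m * γ.1 1 1 - n * γ.1 1 0, n * γ.1 0 0 - m * γ.1 0 1, ?_⟩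
      apply mul_left_cancel₀ hD0
      rw [← h, hcoe]; push_cast; field_simp
      rw [hD']
      linear_combination ((m : ℂ) * (τ : ℂ) + n) * hdet
  have he : D * torsPt L v (γ • τ) =
      ((((v.1.val : ℤ) * γ.1 0 0 + (v.2.val : ℤ) * γ.1 1 0 : ℤ) : ℂ) * (τ : ℂ) +
        (((v.1.val : ℤ) * γ.1 0 1 + (v.2.val : ℤ) * γ.1 1 1 : ℤ) : ℂ)) / L := by
    simp only [torsPt, hcoe]; push_cast
    field_simp [Good.M_ne L]
    rw [hD']; ring
  have hl : lblAct L v γ = ((((v.1.val : ℤ) * γ.1 0 0 + (v.2.val : ℤ) * γ.1 1 0 : ℤ) : ZMod L),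
      (((v.1.val : ℤ) * γ.1 0 1 + (v.2.val : ℤ) * γ.1 1 1 : ℤ) : ZMod L)) := by
    simp [lblAct]
  have hs := ellQ_scale _ _ hD0 hmem (torsPt L v (γ • τ))
  rw [he, phiL_congr, ← hl] at hs
  rw [SL_slash_apply, zpow_neg_one, ← hD, hs, mul_comm]
  rfl

theorem lblAct_ne_neg {v : Lbl L} (h : v ≠ -v) (γ : SL(2, ℤ)) :
    lblAct L v γ ≠ -lblAct L v γ := by
  intro e
  apply h
  have e1 := congrArg Prod.fst e
  have e2 := congrArg Prod.snd e
  simp only [lblAct, Prod.fst_neg, Prod.snd_neg] at e1 e2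
  have hdet := congrArg (Int.cast : ℤ → ZMod L)
    ((Matrix.det_fin_two (γ.1 : Matrix (Fin 2) (Fin 2) ℤ)).symm.trans γ.2)
  push_cast at hdet
  refine Prod.ext ?_ ?_ <;> simp only [Prod.fst_neg, Prod.snd_neg]
  · linear_combination ((γ.1 1 1 : ℤ) : ZMod L) * e1 - ((γ.1 1 0 : ℤ) : ZMod L) * e2 -
      2 * v.1 * hdet
  · linear_combination ((γ.1 0 0 : ℤ) : ZMod L) * e2 - ((γ.1 0 1 : ℤ) : ZMod L) * e1 -
      2 * v.2 * hdet

theorem two_torsPt_notMem {v : Lbl L} (h : v ≠ -v) (τ : ℍ) :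
    2 * torsPt L v τ ∉ (periodPairAt τ).lattice := by
  rw [two_mul, Good.torsPt_add_mem_iff]
  exact h

theorem phiL_neg {v : Lbl L} (h : v ≠ -v) (τ : ℍ) : phiL (-v) τ = -phiL v τ := by
  have hz := notMem_of_two_mul _ (two_torsPt_notMem h τ)
  show _ = -ellQ (periodPairAt τ) (torsPt L v τ)
  rw [← ellQ_neg _ hz, show -torsPt L v τ = (((-(v.1.val : ℤ) : ℤ) : ℂ) * (τ : ℂ) +
    ((-(v.2.val : ℤ) : ℤ) : ℂ)) / L by simp only [torsPt]; push_cast; ring, phiL_congr]
  congr 1
  ext <;> simp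

theorem isBounded_gRow (k : ℕ) (B : ℂ) (hB : B.im = 0) :
    IsBoundedAtImInfty fun τ : ℍ => gRow (((k : ℂ) * (τ : ℂ) + B) / L) := by
  rcases Nat.eq_zero_or_pos k with rfl | hk
  · simp only [Nat.cast_zero, zero_mul, zero_add]
    exact Filter.const_boundedAtFilter atImInfty (gRow (B / L))
  set r := Real.exp (-(2 * π / L)) with hr
  have hL : (0 : ℝ) < L := by exact_mod_cast NeZero.pos L
  have hr1 : r < 1 := Real.exp_lt_one_iff.mpr (by have := Real.pi_pos; rw [neg_lt_zero]; positivity)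
  rw [isBoundedAtImInfty_iff]
  refine ⟨2 * π * (r / (1 - r)), 1, fun τ hτ => norm_gRow_le ?_ hr1⟩
  rw [norm_expC, Complex.div_natCast_im, hr, Real.exp_le_exp, neg_le_neg_iff]
  simp only [Complex.add_im, Complex.mul_im, Complex.natCast_re, Complex.natCast_im, zero_mul,
    add_zero, hB, UpperHalfPlane.coe_im]
  rw [← mul_div_assoc]
  refine div_le_div_of_nonneg_right (le_mul_of_one_le_right (by positivity) ?_) hL.le
  exact one_le_mul_of_one_le_of_one_le (by exact_mod_cast hk) hτ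

theorem isBounded_gTail {x : ℍ → ℂ} (hx : ∀ τ : ℍ, -τ.im ≤ (x τ).im) :
    IsBoundedAtImInfty fun τ : ℍ => gTail τ (x τ) := by
  rw [isBoundedAtImInfty_iff]
  refine ⟨∑' m, tailBound 1 1 m, 1, fun τ hτ => ?_⟩
  refine tsum_of_norm_bounded (summable_tailBound one_pos 1).hasSum fun m => ?_
  refine (norm_tail_term_le τ.im_pos one_pos le_rfl (by have := hx τ; linarith) m).trans ?_
  simp only [tailBound]
  refine mul_le_mul_of_nonneg_left (pow_le_pow_left₀ (Real.exp_pos _).le ?_ m) ?_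
  · exact Real.exp_le_exp.mpr (by nlinarith [Real.pi_pos])
  · refine mul_nonneg (by positivity) (div_nonneg (Real.exp_pos _).le ?_)
    exact sub_nonneg.mpr (Real.exp_le_one_iff.mpr (by have := Real.pi_pos; nlinarith))

theorem isBounded_zRow {A : ℕ} (hA : A ≤ L) (B : ℕ) :
    IsBoundedAtImInfty fun τ : ℍ => zRow τ (((A : ℂ) * (τ : ℂ) + B) / L) := by
  obtain ⟨C, hC⟩ := Nat.exists_eq_add_of_le hA
  have hLC : (L : ℂ) = A + C := by rw [hC]; push_cast; ring
  have hL : (L : ℂ) ≠ 0 := Nat.cast_ne_zero.2 (NeZero.ne L)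
  have h1 := isBounded_gRow (L := L) A (B : ℂ) (by simp)
  have h2 := isBounded_gRow (L := L) (L + A) (B : ℂ) (by simp)
  have h3 := isBounded_gRow (L := L) C (-(B : ℂ)) (by simp)
  have h4 := isBounded_gTail (x := fun τ : ℍ => ((A : ℂ) * (τ : ℂ) + B) / L) fun τ => by
    simp only [Complex.div_natCast_im, Complex.add_im, Complex.mul_im, Complex.natCast_re,
      Complex.natCast_im, zero_mul, add_zero, UpperHalfPlane.coe_im]
    have : 0 ≤ (A : ℝ) * τ.im / L := by positivity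
    linarith [τ.im_pos]
  have h5 := isBounded_gTail (x := fun τ : ℍ => -(((A : ℂ) * (τ : ℂ) + B) / L)) fun τ => by
    simp only [Complex.neg_im, Complex.div_natCast_im, Complex.add_im, Complex.mul_im,
      Complex.natCast_re, Complex.natCast_im, zero_mul, add_zero, UpperHalfPlane.coe_im]
    rw [neg_le_neg_iff, div_le_iff₀ (by exact_mod_cast NeZero.pos L)]
    have : (A : ℝ) ≤ L := by exact_mod_cast hA
    nlinarith [τ.im_pos]
  have e := ((h1.sub (Filter.const_boundedAtFilter atImInfty ((π : ℂ) * Complex.I))).add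
    (h2.sub h3)).add (h4.sub h5)
  refine e.congr (fun τ => ?_) (fun _ => rfl)
  simp only [Pi.add_apply, Pi.sub_apply, zRow]
  rw [show ((((L + A : ℕ) : ℂ)) * (τ : ℂ) + B) / L = (τ : ℂ) + ((A : ℂ) * (τ : ℂ) + B) / L by
      field_simp; push_cast; ring,
    show ((C : ℂ) * (τ : ℂ) + -(B : ℂ)) / L = (τ : ℂ) - ((A : ℂ) * (τ : ℂ) + B) / L by
      field_simp; rw [hLC]; ring]
  rfl

theorem isBounded_phiL {v : Lbl L} (hv : v ≠ -v) : IsBoundedAtImInfty (phiL v) := by
  suffices H : ∀ w : Lbl L, w ≠ -w → 2 * w.1.val ≤ L → IsBoundedAtImInfty (phiL w) by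
    rcases le_or_gt (2 * v.1.val) L with h | h
    · exact H v hv h
    · have hne : v.1 ≠ 0 := fun e => by simp [e] at h
      have h' : 2 * (-v).1.val ≤ L := by
        rw [Prod.fst_neg]
        haveI : NeZero v.1 := ⟨hne⟩
        rw [ZMod.val_neg_of_ne_zero]
        omega
      have h1 := (H (-v) (by rw [neg_neg]; exact hv.symm) h').neg
      rwa [show -phiL (-v) = phiL v from funext fun τ => by
        rw [Pi.neg_apply, phiL_neg hv, neg_neg]] at h1
  intro w hw h
  have e : phiL w = fun τ : ℍ => 2 * (zRow τ ((((2 * w.1.val : ℕ) : ℂ) * (τ : ℂ) +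
      ((2 * w.2.val : ℕ) : ℂ)) / L) - 2 * zRow τ ((((w.1.val : ℕ) : ℂ) * (τ : ℂ) + w.2.val) / L)) := by
    funext τ
    have him : (torsPt L w τ).im = w.1.val * τ.im / L := by
      simp [torsPt, Complex.div_natCast_im, -ZMod.natCast_val]
    rw [phiL, ellQ_eq_zDup (by rw [him]; positivity) (by
      rw [him, div_le_div_iff₀ (by exact_mod_cast NeZero.pos L) two_pos]
      have : (2 : ℝ) * w.1.val ≤ L := by exact_mod_cast h
      nlinarith [τ.im_pos]) (two_torsPt_notMem hw τ), zDup]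
    congr 2
    · congr 1
      simp only [torsPt]; push_cast; ring
  rw [e]
  exact ((isBounded_zRow h _).sub ((isBounded_zRow (by omega) _).const_mul_left 2)).const_mul_left 2

theorem differentiableAt_gTail_left {x : ℂ} (hx : x.im = 0) {t : ℂ} (ht : 0 < t.im) :
    DifferentiableAt ℂ (fun s : ℂ => gTail s x) t := by
  set y := t.im / 2 with hy
  have hy0 : 0 < y := by positivity
  set U : Set ℂ := {s | y < s.im}
  have hU : IsOpen U := isOpen_lt continuous_const Complex.continuous_im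
  refine (Complex.differentiableOn_tsum_of_summable_norm (F := fun (m : ℕ) (s : ℂ) =>
    gRow ((m + 2) * s + x)) (summable_tailBound hy0 (2 * y))
    (fun m s hs => ?_) hU fun m s hs => ?_).differentiableAt (hU.mem_nhds (show y < t.im by linarith))
  · have hs' : y < s.im := hs
    refine (((hasDerivAt_gRow (ne_int_of_im_pos ?_)).differentiableAt.comp s
      ((differentiableAt_id.const_mul _).add_const x))).differentiableWithinAt
    rw [im_tail, hx, add_zero]
    have : (0 : ℝ) < (m : ℝ) + 2 := by positivity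
    exact mul_pos this (hy0.trans hs')
  · exact norm_tail_term_le hy0 (by positivity) (le_of_lt hs) (by rw [hx]; linarith) m

theorem differentiableAt_zRow_left {x : ℂ} (hx : x.im = 0) {t : ℂ} (ht : 0 < t.im) :
    DifferentiableAt ℂ (fun s : ℂ => zRow s x) t := by
  have h1 : DifferentiableAt ℂ gRow (t + x) :=
    (hasDerivAt_gRow (ne_int_of_im_pos (by simp [hx, ht]))).differentiableAt
  have h2 : DifferentiableAt ℂ gRow (t - x) :=
    (hasDerivAt_gRow (ne_int_of_im_pos (by simp [hx, ht]))).differentiableAt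
  exact ((differentiableAt_const _).add
    ((h1.comp t (differentiableAt_id.add_const x)).sub
      (h2.comp t (differentiableAt_id.sub_const x)))).add
    ((differentiableAt_gTail_left hx ht).sub (differentiableAt_gTail_left (x := -x) (by simp [hx]) ht))

theorem hasSum_gRow {x : ℂ} (hx : 0 < x.im) :
    HasSum (fun k : ℕ+ => -(2 * π * Complex.I) * expC ((k : ℕ) * x)) (gRow x) := by
  have h1 : ‖expC x‖ < 1 := by
    rw [norm_expC, Real.exp_lt_one_iff, neg_lt_zero]
    have := Real.pi_pos; positivity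
  have hne : expC x - 1 ≠ 0 := sub_ne_zero.2 (expC_ne_one (ne_int_of_im_pos hx))
  have hne' : (1 : ℂ) - expC x ≠ 0 := sub_ne_zero.2 (expC_ne_one (ne_int_of_im_pos hx)).symm
  have hpow : ∀ n : ℕ, expC ((n : ℂ) * x) = expC x ^ n := fun n => by
    rw [expC, expC, ← Complex.exp_nat_mul]; ring_nf
  rw [← Equiv.pnatEquivNat.symm.hasSum_iff]
  have h := (hasSum_geometric_of_norm_lt_one h1).mul_left (-(2 * π * Complex.I) * expC x)
  have e : -(2 * π * Complex.I) * expC x * (1 - expC x)⁻¹ = gRow x := by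
    rw [gRow]; field_simp; ring
  rw [e] at h
  refine h.congr_fun fun n => ?_
  simp only [Function.comp_apply, Equiv.pnatEquivNat_symm_apply, Nat.succPNat_coe,
    Nat.succ_eq_add_one]
  rw [hpow, pow_succ]; ring

/-- the double series at a real point -/
def pairTerm (τ : ℍ) (x : ℂ) (p : ℕ+ × ℕ+) : ℂ :=
  -(2 * π * Complex.I) * (expC ((p.2 : ℕ) * x) - expC (-((p.2 : ℕ) * x))) *
    expC τ ^ ((p.1 : ℕ) * p.2)

theorem hasSum_zRow {τ : ℍ} {x : ℂ} (hx : x.im = 0) :
    HasSum (pairTerm τ x) (zRow τ x - (gRow x - π * Complex.I)) := by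
  have hq : ‖(‖expC (τ : ℂ)‖ : ℝ)‖ < 1 := by
    rw [norm_norm, norm_expC, Real.exp_lt_one_iff, neg_lt_zero]
    have := Real.pi_pos; have := τ.im_pos; rw [UpperHalfPlane.coe_im]; positivity
  have hsum : Summable (pairTerm τ x) := by
    refine Summable.of_norm_bounded ((summable_prod_mul_pow 0 hq).mul_left (4 * π)) fun p => ?_
    have hn : ∀ y : ℂ, y.im = 0 → ‖expC y‖ = 1 := fun y hy => by simp [norm_expC, hy]
    rw [pairTerm, norm_mul, norm_mul, norm_pow, pow_zero, one_mul]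
    refine mul_le_mul_of_nonneg_right ?_ (by positivity)
    have e : ‖-(2 * (π : ℂ) * Complex.I)‖ = 2 * π := by simp [Real.pi_pos.le, abs_of_nonneg]
    rw [e]
    refine (mul_le_mul_of_nonneg_left ((norm_sub_le _ _).trans_eq ?_) (by positivity)).trans_eq
      (show 2 * π * 2 = 4 * π by ring)
    rw [hn _ (by simp [hx]), hn _ (by simp [hx])]; norm_num
  have him : ∀ (m : ℕ+) (s : ℂ), s.im = 0 → 0 < (((m : ℕ) : ℂ) * (τ : ℂ) + s).im := fun m s hs => by
    simp [hs, τ.im_pos]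
  have hfib : ∀ m : ℕ+, HasSum (fun k : ℕ+ => pairTerm τ x (m, k))
      (gRow ((m : ℕ) * (τ : ℂ) + x) - gRow ((m : ℕ) * (τ : ℂ) + -x)) := by
    intro m
    refine ((hasSum_gRow (him m x hx)).sub (hasSum_gRow (him m (-x) (by simp [hx])))).congr_fun
      fun k => ?_
    have hp : ∀ s : ℂ, expC ((k : ℕ) * ((m : ℕ) * (τ : ℂ) + s)) =
        expC ((k : ℕ) * s) * expC τ ^ ((m : ℕ) * k) := fun s => by
      simp only [expC, ← Complex.exp_nat_mul, ← Complex.exp_add]
      push_cast; ring_nf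
    rw [pairTerm, hp, hp, mul_neg]
    ring
  have h1 := hsum.hasSum.prod_fiberwise hfib
  rw [← Equiv.pnatEquivNat.symm.hasSum_iff] at h1
  have hA := summable_gTail (x := x) τ.im_pos (by rw [hx, UpperHalfPlane.coe_im]; linarith [τ.im_pos])
  have hB := summable_gTail (x := -x) τ.im_pos (by rw [Complex.neg_im, hx, UpperHalfPlane.coe_im]; linarith [τ.im_pos])
  set G : ℕ → ℂ := fun n =>
    gRow (((n : ℂ) + 1) * (τ : ℂ) + x) - gRow (((n : ℂ) + 1) * (τ : ℂ) + -x)
  have h2 : HasSum G (G 0 + (gTail τ x - gTail τ (-x))) := by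
    refine HasSum.zero_add ((hA.hasSum.sub hB.hasSum).congr_fun fun n => ?_)
    simp only [G]
    push_cast
    ring_nf
  have e : zRow τ x - (gRow x - π * Complex.I) = G 0 + (gTail τ x - gTail τ (-x)) := by
    simp only [G, zRow, Nat.cast_zero, zero_add, one_mul, ← sub_eq_add_neg]
    ring
  rw [e, h2.unique (h1.congr_fun fun n => by simp [G])]
  exact hsum.hasSum

/-- the Gauss sum of the inverse character -/
def gInv (χ : DirichletCharacter ℂ L) : ℂ := gaussSum χ⁻¹ ZMod.stdAddChar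

theorem isPrimitive_inv {χ : DirichletCharacter ℂ L} (hprim : χ.IsPrimitive) :
    DirichletCharacter.IsPrimitive χ⁻¹ := by
  rw [DirichletCharacter.isPrimitive_def, DirichletCharacter.conductor_inv]
  exact hprim

theorem sum_inv_mul_stdAddChar {χ : DirichletCharacter ℂ L} (hprim : χ.IsPrimitive) (n : ZMod L) :
    ∑ a, χ⁻¹ a * ZMod.stdAddChar (n * a) = χ n * gInv χ := by
  have h := gaussSum_mulShift_of_isPrimitive (ZMod.stdAddChar (N := L)) (isPrimitive_inv hprim) n
  rw [inv_inv] at h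
  exact h

theorem gInv_ne_zero {χ : DirichletCharacter ℂ L} (hprim : χ.IsPrimitive) : gInv χ ≠ 0 := by
  intro h
  have h0 : ZMod.dft (fun a => χ⁻¹ a) = 0 := funext fun k => by
    rw [DirichletCharacter.IsPrimitive.fourierTransform_eq_inv_mul_gaussSum (isPrimitive_inv hprim),
      show gaussSum χ⁻¹ ZMod.stdAddChar = gInv χ from rfl, h, mul_zero]
    rfl
  have h1 := congrFun ((LinearEquiv.map_eq_zero_iff _).1 h0) 1
  simp at h1

theorem two_ne_zero_of_odd {χ : DirichletCharacter ℂ L} (hodd : χ.Odd) : (2 : ZMod L) ≠ 0 := by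
  intro h
  have h1 : (-1 : ZMod L) = 1 := by linear_combination -h
  have h2 : χ (-1) = -1 := hodd
  rw [h1, map_one] at h2
  norm_num at h2

theorem ne_neg_of_isUnit {χ : DirichletCharacter ℂ L} (hodd : χ.Odd) {a : ZMod L} (ha : IsUnit a) :
    ((0, a) : Lbl L) ≠ -((0, a) : Lbl L) := by
  intro h
  have h1 : a = -a := congrArg Prod.snd h
  refine two_ne_zero_of_odd hodd (ha.mul_left_cancel ?_)
  rw [mul_zero, mul_two]
  linear_combination h1

theorem sum_val_stdAddChar {s : ZMod L} (hs : s ≠ 0) :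
    (ZMod.stdAddChar s - 1) * ∑ k : ZMod L, (k.val : ℂ) * ZMod.stdAddChar (k * s) = (L : ℂ) := by
  have hL : 1 < L := by
    rcases Nat.lt_or_ge 1 L with h | h
    · exact h
    · obtain rfl : L = 1 := le_antisymm h (NeZero.pos L)
      exact absurd (Subsingleton.elim s 0) hs
  haveI : Fact (1 < L) := ⟨hL⟩
  have h1 : ZMod.stdAddChar s * ∑ k : ZMod L, (k.val : ℂ) * ZMod.stdAddChar (k * s) =
      ∑ k : ZMod L, ((k - 1).val : ℂ) * ZMod.stdAddChar (k * s) := by
    rw [Finset.mul_sum, ← Equiv.sum_comp (Equiv.addRight (1 : ZMod L))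
      (fun k => ((k - 1).val : ℂ) * ZMod.stdAddChar (k * s))]
    refine Finset.sum_congr rfl fun k _ => ?_
    rw [Equiv.coe_addRight, add_sub_cancel_right, add_mul, one_mul, AddChar.map_add_eq_mul]
    ring
  have h2 : ∀ k : ZMod L, ((k - 1).val : ℂ) = (k.val : ℂ) - 1 + if k = 0 then (L : ℂ) else 0 := by
    intro k
    split_ifs with hk
    · subst hk
      obtain ⟨n, rfl⟩ : ∃ n, L = n + 1 := ⟨L - 1, by omega⟩
      rw [zero_sub, ZMod.val_neg_one, ZMod.val_zero]
      push_cast; ring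
    · have h3 : (1 : ZMod L).val ≤ k.val := by
        rw [ZMod.val_one]; exact Nat.one_le_iff_ne_zero.2 fun e => hk ((ZMod.val_eq_zero k).1 e)
      rw [ZMod.val_sub h3, ZMod.val_one,
        Nat.cast_sub (Nat.one_le_iff_ne_zero.2 fun e => hk ((ZMod.val_eq_zero k).1 e))]
      simp
  have h4 : ∑ k : ZMod L, ZMod.stdAddChar (k * s) = (0 : ℂ) := by
    rw [AddChar.sum_mulShift s (ZMod.isPrimitive_stdAddChar L), if_neg hs, Nat.cast_zero]
  rw [sub_mul, one_mul, h1, ← Finset.sum_sub_distrib]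
  calc ∑ k : ZMod L, (((k - 1).val : ℂ) * ZMod.stdAddChar (k * s) -
        (k.val : ℂ) * ZMod.stdAddChar (k * s))
      = ∑ k : ZMod L, ((if k = 0 then (L : ℂ) else 0) - ZMod.stdAddChar (k * s)) := by
        refine Finset.sum_congr rfl fun k _ => ?_
        rw [h2]
        split_ifs with hk
        · subst hk
          simp only [zero_mul, AddChar.map_zero_eq_one, ZMod.val_zero, Nat.cast_zero]
          ring
        · ring
    _ = L := by rw [Finset.sum_sub_distrib, h4, sub_zero, Finset.sum_ite_eq', if_pos (Finset.mem_univ _)]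

theorem expC_div (b : ℤ) : expC ((b : ℂ) / L) = ZMod.stdAddChar ((b : ZMod L)) := by
  rw [ZMod.stdAddChar_coe, expC]
  congr 1
  ring

theorem im_natCast_div (b : ℕ) : ((b : ℂ) / L).im = 0 := by simp [Complex.div_natCast_im]

/-- the character sum of the constant parts -/
theorem sum_const_part {χ : DirichletCharacter ℂ L} (hprim : χ.IsPrimitive) (hodd : χ.Odd) (j : ℕ)
    (hj : j = 1 ∨ j = 2) :
    ∑ a, χ⁻¹ a * (gRow ((j * a.val : ℕ) / (L : ℂ)) - π * Complex.I) =
      χ j * gInv χ * (-(4 * π * Complex.I)) * eisC0 χ := by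
  have hsum : ∑ a, χ⁻¹ a = 0 := by
    refine MulChar.sum_eq_zero_of_ne_one fun h => ?_
    rw [inv_eq_one] at h
    have h2 : χ (-1) = -1 := hodd
    rw [h, MulChar.one_apply isUnit_one.neg] at h2
    norm_num at h2
  have key : ∀ a : ZMod L, χ⁻¹ a * (gRow ((j * a.val : ℕ) / (L : ℂ)) - π * Complex.I) =
      π * Complex.I * χ⁻¹ a + 2 * π * Complex.I / L *
        ∑ k : ZMod L, (k.val : ℂ) * (χ⁻¹ a * ZMod.stdAddChar ((j : ZMod L) * k * a)) := by
    intro a
    by_cases ha : IsUnit a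
    · set s : ZMod L := (j : ZMod L) * a with hs
      have hs0 : s ≠ 0 := by
        rw [hs]
        rcases hj with rfl | rfl
        · rw [Nat.cast_one, one_mul]
          exact fun e => two_ne_zero_of_odd hodd (ha.mul_left_cancel (by rw [e, zero_mul, zero_mul]))
        · intro e
          exact two_ne_zero_of_odd hodd (ha.mul_right_cancel (by rw [zero_mul]; exact_mod_cast e))
      have hu : expC (((j * a.val : ℕ) : ℂ) / L) = ZMod.stdAddChar s := by
        have := expC_div (L := L) ((j * a.val : ℕ) : ℤ)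
        simp only [Int.cast_natCast] at this
        rw [this, hs, Nat.cast_mul, ZMod.natCast_zmod_val]
      have hkey := sum_val_stdAddChar hs0
      have hne : ZMod.stdAddChar s - (1 : ℂ) ≠ 0 := fun e => by
        rw [e, zero_mul] at hkey
        exact Nat.cast_ne_zero.2 (NeZero.ne L) hkey.symm
      have hL : (L : ℂ) ≠ 0 := Nat.cast_ne_zero.2 (NeZero.ne L)
      have e3 : ∑ k : ZMod L, (k.val : ℂ) * (χ⁻¹ a * ZMod.stdAddChar ((j : ZMod L) * k * a)) =
          χ⁻¹ a * ((L : ℂ) / (ZMod.stdAddChar s - 1)) := by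
        rw [← hkey, mul_div_cancel_left₀ _ hne, Finset.mul_sum]
        exact Finset.sum_congr rfl fun k _ => by
          rw [hs, show (j : ZMod L) * k * a = k * (j * a) by ring]; ring
      rw [e3, gRow, hu]
      field_simp
      ring
    · simp [MulChar.map_nonunit _ ha]
  simp only [key, Finset.sum_add_distrib, ← Finset.mul_sum]
  rw [hsum, mul_zero, zero_add, Finset.sum_comm]
  simp only [← Finset.mul_sum, sum_inv_mul_stdAddChar hprim, map_mul]
  rw [eisC0]
  have e4 : ∑ k : ZMod L, (k.val : ℂ) * (χ j * χ k * gInv χ) =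
      χ j * gInv χ * ∑ k : ZMod L, (k.val : ℂ) * χ k := by
    rw [Finset.mul_sum]
    exact Finset.sum_congr rfl fun k _ => by ring
  rw [e4]
  field_simp
  ring

/-- the value of the series of the Eisenstein series, without constant term -/
def eisTerm (χ : DirichletCharacter ℂ L) (τ : ℍ) (p : ℕ+ × ℕ+) : ℂ :=
  χ ((p.2 : ℕ) : ZMod L) * expC τ ^ ((p.1 : ℕ) * p.2)

theorem summable_eisTerm (χ : DirichletCharacter ℂ L) (τ : ℍ) : Summable (eisTerm χ τ) := by
  have hq : ‖(‖expC (τ : ℂ)‖ : ℝ)‖ < 1 := by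
    rw [norm_norm, norm_expC, Real.exp_lt_one_iff, neg_lt_zero]
    have := Real.pi_pos; have := τ.im_pos; rw [UpperHalfPlane.coe_im]; positivity
  refine Summable.of_norm_bounded (summable_prod_mul_pow 0 hq) fun p => ?_
  rw [eisTerm, norm_mul, norm_pow, pow_zero, one_mul]
  exact mul_le_of_le_one_left (by positivity) (DirichletCharacter.norm_le_one χ _)

/-- the value of the Eisenstein series -/
def eisVal (χ : DirichletCharacter ℂ L) (τ : ℍ) : ℂ := eisC0 χ + ∑' p, eisTerm χ τ p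

theorem sum_zRow {χ : DirichletCharacter ℂ L} (hprim : χ.IsPrimitive) (hodd : χ.Odd) (j : ℕ)
    (hj : j = 1 ∨ j = 2) (τ : ℍ) :
    ∑ a, χ⁻¹ a * zRow τ ((j * a.val : ℕ) / (L : ℂ)) =
      χ j * gInv χ * (-(4 * π * Complex.I)) * eisVal χ τ := by
  have h : HasSum (fun p => χ j * gInv χ * (-(4 * π * Complex.I)) * eisTerm χ τ p)
      (∑ a, χ⁻¹ a * (zRow τ ((j * a.val : ℕ) / (L : ℂ)) -
        (gRow ((j * a.val : ℕ) / (L : ℂ)) - π * Complex.I))) := by
    refine (hasSum_sum fun a _ => (hasSum_zRow (τ := τ) (im_natCast_div (L := L) (j * a.val))).mul_left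
      (χ⁻¹ a)).congr_fun fun p => ?_
    have e : ∀ a : ZMod L, expC ((p.2 : ℕ) * (((j * a.val : ℕ) : ℂ) / L)) =
        ZMod.stdAddChar (((j : ZMod L) * ((p.2 : ℕ) : ZMod L)) * a) := fun a => by
      have h1 := expC_div (L := L) (((p.2 : ℕ) * (j * a.val) : ℕ) : ℤ)
      simp only [Int.cast_natCast] at h1
      rw [show ((p.2 : ℕ) : ℂ) * (((j * a.val : ℕ) : ℂ) / L) =
        (((p.2 : ℕ) * (j * a.val) : ℕ) : ℂ) / L by push_cast; ring, h1]
      push_cast
      rw [ZMod.natCast_zmod_val]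
      ring_nf
    have e' : ∀ a : ZMod L, expC (-((p.2 : ℕ) * (((j * a.val : ℕ) : ℂ) / L))) =
        ZMod.stdAddChar ((-((j : ZMod L) * ((p.2 : ℕ) : ZMod L))) * a) := fun a => by
      rw [show expC (-((p.2 : ℕ) * (((j * a.val : ℕ) : ℂ) / L))) =
        (expC ((p.2 : ℕ) * (((j * a.val : ℕ) : ℂ) / L)))⁻¹ by
          rw [expC, expC, ← Complex.exp_neg, mul_neg], e, neg_mul, AddChar.map_neg_eq_inv]
    have hneg : ∀ n : ZMod L, χ (-n) = -χ n := fun n => by
      rw [← neg_one_mul, map_mul, show χ (-1) = -1 from hodd, neg_one_mul]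
    calc χ j * gInv χ * (-(4 * π * Complex.I)) * eisTerm χ τ p
        = -(2 * π * Complex.I) * (χ ((j : ZMod L) * ((p.2 : ℕ) : ZMod L)) * gInv χ -
            χ (-((j : ZMod L) * ((p.2 : ℕ) : ZMod L))) * gInv χ) * expC τ ^ ((p.1 : ℕ) * p.2) := by
          rw [eisTerm, hneg, map_mul]; ring
      _ = ∑ a, χ⁻¹ a * pairTerm τ (((j * a.val : ℕ) : ℂ) / L) p := by
          rw [← sum_inv_mul_stdAddChar hprim, ← sum_inv_mul_stdAddChar hprim,
            ← Finset.sum_sub_distrib, Finset.mul_sum, Finset.sum_mul]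
          refine Finset.sum_congr rfl fun a _ => ?_
          rw [pairTerm, e, e']; ring
  have h2 := h.unique ((summable_eisTerm χ τ).hasSum.mul_left _)
  simp only [mul_sub (χ⁻¹ _), Finset.sum_sub_distrib] at h2
  have h3 := sum_const_part hprim hodd j hj
  simp only [mul_sub (χ⁻¹ _), Finset.sum_sub_distrib] at h3
  rw [eisVal]
  linear_combination h2 + h3

theorem hasSum_eisVal (χ : DirichletCharacter ℂ L) (τ : ℍ) :
    HasSum (fun n : ℕ => (eisSeries χ).coeff n • Function.Periodic.qParam 1 (τ : ℂ) ^ n)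
      (eisVal χ τ) := by
  have hq : Function.Periodic.qParam 1 (τ : ℂ) = expC τ := by
    simp [Function.Periodic.qParam, expC]
  have h1 := sigmaAntidiagonalEquivProd.hasSum_iff.2 (summable_eisTerm χ τ).hasSum
  have h2 : HasSum (fun n : ℕ+ => (∑ d ∈ (n : ℕ).divisors, χ (d : ZMod L)) * expC τ ^ (n : ℕ))
      (∑' p, eisTerm χ τ p) := by
    refine h1.sigma fun n => ?_
    have h3 : (∑ d ∈ (n : ℕ).divisors, χ (d : ZMod L)) * expC τ ^ (n : ℕ) =
        ∑ x : (n : ℕ).divisorsAntidiagonal, χ ((x.1.2 : ℕ) : ZMod L) * expC τ ^ (n : ℕ) := by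
      rw [Finset.sum_mul, Finset.sum_coe_sort ((n : ℕ).divisorsAntidiagonal)
        (fun x => χ ((x.2 : ℕ) : ZMod L) * expC τ ^ (n : ℕ)),
        Nat.sum_divisorsAntidiagonal' (fun _ e => χ (e : ZMod L) * expC τ ^ (n : ℕ))]
    rw [h3]
    refine (hasSum_fintype _).congr_fun fun x => ?_
    have hx := Nat.mem_divisorsAntidiagonal.1 x.2
    simp only [Function.comp_apply, eisTerm, sigmaAntidiagonalEquivProd, Equiv.coe_fn_mk,
      divisorsAntidiagonalFactors, PNat.mk_coe, hx.1]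
  rw [← Equiv.pnatEquivNat.symm.hasSum_iff] at h2
  have h4 : HasSum (fun n : ℕ => (eisSeries χ).coeff n • expC (τ : ℂ) ^ n)
      ((eisSeries χ).coeff 0 • expC (τ : ℂ) ^ 0 + ∑' p, eisTerm χ τ p) := by
    refine HasSum.zero_add (f := fun n : ℕ => (eisSeries χ).coeff n • expC (τ : ℂ) ^ n)
      (h2.congr_fun fun n => ?_)
    simp [eisSeries]
  simpa only [hq, eisVal, eisSeries, PowerSeries.coeff_mk, if_true, pow_zero, smul_eq_mul,
    mul_one] using h4

/-- the character sum of the quotients at the torsion points -/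
def eisPre (χ : DirichletCharacter ℂ L) : ℍ → ℂ := ∑ a : ZMod L, χ⁻¹ a • phiL ((0, a) : Lbl L)

/-- the normalising factor -/
def eisFac (χ : DirichletCharacter ℂ L) : ℂ :=
  2 * (χ 2 - 2) * gInv χ * (-(4 * π * Complex.I))

theorem eisPre_apply_eq {χ : DirichletCharacter ℂ L} (hodd : χ.Odd) (τ : ℍ) :
    eisPre χ τ = 2 * ((∑ a, χ⁻¹ a * zRow τ ((2 * a.val : ℕ) / (L : ℂ))) -
      2 * ∑ a, χ⁻¹ a * zRow τ ((1 * a.val : ℕ) / (L : ℂ))) := by
  simp only [eisPre, Finset.sum_apply, Pi.smul_apply, smul_eq_mul, Finset.mul_sum,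
    ← Finset.sum_sub_distrib]
  refine Finset.sum_congr rfl fun a _ => ?_
  by_cases ha : IsUnit a
  · have him : (torsPt L ((0, a) : Lbl L) τ).im = 0 := by
      simp [torsPt, Complex.div_natCast_im, -ZMod.natCast_val]
    rw [phiL, ellQ_eq_zDup (le_of_eq him.symm) (by rw [him]; linarith [τ.im_pos])
      (two_torsPt_notMem (ne_neg_of_isUnit hodd ha) τ), zDup]
    simp only [torsPt, ZMod.val_zero, Nat.cast_zero, zero_mul, zero_add, one_mul]
    push_cast
    ring_nf
  · simp [MulChar.map_nonunit _ ha]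

theorem eisPre_eq {χ : DirichletCharacter ℂ L} (hprim : χ.IsPrimitive) (hodd : χ.Odd) (τ : ℍ) :
    eisPre χ τ = eisFac χ * eisVal χ τ := by
  rw [eisPre_apply_eq hodd, sum_zRow hprim hodd 2 (Or.inr rfl), sum_zRow hprim hodd 1 (Or.inl rfl),
    eisFac, Nat.cast_one, map_one, Nat.cast_two]
  ring

theorem mdiff_eisPre {χ : DirichletCharacter ℂ L} (hodd : χ.Odd) : MDiff (eisPre χ) := by
  rw [UpperHalfPlane.mdifferentiable_iff]
  intro t ht
  have ht' : 0 < t.im := ht
  have hz : ∀ (j : ℕ) (a : ZMod L),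
      DifferentiableAt ℂ (fun s : ℂ => χ⁻¹ a * zRow s ((j * a.val : ℕ) / (L : ℂ))) t := fun j a =>
    (differentiableAt_zRow_left (im_natCast_div _) ht').const_mul _
  refine (DifferentiableAt.congr_of_eventuallyEq
    (f := fun s : ℂ => 2 * ((∑ a, χ⁻¹ a * zRow s ((2 * a.val : ℕ) / (L : ℂ))) -
      2 * ∑ a, χ⁻¹ a * zRow s ((1 * a.val : ℕ) / (L : ℂ)))) ?_ ?_).differentiableWithinAt
  · exact ((DifferentiableAt.fun_sum fun a _ => hz 2 a).sub
      ((DifferentiableAt.fun_sum fun a _ => hz 1 a).const_mul 2)).const_mul 2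
  · filter_upwards [isOpen_upperHalfPlaneSet.mem_nhds ht] with s hs
    simp only [Function.comp_apply, eisPre_apply_eq hodd, ofComplex_apply_of_im_pos hs,
      UpperHalfPlane.coe_mk]

theorem eisPre_slash {χ : DirichletCharacter ℂ L} (γ : SL(2, ℤ)) :
    eisPre χ ∣[(1 : ℤ)] γ = ∑ a : ZMod L, χ⁻¹ a • phiL (lblAct L ((0, a) : Lbl L) γ) := by
  simp only [eisPre, SlashAction.sum_slash, SL_smul_slash, phiL_slash]

theorem eisPre_inv (χ : DirichletCharacter ℂ L) {γ : SL(2, ℤ)} (hγ : γ ∈ Gamma0 L) :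
    eisPre χ ∣[(1 : ℤ)] γ = χ ((γ.1 1 1 : ℤ) : ZMod L) • eisPre χ := by
  set d : ZMod L := ((γ.1 1 1 : ℤ) : ZMod L)
  have hu : IsUnit d := by
    have hdet := congrArg (Int.cast : ℤ → ZMod L)
      ((Matrix.det_fin_two (γ.1 : Matrix (Fin 2) (Fin 2) ℤ)).symm.trans γ.2)
    push_cast at hdet
    rw [Gamma0_mem.1 hγ, mul_zero, sub_zero] at hdet
    exact IsUnit.of_mul_eq_one_right _ hdet
  obtain ⟨u, hu⟩ := hu
  have hl : ∀ a : ZMod L, lblAct L ((0, a) : Lbl L) γ = (0, a * d) := fun a => by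
    simp only [lblAct, zero_mul, zero_add]
    rw [Gamma0_mem.1 hγ, mul_zero]
  rw [eisPre_slash, eisPre, Finset.smul_sum]
  refine Finset.sum_equiv (Units.mulRight u) (fun a => by simp) fun a _ => ?_
  rw [hl, smul_smul]
  simp only [Units.mulRight_apply, ← hu, map_mul]
  congr 1
  rw [MulChar.inv_apply_eq_inv' χ (u : ZMod L), mul_comm (χ (u : ZMod L)), mul_assoc,
    inv_mul_cancel₀ (IsUnit.map χ u.isUnit).ne_zero, mul_one]

theorem isBounded_eisPre_slash {χ : DirichletCharacter ℂ L} (hodd : χ.Odd) (γ : SL(2, ℤ)) :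
    IsBoundedAtImInfty (eisPre χ ∣[(1 : ℤ)] γ) := by
  rw [eisPre_slash]
  refine Finset.sum_induction _ IsBoundedAtImInfty (fun f g hf hg => hf.add hg)
    zero_form_isBoundedAtImInfty fun a _ => ?_
  by_cases ha : IsUnit a
  · exact (isBounded_phiL (lblAct_ne_neg (ne_neg_of_isUnit hodd ha) γ)).const_smul_left _
  · rw [MulChar.map_nonunit _ ha, zero_smul]
    exact zero_form_isBoundedAtImInfty

theorem exists_isEis {χ : DirichletCharacter ℂ L} (hprim : χ.IsPrimitive) (hodd : χ.Odd) :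
    ∃ F, IsEis χ F := by
  have hc : eisFac χ ≠ 0 := by
    refine mul_ne_zero (mul_ne_zero (mul_ne_zero two_ne_zero ?_) (gInv_ne_zero hprim)) ?_
    · intro h
      have h1 := DirichletCharacter.norm_le_one χ 2
      rw [sub_eq_zero.1 h] at h1
      norm_num at h1
    · simp [Real.pi_ne_zero]
  set F : ℍ → ℂ := (eisFac χ)⁻¹ • eisPre χ
  have hinv : ∀ γ : SL(2, ℤ), γ ∈ Gamma0 L →
      F ∣[(1 : ℤ)] γ = χ ((γ.1 1 1 : ℤ) : ZMod L) • F := fun γ hγ => by
    rw [SL_smul_slash, eisPre_inv χ hγ, smul_comm]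
  have hholo : MDiff F := (mdiff_eisPre hodd).const_smul _
  have hbdd : ∀ γ : SL(2, ℤ), IsBoundedAtImInfty (F ∣[(1 : ℤ)] γ) := fun γ => by
    rw [SL_smul_slash]; exact (isBounded_eisPre_slash hodd γ).const_smul_left _
  have hgood : Good F := by
    refine ⟨periodic_of_slash_T (k := 1) ?_, hholo, ?_⟩
    · rw [hinv _ (ModFun.T_mem_Gamma0 L)]
      simp [ModularGroup.T]
    · have h := hbdd 1
      simp only [SlashAction.slash_one] at h
      exact h
  refine ⟨F, hholo, hinv, hbdd, PowerSeries.ext fun n => ?_⟩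
  refine (UpperHalfPlane.qExpansion_coeff_unique (ContinuousMap.mk F hholo.continuous)
    (c := fun n => (eisSeries χ).coeff n) one_pos hgood.analytic (fun τ => ?_) n).symm
  have : F τ = eisVal χ τ := by
    show (eisFac χ)⁻¹ * eisPre χ τ = _
    rw [eisPre_eq hprim hodd, inv_mul_cancel_left₀ hc]
  show HasSum _ (F τ)
  rw [this]
  exact hasSum_eisVal χ τ

end FLTAgent.DS
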